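import Fermat.Agent.RT.Qsq.FamilyBranch
import Fermat.Agent.Carayol.Node.Count
import Fermat.Agent.PlaceRed.Interface

/-!
# A root over the Gauss point is a sum of two pullbacks

A Kummer function over the inertia field whose image over the Gauss point is a `p`-th power is, up
to constants and `p`-th powers, the product of two pullbacks of Kummer functions of level `M q`,
as soon as the glued points are as many as the nodes allow.
-/

set_option autoImplicit false
set_option maxHeartbeats 2000000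
set_option synthInstance.maxHeartbeats 400000
set_option linter.style.haveILetI false

noncomputable section

open IsLocalRing Polynomial ModularCurve AlgebraicCurve FLTA.Carayol FLTA.Carayol.Bridge
  FLTA.BadRed FLTA.LevelLowering

namespace FLTA.RT.Qsq

local notation "Qb" => AlgebraicClosure ℚ

variable {q M : ℕ} [hq : Fact q.Prime] [NeZero q] [NeZero M]
  {A : ValuationSubring Qb} [CharP (ResidueField A) q] [PerfectRing (ResidueField A) q]
  [IsAlgClosed (ResidueField A)] {Φ : ℤ[X][X]} {t : ↥(modularFunctionFieldFull M)}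
  {W : Type} [CommRing W] [IsDomain W] [IsDiscreteValuationRing W] [CharZero W]
  [IsAdicComplete (maximalIdeal W) W] [IsAlgClosed (ResidueField W)]
  [Fact (Prime (C (q : W) : W[X]))] [Fact (Prime (PowerSeries.C (q : W) : PowerSeries W))]
  {Q : W[X][X]}

/-- **The decomposition.** -/
theorem exists_pullbacks_of_root (hq2 : q ≠ 2) (hqM : ¬ q ∣ M) (hA : A.LiesOverPrime q)
    (hW : maximalIdeal W = Ideal.span {(q : W)}) (hΦ : Haupt.IsModEq q 4 Φ)
    (hQ : LineCover W q 4 Q) (ht : Chart.IsTFull 4 M t) (gm : GaussModel W q Φ Q)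
    (m : CoverModel (W := W) (FractionRing W) q Φ Q t) (ι : inertiaField A →+* FractionRing W)
    (im : InertiaModel A Φ q t) (fp : FramePair q A)
    (hΨ : (inertiaPhi A Φ t).map (gm.g.comp (baseMap m ι)) =
      (phiAt Φ (gaussCoeff gm.f)).map (algebraMap gm.A (FractionRing gm.A)))
    (G : GaussRes fp gm.sA (gm.g.comp (baseMap m ι)) hΨ (pairSer im.ψ))
    (hC : ∀ c : ResidueField A, ∃ v : gm.A,
      G.hbar (AdjoinRoot.of gm.sA.quo v) = HahnSeries.C c)
    (hgen : ∀ d : ℕ, [NeZero d] → d ∣ M → ∃ x : fld (inertiaField A) M,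
      HasVal fp.fr₀ (pairSer im.ψ (Pairs.ofBase _ x)) 0
        (qExpand (ResidueField A) q (qExpand (ResidueField A) d (jqModC (ResidueField A)))))
    {S : Finset (Place (ResidueField A) (modularFunctionFieldFullC (ResidueField A) M))} {m₀ : ℕ}
    (hS : (badFibre M q A hA hqM).IsGluing S m₀) (hne : S.Nonempty)
    (hcard : Q.natDegree * ((q - 1) / 2) ≤ S.card)
    {p : ℕ} (hp : p.Prime) (hpq : p ≠ q)
    (f₀ : fld (inertiaField A) (M * q * q)) (hf₀ : f₀ ≠ 0)
    (hdiv : ∀ v : Place Qb (modularFunctionFieldBar (M * q * q)),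
      (p : ℤ) ∣ v.ord (mapF (inertiaField A).val.toRingHom (M * q * q) f₀))
    (y₀ : Pairs (inertiaPhi A Φ t)) (hy₀ : im.ψ y₀ = f₀)
    (Y : Pairs ((phiAt Φ (gaussCoeff gm.f)).map (algebraMap gm.A (FractionRing gm.A))))
    (hY : Y ^ p = Pairs.map (gm.g.comp (baseMap m ι)) hΨ y₀) :
    ∃ (g g' : fld Qb (M * q)) (D D' : Divisor.degZero (K := Qb) (F := modularFunctionFieldBar (M * q)))
      (c : Qb) (Z : fld Qb (M * q * q)), g ≠ 0 ∧ g' ≠ 0 ∧ c ≠ 0 ∧
      (∀ v, (p : ℤ) * (D : Divisor Qb (modularFunctionFieldBar (M * q))) v = v.ord g) ∧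
      (∀ v, (p : ℤ) * (D' : Divisor Qb (modularFunctionFieldBar (M * q))) v = v.ord g') ∧
      Z ^ p = algebraMap Qb _ c * mapF (inertiaField A).val.toRingHom (M * q * q) f₀ *
        heckeAlphaBar Qb (M * q) q g * heckeBetaBar Qb (M * q) q g' := by
  classical
  have hqp : q.Prime := Fact.out
  have hL : Haupt.IsHauptLevel 4 := Or.inl rfl
  have hqL : ¬ q ∣ 4 := fun h =>
    hq2 ((Nat.prime_dvd_prime_iff_eq hqp Nat.prime_two).1 (hqp.dvd_of_dvd_pow (n := 2) h))
  have hpq' : Nat.Coprime p q := (Nat.coprime_primes hp hqp).2 hpq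
  have hpk : (p : ResidueField A) ≠ 0 := by
    rw [Ne, CharP.cast_eq_zero_iff (ResidueField A) q]
    exact fun h => hpq ((Nat.prime_dvd_prime_iff_eq hqp hp).1 h).symm
  have hnA : IsUnit (p : gm.A) := by
    have hpW : IsUnit (p : W) := isUnit_natCast_of_coprime hW hpq'
    simpa using hpW.map ((gaussCoeff gm.f).comp C)
  set g₀ : inertiaField A →+* Qb := (inertiaField A).val.toRingHom
  haveI : CharZero (inertiaField A) := algebraRat.charZero _
  -- the element and its root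
  set y := Pairs.map (baseMap m ι) (map_inertiaPhi m ι) y₀ with hy
  have hψy : m.ψ y = mapF ι (M * q * q) f₀ := by rw [hy, ψ_map, hy₀]
  have hyu : IsUnit y := by
    have h0 : mapF ι (M * q * q) f₀ ≠ 0 := (_root_.map_ne_zero _).2 hf₀
    obtain ⟨z, hz⟩ := m.ψ_bij.2 (mapF ι (M * q * q) f₀)⁻¹
    exact IsUnit.of_mul_eq_one z (m.ψ_bij.1 (by
      rw [map_mul, hψy, hz, mul_inv_cancel₀ h0, map_one]))
  have hhor : HorizDivisible Φ Q p y := by
    intro Ω _ φ v hv
    let j₀ : fld (inertiaField A) (M * q * q) →+* Pairs (coverPhi Φ Q) :=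
      (RingEquiv.ofBijective m.ψ m.ψ_bij).symm.toRingHom.comp (mapF ι (M * q * q))
    have hj₀ : ∀ x, m.ψ (j₀ x) = mapF ι (M * q * q) x := fun x =>
      (RingEquiv.ofBijective m.ψ m.ψ_bij).apply_symm_apply _
    rw [show y = j₀ f₀ from m.ψ_bij.1 (by rw [hψy, hj₀])]
    refine exists_pow_eq_valuation g₀ hp.pos f₀ hdiv (φ.comp j₀) v fun c hc => ?_
    obtain ⟨a, b, hb, hab⟩ := IsFractionRing.div_surjective W (ι c)
    have hb0 : b ≠ 0 := nonZeroDivisors.ne_zero hb
    have ha0 : a ≠ 0 := by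
      rintro rfl
      rw [map_zero, zero_div, eq_comm, map_eq_zero] at hab
      exact hc hab
    have h1 : j₀ (algebraMap _ _ c) * coverConst Φ _ b = coverConst Φ _ a := m.ψ_bij.1 (by
      rw [map_mul, hj₀, m.ψ_const, m.ψ_const, mapF_algebraMap, ← map_mul, ← hab,
        div_mul_cancel₀ _ ((map_ne_zero_iff _ (IsFractionRing.injective W _)).2 hb0)])
    have h2 := congrArg (fun x => v (φ x)) h1
    simp only [map_mul, hv b hb0, hv a ha0, mul_one] at h2
    exact h2
  have hY' : Pairs.cast gm.phi_gauss Y ^ p = Pairs.map gm.g rfl y := by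
    rw [← map_pow, hY, Pairs.cast_map, hy, Pairs.map_map_apply]
  -- the family
  obtain ⟨w₀, hw₀⟩ := exists_isSwap (K := inertiaField A) hqM hqL hL ht
  obtain ⟨wK, hwK⟩ := exists_isSwap (K := FractionRing W) hqM hqL hL ht
  obtain ⟨I, _, z, hI, hzinj, hzp, hfun⟩ := exists_toricFuns hA hqM hS hne fp.fr₀ hp hpk
  let T := fun i => (hfun i).some
  choose a₀ ha₀ using fun i => im.e_bij.2 (T i).g
  let F : I → AdjoinRoot (coverPhi Φ Q) := fun i => fstMap m ι (a₀ i)
  have hF : ∀ i, m.e (F i) = mapF ι (M * q) (T i).g := fun i => by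
    rw [e_fstMap m ι im, ha₀]
  have hFu : ∀ i, IsUnit (F i) := fun i => by
    have h0 : mapF ι (M * q) (T i).g ≠ 0 := (_root_.map_ne_zero _).2 (T i).g_ne
    obtain ⟨b, hb⟩ := m.e_bij.2 (mapF ι (M * q) (T i).g)⁻¹
    exact IsUnit.of_mul_eq_one b (m.e_bij.1 (by
      rw [map_mul, hF, hb, mul_inv_cancel₀ h0, map_one]))
  have hroots : ∀ i, (∃ g, g ^ p = gm.split.proj₀ (AdjoinRoot.map gm.g _ _ dvd_rfl (F i))) ∧
      ∃ g, g ^ p = gm.split.proj₁ (AdjoinRoot.map gm.g _ _ dvd_rfl (F i)) := fun i => by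
    obtain ⟨m₁, c₁, η₁, -, hd₁, h₁⟩ := (T i).val 0
    obtain ⟨m₂, c₂, η₂, -, hd₂, h₂⟩ := (T i).val 1
    exact exists_branch_roots hqM hL ht gm m ι im fp hΨ G hC hgen hp.pos hnA hpq' hw₀ (a₀ i)
      hd₁ hd₂ (by rw [ha₀]; exact h₁) (by rw [ha₀]; exact h₂)
  obtain ⟨i, i', Z, hZ⟩ := exists_mul_pullbacks_eq_pow hW hL hqL hΦ hQ gm hp.pos hpq'
    (fun Z' hZ' => card_ssValue_le hW hq2 hΦ Z' hZ') F hFu
    (fun i => horizDivisible_onFst ι m g₀ hp.pos (T i).g
      (fun w => ⟨_, ((T i).ord_eq w).symm⟩) (hF i))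
    (fun i => (hroots i).1) (fun i => (hroots i).2)
    (fun i i' Z _ h => hzinj (by
      rw [← (T i).mk_eq, ← (T i').mk_eq]
      exact eq_of_mul_pow ι m g₀ hp.pos (T i).g_ne (T i').g_ne (T i).ord_eq (T i').ord_eq (hF i)
        (hF i') h))
    (by rw [hI]; exact Nat.pow_le_pow_right hp.pos (Nat.sub_le_sub_right hcard 1))
    y hyu hhor (Pairs.cast gm.phi_gauss Y) hY'
  -- back to the inertia field
  have h1 : mapF ι (M * q * q) (f₀ * heckeAlphaBar _ (M * q) q (T i).g *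
      heckeBetaBar _ (M * q) q (w₀ (T i').g)) = algebraMap (FractionRing W) _ 1 * m.ψ Z ^ p := by
    rw [map_one, one_mul, ← map_pow, hZ, map_mul m.ψ, map_mul m.ψ, map_mul, map_mul, hψy,
      mapF_heckeAlpha, mapF_heckeBeta, ← hF]
    congr 1
    · rw [← m.ψ_fst]; rfl
    · rw [hw₀.mapF_comm hL ht ι hwK, ← hF, ← m.e'_eq hwK, ← m.ψ_swap]; rfl
  have hg' : w₀ (T i').g ≠ 0 := (_root_.map_ne_zero w₀).2 (T i').g_ne
  obtain ⟨c, Z₀, hc, hZ₀⟩ := exists_eq_const_mul_pow_of_mapF ι hp.pos _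
    (mul_ne_zero (mul_ne_zero hf₀ ((_root_.map_ne_zero _).2 (T i).g_ne))
      ((_root_.map_ne_zero _).2 hg')) ⟨_, _, h1⟩
  let σw : fld Qb (M * q) ≃ₐ[Qb] fld Qb (M * q) :=
    AlgEquiv.ofBijective (BadRed.swapBar M q hqM)
      (Function.Involutive.bijective (BadRed.swapBar_swapBar M q hqM))
  have hw' : mapF g₀ (M * q) (w₀ (T i').g) = σw (mapF g₀ (M * q) (T i').g) :=
    hw₀.mapF_comm hL ht g₀ (isSwap_swapBar (t := t) hqM) _
  haveI := (badFibre M q A hA hqM).rrF.principal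
  obtain ⟨D', hD'⟩ := exists_kummer_map σw hp.pos
    (fun f hf => HasPrincipalDivisors.exists_divisor (K := Qb) f hf)
    (f := mapF g₀ (M * q) (T i').g) ((_root_.map_ne_zero _).2 (T i').g_ne)
    (fun v => ⟨_, ((T i').ord_eq v).symm⟩)
  refine ⟨mapF g₀ (M * q) (T i).g, mapF g₀ (M * q) (w₀ (T i').g), (T i).D, D', (g₀ c)⁻¹,
    mapF g₀ (M * q * q) Z₀, (_root_.map_ne_zero _).2 (T i).g_ne, (_root_.map_ne_zero _).2 hg',
    inv_ne_zero ((_root_.map_ne_zero _).2 hc), (T i).ord_eq, fun v => by rw [hw']; exact hD' v, ?_⟩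
  have h2 := congrArg (mapF g₀ (M * q * q)) hZ₀
  rw [map_mul, map_mul, map_mul, map_pow, mapF_heckeAlpha, mapF_heckeBeta, mapF_algebraMap] at h2
  have hcQ : algebraMap Qb (fld Qb (M * q * q)) (g₀ c) ≠ 0 :=
    (_root_.map_ne_zero _).2 ((_root_.map_ne_zero _).2 hc)
  have e : ∀ {R : Type} [CommRing R] (a b c d : R), a * b * c * d = a * (b * c * d) :=
    fun a b c d => by ring
  rw [map_inv₀, e, h2, inv_mul_cancel_left₀ hcQ]

end FLTA.RT.Qsq

end
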