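import Fermat.Agent.RT.Qsq.PairHom
import Fermat.Agent.Carayol.BridgeNorm
import Fermat.Agent.Carayol.BridgeRep
import Fermat.Agent.Carayol.BridgeDescend

/-!
# The norms of a class killed by the pushforwards
-/

set_option autoImplicit false
set_option maxHeartbeats 1000000
set_option synthInstance.maxHeartbeats 400000
set_option linter.style.haveILetI false

noncomputable section

open Polynomial ModularCurve AlgebraicCurve FLTA.Carayol FLTA.Carayol.Bridge

namespace FLTA.RT.Qsq

local notation "Qb" => AlgebraicClosure ℚ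

variable {q L₀ M : ℕ} [hq : Fact q.Prime] [NeZero q] [NeZero L₀] [NeZero M]
  {A : ValuationSubring Qb} {Φ : ℤ[X][X]} {t : ↥(modularFunctionFieldFull M)}

/-- The norms along the two maps are those of the pairs. -/
theorem InertiaModel.exists_norms (im : InertiaModel A Φ q t) (hqM : ¬ q ∣ M)
    (hL : Haupt.IsHauptLevel L₀) (hΦ : Haupt.IsModEq q L₀ Φ) (ht : Chart.IsTFull L₀ M t) :
    ∃ e' : AdjoinRoot (inertiaPhi A Φ t) →+* fld (inertiaField A) (M * q), Function.Bijective e' ∧
      (∀ a, e' (AdjoinRoot.of _ a) = heckeAlphaBar _ M q a) ∧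
      (∀ y, im.e (Pairs.normFst _ y) = normA _ (M * q) q (im.ψ y)) ∧
      ∀ y, e' (Pairs.normSnd _ y) = normB _ (M * q) q (im.ψ y) := by
  have := Fact.mk im.irreducible_phi
  set f : ℤ[X] →+* fld (inertiaField A) M := Chart.evalInt (ofFull (inertiaField A) M t)
  obtain ⟨e', he', he'a, he'r⟩ := exists_levelSnd (γ := RingHom.id _) (f := f) hqM hL ht hΦ
    Function.bijective_id (Chart.evalInt_X _)
  have hswap : (im.ψ.comp (Pairs.swap _)).comp (AdjoinRoot.of (sndPoly (inertiaPhi A Φ t))) =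
      (heckeBetaBar _ (M * q) q).toRingHom.comp e' := by
    refine AdjoinRoot.ringHom_ext (RingHom.ext fun a => ?_) ?_
    · show im.ψ (Pairs.swap _ (Pairs.ofBase _ a)) =
        heckeBetaBar _ (M * q) q (e' (AdjoinRoot.of _ a))
      rw [Pairs.swap_ofBase, im.isPairHom.base, he'a]
      exact Subtype.ext (by simp)
    · show im.ψ (Pairs.swap _ (Pairs.fst _)) = heckeBetaBar _ (M * q) q (e' (AdjoinRoot.root _))
      rw [Pairs.swap_fst, im.isPairHom.snd, he'r]
  refine ⟨e', he', he'a, fun y => ?_, fun y => ?_⟩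
  · exact norm_transport im.e im.e_bij im.ψ im.ψ_bij (heckeAlphaBar _ (M * q) q).toRingHom
      (RingHom.ext im.ψ_fst) y
  · refine (norm_transport e' he' (im.ψ.comp (Pairs.swap _))
      (im.ψ_bij.comp (Function.Involutive.bijective Pairs.swap_swap))
      (heckeBetaBar _ (M * q) q).toRingHom hswap (Pairs.swap _ y)).trans ?_
    rw [RingHom.comp_apply, Pairs.swap_swap]
    rfl

/-- The norms of a Kummer function of a class killed by both pushforwards. -/
theorem exists_norms_eq_const_mul_pow (hqM : ¬ q ∣ M) (hL : Haupt.IsHauptLevel L₀)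
    (hΦ : Haupt.IsModEq q L₀ Φ) (ht : Chart.IsTFull L₀ M t) (im : InertiaModel A Φ q t)
    {n : ℕ} (hn : 0 < n) (D : Divisor.degZero (K := Qb) (F := modularFunctionFieldBar (M * q * q)))
    {f₀ : fld (inertiaField A) (M * q * q)} (hf₀ : f₀ ≠ 0)
    (hD : ∀ v : Place Qb (modularFunctionFieldBar (M * q * q)),
      (n : ℤ) * (D : Divisor Qb (modularFunctionFieldBar (M * q * q))) v =
        v.ord (mapF (inertiaField A).val.toRingHom (M * q * q) f₀))
    (hα : pushAlpha (M * q) q (Pic0.mk D) = 0) (hβ : pushBeta (M * q) q (Pic0.mk D) = 0)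
    (y : Pairs (inertiaPhi A Φ t)) (hy : im.ψ y = f₀) :
    (∃ c : inertiaField A, c ≠ 0 ∧ ∃ g,
      Pairs.normFst _ y = AdjoinRoot.of _ (algebraMap _ _ c) * g ^ n) ∧
    ∃ c : inertiaField A, c ≠ 0 ∧ ∃ g,
      Pairs.normSnd _ y = AdjoinRoot.of _ (algebraMap _ _ c) * g ^ n := by
  set g₀ : inertiaField A →+* Qb := (inertiaField A).val.toRingHom
  haveI : CharZero (inertiaField A) := algebraRat.charZero _
  have hf : mapF g₀ (M * q * q) f₀ ≠ 0 := (_root_.map_ne_zero _).2 hf₀
  obtain ⟨e', he', he'a, hnA, hnB⟩ := im.exists_norms hqM hL hΦ ht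
  constructor
  · obtain ⟨c, z, hc, hz⟩ := exists_eq_const_mul_pow_of_mapF g₀ hn
      (normA _ (M * q) q f₀) (fun h0 => hf (by
        have h1 := normA_mapF g₀ (M * q) q hq.out f₀
        rw [h0, map_zero] at h1
        letI := algebraAlong (heckeAlphaBar Qb (M * q) q)
        haveI : Module.Finite (fld Qb (M * q)) (fld Qb (M * q * q)) :=
          Curves.finiteAlong (heckeAlphaBar Qb (M * q) q)
        exact Algebra.norm_eq_zero_iff.1 h1))
      (by rw [← normA_mapF g₀ (M * q) q hq.out]; exact exists_norm_eq_const_mul_pow _ D hf hD hα)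
    obtain ⟨g, hg⟩ := im.e_bij.2 z
    exact ⟨c, hc, g, im.e_bij.1 (by
      rw [hnA, hy, hz, map_mul im.e, map_pow, hg, im.e_of, AlgHom.commutes])⟩
  · obtain ⟨c, z, hc, hz⟩ := exists_eq_const_mul_pow_of_mapF g₀ hn
      (normB _ (M * q) q f₀) (fun h0 => hf (by
        have h1 := normB_mapF g₀ (M * q) q hq.out f₀
        rw [h0, map_zero] at h1
        letI := algebraAlong (heckeBetaBar Qb (M * q) q)
        haveI : Module.Finite (fld Qb (M * q)) (fld Qb (M * q * q)) :=
          Curves.finiteAlong (heckeBetaBar Qb (M * q) q)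
        exact Algebra.norm_eq_zero_iff.1 h1))
      (by rw [← normB_mapF g₀ (M * q) q hq.out]; exact exists_norm_eq_const_mul_pow _ D hf hD hβ)
    obtain ⟨g, hg⟩ := he'.2 z
    exact ⟨c, hc, g, he'.1 (by
      rw [hnB, hy, hz, map_mul e', map_pow, hg, he'a, AlgHom.commutes])⟩

end FLTA.RT.Qsq

end
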