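import Fermat.Agent.RT.Qsq.MiddleTheta
import Fermat.Agent.LevelLowering.SettingFrame
import Fermat.Agent.Congruence.Embeddings
import Mathlib.RingTheory.Polynomial.Cyclotomic.Roots

/-!
# The two frames exist

`fr₀` is the fixed field of inertia with uniformizer `q`; `fr` is the fixed field of the subgroup
of inertia fixing the `q`-th roots of unity, with uniformizer `1 - ζ`.
-/

set_option autoImplicit false
set_option synthInstance.maxHeartbeats 400000
set_option linter.style.haveILetI false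

noncomputable section

open IsLocalRing FLTA.LevelLowering FLTA.Congruence FLTA.Carayol.Bridge

namespace FLTA.RT.Qsq

local notation "Qb" => AlgebraicClosure ℚ
local notation "Γ" => AlgebraicClosure ℚ ≃ₐ[ℚ] AlgebraicClosure ℚ

variable {A : ValuationSubring Qb}

/-- A unit of `A` has valuation `1`. -/
theorem valuation_eq_one_of_residue_ne {w : A} (hw : residue A w ≠ 0) :
    A.valuation (w : Qb) = 1 :=
  valuation_eq_one_of_not_mem_nonunits w.2
    (mt (Galois.residue_eq_zero_iff_mem_nonunits w).mpr hw)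

theorem valuation_ϖ_lt_one (fr : Frame A (residue A)) : A.valuation fr.ϖ < 1 := by
  rw [← ValuationSubring.mem_nonunits_iff]
  exact (Galois.residue_eq_zero_iff_mem_nonunits _).mp fr.π_ϖ

/-- Exponents of the uniformizer are unique. -/
theorem zpow_ϖ_inj (fr : Frame A (residue A)) {a b : ℤ} {u v : A} (hu : residue A u ≠ 0)
    (hv : residue A v ≠ 0) (h : fr.ϖ ^ a * (u : Qb) = fr.ϖ ^ b * (v : Qb)) : a = b := by
  have h1 := congrArg A.valuation h
  simp only [map_mul, map_zpow₀, valuation_eq_one_of_residue_ne hu,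
    valuation_eq_one_of_residue_ne hv, mul_one] at h1
  exact zpow_right_injective₀ (zero_lt_iff.mpr ((map_ne_zero _).mpr fr.ϖ_ne_zero))
    (valuation_ϖ_lt_one fr).ne h1

/-- The uniformizer may be changed by a unit. -/
theorem exists_frame_unit_mul (fr : Frame A (residue A)) {P : Qb} (hP : P ∈ fr.L) {u : A}
    (hu : residue A u ≠ 0) (h : P = fr.ϖ * (u : Qb)) :
    ∃ fr' : Frame A (residue A), fr'.L = fr.L ∧ fr'.ϖ = P := by
  have hP0 : P ≠ 0 := by
    rw [h]
    exact mul_ne_zero fr.ϖ_ne_zero fun h0 => hu (by rw [show u = 0 from Subtype.ext h0, map_zero])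
  have hPA : P ∈ A := h ▸ mul_mem fr.ϖ_mem_A u.2
  refine ⟨{ fr with
    ϖ := P
    ϖ_mem := hP
    ϖ_ne_zero := hP0
    ϖ_mem_A := hPA
    π_ϖ := ?_
    exists_unit := fun c hc hc0 => ?_
    exists_pow := fun c hc => ?_ }, rfl, rfl⟩
  · rw [Galois.residue_eq_zero_iff_mem_nonunits, ValuationSubring.mem_nonunits_iff]
    show A.valuation P < 1
    rw [h, map_mul, valuation_eq_one_of_residue_ne hu, mul_one]
    exact valuation_ϖ_lt_one fr
  · obtain ⟨n, w, -, hw, hcn⟩ := fr.exists_unit c hc hc0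
    have h1 : A.valuation (c / P ^ n) = 1 := by
      rw [map_div₀, map_zpow₀, hcn, h, map_mul, map_mul, map_zpow₀,
        valuation_eq_one_of_residue_ne hw, valuation_eq_one_of_residue_ne hu, mul_one, mul_one,
        div_self]
      exact zpow_ne_zero n ((map_ne_zero _).mpr fr.ϖ_ne_zero)
    refine ⟨n, ⟨_, (A.valuation_le_one_iff _).mp h1.le⟩, div_mem hc (zpow_mem hP n), ?_,
      (mul_div_cancel₀ c (zpow_ne_zero n hP0)).symm⟩
    rw [Ne, Galois.residue_eq_zero_iff_mem_nonunits, ValuationSubring.mem_nonunits_iff]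
    exact h1.not_lt
  · obtain ⟨m, hm⟩ := fr.exists_pow c hc
    refine ⟨m, ?_⟩
    show P ^ m / c ∈ A
    rw [h, mul_pow, mul_comm, mul_div_assoc]
    exact mul_mem (pow_mem u.2 m) hm

variable {q : ℕ} [Fact q.Prime]

/-- `q = (1 - ζ) ^ (q - 1)` up to a unit. -/
theorem exists_one_sub_zeta_pow (hA : A.LiesOverPrime q) {ζ : (Qb)ˣ} (hζ : IsPrimitiveRoot ζ q) :
    (ζ : Qb) ∈ A ∧ ∃ w : A, residue A w ≠ 0 ∧ (q : Qb) = (1 - (ζ : Qb)) ^ (q - 1) * (w : Qb) := by
  have hq : q.Prime := Fact.out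
  have hζ' : IsPrimitiveRoot (ζ : Qb) q := IsPrimitiveRoot.coe_units_iff.mpr hζ
  have hζA : (ζ : Qb) ∈ A := Galois.mem_of_isIntegral (hζ'.isIntegral hq.pos)
  haveI := Galois.charP_residueField hq hA
  haveI : ExpChar (ResidueField A) q := ExpChar.prime hq
  have hres : residue A ⟨_, hζA⟩ = 1 := by
    have h1 : (residue A ⟨_, hζA⟩ - 1) ^ q = 0 := by
      rw [sub_pow_expChar, ← map_pow, show (⟨_, hζA⟩ : A) ^ q = 1 from Subtype.ext hζ'.pow_eq_one,
        map_one, one_pow, sub_self]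
    exact sub_eq_zero.mp ((pow_eq_zero_iff hq.ne_zero).mp h1)
  set g : ℕ → A := fun i => ∑ l ∈ Finset.range (i + 1), (⟨_, hζA⟩ : A) ^ l with hg
  refine ⟨hζA, ∏ i ∈ Finset.range (q - 1), g i, ?_, ?_⟩
  · rw [map_prod, Finset.prod_ne_zero_iff]
    intro i hi
    rw [Finset.mem_range] at hi
    simp only [hg, map_sum, map_pow, hres, one_pow, Finset.sum_const, Finset.card_range,
      nsmul_eq_mul, mul_one]
    rw [Ne, CharP.cast_eq_zero_iff (ResidueField A) q]
    exact fun h => absurd (Nat.le_of_dvd (Nat.succ_pos i) h) (by omega)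
  · have h2 := hq.two_le
    have hq1 : q - 1 + 1 = q := by omega
    have hprod := IsPrimitiveRoot.prod_one_sub_pow_eq_order (R := Qb) (μ := (ζ : Qb)) (n := q - 1)
      (by rwa [hq1])
    rw [show (((q - 1 : ℕ) : Qb) + 1) = (q : Qb) by exact_mod_cast hq1] at hprod
    have hcast : ((∏ i ∈ Finset.range (q - 1), g i : A) : Qb) =
        ∏ i ∈ Finset.range (q - 1), ((g i : A) : Qb) := map_prod A.subtype g _
    rw [← hprod, hcast]
    have hc := Finset.prod_const (1 - (ζ : Qb)) (s := Finset.range (q - 1))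
    rw [Finset.card_range] at hc
    rw [← hc, ← Finset.prod_mul_distrib]
    refine Finset.prod_congr rfl fun i _ => ?_
    have hs : ((g i : A) : Qb) = ∑ l ∈ Finset.range (i + 1), (ζ : Qb) ^ l := by
      rw [show ((g i : A) : Qb) = A.subtype (g i) from rfl, hg, map_sum]
      exact Finset.sum_congr rfl fun l _ => map_pow _ _ _
    rw [hs, mul_comm, geom_sum_mul_neg]

/-- The part of inertia fixing `ζ`. -/
def zetaSub (A : ValuationSubring Qb) {ζ : (Qb)ˣ} (hζ : IsPrimitiveRoot ζ q) : InertiaSub A where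
  H := A.inertiaSubgroupIn ℚ ⊓ MulAction.stabilizer Γ (ζ : Qb)
  le := inf_le_left
  conj_mem σ hσ τ hτ := by
    refine ⟨(A.inertiaSubgroupIn ℚ).mul_mem ((A.inertiaSubgroupIn ℚ).mul_mem hσ hτ.1)
      ((A.inertiaSubgroupIn ℚ).inv_mem hσ), ?_⟩
    have hζ' : IsPrimitiveRoot (ζ : Qb) q := IsPrimitiveRoot.coe_units_iff.mpr hζ
    have : NeZero q := ⟨(Fact.out : q.Prime).ne_zero⟩
    obtain ⟨j, -, hj⟩ := hζ'.eq_pow_of_pow_eq_one (ξ := σ⁻¹ (ζ : Qb))
      (by rw [← map_pow, hζ'.pow_eq_one, map_one])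
    have hτζ : τ (ζ : Qb) = ζ := hτ.2
    show σ (τ (σ⁻¹ (ζ : Qb))) = ζ
    rw [← hj, map_pow τ, hτζ, hj]
    exact σ.apply_symm_apply _
  isOpen := ⟨IntermediateField.adjoin ℚ {(ζ : Qb)},
    IntermediateField.adjoin.finiteDimensional (Algebra.IsIntegral.isIntegral _), fun σ hσ =>
      ⟨hσ.1, (IntermediateField.mem_fixingSubgroup_iff _ _).mp hσ.2 _
        (IntermediateField.mem_adjoin_simple_self ℚ _)⟩⟩

theorem zetaSub_index_le {ζ : (Qb)ˣ} (hζ : IsPrimitiveRoot ζ q) :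
    (zetaSub A hζ).index ≤ q - 1 := by
  classical
  have hq : q.Prime := Fact.out
  have hζ' : IsPrimitiveRoot (ζ : Qb) q := IsPrimitiveRoot.coe_units_iff.mpr hζ
  set I := A.inertiaSubgroupIn ℚ
  let φ : I ⧸ (zetaSub A hζ).H.subgroupOf I → primitiveRoots q Qb :=
    Quotient.lift (fun σ : I => (⟨(σ : Γ) (ζ : Qb),
        (mem_primitiveRoots hq.pos).mpr (hζ'.map_of_injective (σ : Γ).injective)⟩ :
          primitiveRoots q Qb))
      fun a b hab => Subtype.ext (by
        have h : ((a : Γ)⁻¹ * (b : Γ)) (ζ : Qb) = ζ :=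
          (QuotientGroup.leftRel_apply.mp hab : (a⁻¹ * b : I) ∈ (zetaSub A hζ).H.subgroupOf I).2
        have h' := congrArg (a : Γ) h
        rw [AlgEquiv.mul_apply] at h'
        exact h'.symm.trans ((a : Γ).apply_symm_apply _))
  have hφ : Function.Injective φ := by
    intro x y
    induction x using Quotient.inductionOn with
    | h a =>
      induction y using Quotient.inductionOn with
      | h b =>
        intro h
        have h' : (a : Γ) (ζ : Qb) = (b : Γ) (ζ : Qb) := congrArg Subtype.val h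
        refine Quotient.sound (QuotientGroup.leftRel_apply.mpr ⟨(a⁻¹ * b : I).2, ?_⟩)
        show (a : Γ)⁻¹ ((b : Γ) (ζ : Qb)) = ζ
        rw [← h']
        exact (a : Γ).symm_apply_apply _
  have h := Nat.card_le_card_of_injective φ hφ
  rw [Nat.card_eq_fintype_card (α := primitiveRoots q Qb), Fintype.card_coe,
    hζ'.card_primitiveRoots, Nat.totient_prime hq] at h
  exact h

/-- **The frames exist**, with `q = ϖ₀ * unit`. -/
theorem exists_framePair (hA : A.LiesOverPrime q) :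
    ∃ fp : FramePair q A, ∃ w : A, residue A w ≠ 0 ∧ (q : Qb) = fp.fr₀.ϖ * (w : Qb) := by
  have hq : q.Prime := Fact.out
  have : NeZero q := ⟨hq.ne_zero⟩
  obtain ⟨ζ, hζ⟩ := exists_isPrimitiveRoot_units Qb q
  obtain ⟨hζA, w, hw, hqw⟩ := exists_one_sub_zeta_pow hA hζ
  -- inertia
  obtain ⟨f₀, e₀, hL₀, -, hd₀, u₀, hu₀, -, hqu₀⟩ := (InertiaSub.top A).exists_frame hq hA
  obtain rfl : e₀ = 1 := Nat.dvd_one.mp (by
    rwa [show (InertiaSub.top A).index = 1 from Subgroup.relIndex_self _] at hd₀)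
  rw [pow_one] at hqu₀
  obtain ⟨fr₀, hfr₀L, hfr₀ϖ⟩ := exists_frame_unit_mul f₀ (natCast_mem _ q) hu₀ hqu₀
  -- the roots of unity
  set D := zetaSub A hζ
  obtain ⟨f₁, e, hL, he, hd, u, hu, -, hqu⟩ := D.exists_frame hq hA
  have hζL : (ζ : Qb) ∈ f₁.L := by
    rw [hL]
    exact D.mem_L_iff.mpr fun σ hσ => hσ.2
  obtain ⟨n, v, hvL, hv, hnv⟩ := f₁.exists_unit (1 - (ζ : Qb)) (sub_mem (one_mem _) hζL)
    (sub_ne_zero.mpr fun h => hq.one_lt.ne' ((IsPrimitiveRoot.coe_units_iff.mpr hζ).unique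
      (h ▸ IsPrimitiveRoot.one)))
  have hvw : residue A (v ^ (q - 1) * w) ≠ 0 := by
    rw [map_mul, map_pow]
    exact mul_ne_zero (pow_ne_zero _ hv) hw
  have hexp : (e : ℤ) = n * ((q - 1 : ℕ) : ℤ) := zpow_ϖ_inj f₁ hu hvw (by
    rw [zpow_natCast, ← hqu, zpow_mul, zpow_natCast, MulMemClass.coe_mul, SubmonoidClass.coe_pow,
      ← mul_assoc, ← mul_pow, ← hnv, ← hqw])
  have hbound : e ≤ q - 1 := (Nat.le_of_dvd D.index_pos hd).trans (zetaSub_index_le hζ)
  obtain rfl : n = 1 := by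
    have h2 := hq.two_le
    have h3 : ((q - 1 : ℕ) : ℤ) ≥ 1 := by omega
    have h4 : (1 : ℤ) ≤ e := by exact_mod_cast he
    have h5 : (e : ℤ) ≤ ((q - 1 : ℕ) : ℤ) := by exact_mod_cast hbound
    rcases lt_trichotomy n 1 with h | h | h
    · nlinarith
    · exact h
    · nlinarith
  rw [zpow_one] at hnv
  obtain ⟨fr, hfrL, hfrϖ⟩ := exists_frame_unit_mul f₁ (sub_mem (one_mem _) hζL) hv hnv
  refine ⟨⟨fr₀, fr, ζ, hζ, hfrϖ, hfrL ▸ hζL, fun c hc => ?_, ?_, ⟨w, hw, ?_⟩⟩, 1, by simp, ?_⟩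
  · rw [hfr₀L, hL₀]
    exact (InertiaSub.top A).mem_L_iff.mpr hc
  · intro c hc
    rw [hfr₀L, hL₀] at hc
    rw [hfrL, hL]
    exact D.mem_L_iff.mpr fun σ hσ => (InertiaSub.top A).mem_L_iff.mp hc σ (D.le hσ)
  · rw [hfr₀ϖ, hfrϖ, ← hqw]
  · show (q : Qb) = fr₀.ϖ * ((1 : A) : Qb)
    rw [hfr₀ϖ, OneMemClass.coe_one, mul_one]

end FLTA.RT.Qsq

end
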