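import Fermat.Agent.RT.Qsq.GaussHom

/-!
# Roots over a complete ring from the leading series

An element of the fraction field of `A` whose image in a larger complete ring has valuation
divisible by `n` and residue `y ^ n`, with `y ^ q` in the image of the residues of `A`, is an
`n`-th power, for `n` prime to the residue characteristic `q`.
-/

set_option autoImplicit false

noncomputable section

open IsLocalRing Polynomial FLTA.Carayol

namespace FLTA.RT.Qsq

section Image

variable {A : Type} [CommRing A] [IsLocalRing A] {B : Type} [CommRing B] {k : Type} [Field k]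
  (jA : A →+* B) (ρ : B →+* k) [IsLocalHom (ρ.comp jA)]

/-- The residues of `A` seen in `k`. -/
def resImage : Subfield k := (ResidueField.lift (ρ.comp jA)).fieldRange

theorem mem_resImage {y : k} : y ∈ resImage jA ρ ↔ ∃ a : A, ρ (jA a) = y := by
  rw [resImage, RingHom.mem_fieldRange]
  constructor
  · rintro ⟨c, rfl⟩
    obtain ⟨a, rfl⟩ := residue_surjective c
    exact ⟨a, (ResidueField.lift_residue_apply (ρ.comp jA) a).symm⟩
  · rintro ⟨a, rfl⟩
    exact ⟨residue A a, ResidueField.lift_residue_apply _ a⟩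

end Image

variable {A : Type} [CommRing A] [IsDomain A] [IsDiscreteValuationRing A] {B : Type} [CommRing B]
  {k : Type} [Field k] (jA : A →+* B) (ρ : B →+* k) [IsLocalHom (ρ.comp jA)] {L : Type} [Field L] [Algebra A L]
  [IsFractionRing A L] [IsDomain B] [IsDiscreteValuationRing B]
  {FM : Type} [Field FM] [Algebra B FM] [IsFractionRing B FM] {q : ℕ}
  (hA : maximalIdeal A = Ideal.span {(q : A)}) (hB : maximalIdeal B = Ideal.span {(q : B)})
  {j : L →+* FM} (hjA : ∀ a, algebraMap B FM (jA a) = j (algebraMap A L a)) [IsLocalHom jA]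

omit [IsLocalHom jA] in
include hA hB hjA in
/-- Valuations are preserved. -/
theorem exists_unit_preimage {z : L} {m : ℤ} {u : B} (hu : IsUnit u)
    (hz : j z = algebraMap B FM u * algebraMap B FM (q : B) ^ m) :
    ∃ v : A, IsUnit v ∧ z = algebraMap A L v * algebraMap A L (q : A) ^ m ∧ jA v = u := by
  have hqA : Irreducible (q : A) :=
    (IsDiscreteValuationRing.irreducible_iff_uniformizer _).2 hA
  have hqB : Irreducible (q : B) :=
    (IsDiscreteValuationRing.irreducible_iff_uniformizer _).2 hB
  have hz0 : z ≠ 0 := fun h => by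
    rw [h, map_zero, eq_comm, mul_eq_zero] at hz
    rcases hz with hz | hz
    · exact hu.ne_zero ((map_eq_zero_iff _ (IsFractionRing.injective B FM)).1 hz)
    · exact zpow_ne_zero m ((map_ne_zero_iff _ (IsFractionRing.injective B FM)).2 hqB.ne_zero) hz
  obtain ⟨v, i, hv, rfl⟩ := exists_eq_unit_mul_zpow (B := A) hqA hz0
  rw [map_mul, map_zpow₀, ← hjA, ← hjA, map_natCast jA] at hz
  obtain ⟨rfl, hvu⟩ := unit_mul_zpow_inj hqB (hv.map jA) hu hz
  exact ⟨v, hv, rfl, hvu⟩

include hA hB hjA in
/-- Residues of units of `B` coming from `L` are residues of `A`. -/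
theorem mem_resImage_of_eq [IsLocalHom ρ] {w : L} {b : B} (hw : j w = algebraMap B FM b)
    (hb : ρ b ≠ 0) : ρ b ∈ resImage jA ρ := by
  have hub : IsUnit b := IsUnit.of_map ρ b (isUnit_iff_ne_zero.2 hb)
  obtain ⟨v, -, -, rfl⟩ := exists_unit_preimage jA hA hB hjA hub (z := w) (m := 0)
    (by rw [zpow_zero, mul_one, hw])
  exact (mem_resImage jA ρ).2 ⟨v, rfl⟩

include hA hB hjA in
/-- **Roots from the leading series.** -/
theorem exists_pow_of_residue [HenselianLocalRing A] {n : ℕ} (hn : IsUnit (n : A))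
    (hnq : Nat.Coprime n q) {z : L} {m : ℤ} {u : B} (hu : IsUnit u)
    (hz : j z = algebraMap B FM u * algebraMap B FM (q : B) ^ m) (hm : (n : ℤ) ∣ m) {y : k}
    (hy : ρ u = y ^ n) (hyq : y ^ q ∈ resImage jA ρ) : ∃ g, g ^ n = z := by
  obtain ⟨v, hv, rfl, rfl⟩ := exists_unit_preimage jA hA hB hjA hu hz
  obtain ⟨a, ha⟩ := (mem_resImage jA ρ).1 hyq
  obtain ⟨e, he⟩ := exists_pow_eq_of_coprime hnq ((hv.map (residue A)).ne_zero) (d := residue A a)
    ((ResidueField.lift (ρ.comp jA)).injective (by
      rw [map_pow, map_pow, ResidueField.lift_residue_apply, ResidueField.lift_residue_apply,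
        RingHom.comp_apply, RingHom.comp_apply, hy, ha, ← pow_mul, ← pow_mul, mul_comm]))
  obtain ⟨w, hw⟩ := exists_pow_eq_of_residue hn hv he
  obtain ⟨t, rfl⟩ := hm
  exact ⟨algebraMap A L w * algebraMap A L (q : A) ^ t, by
    rw [mul_pow, ← map_pow, hw, ← zpow_natCast (algebraMap A L (q : A) ^ t), ← zpow_mul, mul_comm t]⟩

end FLTA.RT.Qsq

end
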