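import Fermat.Agent.RT.Qsq.GaussResidue
import Fermat.Agent.RT.Qsq.GaussDescent
import Fermat.Agent.Congruence.FrobeniusField

/-!
# Roots on the two outer branches from reduced series

With constants and the substituted functions of level `M` among the residues of `O`, an element of
the branch `(x₁, x₀)` with valuation divisible by `p` and leading series `E ^ p` is a `p`-th power
as soon as `E ^ q` is such a residue; in particular for `E` a reduced function of level `M` or the
substitution of one.
-/

set_option autoImplicit false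
set_option maxHeartbeats 1000000
set_option synthInstance.maxHeartbeats 400000
set_option linter.style.haveILetI false

noncomputable section

open IsLocalRing Polynomial ModularCurve FLTA.Carayol FLTA.BadRed FLTA.LevelLowering

namespace FLTA.RT.Qsq

local notation "Qb" => AlgebraicClosure ℚ

variable {q : ℕ} [Fact q.Prime] {A : ValuationSubring Qb} [CharP (ResidueField A) q]
  {O : Type} [CommRing O] [IsDomain O] [IsDiscreteValuationRing O]
  [IsAdicComplete (maximalIdeal O) O] {L : Type} [Field L] [Algebra O L] [IsFractionRing O L]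
  {R₀ : Type} [Field R₀] {Ψ₀ : R₀[X]} {fp : FramePair q A} {ΨA : O[X]} {s : RootSplit ΨA} {T : O}
  {ν : R₀ →+* L} {hΨ : Ψ₀.map ν = ΨA.map (algebraMap O L)}
  {Sr : Pairs Ψ₀ →+* LaurentSeries Qb}

omit [CharP (ResidueField A) q] in
/-- A root on the branch `(x₁, x₀)`. -/
theorem exists_pow_br₁ (hs : IsGauss q ΨA s T) (G : GaussRes fp s ν hΨ Sr) {p : ℕ} (hp : 0 < p)
    (hn : IsUnit (p : O)) (hpq : Nat.Coprime p q)
    (hC : ∀ c : ResidueField A, ∃ a : O, G.hbar (AdjoinRoot.of s.quo a) = HahnSeries.C c)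
    {y : Pairs Ψ₀} {n : ℤ} {c : ResidueField A} {E : LaurentSeries (ResidueField A)}
    (h : HasVal fp.fr₀ (Sr y) n (HahnSeries.C c * E ^ p)) (hdvd : (p : ℤ) ∣ n)
    (hE : ∃ a : O, G.hbar (AdjoinRoot.of s.quo a) = E ^ q) :
    ∃ g, g ^ p = (s.map (algebraMap O L)).br₁ (Pairs.map ν hΨ y) := by
  have := hs.isDomain_E
  have := hs.isLocalRing_E
  have := hs.isDiscreteValuationRing_E
  have := Fact.mk (hs.irreducible_quo (L := L))
  have := G.local_hom
  have := hs.monic_quo.finite_adjoinRoot
  have := finite_adjoinRoot_complete hs.monic_quo (by rw [hs.natDegree_quo]; exact hs.prime_q.pos)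
  have := henselianLocalRing_of_isAdicComplete (B := s.E)
  haveI := FLTA.Galois.isAlgClosed_residueField A
  letI := (s.mapE (algebraMap O L)).toAlgebra
  have := hs.isFractionRing_E (L := L)
  obtain ⟨u, c', -, hu, hbr, hh⟩ := G.compat y n _ h
  obtain ⟨e, he⟩ := IsAlgClosed.exists_pow_nat_eq (c' * c) hp
  obtain ⟨a, ha⟩ := hE
  obtain ⟨b, hb⟩ := hC (e ^ q)
  haveI : IsLocalHom (G.hbar.comp (RingHom.id s.E)) := by rw [RingHom.comp_id]; exact G.local_hom
  refine exists_pow_of_residue (RingHom.id s.E) G.hbar (L := (s.map (algebraMap O L)).E)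
    (FM := (s.map (algebraMap O L)).E) hs.maximalIdeal_E hs.maximalIdeal_E
    (j := RingHom.id _) (fun _ => rfl)
    (by simpa using hn.map (AdjoinRoot.of s.quo)) hpq hu (m := n) (y := HahnSeries.C e * E) ?_ hdvd
    ?_ ?_
  · rw [RingHom.id_apply, hbr, mul_comm, map_zpow₀, map_natCast, map_natCast]
    rfl
  · rw [hh, mul_pow, ← map_pow, he, map_mul, mul_assoc]
  · exact (mem_resImage _ _).2 ⟨AdjoinRoot.of s.quo (b * a), by
      rw [RingHom.id_apply, map_mul, map_mul, hb, ha, mul_pow, ← map_pow]⟩

omit [CharP (ResidueField A) q] in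
/-- A root over the base from a root on the branch. -/
theorem exists_pow_of_br₁ (hs : IsGauss q ΨA s T) {p : ℕ} (hpq : Nat.Coprime p q) {z : L}
    {g : (s.map (algebraMap O L)).E} (hg : g ^ p = AdjoinRoot.of _ z) : ∃ w, w ^ p = z := by
  rcases eq_or_ne z 0 with rfl | hz
  · rcases Nat.eq_zero_or_pos p with rfl | hp
    · exact absurd (Nat.coprime_zero_left q |>.1 hpq) hs.prime_q.ne_one
    · exact ⟨0, zero_pow hp.ne'⟩
  have hm : (s.map (algebraMap O L)).quo.Monic := by
    rw [RootSplit.quo_map]; exact hs.monic_quo.map _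
  have := hm.finite_adjoinRoot
  have hfin : Module.finrank L (s.map (algebraMap O L)).E = q := by
    rw [(AdjoinRoot.powerBasis' hm).finrank, AdjoinRoot.powerBasis'_dim, RootSplit.quo_map,
      hs.monic_quo.natDegree_map, hs.natDegree_quo]
  have h := congrArg (Algebra.norm L) hg
  rw [map_pow, ← AdjoinRoot.algebraMap_eq, Algebra.norm_algebraMap, hfin] at h
  exact exists_pow_eq_of_coprime hpq hz h.symm

omit [CharP (ResidueField A) q] in
/-- The leading series of base elements of valuation `0` are residues of `O`. -/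
theorem exists_residue_of_hasVal (hs : IsGauss q ΨA s T) (G : GaussRes fp s ν hΨ Sr)
    (hC : ∀ c : ResidueField A, ∃ a : O, G.hbar (AdjoinRoot.of s.quo a) = HahnSeries.C c)
    {r : R₀} {Y : LaurentSeries (ResidueField A)}
    (h : HasVal fp.fr₀ (Sr (Pairs.ofBase Ψ₀ r)) 0 Y) :
    ∃ a : O, G.hbar (AdjoinRoot.of s.quo a) = Y := by
  have := hs.isDomain_E
  have := hs.isLocalRing_E
  have := hs.isDiscreteValuationRing_E
  have := Fact.mk (hs.irreducible_quo (L := L))
  have := G.local_hom
  letI := (s.mapE (algebraMap O L)).toAlgebra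
  have := hs.isFractionRing_E (L := L)
  have hloc : IsLocalHom (AdjoinRoot.of s.quo) := ⟨fun a ha => by
    by_contra hna
    have ha' : a ∈ maximalIdeal O := hna
    rw [hs.max_eq, Ideal.mem_span_singleton] at ha'
    obtain ⟨d, rfl⟩ := ha'
    rw [map_mul, map_natCast] at ha
    exact ((IsDiscreteValuationRing.irreducible_iff_uniformizer _).2 hs.maximalIdeal_E).not_isUnit
      (isUnit_of_mul_isUnit_left ha)⟩
  obtain ⟨u, c, hc, hu, hbr, hh⟩ := G.compat _ 0 _ h
  haveI : IsLocalHom (G.hbar.comp (RingHom.id s.E)) := by rw [RingHom.comp_id]; exact G.local_hom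
  obtain ⟨v, -, -, hv⟩ := exists_unit_preimage (AdjoinRoot.of s.quo) (L := L) (B := s.E)
    (FM := (s.map (algebraMap O L)).E) (q := q) hs.max_eq hs.maximalIdeal_E
    (j := AdjoinRoot.of (s.map (algebraMap O L)).quo)
    (fun a => by simp [RingHom.algebraMap_toAlgebra, RootSplit.mapE])
    hu (z := ν r) (m := 0) (by
      have e : (s.map (algebraMap O L)).br₁ (Pairs.map ν hΨ (Pairs.ofBase Ψ₀ r)) =
          AdjoinRoot.of _ (ν r) := by simp [RootSplit.br₁]
      rw [← e, hbr, zpow_zero, map_one, one_mul, zpow_zero, mul_one]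
      rfl)
  obtain ⟨b, hb⟩ := hC c⁻¹
  refine ⟨b * v, ?_⟩
  rw [map_mul, map_mul, hb, hv, hh, ← mul_assoc, ← map_mul, inv_mul_cancel₀ hc, map_one, one_mul]

/-- Substituted functions of level `M` are residues of `O`, once the generators are. -/
theorem qExpand_full_mem (hs : IsGauss q ΨA s T) (G : GaussRes fp s ν hΨ Sr) [NeZero q]
    (hC : ∀ c : ResidueField A, ∃ a : O, G.hbar (AdjoinRoot.of s.quo a) = HahnSeries.C c)
    {M : ℕ} [NeZero M] (hgen : ∀ d : ℕ, [NeZero d] → d ∣ M → ∃ r : R₀,
      HasVal fp.fr₀ (Sr (Pairs.ofBase Ψ₀ r)) 0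
        (qExpand (ResidueField A) q (qExpand (ResidueField A) d (jqModC (ResidueField A)))))
    (x : modularFunctionFieldFullC (ResidueField A) M) :
    ∃ a : O, G.hbar (AdjoinRoot.of s.quo a) =
      qExpand (ResidueField A) q (x : LaurentSeries (ResidueField A)) := by
  have := hs.isDomain_E
  have := hs.isLocalRing_E
  have := G.local_hom
  haveI : IsLocalHom (G.hbar.comp (AdjoinRoot.of s.quo)) := ⟨fun a ha => by
    by_contra hna
    have ha' : a ∈ maximalIdeal O := hna
    rw [hs.max_eq, Ideal.mem_span_singleton] at ha'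
    obtain ⟨d, rfl⟩ := ha'
    rw [map_mul, map_natCast] at ha
    have hu : IsUnit ((q : LaurentSeries (ResidueField A))) := isUnit_of_mul_isUnit_left ha
    rw [← map_natCast (HahnSeries.C (Γ := ℤ) (R := ResidueField A)), CharP.cast_eq_zero,
      map_zero] at hu
    exact not_isUnit_zero hu⟩
  refine (mem_resImage (AdjoinRoot.of s.quo) G.hbar).1 ?_
  have hle : (modularFunctionFieldFullC (ResidueField A) M).toSubfield ≤
      (resImage (AdjoinRoot.of s.quo) G.hbar).comap (qExpand (ResidueField A) q) := by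
    rw [modularFunctionFieldFullC, IntermediateField.adjoin_toSubfield]
    refine Subfield.closure_le.mpr ?_
    rintro z (⟨c, rfl⟩ | ⟨d, hd, hdn, rfl⟩)
    · rw [SetLike.mem_coe, Subfield.mem_comap, mem_resImage,
        algebraMap_laurentSeries_eq_single, qExpand_single, mul_zero, ← HahnSeries.C_apply]
      exact hC c
    · rw [SetLike.mem_coe, Subfield.mem_comap, mem_resImage]
      obtain ⟨r, hr⟩ := hgen d hdn
      exact exists_residue_of_hasVal hs G hC hr
  exact hle x.2

/-- The two shapes of series whose `q`-th powers are residues. -/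
theorem exists_residue_pow (hs : IsGauss q ΨA s T) (G : GaussRes fp s ν hΨ Sr) [NeZero q]
    (hC : ∀ c : ResidueField A, ∃ a : O, G.hbar (AdjoinRoot.of s.quo a) = HahnSeries.C c)
    {M : ℕ} [NeZero M] (hgen : ∀ d : ℕ, [NeZero d] → d ∣ M → ∃ r : R₀,
      HasVal fp.fr₀ (Sr (Pairs.ofBase Ψ₀ r)) 0
        (qExpand (ResidueField A) q (qExpand (ResidueField A) d (jqModC (ResidueField A)))))
    (η : modularFunctionFieldFullC (ResidueField A) M) :
    (∃ a : O, G.hbar (AdjoinRoot.of s.quo a) = (η : LaurentSeries (ResidueField A)) ^ q) ∧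
      ∃ a : O, G.hbar (AdjoinRoot.of s.quo a) =
        qExpand (ResidueField A) q (η : LaurentSeries (ResidueField A)) ^ q := by
  haveI : PerfectRing (ResidueField A) q := by
    haveI := FLTA.Galois.isAlgClosed_residueField A
    infer_instance
  constructor
  · obtain ⟨a, ha⟩ := qExpand_full_mem hs G hC hgen
      (FLTA.Congruence.frobSemilinear (ResidueField A) q M • η)
    refine ⟨a, ha.trans ?_⟩
    rw [FLTA.Congruence.coe_frobSemilinear_smul]
    haveI : ExpChar (ResidueField A) q := ExpChar.prime Fact.out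
    exact FLTA.Congruence.qExpand_coeffMap_frobenius (R := ResidueField A) (ℓ := q) _
  · obtain ⟨a, ha⟩ := qExpand_full_mem hs G hC hgen (η ^ q)
    exact ⟨a, ha.trans (by rw [← map_pow]; rfl)⟩

end FLTA.RT.Qsq

end
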