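import Fermat.Agent.LevelLowering.HeckeSeries
import Fermat.Agent.LevelLowering.Frame

/-!
# Gauss valuations of fractions of bounded series

A quotient of bounded series need not be bounded as a Laurent series, so valuations and leading
reductions are defined through representations `y = a / b`.
-/

set_option autoImplicit false

noncomputable section

open ModularCurve FLTA.Congruence FLTA.BadRed FLTA.LevelLowering

namespace FLTA.RT.Qsq

variable {K : Type*} [Field K] {A : ValuationSubring K} {k : Type*} [Field k] {π : A →+* k}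
  (fr : Frame A π)

/-- Valuation and leading reduction of a fraction. -/
def HasVal (y : LaurentSeries K) (n : ℤ) (Y : LaurentSeries k) : Prop :=
  ∃ (a b : LaurentSeries K) (na nb : ℤ), fr.IsVal a na ∧ fr.IsVal b nb ∧ y * b = a ∧
    n = na - nb ∧ Y * fr.lead b = fr.lead a

/-- Valuation of a fraction at least `n`. -/
def GeF (y : LaurentSeries K) (n : ℤ) : Prop :=
  ∃ (a b : LaurentSeries K) (nb : ℤ), fr.Ge a (n + nb) ∧ fr.IsVal b nb ∧ y * b = a

theorem lead_mul {x y : LaurentSeries K} {n m : ℤ} (hx : fr.IsVal x n) (hy : fr.IsVal y m) :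
    fr.lead (x * y) = fr.lead x * fr.lead y := by
  rw [(hx.mul fr hy).1.lead_eq fr, hx.lead_eq fr, hy.lead_eq fr]
  exact (hx.mul fr hy).2

theorem isVal_one : fr.IsVal (1 : LaurentSeries K) 0 ∧ fr.lead (1 : LaurentSeries K) = 1 := by
  simpa using fr.isVal_zpow 0

variable {fr}

theorem hasVal_of_isVal {y : LaurentSeries K} {n : ℤ} (h : fr.IsVal y n) :
    HasVal fr y n (fr.lead y) :=
  ⟨y, 1, n, 0, h, (isVal_one fr).1, mul_one y, (sub_zero n).symm,
    by rw [(isVal_one fr).2, mul_one]⟩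

theorem HasVal.lead_ne_zero {y : LaurentSeries K} {n : ℤ} {Y : LaurentSeries k}
    (h : HasVal fr y n Y) : Y ≠ 0 := by
  obtain ⟨a, b, na, nb, ha, -, -, -, hY⟩ := h
  rintro rfl
  exact ha.lead_ne_zero fr (by rw [← hY, zero_mul])

theorem HasVal.ne_zero {y : LaurentSeries K} {n : ℤ} {Y : LaurentSeries k}
    (h : HasVal fr y n Y) : y ≠ 0 := by
  obtain ⟨a, b, na, nb, ha, -, he, -, -⟩ := h
  rintro rfl
  exact ha.ne_zero fr (by rw [← he, zero_mul])

theorem HasVal.unique {y : LaurentSeries K} {n n' : ℤ} {Y Y' : LaurentSeries k}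
    (h : HasVal fr y n Y) (h' : HasVal fr y n' Y') : n = n' ∧ Y = Y' := by
  obtain ⟨a, b, na, nb, ha, hb, he, rfl, hY⟩ := h
  obtain ⟨a', b', na', nb', ha', hb', he', rfl, hY'⟩ := h'
  have hcross : a * b' = a' * b := by rw [← he, ← he']; ring
  have h1 := (ha.mul fr hb').1
  rw [hcross] at h1
  have hn := h1.unique fr (ha'.mul fr hb).1
  refine ⟨by linarith, ?_⟩
  have h2 := congrArg fr.lead hcross
  rw [lead_mul fr ha hb', lead_mul fr ha' hb, ← hY, ← hY'] at h2
  refine mul_right_cancel₀ (mul_ne_zero (hb.lead_ne_zero fr) (hb'.lead_ne_zero fr)) ?_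
  linear_combination h2

theorem HasVal.mul {x y : LaurentSeries K} {n m : ℤ} {X Y : LaurentSeries k}
    (hx : HasVal fr x n X) (hy : HasVal fr y m Y) : HasVal fr (x * y) (n + m) (X * Y) := by
  obtain ⟨a, b, na, nb, ha, hb, he, rfl, hX⟩ := hx
  obtain ⟨a', b', na', nb', ha', hb', he', rfl, hY⟩ := hy
  refine ⟨a * a', b * b', _, _, (ha.mul fr ha').1, (hb.mul fr hb').1, by rw [← he, ← he']; ring,
    by ring, ?_⟩
  rw [lead_mul fr ha ha', lead_mul fr hb hb', ← hX, ← hY]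
  ring

theorem HasVal.inv {y : LaurentSeries K} {n : ℤ} {Y : LaurentSeries k}
    (h : HasVal fr y n Y) : HasVal fr y⁻¹ (-n) Y⁻¹ := by
  have hy := h.ne_zero
  have hY0 := h.lead_ne_zero
  obtain ⟨a, b, na, nb, ha, hb, he, rfl, hY⟩ := h
  refine ⟨b, a, nb, na, hb, ha, ?_, by ring, ?_⟩
  · rw [← he, inv_mul_cancel_left₀ hy]
  · rw [← hY, inv_mul_cancel_left₀ hY0]

theorem hasVal_one : HasVal fr 1 0 1 := by
  have h := hasVal_of_isVal (isVal_one fr).1
  rwa [(isVal_one fr).2] at h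

theorem HasVal.pow {y : LaurentSeries K} {n : ℤ} {Y : LaurentSeries k}
    (h : HasVal fr y n Y) : ∀ a : ℕ, HasVal fr (y ^ a) (a * n) (Y ^ a) := by
  intro a
  induction a with
  | zero => simpa using hasVal_one (fr := fr)
  | succ a ih =>
    rw [pow_succ, pow_succ, Nat.cast_succ, add_mul, one_mul]
    exact ih.mul h

theorem HasVal.zpow {y : LaurentSeries K} {n : ℤ} {Y : LaurentSeries k}
    (h : HasVal fr y n Y) (a : ℤ) : HasVal fr (y ^ a) (a * n) (Y ^ a) := by
  obtain ⟨i, rfl | rfl⟩ := Int.eq_nat_or_neg a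
  · simpa using h.pow i
  · simpa [neg_mul] using (h.pow i).inv

theorem hasVal_C_unit (u : A) (hu : π u ≠ 0) :
    HasVal fr (HahnSeries.C (u : K)) 0 (HahnSeries.C (π u)) := by
  have h := hasVal_of_isVal (fr.isVal_C_unit u hu).1
  rwa [(fr.isVal_C_unit u hu).2] at h

theorem hasVal_C_zpow (n : ℤ) : HasVal fr (HahnSeries.C (fr.ϖ ^ n)) n 1 := by
  have h := hasVal_of_isVal (fr.isVal_zpow n).1
  rwa [(fr.isVal_zpow n).2] at h

theorem geF_zero (n : ℤ) : GeF fr 0 n :=
  ⟨0, 1, 0, fr.ge_zero _, (isVal_one fr).1, zero_mul _⟩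

theorem geF_of_ge {y : LaurentSeries K} {n : ℤ} (h : fr.Ge y n) : GeF fr y n :=
  ⟨y, 1, 0, by rwa [add_zero], (isVal_one fr).1, mul_one y⟩

theorem HasVal.geF {y : LaurentSeries K} {n m : ℤ} {Y : LaurentSeries k}
    (h : HasVal fr y n Y) (hm : m ≤ n) : GeF fr y m := by
  obtain ⟨a, b, na, nb, ha, hb, he, rfl, -⟩ := h
  exact ⟨a, b, nb, ha.1.mono fr (by omega), hb, he⟩

theorem GeF.mono {y : LaurentSeries K} {n m : ℤ} (h : GeF fr y n) (hm : m ≤ n) :
    GeF fr y m := by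
  obtain ⟨a, b, nb, ha, hb, he⟩ := h
  exact ⟨a, b, nb, ha.mono fr (by omega), hb, he⟩

theorem GeF.add {x y : LaurentSeries K} {n : ℤ} (hx : GeF fr x n) (hy : GeF fr y n) :
    GeF fr (x + y) n := by
  obtain ⟨a, b, nb, ha, hb, he⟩ := hx
  obtain ⟨a', b', nb', ha', hb', he'⟩ := hy
  refine ⟨a * b' + a' * b, b * b', _, ?_, (hb.mul fr hb').1, by rw [← he, ← he']; ring⟩
  refine Frame.Ge.add fr ?_ ?_
  · rw [← add_assoc]; exact ha.mul fr hb'.1
  · rw [show n + (nb + nb') = n + nb' + nb by ring]; exact ha'.mul fr hb.1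

theorem GeF.mul {x y : LaurentSeries K} {n m : ℤ} (hx : GeF fr x n) (hy : GeF fr y m) :
    GeF fr (x * y) (n + m) := by
  obtain ⟨a, b, nb, ha, hb, he⟩ := hx
  obtain ⟨a', b', nb', ha', hb', he'⟩ := hy
  refine ⟨a * a', b * b', _, ?_, (hb.mul fr hb').1, by rw [← he, ← he']; ring⟩
  rw [show n + m + (nb + nb') = n + nb + (m + nb') by ring]
  exact ha.mul fr ha'

theorem GeF.neg {x : LaurentSeries K} {n : ℤ} (hx : GeF fr x n) : GeF fr (-x) n := by
  obtain ⟨a, b, nb, ha, hb, he⟩ := hx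
  refine ⟨-a, b, nb, ?_, hb, by rw [neg_mul, he]⟩
  have := (fr.ge_zero (n + nb)).sub fr ha
  rwa [zero_sub] at this

theorem GeF.sub {x y : LaurentSeries K} {n : ℤ} (hx : GeF fr x n) (hy : GeF fr y n) :
    GeF fr (x - y) n := by
  rw [sub_eq_add_neg]; exact hx.add hy.neg

theorem geF_sum {ι : Type*} (s : Finset ι) {f : ι → LaurentSeries K} {n : ℤ}
    (h : ∀ i ∈ s, GeF fr (f i) n) : GeF fr (∑ i ∈ s, f i) n := by
  classical
  induction s using Finset.induction with
  | empty => simpa using geF_zero (fr := fr) n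
  | @insert i s hi ih =>
    rw [Finset.sum_insert hi]
    exact (h i (Finset.mem_insert_self i s)).add
      (ih fun j hj => h j (Finset.mem_insert_of_mem hj))

theorem geF_prod_sub_one {ι : Type*} (s : Finset ι) {f : ι → LaurentSeries K}
    (h : ∀ i ∈ s, GeF fr (f i - 1) 1) : GeF fr (∏ i ∈ s, f i - 1) 1 := by
  classical
  induction s using Finset.induction with
  | empty => simpa using geF_zero (fr := fr) 1
  | @insert i s hi ih =>
    rw [Finset.prod_insert hi, show f i * ∏ j ∈ s, f j - 1 =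
      (f i - 1) * (∏ j ∈ s, f j - 1) + (f i - 1) + (∏ j ∈ s, f j - 1) by ring]
    have h1 := h i (Finset.mem_insert_self i s)
    have h2 := ih fun j hj => h j (Finset.mem_insert_of_mem hj)
    exact (((h1.mul h2).mono (by norm_num)).add h1).add h2

/-- A small perturbation changes neither valuation nor leading reduction. -/
theorem HasVal.add_geF {x y : LaurentSeries K} {n : ℤ} {X : LaurentSeries k}
    (hx : HasVal fr x n X) (hy : GeF fr y (n + 1)) : HasVal fr (x + y) n X := by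
  obtain ⟨a, b, na, nb, ha, hb, he, rfl, hX⟩ := hx
  obtain ⟨a', b', nb', ha', hb', he'⟩ := hy
  have hab' := (ha.mul fr hb').1
  have hsmall : fr.Ge (a' * b) (na + nb' + 1) := by
    rw [show na + nb' + 1 = na - nb + 1 + nb' + nb by ring]
    exact ha'.mul fr hb.1
  have hred : redSeries A π (fr.ϖ ^ (-(na + nb')) • (a * b' + a' * b)) =
      redSeries A π (fr.ϖ ^ (-(na + nb')) • (a * b')) := by
    rw [smul_add, redSeries_add hab'.1 (hsmall.mono fr (m := na + nb') (by omega)),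
      fr.red_eq_zero_of_ge hsmall (by omega), add_zero]
  have hsum : fr.IsVal (a * b' + a' * b) (na + nb') :=
    ⟨hab'.1.add fr (hsmall.mono fr (m := na + nb') (by omega)), by rw [hred]; exact hab'.2⟩
  refine ⟨a * b' + a' * b, b * b', _, _, hsum, (hb.mul fr hb').1,
    by rw [← he, ← he']; ring, by ring, ?_⟩
  have hlead : fr.lead (a * b' + a' * b) = fr.lead (a * b') := by
    rw [hsum.lead_eq fr, hab'.lead_eq fr, hred]
  rw [hlead, lead_mul fr ha hb', lead_mul fr hb hb', ← hX, mul_assoc]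

/-- A finite sum of terms of distinct valuations. -/
theorem hasVal_sum {ι : Type*} (s : Finset ι) {f : ι → LaurentSeries K} {n : ι → ℤ}
    {Y : ι → LaurentSeries k} (h : ∀ i ∈ s, HasVal fr (f i) (n i) (Y i))
    (hinj : Set.InjOn n s) (hs : s.Nonempty) :
    ∃ i ∈ s, HasVal fr (∑ j ∈ s, f j) (n i) (Y i) := by
  classical
  obtain ⟨i, hi, hmin⟩ := s.exists_min_image n hs
  refine ⟨i, hi, ?_⟩
  rw [← Finset.add_sum_erase s f hi]
  refine (h i hi).add_geF (geF_sum _ fun j hj => ?_)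
  obtain ⟨hji, hj⟩ := Finset.mem_erase.mp hj
  exact (h j hj).geF (Int.add_one_le_of_lt (lt_of_le_of_ne (hmin j hj)
    fun e => hji (hinj hj hi e.symm)))

/-- Change of frame. -/
theorem hasVal_of_le {fr₀ : Frame A π} {e : ℕ} {w : A} (hw : π w ≠ 0)
    (hϖ : fr₀.ϖ = fr.ϖ ^ e * (w : K)) {y : LaurentSeries K} {n : ℤ} {Y : LaurentSeries k}
    (h : HasVal fr₀ y n Y) : ∃ c : k, c ≠ 0 ∧ HasVal fr y ((e : ℤ) * n) (HahnSeries.C c * Y) := by
  have hinvA : (w : K)⁻¹ ∈ A := residue_ne_zero_inv_mem fr.π_surjective w.2 hw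
  have hw0 : (w : K) ≠ 0 := fun h0 => hw (by
    rw [show w = 0 from Subtype.ext h0, map_zero])
  set w' : A := ⟨(w : K)⁻¹, hinvA⟩ with hw'
  have hw'π : π w' ≠ 0 := fun h0 => by
    have : π (w * w') = 1 := by
      rw [show w * w' = 1 from Subtype.ext (mul_inv_cancel₀ hw0), map_one]
    rw [map_mul, h0, mul_zero] at this
    exact zero_ne_one this
  have key : ∀ {x : LaurentSeries K} {i : ℤ}, fr₀.IsVal x i →
      HasVal fr x ((e : ℤ) * i) (HahnSeries.C (π w ^ i) * fr₀.lead x) := by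
    intro x i hx
    have h1 : fr.IsVal (fr₀.ϖ ^ (-i) • x) 0 := by
      refine ⟨by rw [Frame.ge_zero_iff]; exact hx.1, ?_⟩
      rw [neg_zero, zpow_zero, one_smul]
      exact hx.2
    have h2 := hasVal_of_isVal h1
    rw [h1.lead_eq fr, neg_zero, zpow_zero, one_smul, ← hx.lead_eq fr₀] at h2
    have h3 := ((hasVal_C_zpow (fr := fr) ((e : ℤ) * i)).mul
      ((hasVal_C_unit (fr := fr) w hw).zpow i)).mul h2
    have e3 : HahnSeries.C (fr.ϖ ^ ((e : ℤ) * i)) * HahnSeries.C (w : K) ^ i *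
        (fr₀.ϖ ^ (-i) • x) = x := by
      rw [smul_eq_C_mul, ← map_zpow₀, ← map_mul, ← mul_assoc, ← map_mul,
        zpow_mul, zpow_natCast, ← mul_zpow, ← hϖ, ← zpow_add₀ fr₀.ϖ_ne_zero, add_neg_cancel,
        zpow_zero, map_one, one_mul]
    rwa [e3, one_mul, mul_zero, add_zero, add_zero, ← map_zpow₀] at h3
  obtain ⟨a, b, na, nb, ha, hb, he, rfl, hY⟩ := h
  refine ⟨π w ^ na / π w ^ nb, div_ne_zero (zpow_ne_zero _ hw) (zpow_ne_zero _ hw), ?_⟩
  have h := (key ha).mul (key hb).inv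
  rw [← he, mul_inv_cancel_right₀ (hb.ne_zero fr₀)] at h
  have e4 : HahnSeries.C (π w ^ na) * fr₀.lead (y * b) *
      (HahnSeries.C (π w ^ nb) * fr₀.lead b)⁻¹ = HahnSeries.C (π w ^ na / π w ^ nb) * Y := by
    rw [he, ← hY, map_div₀, mul_inv]
    field_simp [hb.lead_ne_zero fr₀]
  rw [e4] at h
  rwa [mul_sub, sub_eq_add_neg]

/-- A series fixed by `t ↦ ζ t` is a series in `t ^ l`. -/
theorem exists_qExpand_of_scaleHom_fixed {F : Type*} [Field F] {l : ℕ} [NeZero l] {ζ : Fˣ}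
    (hζ : IsPrimitiveRoot ζ l) {x : LaurentSeries F} (hx : scaleHom ζ x = x) :
    ∃ z, qExpand F l z = x := by
  have hsupp : ∀ j : ℤ, x.coeff j ≠ 0 → (l : ℤ) ∣ j := by
    intro j hj
    have h := congrArg (fun s : LaurentSeries F => s.coeff j) hx
    simp only [scaleHom_coeff] at h
    have h1 : ((ζ ^ j : Fˣ) : F) = 1 :=
      mul_right_cancel₀ hj (by rw [h, one_mul])
    exact (hζ.zpow_eq_one_iff_dvd j).mp (Units.ext h1)
  have hl : (0 : ℤ) < l := by exact_mod_cast Nat.pos_of_ne_zero (NeZero.ne l)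
  refine ⟨HahnSeries.ofSuppBddBelow (fun i => x.coeff ((l : ℤ) * i)) ?_, ?_⟩
  · refine ⟨min x.order 0, fun i hi => ?_⟩
    have h1 : x.order ≤ (l : ℤ) * i := HahnSeries.order_le_of_coeff_ne_zero hi
    rcases le_or_gt 0 i with h0 | h0
    · exact (min_le_right _ _).trans h0
    · exact (min_le_left _ _).trans (h1.trans (by nlinarith))
  · ext j
    by_cases hj : (l : ℤ) ∣ j
    · obtain ⟨i, rfl⟩ := hj
      rw [qExpand_coeff_mul]
      rfl
    · rw [qExpand_coeff_of_not_dvd l _ hj]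
      exact (not_imp_comm.mp (hsupp j) hj).symm

/-- Valuation and reduction of the image in a formula mixing two series. -/
theorem isVal_mixed {l : ℕ} [NeZero l] {ζ : Aˣ} {y' yv z : LaurentSeries K} {n' nv : ℤ}
    (h : qExpand K l z = qExpand K (l * l) y' *
      ∏ i ∈ Finset.range l, scaleHom (Units.map (A.subtype : A →* K) ζ ^ i) yv)
    (h' : fr.IsVal y' n') (hv : fr.IsVal yv nv) :
    fr.IsVal z (n' + l * nv) ∧ qExpand k l (fr.lead z) = qExpand k (l * l) (fr.lead y') *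
      ∏ i ∈ Finset.range l, scaleHom (Units.map (π : A →* k) ζ ^ i) (fr.lead yv) := by
  obtain ⟨y'₀, hy'₀⟩ := exists_coeffMap_eq h'.1
  obtain ⟨yv₀, hyv₀⟩ := exists_coeffMap_eq hv.1
  set P : LaurentSeries A := qExpand A (l * l) y'₀ * ∏ i ∈ Finset.range l, scaleHom (ζ ^ i) yv₀
  have hP : coeffMap A.subtype P = qExpand K l (fr.ϖ ^ (-(n' + l * nv)) • z) := by
    rw [map_mul, coeffMap_qExpand, map_prod, hy'₀, smul_eq_C_mul, smul_eq_C_mul, map_mul,
      map_mul, qExpand_C, qExpand_C, h]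
    have hprod : ∏ i ∈ Finset.range l, coeffMap A.subtype (scaleHom (ζ ^ i) yv₀) =
        HahnSeries.C (fr.ϖ ^ (-nv)) ^ l *
          ∏ i ∈ Finset.range l, scaleHom (Units.map (A.subtype : A →* K) ζ ^ i) yv := by
      simp only [coeffMap_scaleHom, map_pow, hyv₀, smul_eq_C_mul, map_mul, scaleHom_C,
        Finset.prod_mul_distrib, Finset.prod_const, Finset.card_range]
    have e : fr.ϖ ^ (-(n' + l * nv)) = fr.ϖ ^ (-n') * (fr.ϖ ^ (-nv)) ^ l := by
      rw [← zpow_natCast (fr.ϖ ^ (-nv)), ← zpow_mul, ← zpow_add₀ fr.ϖ_ne_zero]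
      congr 1
      ring
    rw [hprod, e, map_mul, map_pow]
    ring
  obtain ⟨z₀, hz₀P, hz₀⟩ := exists_qExpand_eq (f := A.subtype) Subtype.coe_injective l hP
  have hint : IntSeries A (fr.ϖ ^ (-(n' + l * nv)) • z) := hz₀ ▸ intSeries_coeffMap z₀
  have hred : qExpand k l (redSeries A π (fr.ϖ ^ (-(n' + l * nv)) • z)) =
      qExpand k (l * l) (fr.lead y') *
      ∏ i ∈ Finset.range l, scaleHom (Units.map (π : A →* k) ζ ^ i) (fr.lead yv) := by
    have e1 : coeffMap π y'₀ = fr.lead y' := by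
      rw [← redSeries_coeffMap, hy'₀, h'.lead_eq fr]
    have e2 : coeffMap π yv₀ = fr.lead yv := by
      rw [← redSeries_coeffMap, hyv₀, hv.lead_eq fr]
    rw [← hz₀, redSeries_coeffMap, ← coeffMap_qExpand, hz₀P, map_mul, map_prod, coeffMap_qExpand,
      e1]
    simp only [coeffMap_scaleHom, map_pow, e2]
  have hne : qExpand k (l * l) (fr.lead y') *
      ∏ i ∈ Finset.range l, scaleHom (Units.map (π : A →* k) ζ ^ i) (fr.lead yv) ≠ 0 := by
    refine mul_ne_zero ((map_ne_zero _).mpr (h'.lead_ne_zero fr))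
      (Finset.prod_ne_zero_iff.mpr fun i _ => (map_ne_zero _).mpr (hv.lead_ne_zero fr))
  have hval : fr.IsVal z (n' + l * nv) :=
    ⟨hint, fun h0 => hne (by rw [← hred, h0, map_zero])⟩
  exact ⟨hval, by rw [hval.lead_eq fr]; exact hred⟩

/-- The same for fractions. -/
theorem HasVal.mixed {l : ℕ} [NeZero l] {ζ : Aˣ}
    (hζ : IsPrimitiveRoot (Units.map (A.subtype : A →* K) ζ) l)
    {y' yv z : LaurentSeries K} {n' nv : ℤ} {Y' Yv : LaurentSeries k}
    (h : qExpand K l z = qExpand K (l * l) y' *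
      ∏ i ∈ Finset.range l, scaleHom (Units.map (A.subtype : A →* K) ζ ^ i) yv)
    (h' : HasVal fr y' n' Y') (hv : HasVal fr yv nv Yv) :
    ∃ Z, HasVal fr z (n' + l * nv) Z ∧ qExpand k l Z = qExpand k (l * l) Y' *
      ∏ i ∈ Finset.range l, scaleHom (Units.map (π : A →* k) ζ ^ i) Yv := by
  obtain ⟨a', b', na', nb', ha', hb', he', rfl, hY'⟩ := h'
  obtain ⟨av, bv, nav, nbv, hav, hbv, hev, rfl, hYv⟩ := hv
  set ζK := Units.map (A.subtype : A →* K) ζ
  obtain ⟨B, hB⟩ : ∃ B, qExpand K l B = qExpand K (l * l) b' *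
      ∏ i ∈ Finset.range l, scaleHom (ζK ^ i) bv := by
    refine exists_qExpand_of_scaleHom_fixed hζ ?_
    rw [map_mul, map_prod, ← qExpand_qExpand l l, scaleHom_qExpand ζK l hζ.pow_eq_one]
    refine congrArg _ ?_
    simp only [scaleHom_scaleHom, ← pow_succ']
    have h1 := Finset.prod_range_succ' (fun i => scaleHom (ζK ^ i) bv) l
    have h2 := Finset.prod_range_succ (fun i => scaleHom (ζK ^ i) bv) l
    rw [h2, hζ.pow_eq_one, pow_zero] at h1
    exact (mul_right_cancel₀ (by rw [scaleHom_one]; exact hbv.ne_zero fr) h1).symm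
  obtain ⟨hA, hAlead⟩ := isVal_mixed (fr := fr) (z := z * B) (y' := a') (yv := av) (ζ := ζ)
    (by
      rw [map_mul, h, hB, ← he', ← hev, map_mul]
      simp only [map_mul, Finset.prod_mul_distrib]
      ring) ha' hav
  obtain ⟨hBv, hBlead⟩ := isVal_mixed (fr := fr) hB hb' hbv
  have hB0 := hBv.lead_ne_zero fr
  refine ⟨fr.lead (z * B) / fr.lead B,
    ⟨_, B, _, _, hA, hBv, rfl, by ring, div_mul_cancel₀ _ hB0⟩, ?_⟩
  rw [map_div₀, hAlead, hBlead, div_eq_iff (by rw [← hBlead]; exact (map_ne_zero _).mpr hB0),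
    ← hY', ← hYv]
  simp only [map_mul, Finset.prod_mul_distrib]
  ring

end FLTA.RT.Qsq

end
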