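import Fermat.Agent.RT.Qsq.OuterSwap
import Fermat.Agent.RT.Qsq.MiddleVal

/-!
# The difference of the valuations on the outer branches is Eisenstein

If `T_l f = c f^a h^p` then `p` divides `(l + 1 - a) (val f - val W f)`.
-/

set_option autoImplicit false
set_option synthInstance.maxHeartbeats 400000

noncomputable section

open AlgebraicCurve ModularCurve FLTA.Carayol.Bridge FLTA.LevelLowering

namespace FLTA.RT.Qsq

local notation "Qb" => AlgebraicClosure ℚ

variable {M q : ℕ} [NeZero M] [NeZero q]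
variable {A : ValuationSubring Qb} {k : Type*} [Field k] {π : A →+* k} {fr : Frame A π}

/-- The valuation equation of an eigenfunction. -/
theorem val_eigen {N l : ℕ} [NeZero N] [NeZero l] (hl : l.Prime) (hlN : ¬ l ∣ N)
    {f h : fld Qb N} {c : Qb} {a p : ℕ}
    (heq : heckeNormHom N l f = algebraMap Qb _ c * f ^ a * h ^ p)
    {m r e : ℤ} {F₁ H₁ C₁ : LaurentSeries k} (hm : HasVal fr (f : LaurentSeries Qb) m F₁)
    (hr : HasVal fr (h : LaurentSeries Qb) r H₁)
    (he : HasVal fr (algebraMap Qb (LaurentSeries Qb) c) e C₁) :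
    ((l : ℤ) + 1) * m = e + (a : ℤ) * m + (p : ℤ) * r := by
  obtain ⟨Z, hT, -⟩ := hm.mixed (zetaA_primitive l A)
    (isHeckeImage_heckeNormHom N l hl hlN (zetaA_primitive l A) f) hm
  have h2 := (he.mul (hm.pow a)).mul (hr.pow p)
  rw [show ((heckeNormHom N l f : modularFunctionFieldBar N) : LaurentSeries Qb) =
      algebraMap Qb (LaurentSeries Qb) c * (f : LaurentSeries Qb) ^ a *
        (h : LaurentSeries Qb) ^ p by rw [heq]; rfl] at hT
  rw [← (hT.unique h2).1]
  ring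

/-- `d (T_l f) = (l + 1) d (f)`. -/
theorem dvd_mul_sub_of_eigen (hq : q.Prime) (hqM : ¬ q ∣ M) {l : ℕ} [NeZero l] (hl : l.Prime)
    (hlq : l ≠ q) (hlM : ¬ l ∣ M) {W : fld Qb (M * q * q) →ₐ[Qb] fld Qb (M * q * q)}
    (hW : IsOuterSwap M q W) {f h : fld Qb (M * q * q)} {c : Qb} {a p : ℕ}
    (heq : heckeNormHom (M * q * q) l f = algebraMap Qb _ c * f ^ a * h ^ p)
    {m m' r r' e : ℤ} {F₁ F₂ H₁ H₂ C₁ : LaurentSeries k}
    (hm : HasVal fr (f : LaurentSeries Qb) m F₁) (hm' : HasVal fr (W f : LaurentSeries Qb) m' F₂)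
    (hr : HasVal fr (h : LaurentSeries Qb) r H₁) (hr' : HasVal fr (W h : LaurentSeries Qb) r' H₂)
    (he : HasVal fr (algebraMap Qb (LaurentSeries Qb) c) e C₁) :
    (p : ℤ) ∣ ((l : ℤ) + 1 - a) * (m - m') := by
  have hlT : ¬ l ∣ M * q * q := fun h => (hl.dvd_mul.mp h).elim
    (fun h => (hl.dvd_mul.mp h).elim hlM fun h' => hlq ((Nat.prime_dvd_prime_iff_eq hl hq).mp h'))
    fun h' => hlq ((Nat.prime_dvd_prime_iff_eq hl hq).mp h')
  have heq' : heckeNormHom (M * q * q) l (W f) = algebraMap Qb _ c * (W f) ^ a * (W h) ^ p := by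
    rw [← heckeNormHom_outerSwap hq hqM hl hlq hW, heq, map_mul, map_mul, map_pow, map_pow,
      AlgHom.commutes]
  have h1 := val_eigen hl hlT heq hm hr he
  have h2 := val_eigen hl hlT heq' hm' hr' he
  exact ⟨r - r', by linear_combination h1 - h2⟩

/-- A single non-Eisenstein eigenvalue kills `d`. -/
theorem dvd_sub_of_not_eisenstein {p l a : ℕ} [Fact p.Prime] {d : ℤ}
    (h : (p : ℤ) ∣ ((l : ℤ) + 1 - a) * d) (ha : (a : ZMod p) ≠ (l : ZMod p) + 1) : (p : ℤ) ∣ d := by
  rcases (Nat.prime_iff_prime_int.mp Fact.out).dvd_or_dvd h with h' | h'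
  · refine absurd ?_ ha
    have := (ZMod.intCast_zmod_eq_zero_iff_dvd _ p).mpr h'
    push_cast at this
    exact (sub_eq_zero.mp this).symm
  · exact h'

end FLTA.RT.Qsq

end
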