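import Fermat.Agent.RT.Qsq.MiddleHecke
import Fermat.Agent.RT.Qsq.OuterKill
import Fermat.Agent.LevelLowering.HeckeReduced

/-!
# The middle class is killed by a polynomial killing `J₀(M)`

The reduced middle expansion of a rational function of valuation `m` is `c Θ ^ m η` with `η` in
the reduced field of level `M`.  If `m` and the divisor of `η` are divisible by `p` and the
function is an eigenfunction separated from level `M`, then `η` is a `p`-th power.
-/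

set_option autoImplicit false
set_option synthInstance.maxHeartbeats 400000
set_option maxHeartbeats 1600000

noncomputable section

open AlgebraicCurve ModularCurve IsLocalRing FLTA.Congruence FLTA.Carayol.Bridge
  FLTA.LevelLowering FLTA.BadRed

namespace FLTA.RT.Qsq

local notation "Qb" => AlgebraicClosure ℚ

section General

variable {R : Type*} [Field R] {l : ℕ} [NeZero l] {ζ : Rˣ}

theorem conjProd_zero : LevelLowering.conjProd l ζ (0 : LaurentSeries R) = 0 := by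
  rw [conjProd_apply, map_zero, zero_mul]

theorem isHeckeImage_inv {y z : LaurentSeries R} (h : IsHeckeImage l ζ y z) :
    IsHeckeImage l ζ y⁻¹ z⁻¹ := by
  unfold IsHeckeImage at h ⊢
  rcases eq_or_ne y 0 with rfl | hy
  · rw [inv_zero, map_inv₀, h, conjProd_zero, inv_zero]
  · rw [map_inv₀, h]
    refine inv_eq_of_mul_eq_one_right ?_
    rw [← map_mul, mul_inv_cancel₀ hy, map_one]

theorem isHeckeImage_pow {y z : LaurentSeries R} (h : IsHeckeImage l ζ y z) (n : ℕ) :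
    IsHeckeImage l ζ (y ^ n) (z ^ n) := by
  unfold IsHeckeImage at h ⊢
  rw [map_pow, map_pow, h]

theorem isHeckeImage_zpow {y z : LaurentSeries R} (h : IsHeckeImage l ζ y z) (n : ℤ) :
    IsHeckeImage l ζ (y ^ n) (z ^ n) := by
  obtain ⟨i, rfl | rfl⟩ := Int.eq_nat_or_neg n
  · rw [zpow_natCast, zpow_natCast]; exact isHeckeImage_pow h i
  · rw [zpow_neg, zpow_neg, zpow_natCast, zpow_natCast]
    exact isHeckeImage_inv (isHeckeImage_pow h i)

end General

theorem HasVal.mixed_proportional {K : Type*} [Field K] {A : ValuationSubring K} {k : Type*}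
    [Field k] {π : A →+* k} {fr : Frame A π} {l : ℕ} [NeZero l] {ζ : Aˣ}
    (hζ : IsPrimitiveRoot (Units.map (A.subtype : A →* K) ζ) l)
    {y' yv z : LaurentSeries K} {n : ℤ} {c' cv : k} {Y : LaurentSeries k}
    (h : qExpand K l z = qExpand K (l * l) y' *
      ∏ i ∈ Finset.range l, scaleHom (Units.map (A.subtype : A →* K) ζ ^ i) yv)
    (hc' : c' ≠ 0) (hcv : cv ≠ 0) (h' : HasVal fr y' n (HahnSeries.C c' * Y))
    (hv : HasVal fr yv n (HahnSeries.C cv * Y)) :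
    ∃ (c : k) (Z : LaurentSeries k), c ≠ 0 ∧ HasVal fr z (((l : ℤ) + 1) * n) Z ∧
      IsHeckeImage l (Units.map (π : A →* k) ζ) Y (HahnSeries.C c * Z) := by
  obtain ⟨Z, hZ, hZY⟩ := h'.mixed hζ h hv
  refine ⟨(c' * cv ^ l)⁻¹, Z, inv_ne_zero (mul_ne_zero hc' (pow_ne_zero _ hcv)), ?_, ?_⟩
  · rw [show ((l : ℤ) + 1) * n = n + (l : ℤ) * n by ring]
    exact hZ
  · unfold IsHeckeImage
    rw [map_mul, qExpand_C, hZY, conjProd_apply, map_mul, qExpand_C]
    simp only [map_mul, LevelLowering.scaleHom_C, Finset.prod_mul_distrib, Finset.prod_const,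
      Finset.card_range]
    have e : HahnSeries.C (c' * cv ^ l)⁻¹ * (HahnSeries.C c' * HahnSeries.C cv ^ l) =
        (1 : LaurentSeries k) := by
      rw [← map_pow, ← map_mul, ← map_mul,
        inv_mul_cancel₀ (mul_ne_zero hc' (pow_ne_zero _ hcv)), map_one]
    linear_combination (qExpand k (l * l) Y *
      ∏ i ∈ Finset.range l, scaleHom (Units.map (π : A →* k) ζ ^ i) Y) * e

/-- Solving the eigen equation for the image of `η`. -/
theorem cancel_eq {L : Type*} [Field L] {cf w c0 ch C Θ η ηh ηT Tη : L} (hΘ : Θ ≠ 0) (hC : C ≠ 0)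
    (hη : η ≠ 0) (hT : ηT ≠ 0) {L1 r a d b : ℤ} {n p : ℕ} (hr : r = (L1 - n) * b)
    (hn : (n : ℤ) = a + d * p)
    (h : cf * (w * (c0 * Θ ^ ((p : ℤ) * b) * η) ^ n * (ch * Θ ^ r * ηh) ^ p) =
      (C * Θ ^ (L1 * 1) * ηT) ^ ((p : ℤ) * b) * Tη) :
    Tη = cf * (w * c0 ^ n * ch ^ p) / C ^ ((p : ℤ) * b) * η ^ a *
      (ηh * ηT ^ (-b) * η ^ d) ^ p := by
  have hX : (C * Θ ^ (L1 * 1) * ηT) ^ ((p : ℤ) * b) ≠ 0 :=
    zpow_ne_zero _ (mul_ne_zero (mul_ne_zero hC (zpow_ne_zero _ hΘ)) hT)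
  refine mul_left_cancel₀ hX (h.symm.trans ?_)
  subst hr
  have e1 : η ^ n = η ^ a * (η ^ d) ^ p := by
    rw [← zpow_natCast η n, hn, zpow_add₀ hη, zpow_mul, zpow_natCast]
  have e2 : (Θ ^ ((p : ℤ) * b)) ^ n * (Θ ^ ((L1 - n) * b)) ^ p =
      (Θ ^ (L1 * 1)) ^ ((p : ℤ) * b) := by
    rw [← zpow_natCast (Θ ^ ((p : ℤ) * b)) n, ← zpow_natCast (Θ ^ ((L1 - n) * b)) p, ← zpow_mul,
      ← zpow_mul, ← zpow_mul, ← zpow_add₀ hΘ]
    congr 1
    ring
  have e3 : ηT ^ ((p : ℤ) * b) * (ηT ^ (-b)) ^ p = 1 := by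
    rw [← zpow_natCast (ηT ^ (-b)) p, ← zpow_mul, ← zpow_add₀ hT,
      show (p : ℤ) * b + -b * p = 0 by ring, zpow_zero]
  have e4 : C ^ ((p : ℤ) * b) * (C ^ ((p : ℤ) * b))⁻¹ = 1 :=
    mul_inv_cancel₀ (zpow_ne_zero _ hC)
  calc _ = cf * w * c0 ^ n * ch ^ p * η ^ n * ηh ^ p *
          ((Θ ^ ((p : ℤ) * b)) ^ n * (Θ ^ ((L1 - n) * b)) ^ p) *
          (C ^ ((p : ℤ) * b) * (C ^ ((p : ℤ) * b))⁻¹) *
          (ηT ^ ((p : ℤ) * b) * (ηT ^ (-b)) ^ p) := by rw [e3, e4]; ring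
    _ = _ := by rw [e1, e2, mul_zpow, mul_zpow, div_eq_mul_inv]; ring

variable {M q : ℕ} [NeZero M] [NeZero q] {A : ValuationSubring Qb}
  (fr : Frame A (residue A))

/-- The reduced middle expansion of a function: `c Θ ^ m η`, `η` of level `M`. -/
def HasMiddleLead (Θ : LaurentSeries (ResidueField A)) (f : fld Qb (M * q * q)) (m : ℤ)
    (η : modularFunctionFieldFullC (ResidueField A) M) : Prop :=
  η ≠ 0 ∧ ∀ (u : (Qb)ˣ) (σ : fld Qb (M * q * q) →+* LaurentSeries Qb),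
    IsPrimitiveRoot u q → IsMiddle M q u σ →
      ∃ c : ResidueField A, c ≠ 0 ∧
        HasVal fr (σ f) m (HahnSeries.C c * Θ ^ m * (η : LaurentSeries (ResidueField A)))

variable [Fact q.Prime]

omit [NeZero q] in
theorem exists_root_pow {l : ℕ} (hlq : Nat.Coprime l q) {u : (Qb)ˣ} (hu : IsPrimitiveRoot u q) :
    ∃ v : (Qb)ˣ, v ^ l = u ∧ IsPrimitiveRoot v q := by
  have hq : q.Prime := Fact.out
  obtain ⟨i, hi⟩ : ∃ i, (l * i) % q = 1 := by
    obtain ⟨i, -, hi⟩ := Nat.exists_mul_mod_eq_one_of_coprime hlq hq.one_lt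
    exact ⟨i, hi⟩
  refine ⟨u ^ i, ?_, hu.pow_of_coprime i ?_⟩
  · rw [← pow_mul, mul_comm, ← pow_mod_orderOf, ← hu.eq_orderOf, hi, pow_one]
  · refine (hq.coprime_iff_not_dvd.mpr fun h => ?_).symm
    obtain ⟨j, rfl⟩ := h
    rw [← mul_assoc, mul_right_comm, Nat.mul_mod_left] at hi
    exact zero_ne_one hi

variable {S : Finset ℕ} {p : ℕ} [Fact p.Prime]

/-- **The middle class is a `p`-th power.** -/
theorem exists_pow_middle (hq2 : q ≠ 2) (hqM : ¬ q ∣ M) (hA : A.LiesOverPrime q)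
    (hS : ∀ ℓ : ℕ, ℓ.Prime → ℓ ∣ M * q → ℓ ∈ S) (a : ℕ → ℤ)
    (t : FreeAlgebra ℤ {ℓ : Nat.Primes // (ℓ : ℕ) ∉ S}) (ht1 : heckeLiftMod p a S t = 1)
    (ht0 : heckeLiftBar M S t = 0)
    {P : fld Qb (M * q * q) → Prop} {Θ : LaurentSeries (ResidueField A)} (hΘ : Θ ≠ 0)
    (hPstruct : ∀ f, P f → f ≠ 0 → ∃ m η, HasMiddleLead fr Θ f m η)
    {g : fld Qb (M * q * q)} (hg : HasMiddleLead fr Θ g 1 1)
    (hPg : ∀ (l : ℕ) (_ : NeZero l), l.Prime → l ∉ S → P (heckeNormHom (M * q * q) l g))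
    {f : fld Qb (M * q * q)} {b : ℤ} {η : modularFunctionFieldFullC (ResidueField A) M}
    (hf : HasMiddleLead fr Θ f ((p : ℤ) * b) η)
    (hdvd : ∀ Q : Place (ResidueField A) (modularFunctionFieldFullC (ResidueField A) M),
      (p : ℤ) ∣ Q.ord η)
    (heig : ∀ (l : ℕ) (_ : NeZero l), l.Prime → l ∉ S → ∃ (n : ℕ) (w : A) (h : fld Qb (M * q * q)),
      (n : ZMod p) = a l ∧ residue A w ≠ 0 ∧ P h ∧
        heckeNormHom (M * q * q) l f = algebraMap Qb _ (w : Qb) * f ^ n * h ^ p) :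
    ∃ ξ, ξ ^ p = η := by
  classical
  have hq : q.Prime := Fact.out
  have hp : p.Prime := Fact.out
  haveI := FLTA.Galois.isAlgClosed_residueField A
  have hSM : ∀ ℓ : ℕ, ℓ.Prime → ℓ ∣ M → ℓ ∈ S :=
    fun ℓ hℓ h => hS ℓ hℓ (h.trans (dvd_mul_right M q))
  have hk := FLTA.PlaceRed.rrCurve_fullC M hqM A hA
  haveI := hk.principal
  obtain ⟨hη, hflead⟩ := hf
  obtain ⟨Z, hZ, -⟩ := HasPrincipalDivisors.exists_divisor (K := ResidueField A) η hη
  refine FLTA.LevelLowering.exists_pow_eq_of_eigen (FLTA.PlaceRed.rrCurve_bar M) hk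
    (FLTA.PlaceRed.isPlaceMap_placeRed M hqM A hA)
    (heckeFamily IsLocalRing.residue_surjective M
      (FLTA.PlaceRed.natCast_residue_ne_zero M hqM A hA) hSM) hp.ne_zero
    (fun ℓ => a (ℓ.1 : ℕ)) t ht1
    (fun D hD0 => isPrincipal_divEval IsLocalRing.residue_surjective M _ hSM t ht0 D hD0)
    hη (E := Z.mapRange (fun z => z / (p : ℤ)) (Int.zero_ediv _))
    (fun Q => by rw [Finsupp.mapRange_apply, hZ, Int.mul_ediv_cancel' (hdvd Q)]) fun ℓ => ?_
  haveI : NeZero (ℓ.1 : ℕ) := ⟨ℓ.1.2.ne_zero⟩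
  set l : ℕ := (ℓ.1 : ℕ)
  have hl : l.Prime := ℓ.1.2
  have hlq : l ≠ q := fun h => ℓ.2 (by
    show l ∈ S
    rw [h]
    exact hS q hq (dvd_mul_left q M))
  have hlM : ¬ l ∣ M := fun h => ℓ.2 (hSM _ hl h)
  have hcop : Nat.Coprime l q := (Nat.coprime_primes hl hq).mpr hlq
  -- the three roots of unity
  obtain ⟨u, hu⟩ := exists_isPrimitiveRoot_units Qb q
  obtain ⟨v, hvl, hv⟩ := exists_root_pow hcop hu
  have hu' : IsPrimitiveRoot (u ^ l) q := hu.pow_of_coprime l hcop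
  obtain ⟨σ, hσ⟩ := exists_isMiddle hq hq2 hqM hu (M := M)
  obtain ⟨σ', hσ'⟩ := exists_isMiddle hq hq2 hqM hu' (M := M)
  obtain ⟨σv, hσv⟩ := exists_isMiddle hq hq2 hqM hv (M := M)
  have himg : ∀ x, qExpand Qb l (σ (heckeNormHom (M * q * q) l x)) =
      qExpand Qb (l * l) (σ' x) * ∏ i ∈ Finset.range l,
        scaleHom (Units.map (A.subtype : A →* Qb) (zetaA l A) ^ i) (σv x) := fun x =>
    qExpand_middle_heckeNormHom hq hl hlq hlM (zetaA_primitive l A) hσ hσ' hσv rfl hvl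
      hv.pow_eq_one x
  have hC : ∀ {c : ResidueField A}, c ≠ 0 →
      (HahnSeries.C c : LaurentSeries (ResidueField A)) ≠ 0 := fun hc h =>
    hc (HahnSeries.C_injective (h.trans (map_zero _).symm))
  set ζk := zetaBar l (residue A)
  set T := heckeFullHom IsLocalRing.residue_surjective M l
    (FLTA.PlaceRed.natCast_residue_ne_zero M hqM A hA) hl hlM
  have hTη : IsHeckeImage l ζk (η : LaurentSeries (ResidueField A))
      (T η : modularFunctionFieldFullC (ResidueField A) M) :=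
    isHeckeImage_heckeFullHom _ M l _ hl hlM η
  -- the image of `Θ`
  obtain ⟨-, hg'lead⟩ := hg
  obtain ⟨cu', hcu', hgu'⟩ := hg'lead _ _ hu' hσ'
  obtain ⟨cv, hcv, hgv⟩ := hg'lead _ _ hv hσv
  simp only [zpow_one, OneMemClass.coe_one, mul_one] at hgu' hgv
  obtain ⟨cg, Zg, hcg, hTgval, hTg⟩ :=
    HasVal.mixed_proportional (zetaA_primitive l A) (himg g) hcu' hcv hgu' hgv
  have hTg0 : heckeNormHom (M * q * q) l g ≠ 0 := fun h0 => by
    rw [h0, map_zero] at hTgval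
    exact hTgval.ne_zero rfl
  obtain ⟨mT, ηT, hηT, hTgs⟩ := hPstruct _ (hPg l inferInstance hl ℓ.2) hTg0
  obtain ⟨cT, hcT, hTval⟩ := hTgs u σ hu hσ
  obtain ⟨rfl, rfl⟩ := hTval.unique hTgval
  rw [← mul_assoc, ← mul_assoc, ← map_mul] at hTg
  -- the function
  obtain ⟨c1, hc1, hf'⟩ := hflead _ _ hu' hσ'
  obtain ⟨c2, hc2, hfv⟩ := hflead _ _ hv hσv
  obtain ⟨c0, hc0, hf0⟩ := hflead _ _ hu hσ
  rw [mul_assoc (HahnSeries.C c1 : LaurentSeries (ResidueField A))] at hf'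
  rw [mul_assoc (HahnSeries.C c2 : LaurentSeries (ResidueField A))] at hfv
  obtain ⟨cf, Zf, hcf, hTfval, hTf⟩ :=
    HasVal.mixed_proportional (zetaA_primitive l A) (himg f) hc1 hc2 hf' hfv
  have hTf' : IsHeckeImage l ζk (Θ ^ ((p : ℤ) * b) * (η : LaurentSeries (ResidueField A)))
      ((HahnSeries.C (cg * cT) * Θ ^ (((l : ℤ) + 1) * 1) *
          (ηT : LaurentSeries (ResidueField A))) ^ ((p : ℤ) * b) *
        ((T η : modularFunctionFieldFullC (ResidueField A) M) : LaurentSeries (ResidueField A))) :=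
    (isHeckeImage_zpow hTg _).mul hTη
  have hmain := hTf.eq hTf'
  -- the eigen equation
  obtain ⟨n, w, h, hn, hw, hPh, heq⟩ := heig l inferInstance hl ℓ.2
  have hh0 : h ≠ 0 := fun h0 => by
    rw [h0, zero_pow hp.ne_zero, mul_zero] at heq
    rw [heq, map_zero] at hTfval
    exact hTfval.ne_zero rfl
  obtain ⟨r, ηh, hηh, hhs⟩ := hPstruct h hPh hh0
  obtain ⟨ch, hch, hhv⟩ := hhs u σ hu hσ
  have hσw : σ (algebraMap Qb _ (w : Qb)) = HahnSeries.C (w : Qb) := by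
    rw [← (heckeAlphaBar Qb (M * q) q).commutes, hσ.alpha]
    exact algebraMap_laurentSeries_eq_single (L := Qb) (c := (w : Qb))
  have hσT : σ (heckeNormHom (M * q * q) l f) =
      HahnSeries.C (w : Qb) * σ f ^ n * σ h ^ p := by
    rw [heq, map_mul, map_mul, map_pow, map_pow, hσw]
  obtain ⟨hexp, rfl⟩ := hTfval.unique (hσT.symm ▸
    (((hasVal_C_unit (fr := fr) w hw).mul (hf0.pow n)).mul (hhv.pow p)))
  have hr : r = ((l : ℤ) + 1 - n) * b :=
    mul_left_cancel₀ (a := (p : ℤ)) (Int.natCast_ne_zero.mpr hp.ne_zero)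
      (by linear_combination -hexp)
  obtain ⟨d, hd⟩ : (p : ℤ) ∣ (n : ℤ) - a l := by
    have h1 : (((n : ℤ) - a l : ℤ) : ZMod p) = 0 := by
      push_cast
      rw [hn, sub_self]
    exact (ZMod.intCast_zmod_eq_zero_iff_dvd _ p).mp h1
  set c : ResidueField A := cf * (residue A w * c0 ^ n * ch ^ p) / (cg * cT) ^ ((p : ℤ) * b)
    with hc
  refine ⟨c, ηh * ηT ^ (-b) * η ^ d, ?_⟩
  show T η = algebraMap (ResidueField A) _ c * η ^ a l * (ηh * ηT ^ (-b) * η ^ d) ^ p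
  apply Subtype.ext
  push_cast
  rw [algebraMap_laurentSeries_eq_single, ← HahnSeries.C_apply]
  refine (cancel_eq hΘ (hC (mul_ne_zero hcg hcT)) (fun h => hη (Subtype.ext h))
    (fun h => hηT (Subtype.ext h)) hr (show (n : ℤ) = a l + d * (p : ℤ) by linarith) hmain).trans ?_
  simp only [hc, map_div₀, map_mul, map_pow, map_zpow₀]
  rfl

end FLTA.RT.Qsq

end
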