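import Fermat.Agent.RT.Qsq.GaussResidue
import Fermat.Agent.RT.Qsq.FamilyRoot
import Fermat.Agent.RT.Qsq.MiddleKill

/-!
# The root on the middle branch

A function whose two norms are `p`-th powers up to constants, with valuations divisible by `p` on
the outer branches, and whose middle lead is `c Θ ^ m ξ ^ p`, is a `p`-th power over the completion
at the Gauss point.
-/

set_option autoImplicit false
set_option maxHeartbeats 1600000
set_option synthInstance.maxHeartbeats 400000
set_option linter.style.haveILetI false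

noncomputable section

open IsLocalRing Polynomial ModularCurve FLTA.Carayol FLTA.BadRed FLTA.LevelLowering

namespace FLTA.RT.Qsq

local notation "Qb" => AlgebraicClosure ℚ

variable {q : ℕ} [Fact q.Prime] {A : ValuationSubring Qb} [CharP (ResidueField A) q]
  {O : Type} [CommRing O] [IsDomain O] [IsDiscreteValuationRing O]
  [IsAdicComplete (maximalIdeal O) O] {L : Type} [Field L] [Algebra O L] [IsFractionRing O L]
  {R₀ : Type} [Field R₀] {Ψ₀ : R₀[X]} {fp : FramePair q A} {ΨA : O[X]} {s : RootSplit ΨA} {T : O}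
  {ν : R₀ →+* L} {hΨ : Ψ₀.map ν = ΨA.map (algebraMap O L)}
  {Sr : Pairs Ψ₀ →+* LaurentSeries Qb}

/-- Every element of the middle ring is a constant plus a multiple of the uniformiser. -/
theorem exists_middle_decomp {R : Type} [CommRing R] {Φ : R[X]} (s : RootSplit Φ) (u : s.E') :
    ∃ b w, u = AdjoinRoot.of s.G b +
      (AdjoinRoot.root s.G - AdjoinRoot.of s.G (AdjoinRoot.root s.quo)) * w := by
  obtain ⟨p, rfl⟩ := AdjoinRoot.mk_surjective u
  obtain ⟨w, hw⟩ : X - C (AdjoinRoot.root s.quo) ∣ p - C (p.eval (AdjoinRoot.root s.quo)) := by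
    rw [dvd_iff_isRoot, IsRoot, eval_sub, eval_C, sub_self]
  refine ⟨p.eval (AdjoinRoot.root s.quo), AdjoinRoot.mk s.G w, ?_⟩
  have := congrArg (AdjoinRoot.mk s.G) hw
  rw [map_mul, map_sub, map_sub, AdjoinRoot.mk_X, AdjoinRoot.mk_C, AdjoinRoot.mk_C] at this
  rw [← this]; ring

omit [Fact q.Prime] [CharP (ResidueField A) q] in
/-- The middle ring. -/
theorem middle_facts (hs : IsGauss q ΨA s T) :
    ∃ (_ : IsLocalRing s.E) (_ : IsDomain s.E) (_ : IsDomain s.E') (_ : IsLocalRing s.E')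
      (_ : IsDiscreteValuationRing s.E'),
      (letI := (s.mapE' (algebraMap O L)).toAlgebra;
        IsFractionRing s.E' (s.map (algebraMap O L)).E') ∧
      IsAdicComplete (maximalIdeal s.E') s.E' ∧
      Irreducible (AdjoinRoot.of s.G (AdjoinRoot.root s.quo) - AdjoinRoot.root s.G) ∧
      ∀ b w, IsUnit (AdjoinRoot.of s.G b +
        (AdjoinRoot.root s.G - AdjoinRoot.of s.G (AdjoinRoot.root s.quo)) * w) ↔ IsUnit b := by
  have := Fact.mk hs.prime_q
  have := hs.isDomain_E
  have := hs.isLocalRing_E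
  have := hs.isDiscreteValuationRing_E
  have := Fact.mk (hs.irreducible_quo (L := L))
  have hd : 1 < ΨA.natDegree := by rw [hs.natDegree_eq]; have := hs.prime_q.two_le; omega
  have hG := hs.isShiftEis_G
  have hGm : s.G.Monic := s.monic_G hs.monic hd
  have := hs.monic_quo.finite_adjoinRoot
  have : IsNoetherianRing s.E := IsNoetherianRing.of_finite O _
  have hq0 : (q : s.E) ≠ 0 := fun h => IsDiscreteValuationRing.not_a_field s.E
    (by rw [hs.maximalIdeal_E, h, Ideal.span_singleton_zero])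
  have : IsDomain s.E' := isDomain_adjoinRoot_of_irreducible (hG.irreducible hq0)
  have := hG.isLocalRing
  have := hG.isDiscreteValuationRing
  have := hGm.finite_adjoinRoot
  have := finite_adjoinRoot_complete hs.monic_quo (by rw [hs.natDegree_quo]; exact hs.prime_q.pos)
  have hcomp := finite_adjoinRoot_complete hGm hG.natDegree_pos
  refine ⟨inferInstance, inferInstance, inferInstance, inferInstance, inferInstance, ?_, hcomp,
    ?_, fun b w => ?_⟩
  · letI := (s.mapE (algebraMap O L)).toAlgebra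
    have := hs.isFractionRing_E (L := L)
    have := Fact.mk (hs.irreducible_G (L := L))
    letI : Algebra s.E' (s.map (algebraMap O L)).E' := (s.mapE' (algebraMap O L)).toAlgebra
    have hGmap : s.G.map (algebraMap s.E (s.map (algebraMap O L)).E) =
        (s.map (algebraMap O L)).G := s.G_map (algebraMap O L)
    have hinj : Function.Injective (s.mapE' (algebraMap O L)) :=
      adjoinRoot_map_injective (IsFractionRing.injective s.E (s.map (algebraMap O L)).E) hGm hGmap
    have : FaithfulSMul s.E' (s.map (algebraMap O L)).E' :=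
      (faithfulSMul_iff_algebraMap_injective _ _).2 hinj
    refine IsFractionRing.of_field _ _ fun y => ?_
    obtain ⟨r, w, hr, hw⟩ := exists_mul_eq_adjoinRootMap hGmap y
    refine ⟨w, AdjoinRoot.of s.G r, ?_⟩
    show y = s.mapE' (algebraMap O L) w / s.mapE' (algebraMap O L) (AdjoinRoot.of s.G r)
    have hw' : AdjoinRoot.of _ (s.mapE (algebraMap O L) r) * y = s.mapE' (algebraMap O L) w := hw
    rw [show s.mapE' (algebraMap O L) (AdjoinRoot.of s.G r) =
      AdjoinRoot.of _ (s.mapE (algebraMap O L) r) by simp [RootSplit.mapE'], ← hw',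
      mul_div_cancel_left₀]
    exact (_root_.map_ne_zero _).2
      ((map_ne_zero_iff _ (IsFractionRing.injective s.E (s.map (algebraMap O L)).E)).2 hr)
  · refine (IsDiscreteValuationRing.irreducible_iff_uniformizer _).2 ?_
    rw [hG.maximalIdeal_eq, ← Ideal.span_singleton_neg, neg_sub]
  · have hπ : (AdjoinRoot.root s.G - AdjoinRoot.of s.G (AdjoinRoot.root s.quo)) * w ∈
        maximalIdeal s.E' := by
      rw [hG.maximalIdeal_eq]
      exact Ideal.mul_mem_right _ _ (Ideal.mem_span_singleton_self _)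
    rw [← not_iff_not, ← mem_nonunits_iff, ← mem_nonunits_iff, ← mem_maximalIdeal,
      ← mem_maximalIdeal, (maximalIdeal s.E').add_mem_iff_left hπ]
    constructor
    · intro h
      by_contra hb
      exact h ((IsLocalRing.notMem_maximalIdeal.mp hb).map (AdjoinRoot.of s.G))
    · intro h
      rw [hG.max_eq, Ideal.mem_span_singleton] at h
      obtain ⟨c, rfl⟩ := h
      rw [hG.maximalIdeal_eq, map_mul]
      exact Ideal.mul_mem_right _ _ hG.of_mem_span

section Middle

theorem cancel_theta {F : Type*} [Field F] {Θ x η : F} (hΘ : Θ ≠ 0) {a i : ℤ} {p : ℕ} :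
    Θ ^ (a * ((p : ℤ) * i)) * x ^ p * ((Θ ^ a * η) ^ ((p : ℤ) * i))⁻¹ = (x * (η ^ i)⁻¹) ^ p := by
  have h0 : Θ ^ (a * ((p : ℤ) * i)) ≠ 0 := zpow_ne_zero _ hΘ
  rw [mul_zpow, ← zpow_mul Θ, mul_pow, inv_pow, ← zpow_natCast (η ^ i) p, ← zpow_mul,
    mul_comm i (p : ℤ)]
  field_simp

variable [Fact (Irreducible Ψ₀)] [Fact (Irreducible (sndPoly Ψ₀))]

omit [CharP (ResidueField A) q] in
/-- **The middle branch and the middle expansions.** -/
theorem middle_residue (hq2 : q ≠ 2) (hs : IsGauss q ΨA s T) (G : GaussRes fp s ν hΨ Sr)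
    (ms : MidSeries q Sr) {τ : R₀} (hτ : ν τ = algebraMap O L T)
    (hD : ∀ i, GeF fp.fr (ms.Sm i (Pairs.fst Ψ₀ - Pairs.snd Ψ₀)) 1)
    {mD : ℤ} {YD : LaurentSeries (ResidueField A)} {d : Fin (q - 1) → ResidueField A}
    (hDlead : ∀ i, HasVal fp.fr (ms.Sm i (Pairs.fst Ψ₀ - Pairs.snd Ψ₀)) mD
      (HahnSeries.C (d i) * YD))
    {y : Pairs Ψ₀} {u : s.E'} (hu : IsUnit u) {b : s.E} {w : s.E'}
    (hub : u = AdjoinRoot.of s.G b +
      (AdjoinRoot.root s.G - AdjoinRoot.of s.G (AdjoinRoot.root s.quo)) * w) {k : ℤ}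
    (hy : ∃ _ : Fact (Irreducible (s.map (algebraMap O L)).quo),
      ∃ _ : Fact (Irreducible (s.map (algebraMap O L)).G),
      (s.map (algebraMap O L)).brₘ (Pairs.map ν hΨ y) = s.mapE' (algebraMap O L) u *
        s.mapE' (algebraMap O L)
          (AdjoinRoot.of s.G (AdjoinRoot.root s.quo) - AdjoinRoot.root s.G) ^ k)
    {m : ℤ} {Y : LaurentSeries (ResidueField A)} {c : Fin (q - 1) → ResidueField A}
    (hlead : ∀ i, HasVal fp.fr (ms.Sm i y) m (HahnSeries.C (c i) * Y)) :
    m = k * mD ∧ ∃ c' : ResidueField A, c' ≠ 0 ∧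
      G.hbar b = HahnSeries.C c' * (Y * (YD ^ k)⁻¹) := by
  obtain ⟨_, _, hy⟩ := hy
  obtain ⟨_, _, _, _, _, -, -, -, hiff⟩ := middle_facts (L := L) hs
  set D : Pairs Ψ₀ := Pairs.fst Ψ₀ - Pairs.snd Ψ₀ with hDdef
  let φm : Pairs Ψ₀ →+* (s.map (algebraMap O L)).E' :=
    (s.map (algebraMap O L)).brₘ.comp (Pairs.map ν hΨ)
  have hφD : φm D = s.mapE' (algebraMap O L)
      (AdjoinRoot.of s.G (AdjoinRoot.root s.quo) - AdjoinRoot.root s.G) := by
    simp [φm, hDdef, RootSplit.brₘ, RootSplit.mapE', RootSplit.mapE]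
  have h0 : 0 < q - 1 := by
    have := (Fact.out : q.Prime).two_le
    omega
  have hD0 : D ≠ 0 := fun h => (hDlead ⟨0, h0⟩).ne_zero (by rw [h, map_zero])
  have hπ0 : φm D ≠ 0 := (_root_.map_ne_zero φm).2 hD0
  have hy' : φm (y * (D ^ k)⁻¹) = s.mapE' (algebraMap O L) u := by
    rw [map_mul, map_inv₀, map_zpow₀, show φm y = _ from hy, ← hφD, mul_assoc,
      mul_inv_cancel₀ (zpow_ne_zero _ hπ0), mul_one]
  have hl : ∀ i, HasVal fp.fr (ms.Sm i (y * (D ^ k)⁻¹)) (m - k * mD)
      (HahnSeries.C (c i * (d i ^ k)⁻¹) * (Y * (YD ^ k)⁻¹)) := fun i => by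
    have h := (hlead i).mul ((hDlead i).zpow k).inv
    simp only [map_mul, map_inv₀, map_zpow₀, sub_eq_add_neg, mul_zpow, mul_inv] at h ⊢
    convert h using 1
    ring
  have hb : IsUnit b := (hiff b w).1 (hub ▸ hu)
  obtain ⟨hle, hex⟩ := middle_core hs G ms hτ hD hb (y := y * (D ^ k)⁻¹) (w := w)
    (by rw [← hub]; exact hy') hl
  obtain ⟨v, hv⟩ := hu.exists_right_inv
  obtain ⟨b', w', hv'⟩ := exists_middle_decomp s v
  have hb' : IsUnit b' := (hiff b' w').1 (hv' ▸ IsUnit.of_mul_eq_one_right _ hv)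
  obtain ⟨hle', -⟩ := middle_core hs G ms hτ hD hb' (y := (y * (D ^ k)⁻¹)⁻¹) (w := w')
    (by
      show φm _ = _
      rw [← hv', map_inv₀, hy']
      exact inv_eq_of_mul_eq_one_right (by rw [← map_mul, hv, map_one]))
    (m := -(m - k * mD)) (Y := (Y * (YD ^ k)⁻¹)⁻¹) (c := fun i => (c i * (d i ^ k)⁻¹)⁻¹)
    fun i => by
      have h := (hl i).inv
      rw [map_inv₀, map_inv₀ HahnSeries.C, ← mul_inv]
      exact h
  have hm : m = k * mD := by omega
  exact ⟨hm, hex (by omega)⟩

omit [CharP (ResidueField A) q] [Fact (Irreducible Ψ₀)] [Fact (Irreducible (sndPoly Ψ₀))] in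
/-- The exponent of a middle element whose norm is a `p`-th power. -/
theorem dvd_of_norm (hs : IsGauss q ΨA s T) {p : ℕ} (hp : p ≠ 0) {u : s.E'} (hu : IsUnit u)
    {k : ℤ} {g : (s.map (algebraMap O L)).E}
    (hq : Fact (Irreducible (s.map (algebraMap O L)).quo))
    (hG : Fact (Irreducible (s.map (algebraMap O L)).G))
    (hg : g ^ p = Algebra.norm (s.map (algebraMap O L)).E (s.mapE' (algebraMap O L) u *
      s.mapE' (algebraMap O L)
        (AdjoinRoot.of s.G (AdjoinRoot.root s.quo) - AdjoinRoot.root s.G) ^ k)) :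
    (p : ℤ) ∣ k := by
  obtain ⟨_, _, _, _, _, hfrac, -, hirr', -⟩ := middle_facts (L := L) hs
  have := hs.isDiscreteValuationRing_E
  letI := (s.mapE (algebraMap O L)).toAlgebra
  have := hs.isFractionRing_E (L := L)
  letI : Algebra s.E' (s.map (algebraMap O L)).E' := (s.mapE' (algebraMap O L)).toAlgebra
  have := hfrac
  have hEG := hs.isShiftEis_G
  have hd : 1 < ΨA.natDegree := by rw [hs.natDegree_eq]; have := hs.prime_q.two_le; omega
  have hGm : s.G.Monic := s.monic_G hs.monic hd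
  have hirr : Irreducible (q : s.E) :=
    (IsDiscreteValuationRing.irreducible_iff_uniformizer _).2 hs.maximalIdeal_E
  set π' : s.E' := AdjoinRoot.of s.G (AdjoinRoot.root s.quo) - AdjoinRoot.root s.G with hπ'
  have hGmap : s.G.map (algebraMap s.E (s.map (algebraMap O L)).E) =
      (s.map (algebraMap O L)).G := s.G_map (algebraMap O L)
  have hGL : (s.map (algebraMap O L)).G.Monic := hGmap ▸ hGm.map _
  have := hGL.finite_adjoinRoot
  obtain ⟨u₀, hu₀, hue⟩ := hEG.eval_eq
  set ι := algebraMap s.E (s.map (algebraMap O L)).E with hι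
  have hnπ : Algebra.norm (s.map (algebraMap O L)).E (s.mapE' (algebraMap O L) π') =
      ι ((q : s.E) * u₀) := by
    have e1 : s.mapE' (algebraMap O L) π' =
        algebraMap (s.map (algebraMap O L)).E _ (ι (AdjoinRoot.root s.quo)) -
          AdjoinRoot.root (s.map (algebraMap O L)).G := by
      simp [hπ', RootSplit.mapE', hι, RingHom.algebraMap_toAlgebra, AdjoinRoot.algebraMap_eq]
    let pb := AdjoinRoot.powerBasis hGL.ne_zero
    have hgen : pb.gen = AdjoinRoot.root (s.map (algebraMap O L)).G := rfl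
    rw [e1, ← hgen, Algebra.norm_eq_matrix_det pb.basis, map_sub, AlgHom.commutes,
      Matrix.algebraMap_eq_diagonal]
    have h1 := Matrix.eval_charpoly (Algebra.leftMulMatrix pb.basis pb.gen)
      (ι (AdjoinRoot.root s.quo))
    rw [charpoly_leftMulMatrix, AdjoinRoot.minpoly_powerBasis_gen_of_monic hGL] at h1
    rw [← hue, ← eval₂_at_apply, ← eval_map, hι, hGmap, h1]
    simp [Matrix.scalar_apply]
    rfl
  have hnu : Algebra.norm (s.map (algebraMap O L)).E (s.mapE' (algebraMap O L) u) =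
      ι (Algebra.norm s.E u) :=
    norm_adjoinRoot_map hGm (s.mapE (algebraMap O L)) (s.G_map (algebraMap O L)) u
  have hgz : g ≠ 0 := by
    rintro rfl
    rw [zero_pow hp, eq_comm, Algebra.norm_eq_zero_iff] at hg
    exact mul_ne_zero ((hu.map _).ne_zero) (zpow_ne_zero _ ((map_ne_zero_iff _
      (IsFractionRing.injective s.E' (s.map (algebraMap O L)).E')).2 hirr'.ne_zero)) hg
  obtain ⟨v, j, hv, rfl⟩ := exists_eq_unit_mul_zpow (B := s.E) hirr hgz
  obtain ⟨uu, rfl⟩ := hu₀
  have huk : ι (uu : s.E) ^ k = ι ((uu ^ k : s.Eˣ) : s.E) := by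
    have h2 := congrArg Units.val
      (map_zpow (Units.map (ι : s.E →* (s.map (algebraMap O L)).E)) uu k)
    rw [Units.val_zpow_eq_zpow_val, Units.coe_map, Units.coe_map] at h2
    exact h2.symm
  rw [map_mul, norm_zpow₀, hnu, hnπ, mul_pow, ← map_pow, ← zpow_natCast (ι (q : s.E) ^ j),
    ← zpow_mul, map_mul, mul_zpow, huk, mul_comm (ι (q : s.E) ^ k), ← mul_assoc, ← map_mul] at hg
  obtain ⟨rfl, -⟩ := unit_mul_zpow_inj hirr (hv.pow p) ((hu.map _).mul (Units.isUnit _)) hg
  exact dvd_mul_left _ _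

/-- **A root on the middle branch.** -/
theorem exists_pow_brₘ (hq2 : q ≠ 2) (hs : IsGauss q ΨA s T) (G : GaussRes fp s ν hΨ Sr)
    (ms : MidSeries q Sr) {τ : R₀} (hτ : ν τ = algebraMap O L T)
    (hD : ∀ i, GeF fp.fr (ms.Sm i (Pairs.fst Ψ₀ - Pairs.snd Ψ₀)) 1)
    [NeZero q] {M : ℕ} [NeZero M]
    (hC : ∀ c : ResidueField A, ∃ a : O, G.hbar (AdjoinRoot.of s.quo a) = HahnSeries.C c)
    (hgen : ∀ d : ℕ, [NeZero d] → d ∣ M → ∃ r : R₀,
      HasVal fp.fr₀ (Sr (Pairs.ofBase Ψ₀ r)) 0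
        (qExpand (ResidueField A) q (qExpand (ResidueField A) d (jqModC (ResidueField A)))))
    {Θ : LaurentSeries (ResidueField A)} (hΘ : Θ ≠ 0) {mD : ℤ}
    {ηD : modularFunctionFieldFullC (ResidueField A) M} {d : Fin (q - 1) → ResidueField A}
    (hDlead : ∀ i, HasVal fp.fr (ms.Sm i (Pairs.fst Ψ₀ - Pairs.snd Ψ₀)) mD
      (HahnSeries.C (d i) * (Θ ^ mD * (ηD : LaurentSeries (ResidueField A)))))
    {p : ℕ} (hp : p ≠ 0) (hn : IsUnit (p : O)) (hpq : Nat.Coprime p q)
    (hquo : Fact (Irreducible (s.map (algebraMap O L)).quo))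
    (hGfact : Fact (Irreducible (s.map (algebraMap O L)).G))
    {y : Pairs Ψ₀} {g : (s.map (algebraMap O L)).E}
    (hg : g ^ p = Algebra.norm (s.map (algebraMap O L)).E
      ((s.map (algebraMap O L)).brₘ (Pairs.map ν hΨ y)))
    {m : ℤ} {ξ : modularFunctionFieldFullC (ResidueField A) M}
    {c : Fin (q - 1) → ResidueField A}
    (hlead : ∀ i, HasVal fp.fr (ms.Sm i y) m
      (HahnSeries.C (c i) * (Θ ^ m * ((ξ ^ p : modularFunctionFieldFullC (ResidueField A) M) :
        LaurentSeries (ResidueField A))))) :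
    ∃ e, e ^ p = (s.map (algebraMap O L)).brₘ (Pairs.map ν hΨ y) := by
  obtain ⟨_, _, _, _, _, hfrac, hcomp, hirr', hiff⟩ := middle_facts (L := L) hs
  have := hs.isDiscreteValuationRing_E
  have := G.local_hom
  letI : Algebra s.E' (s.map (algebraMap O L)).E' := (s.mapE' (algebraMap O L)).toAlgebra
  have := hfrac
  have := hcomp
  have := henselianLocalRing_of_isAdicComplete (B := s.E')
  haveI := FLTA.Galois.isAlgClosed_residueField A
  have h0 : 0 < q - 1 := by
    have := (Fact.out : q.Prime).two_le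
    omega
  have hy0 : y ≠ 0 := fun h => (hlead ⟨0, h0⟩).ne_zero (by rw [h, map_zero])
  obtain ⟨u, k, hu, he⟩ := exists_eq_unit_mul_zpow (B := s.E') hirr'
    (show (s.map (algebraMap O L)).brₘ (Pairs.map ν hΨ y) ≠ 0 from
      (_root_.map_ne_zero ((s.map (algebraMap O L)).brₘ.comp (Pairs.map ν hΨ))).2 hy0)
  have he' : (s.map (algebraMap O L)).brₘ (Pairs.map ν hΨ y) = s.mapE' (algebraMap O L) u *
      s.mapE' (algebraMap O L)
        (AdjoinRoot.of s.G (AdjoinRoot.root s.quo) - AdjoinRoot.root s.G) ^ k := he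
  obtain ⟨i, rfl⟩ := dvd_of_norm hs hp hu hquo hGfact (by rw [hg, he'])
  obtain ⟨b, w, hub⟩ := exists_middle_decomp s u
  obtain ⟨hm, c', hc', hb⟩ := middle_residue hq2 hs G ms hτ hD hDlead hu hub ⟨hquo, hGfact, he'⟩
    hlead
  -- the residue
  obtain ⟨e, hep⟩ := IsAlgClosed.exists_pow_nat_eq c' (Nat.pos_of_ne_zero hp)
  set X₁ : modularFunctionFieldFullC (ResidueField A) M := ξ * (ηD ^ i)⁻¹
  have hb2 : G.hbar b =
      (HahnSeries.C e * (X₁ : LaurentSeries (ResidueField A))) ^ p := by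
    rw [hb, mul_pow, ← map_pow, hep, hm]
    congr 1
    simp only [X₁]
    push_cast
    rw [mul_comm ((p : ℤ) * i) mD]
    exact cancel_theta hΘ
  obtain ⟨⟨a₁, ha₁⟩, -⟩ := exists_residue_pow hs G hC hgen X₁
  obtain ⟨a₂, ha₂⟩ := hC (e ^ q)
  have hbu : IsUnit b := (hiff b w).1 (hub ▸ hu)
  have hres : residue s.E b ^ q = residue s.E (AdjoinRoot.of s.quo (a₂ * a₁)) ^ p := by
    refine (ResidueField.lift G.hbar).injective ?_
    rw [map_pow, map_pow, ResidueField.lift_residue_apply, ResidueField.lift_residue_apply,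
      hb2, map_mul, map_mul, ha₂, ha₁, ← pow_mul, map_pow, ← mul_pow, ← pow_mul, mul_comm p q]
  obtain ⟨r, hr⟩ := exists_pow_eq_of_coprime hpq ((hbu.map (residue s.E)).ne_zero) hres
  obtain ⟨r, rfl⟩ := residue_surjective r
  have hres' : residue s.E' (AdjoinRoot.of s.G r) ^ p = residue s.E' u := by
    have hG := hs.isShiftEis_G
    rw [← map_pow, ← map_pow, ← sub_eq_zero, ← map_sub, residue_eq_zero_iff, hub,
      ← sub_sub, ← map_sub, sub_eq_add_neg]
    refine Ideal.add_mem _ ?_ (Submodule.neg_mem _ ?_)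
    · rw [← map_pow, ← sub_eq_zero, ← map_sub, residue_eq_zero_iff, hG.max_eq,
        Ideal.mem_span_singleton] at hr
      obtain ⟨c₀, hc₀⟩ := hr
      rw [hc₀, hG.maximalIdeal_eq, map_mul]
      exact Ideal.mul_mem_right _ _ hG.of_mem_span
    · rw [hG.maximalIdeal_eq]
      exact Ideal.mul_mem_right _ _ (Ideal.mem_span_singleton_self _)
  obtain ⟨x, hx⟩ := exists_pow_eq_of_residue
    (by simpa using (hn.map (AdjoinRoot.of s.quo)).map (AdjoinRoot.of s.G)) hu hres'
  refine ⟨s.mapE' (algebraMap O L) x * s.mapE' (algebraMap O L)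
    (AdjoinRoot.of s.G (AdjoinRoot.root s.quo) - AdjoinRoot.root s.G) ^ i, ?_⟩
  rw [mul_pow, ← map_pow, hx, he', ← zpow_natCast (_ ^ i), ← zpow_mul, mul_comm i]

end Middle

end FLTA.RT.Qsq

end
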