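import Fermat.Agent.Carayol.BridgeModel
import Fermat.Agent.BadRed.Galois

/-!
# The model of the two levels with its degeneracy maps and its swap

`exists_cover_model` records how the pair algebra and the two level `N q` algebras sit under the
degeneracy maps, and that the two coordinates differ by the involution at `q`.
-/

set_option autoImplicit false
set_option synthInstance.maxHeartbeats 400000

noncomputable section

open Polynomial ModularCurve ModularCurve.IgusaScheme AlgebraicCurve FLTA.Carayol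
  FLTA.Carayol.Bridge

namespace FLTA.RT.Qsq

section Swap

variable {K : Type} [Field K] [Algebra ℚ K] {q L M : ℕ} [hq : Fact q.Prime] [NeZero q] [NeZero L]
  [NeZero M] {t : ↥(modularFunctionFieldFull M)}

/-- `w` exchanges the two degeneracy maps on the generators of level `M q`. -/
def IsSwap (K : Type) [Field K] [Algebra ℚ K] (q : ℕ) [NeZero q] {M : ℕ} [NeZero M]
    (t : ↥(modularFunctionFieldFull M)) (w : fld K (M * q) →+* fld K (M * q)) : Prop :=
  (∀ y, w (heckeBetaBar K M q y) = heckeAlphaBar K M q y) ∧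
    w (heckeAlphaBar K M q (ofFull K M t)) = heckeBetaBar K M q (ofFull K M t)

omit hq in
/-- Homomorphisms out of level `M q` are determined on level `M` along `τ ↦ q τ` and on `t(τ)`. -/
theorem fldMul_hom_ext (hL : Haupt.IsHauptLevel L) (ht : Chart.IsTFull L M t) {F : Type} [Field F]
    {f g : fld K (M * q) →+* F} (hβ : ∀ y, f (heckeBetaBar K M q y) = g (heckeBetaBar K M q y))
    (hα : f (heckeAlphaBar K M q (ofFull K M t)) = g (heckeAlphaBar K M q (ofFull K M t))) :
    f = g := by
  let S : Subfield (fld K (M * q)) := f.eqLocusField g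
  suffices h : S = ⊤ from RingHom.ext fun x => show x ∈ S from h ▸ Subfield.mem_top x
  refine fld_subfield_eq_top S (fun c => ?_) _ (fld_mul_le_adjoin_beta K M q) ?_
  · rw [← (heckeBetaBar K M q).commutes c]
    exact hβ _
  · rintro z (rfl | ⟨y, hy, rfl⟩)
    · exact ⟨(heckeAlphaBar K M q).toRingHom (jOf K 1 (one_dvd M)),
        jOf_one_mem hL ht (heckeAlphaBar K M q).toRingHom S hα,
        by simp [coe_jOf, qExpand_one_apply]⟩
    · exact ⟨heckeBetaBar K M q ⟨y, hy⟩, hβ _, by simp⟩

omit hq in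
theorem IsSwap.unique (hL : Haupt.IsHauptLevel L) (ht : Chart.IsTFull L M t)
    {w w' : fld K (M * q) →+* fld K (M * q)} (h : IsSwap K q t w) (h' : IsSwap K q t w') :
    w = w' :=
  fldMul_hom_ext hL ht (fun y => (h.1 y).trans (h'.1 y).symm) (h.2.trans h'.2.symm)

/-- The involution exists over every field of constants. -/
theorem exists_isSwap (hqM : ¬ q ∣ M) (hqL : ¬ q ∣ L) (hL : Haupt.IsHauptLevel L)
    (ht : Chart.IsTFull L M t) :
    ∃ w : fld K (M * q) →+* fld K (M * q), IsSwap K q t w := by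
  obtain ⟨Φ, hΦ⟩ := Haupt.exists_isModEq q L hL hqL
  let f : ℤ[X] →+* fld K M := Chart.evalInt (ofFull K M t)
  have hf : (RingHom.id _) (f X) = ofFull K M t := Chart.evalInt_X _
  obtain ⟨e, he, hea, her⟩ := exists_levelFst (γ := RingHom.id (fld K M)) (f := f) hqM hL ht hΦ
    Function.bijective_id hf
  obtain ⟨e', -, he'a, he'r⟩ := exists_levelSnd (γ := RingHom.id (fld K M)) (f := f) hqM hL ht hΦ
    Function.bijective_id hf
  refine ⟨e'.comp (RingEquiv.ofBijective e he).symm.toRingHom, fun y => ?_, ?_⟩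
  · rw [RingHom.comp_apply, RingEquiv.toRingHom_eq_coe, RingHom.coe_coe,
      show (RingEquiv.ofBijective e he).symm (heckeBetaBar K M q y) = AdjoinRoot.of _ y from
        (RingEquiv.symm_apply_eq _).2 (hea y).symm, he'a]
    rfl
  · rw [RingHom.comp_apply, RingEquiv.toRingHom_eq_coe, RingHom.coe_coe,
      show (RingEquiv.ofBijective e he).symm (heckeAlphaBar K M q (ofFull K M t)) =
        AdjoinRoot.root _ from (RingEquiv.symm_apply_eq _).2 her.symm, he'r]

theorem mapF_ofFull {K' : Type} [Field K'] [Algebra ℚ K'] (g : K →+* K') (n : ℕ)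
    (x : ↥(modularFunctionFieldFull n)) : mapF g n (ofFull K n x) = ofFull K' n x :=
  Subtype.ext (by simp [FLTA.Carayol.Bridge.coeffMap_coeffEmb])

omit hq in
/-- The involutions commute with a change of constants. -/
theorem IsSwap.mapF_comm (hL : Haupt.IsHauptLevel L) (ht : Chart.IsTFull L M t)
    {K' : Type} [Field K'] [Algebra ℚ K'] (g : K →+* K')
    {w : fld K (M * q) →+* fld K (M * q)} {w' : fld K' (M * q) →+* fld K' (M * q)}
    (h : IsSwap K q t w) (h' : IsSwap K' q t w') (x : fld K (M * q)) :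
    mapF g (M * q) (w x) = w' (mapF g (M * q) x) := by
  refine RingHom.congr_fun (fldMul_hom_ext hL ht (f := (mapF g (M * q)).comp w)
    (g := w'.comp (mapF g (M * q))) (fun y => ?_) ?_) x
  · simp only [RingHom.comp_apply]
    rw [h.1, mapF_heckeAlpha, mapF_heckeBeta, h'.1]
  · simp only [RingHom.comp_apply]
    rw [h.2, mapF_heckeBeta, mapF_heckeAlpha, mapF_ofFull, h'.2]

/-- The involution of the fibre is the involution of the model. -/
theorem isSwap_swapBar (hqM : ¬ q ∣ M) :
    IsSwap (AlgebraicClosure ℚ) q t (BadRed.swapBar M q hqM).toRingHom :=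
  ⟨fun y => AlgHom.congr_fun (BadRed.swapBar_beta M q hqM) y,
    AlgHom.congr_fun (BadRed.swapBar_alpha M q hqM) (ofFull (AlgebraicClosure ℚ) M t)⟩

end Swap

section Model

variable {W : Type} [CommRing W] [IsDomain W] [IsNoetherianRing W]
variable {q L M : ℕ} [hq : Fact q.Prime] [NeZero q] [NeZero L] [NeZero M]
variable [CharZero W] [Fact (Prime (C (q : W) : W[X]))]

/-- The model, with its degeneracy maps. -/
structure CoverModel (K : Type) [Field K] [Algebra ℚ K] [Algebra W K] (q : ℕ) [NeZero q]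
    [Fact (Prime (C (q : W) : W[X]))] {M : ℕ} [NeZero M] (Φ : ℤ[X][X]) (Q : W[X][X])
    (t : ↥(modularFunctionFieldFull M)) where
  /-- level `M` -/
  γ : CoverAlg W Q →+* fld K M
  γ_const : ∀ w, γ (coverBase Q (C w)) = algebraMap K _ (algebraMap W K w)
  γ_X : γ (coverBase Q X) = ofFull K M t
  γ_bij : Function.Bijective γ
  /-- level `M q²` -/
  ψ : Pairs (coverPhi Φ Q) →+* fld K (M * q * q)
  /-- level `M q`, by `t(τ)` over `t(q τ)` -/
  e : AdjoinRoot (coverPhi Φ Q) →+* fld K (M * q)
  /-- level `M q`, by `t(q τ)` over `t(τ)` -/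
  e' : AdjoinRoot (coverPhi Φ Q) →+* fld K (M * q)
  ψ_bij : Function.Bijective ψ
  e_bij : Function.Bijective e
  e'_bij : Function.Bijective e'
  e_of : ∀ a, e (AdjoinRoot.of _ a) = heckeBetaBar K M q (γ a)
  e_root : e (AdjoinRoot.root _) = heckeAlphaBar K M q (ofFull K M t)
  e'_of : ∀ a, e' (AdjoinRoot.of _ a) = heckeAlphaBar K M q (γ a)
  e'_root : e' (AdjoinRoot.root _) = heckeBetaBar K M q (ofFull K M t)
  ψ_fst : ∀ a, ψ (AdjoinRoot.of _ a) = heckeAlphaBar K (M * q) q (e a)
  ψ_swap : ∀ a, ψ (Pairs.swap _ (AdjoinRoot.of _ a)) = heckeBetaBar K (M * q) q (e' a)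
  normFst : ∀ y, e (Pairs.normFst _ y) = normA K (M * q) q (ψ y)
  normSnd : ∀ y, e' (Pairs.normSnd _ y) = normB K (M * q) q (ψ y)

theorem nonempty_coverModel (hqM : ¬ q ∣ M) (hL : Haupt.IsHauptLevel L)
    {Φ : ℤ[X][X]} (hΦ : Haupt.IsModEq q L Φ)
    {t θ : ↥(modularFunctionFieldFull M)} (ht : Chart.IsTFull L M t)
    (hgen : IntermediateField.adjoin ℚ ({t, θ} : Set ↥(modularFunctionFieldFull M)) = ⊤)
    {Q₀ : (Smooth.Zloc q)[X][X]}
    (hroot : Q₀.eval₂ (Polynomial.eval₂RingHom
      ((algebraMap ℚ ↥(modularFunctionFieldFull M)).comp (GaloisRep.ratLocalizedAt q).subtype) t)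
      θ = 0)
    (π : Smooth.Zloc q →+* W) (hQ : LineCover W q L (Q₀.map (mapRingHom π)))
    {K : Type} [Field K] [Algebra ℚ K] [Algebra W K] [IsFractionRing W K] :
    Nonempty (CoverModel (W := W) K q Φ (Q₀.map (mapRingHom π)) t) := by
  obtain ⟨γ, hγ, hγc, hγt⟩ := exists_cover_equiv (K := K) ht hgen hroot π hQ.irreducible
  have : Fact (Irreducible ((Q₀.map (mapRingHom π)).map
    (algebraMap W[X] (FractionRing W[X])))) := ⟨hQ.irreducible⟩
  set f := (coverBase (Q₀.map (mapRingHom π))).comp (mapRingHom (Int.castRingHom W))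
  have hf : γ (f X) = ofFull K M t := by simp [f, hγt]
  obtain ⟨e, he, hea, her⟩ := exists_levelFst (γ := γ) (f := f) hqM hL ht hΦ hγ hf
  obtain ⟨e', he', he'a, he'r⟩ := exists_levelSnd (γ := γ) (f := f) hqM hL ht hΦ hγ hf
  obtain ⟨ψ, hψ, hψa, hψs⟩ := exists_levelPairs hqM hL ht hΦ hf e he hea her
  have : Fact (Irreducible (Φ.map f)) := ⟨irreducible_of_bijective (hΦ.monic.map f) he⟩
  have hψb : ∀ a, ψ (Pairs.ofBase _ a) =
      heckeBetaBar K (M * q) q (heckeAlphaBar K M q (γ a)) := fun a => by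
    show ψ (AdjoinRoot.of _ (AdjoinRoot.of _ a)) = _
    rw [hψa, hea]
    exact Subtype.ext (by simp)
  have hswap : (ψ.comp (Pairs.swap _)).comp (AdjoinRoot.of (sndPoly (Φ.map f))) =
      (heckeBetaBar K (M * q) q).toRingHom.comp e' := by
    refine AdjoinRoot.ringHom_ext (RingHom.ext fun a => ?_) ?_
    · show ψ (Pairs.swap _ (Pairs.ofBase _ a)) = heckeBetaBar K (M * q) q (e' (AdjoinRoot.of _ a))
      rw [Pairs.swap_ofBase, hψb, he'a]
    · show ψ (Pairs.swap _ (Pairs.fst _)) = heckeBetaBar K (M * q) q (e' (AdjoinRoot.root _))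
      rw [Pairs.swap_fst, hψs, he'r]
  refine ⟨⟨γ, hγc, hγt, hγ, ψ, e, e', hψ, he, he', hea, her, he'a, he'r, hψa,
    fun a => RingHom.congr_fun hswap a, fun y => ?_, fun y => ?_⟩⟩
  · exact norm_transport e he ψ hψ (heckeAlphaBar K (M * q) q).toRingHom (RingHom.ext hψa) y
  · refine (norm_transport e' he' (ψ.comp (Pairs.swap _))
      (hψ.comp (Function.Involutive.bijective Pairs.swap_swap))
      (heckeBetaBar K (M * q) q).toRingHom hswap (Pairs.swap _ y)).trans ?_
    rw [RingHom.comp_apply, Pairs.swap_swap]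
    rfl

namespace CoverModel

variable {K : Type} [Field K] [Algebra ℚ K] [Algebra W K] {Φ : ℤ[X][X]} {Q : W[X][X]}
  {t : ↥(modularFunctionFieldFull M)}

omit [IsDomain W] [IsNoetherianRing W] [CharZero W] hq in
/-- The second coordinate is the first followed by the involution. -/
theorem e'_eq (m : CoverModel (W := W) K q Φ Q t)
    {w : fld K (M * q) →+* fld K (M * q)} (hw : IsSwap K q t w)
    (a : AdjoinRoot (coverPhi Φ Q)) : m.e' a = w (m.e a) := by
  refine RingHom.congr_fun (f := m.e') (g := w.comp m.e)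
    (AdjoinRoot.ringHom_ext (RingHom.ext fun r => ?_) ?_) a
  · simp only [RingHom.comp_apply, m.e_of, m.e'_of, hw.1]
  · simp only [RingHom.comp_apply, m.e_root, m.e'_root, hw.2]

omit [IsDomain W] [IsNoetherianRing W] [CharZero W] hq in
theorem e_const (m : CoverModel (W := W) K q Φ Q t) (w : W) :
    m.e (AdjoinRoot.of _ (coverBase Q (C w))) = algebraMap K _ (algebraMap W K w) := by
  rw [m.e_of, m.γ_const, AlgHom.commutes]

omit [IsDomain W] [IsNoetherianRing W] [CharZero W] hq in
theorem e'_const (m : CoverModel (W := W) K q Φ Q t) (w : W) :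
    m.e' (AdjoinRoot.of _ (coverBase Q (C w))) = algebraMap K _ (algebraMap W K w) := by
  rw [m.e'_of, m.γ_const, AlgHom.commutes]

omit [IsDomain W] [IsNoetherianRing W] [CharZero W] hq in
theorem ψ_const (m : CoverModel (W := W) K q Φ Q t) (w : W) :
    m.ψ (coverConst Φ Q w) = algebraMap K _ (algebraMap W K w) := by
  show m.ψ (AdjoinRoot.of _ (AdjoinRoot.of _ (coverBase Q (C w)))) = _
  rw [m.ψ_fst, m.e_const, AlgHom.commutes]

end CoverModel

end Model

end FLTA.RT.Qsq

end
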