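import Fermat.Agent.RT.Qsq.GaussSeries
import Fermat.Agent.RT.Qsq.Model

/-!
# The pairs over the inertia field inside the pairs of the cover
-/

set_option autoImplicit false
set_option maxHeartbeats 1000000
set_option synthInstance.maxHeartbeats 400000

noncomputable section

open Polynomial ModularCurve AlgebraicCurve FLTA.Carayol FLTA.Carayol.Bridge

namespace FLTA.RT.Qsq

local notation "Qb" => AlgebraicClosure ℚ

variable {q L₀ M : ℕ} [hq : Fact q.Prime] [NeZero q] [NeZero L₀] [NeZero M]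
  {A : ValuationSubring Qb} {Φ : ℤ[X][X]} {t : ↥(modularFunctionFieldFull M)}

/-- The first-coordinate algebra over the inertia field, by `t(τ)` over `t(q τ)`. -/
structure InertiaModel (A : ValuationSubring Qb) (Φ : ℤ[X][X]) (q : ℕ) [NeZero q]
    (t : ↥(modularFunctionFieldFull M)) where
  /-- level `M q` -/
  e : AdjoinRoot (inertiaPhi A Φ t) →+* fld (inertiaField A) (M * q)
  e_bij : Function.Bijective e
  e_of : ∀ a, e (AdjoinRoot.of _ a) = heckeBetaBar _ M q a
  e_root : e (AdjoinRoot.root _) = heckeAlphaBar _ M q (ofFull (inertiaField A) M t)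
  /-- level `M q²` -/
  ψ : Pairs (inertiaPhi A Φ t) →+* fld (inertiaField A) (M * q * q)
  ψ_bij : Function.Bijective ψ
  ψ_fst : ∀ a, ψ (AdjoinRoot.of _ a) = heckeAlphaBar _ (M * q) q (e a)
  isPairHom : IsPairHom q ψ
  irreducible_phi : Irreducible (inertiaPhi A Φ t)
  irreducible_snd : ∀ _ : Fact (Irreducible (inertiaPhi A Φ t)),
    Irreducible (sndPoly (inertiaPhi A Φ t))

theorem nonempty_inertiaModel (hqM : ¬ q ∣ M) (hL : Haupt.IsHauptLevel L₀)
    (hΦ : Haupt.IsModEq q L₀ Φ) (ht : Chart.IsTFull L₀ M t) :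
    Nonempty (InertiaModel A Φ q t) := by
  have hqL : Function.Bijective (RingHom.id (fld (inertiaField A) M)) := Function.bijective_id
  set f : ℤ[X] →+* fld (inertiaField A) M := Chart.evalInt (ofFull (inertiaField A) M t)
  have hf : (RingHom.id _) (f X) = ofFull (inertiaField A) M t := Chart.evalInt_X _
  obtain ⟨e, he, hea, her⟩ := exists_levelFst (γ := RingHom.id _) (f := f) hqM hL ht hΦ hqL hf
  obtain ⟨ψ, hψ, hψa, hψs⟩ := exists_levelPairs hqM hL ht hΦ hf e he hea her
  have hirr : Irreducible (inertiaPhi A Φ t) := irreducible_of_bijective (hΦ.monic.map f) he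
  refine ⟨⟨e, he, hea, her, ψ, hψ, hψa, ⟨fun a => ?_, ?_, hψs⟩, hirr, fun hfi => ?_⟩⟩
  · show ψ (AdjoinRoot.of _ (AdjoinRoot.of _ a)) = _
    rw [hψa, hea]
    rfl
  · show ψ (AdjoinRoot.of _ (AdjoinRoot.root _)) = _
    rw [hψa, her]
  · have := hfi
    exact irreducible_of_bijective (Pairs.monic_sndPoly (hΦ.monic.map f) (by
      rw [natDegree_map_modEq hΦ]; omega)) hψ

variable {W : Type} [CommRing W] [IsDomain W] [IsNoetherianRing W] [CharZero W]
  [Fact (Prime (C (q : W) : W[X]))] {K : Type} [Field K] [Algebra ℚ K] [Algebra W K]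
  {Q : W[X][X]} (m : CoverModel (W := W) K q Φ Q t) (ι : inertiaField A →+* K)

/-- Level `M` over the inertia field in the cover. -/
def baseMap : fld (inertiaField A) M →+* CoverAlg W Q :=
  (RingEquiv.ofBijective m.γ m.γ_bij).symm.toRingHom.comp (mapF ι M)

omit [IsDomain W] [IsNoetherianRing W] [CharZero W] hq in
theorem γ_baseMap (a : fld (inertiaField A) M) : m.γ (baseMap m ι a) = mapF ι M a :=
  (RingEquiv.ofBijective m.γ m.γ_bij).apply_symm_apply _

omit [IsDomain W] [IsNoetherianRing W] [CharZero W] hq in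
theorem map_inertiaPhi : (inertiaPhi A Φ t).map (baseMap m ι) = coverPhi Φ Q := by
  rw [inertiaPhi, coverPhi, Polynomial.map_map]
  refine congrArg (fun g => Φ.map g) (Chart.intHom_ext (m.γ_bij.1 ?_))
  rw [RingHom.comp_apply, γ_baseMap, Chart.evalInt_X, mapF_ofFull, RingHom.comp_apply,
    coe_mapRingHom, Polynomial.map_X, m.γ_X]

/-- The first-coordinate algebras. -/
def fstMap : AdjoinRoot (inertiaPhi A Φ t) →+* AdjoinRoot (coverPhi Φ Q) :=
  AdjoinRoot.map (baseMap m ι) _ _ (map_inertiaPhi m ι).symm.dvd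

omit [IsDomain W] [IsNoetherianRing W] [CharZero W] hq in
theorem e_fstMap (im : InertiaModel A Φ q t) (a : AdjoinRoot (inertiaPhi A Φ t)) :
    m.e (fstMap m ι a) = mapF ι (M * q) (im.e a) := by
  refine RingHom.congr_fun (f := m.e.comp (fstMap m ι)) (g := (mapF ι (M * q)).comp im.e)
    (AdjoinRoot.ringHom_ext (RingHom.ext fun r => ?_) ?_) a
  · simp only [RingHom.comp_apply, fstMap, AdjoinRoot.map_of, m.e_of, im.e_of, γ_baseMap,
      mapF_heckeBeta]
  · simp only [RingHom.comp_apply, fstMap, AdjoinRoot.map_root, m.e_root, im.e_root,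
      mapF_heckeAlpha, mapF_ofFull]

omit [IsDomain W] [IsNoetherianRing W] [CharZero W] hq in
theorem ψ_map (im : InertiaModel A Φ q t) (y : Pairs (inertiaPhi A Φ t)) :
    m.ψ (Pairs.map (baseMap m ι) (map_inertiaPhi m ι) y) = mapF ι (M * q * q) (im.ψ y) := by
  have hb : ∀ a, m.ψ (Pairs.ofBase _ a) =
      heckeAlphaBar K (M * q) q (heckeBetaBar K M q (m.γ a)) := fun a => by
    show m.ψ (AdjoinRoot.of _ (AdjoinRoot.of _ a)) = _
    rw [m.ψ_fst, m.e_of]
  refine RingHom.congr_fun (f := m.ψ.comp (Pairs.map (baseMap m ι) (map_inertiaPhi m ι)))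
    (g := (mapF ι (M * q * q)).comp im.ψ) (Pairs.ringHom_ext (RingHom.ext fun r => ?_) ?_ ?_) y
  · simp only [RingHom.comp_apply, Pairs.map_ofBase, hb, γ_baseMap, im.isPairHom.base,
      mapF_heckeAlpha, mapF_heckeBeta]
  · simp only [RingHom.comp_apply, Pairs.map_fst, im.isPairHom.fst, mapF_heckeAlpha, mapF_ofFull]
    show m.ψ (AdjoinRoot.of _ (AdjoinRoot.root _)) = _
    rw [m.ψ_fst, m.e_root]
  · have e : (Pairs.snd (coverPhi Φ Q)) = Pairs.swap _ (AdjoinRoot.of _ (AdjoinRoot.root _)) :=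
      (Pairs.swap_fst (Φ := coverPhi Φ Q)).symm
    simp only [RingHom.comp_apply, Pairs.map_snd, im.isPairHom.snd, mapF_heckeBeta, mapF_ofFull]
    rw [e, m.ψ_swap, m.e'_root]

end FLTA.RT.Qsq

end
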