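import Fermat.Agent.RT.Qsq.MiddleStruct
import Fermat.Agent.RT.Qsq.PairHom
import Fermat.Agent.RT.Qsq.MiddleRoot

/-!
# The middle expansions of the pairs over the inertia field

The middle embeddings give the middle expansions of a pair function; `t(τ) - t(q² τ)` has positive
middle valuation and a middle lead.
-/

set_option autoImplicit false
set_option maxHeartbeats 1000000
set_option synthInstance.maxHeartbeats 400000
set_option linter.style.haveILetI false

noncomputable section

open IsLocalRing ModularCurve Polynomial FLTA.Congruence FLTA.Carayol FLTA.Carayol.Bridge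
  FLTA.BadRed FLTA.LevelLowering

namespace FLTA.RT.Qsq

local notation "Qb" => AlgebraicClosure ℚ

variable {q L₀ M : ℕ} [Fact q.Prime] [NeZero q] [NeZero L₀] [NeZero M]
  {A : ValuationSubring Qb} {Φ : ℤ[X][X]} {t : ↥(modularFunctionFieldFull M)}

omit [Fact q.Prime] [NeZero q] [NeZero M] in
/-- Functions over the inertia field have coefficients fixed by inertia. -/
theorem isRational_mapF_val {N : ℕ} (x : fld (inertiaField A) N) :
    IsRational A (mapF (inertiaField A).val.toRingHom N x) := fun γ hγ => by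
  ext i
  rw [coe_mapF, coeffMap_coeff, coeffMap_coeff]
  exact mem_inertiaField.mp ((x : LaurentSeries (inertiaField A)).coeff i).2 γ hγ

omit [Fact q.Prime] [NeZero q] [NeZero M] in
/-- The expansion of a pair function. -/
theorem pairSer_apply {ψ : Pairs (inertiaPhi A Φ t) →+* fld (inertiaField A) (M * q * q)}
    (y : Pairs (inertiaPhi A Φ t)) :
    pairSer ψ y =
      (mapF (inertiaField A).val.toRingHom (M * q * q) (ψ y) : LaurentSeries Qb) := rfl

variable [CharP (ResidueField A) q] (fp : FramePair q A)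

omit [NeZero M] in
/-- The expansions `t(u e)` are integral and reduce to `t(e)`. -/
theorem FramePair.series_tOf (u : ℕ) :
    ∃ X : LaurentSeries A, coeffMap A.subtype X = scaleHom (fp.ζ ^ u) (Haupt.tOf L₀ Qb) ∧
      coeffMap (residue A) X = Haupt.tOf L₀ (ResidueField A) ∧
      fp.fr.InL (scaleHom (fp.ζ ^ u) (Haupt.tOf L₀ Qb)) := by
  have hpow : (⟨_, fp.ζ_mem_A⟩ : A) ^ q = 1 := Subtype.ext (by
    show ((fp.ζ : Qb)) ^ q = 1
    rw [← Units.val_pow_eq_pow_val, fp.prim.pow_eq_one, Units.val_one])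
  set z : Aˣ := Units.ofPowEqOne ⟨_, fp.ζ_mem_A⟩ q hpow (NeZero.ne q)
  have hz : Units.map (A.subtype : A →* Qb) (z ^ u) = fp.ζ ^ u := by
    rw [map_pow]
    congr 1
    exact Units.ext rfl
  refine ⟨scaleHom (z ^ u) (Haupt.tOf L₀ A), ?_, ?_, fun i => ?_⟩
  · rw [coeffMap_scaleHom, hz, coeffMap_tOf]
  · rw [coeffMap_scaleHom, coeffMap_tOf, map_pow,
      show Units.map (residue A : A →* ResidueField A) z = 1 from Units.ext fp.residue_ζ, one_pow,
      scaleHom_one]
  · rw [scaleHom_coeff]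
    refine mul_mem ?_ ?_
    · rw [Units.val_zpow_eq_zpow_val, Units.val_pow_eq_pow_val]
      exact zpow_mem (pow_mem fp.ζ_mem u) i
    · rw [Haupt.tOf, coeffMap_coeff, eq_intCast]
      exact intCast_mem fp.fr.L _

omit [CharP (ResidueField A) q] in
/-- **The middle expansions.** -/
theorem exists_midSeries (hq2 : q ≠ 2) (hqM : ¬ q ∣ M) (ht : Chart.IsTFull L₀ M t)
    (im : InertiaModel A Φ q t) :
    ∃ ms : MidSeries q (pairSer im.ψ), ∀ i : Fin (q - 1), ∃ σ : fld Qb (M * q * q) →+* LaurentSeries Qb,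
      IsMiddle M q (fp.ζ ^ ((i : ℕ) + 1)) σ ∧
        ∀ y, ms.Sm i y = σ (mapF (inertiaField A).val.toRingHom (M * q * q) (im.ψ y)) := by
  have hq : q.Prime := Fact.out
  set g₀ := (inertiaField A).val.toRingHom with hg₀
  choose σ hσ using fun i : Fin (q - 1) =>
    exists_isMiddle (M := M) hq hq2 hqM (isPrimitiveRoot_pow_succ fp.prim i)
  have hsnd : pairSer im.ψ (Pairs.snd _) = qExpand Qb (q * q) (Haupt.tOf L₀ Qb) := by
    rw [pairSer_apply, im.isPairHom.snd, mapF_heckeBeta, mapF_heckeBeta, mapF_ofFull,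
      coe_heckeBetaBar, coe_heckeBetaBar, qExpand_qExpand, coe_ofFull_tFull ht]
  have hmid : ∀ i, σ i (mapF g₀ (M * q * q) (im.ψ (Pairs.snd _))) =
      scaleHom (fp.ζ ^ ((i : ℕ) + 1)) (Haupt.tOf L₀ Qb) := fun i => by
    rw [im.isPairHom.snd, mapF_heckeBeta, mapF_heckeBeta, mapF_ofFull, (hσ i).beta,
      coe_ofFull_tFull ht]
  have htop : (qExpand Qb (q * q) (Haupt.tOf L₀ Qb)).coeff (-1) = 0 := by
    apply qExpand_coeff_of_not_dvd
    intro hd
    have h3 := Int.le_of_dvd one_pos (dvd_neg.mp hd)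
    have h4 := hq.two_le
    push_cast at h3
    nlinarith
  have hcoeff : ∀ i : Fin (q - 1), (scaleHom (fp.ζ ^ ((i : ℕ) + 1)) (Haupt.tOf L₀ Qb)).coeff (-1) =
      (((fp.ζ ^ ((i : ℕ) + 1))⁻¹ : (Qb)ˣ) : Qb) := fun i => by
    have h1 := Haupt.coeff_tOf_pow_self L₀ (R := Qb) 1
    rw [pow_one, Nat.cast_one] at h1
    rw [scaleHom_coeff, h1, zpow_neg_one, mul_one]
  refine ⟨⟨fun i => ((σ i).comp (mapF g₀ (M * q * q))).comp im.ψ, fun i a => ?_, ?_⟩,
    fun i => ⟨σ i, hσ i, fun y => rfl⟩⟩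
  · show σ i (mapF g₀ (M * q * q) (im.ψ (AdjoinRoot.of _ a))) = pairSer im.ψ (AdjoinRoot.of _ a)
    rw [pairSer_apply, im.ψ_fst, mapF_heckeAlpha, (hσ i).alpha, coe_heckeAlphaBar]
  · intro a b h
    rcases a with - | a <;> rcases b with - | b <;>
      simp only [Option.elim, RingHom.comp_apply, hsnd, hmid] at h
    · rfl
    · have h1 := congrArg (fun z : LaurentSeries Qb => z.coeff (-1)) h
      simp only [htop, hcoeff] at h1
      exact absurd h1.symm (Units.ne_zero _)
    · have h1 := congrArg (fun z : LaurentSeries Qb => z.coeff (-1)) h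
      simp only [htop, hcoeff] at h1
      exact absurd h1 (Units.ne_zero _)
    · have h1 := congrArg (fun z : LaurentSeries Qb => z.coeff (-1)) h
      simp only [hcoeff] at h1
      have h2 := fp.prim.pow_inj (by omega) (by omega) (inv_injective (Units.ext h1))
      exact congrArg some (Fin.ext (by omega))

omit [CharP (ResidueField A) q] in
/-- The leads of a function with a middle lead. -/
theorem exists_hasVal_mid {im : InertiaModel A Φ q t} {ms : MidSeries q (pairSer im.ψ)}
    (hms : ∀ i : Fin (q - 1), ∃ σ : fld Qb (M * q * q) →+* LaurentSeries Qb,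
      IsMiddle M q (fp.ζ ^ ((i : ℕ) + 1)) σ ∧
        ∀ y, ms.Sm i y = σ (mapF (inertiaField A).val.toRingHom (M * q * q) (im.ψ y)))
    {Θ : LaurentSeries (ResidueField A)} {y : Pairs (inertiaPhi A Φ t)} {m : ℤ}
    {η : modularFunctionFieldFullC (ResidueField A) M}
    (h : HasMiddleLead fp.fr Θ (mapF (inertiaField A).val.toRingHom (M * q * q) (im.ψ y)) m η) :
    ∃ c : Fin (q - 1) → ResidueField A, ∀ i, HasVal fp.fr (ms.Sm i y) m
      (HahnSeries.C (c i) * (Θ ^ m * (η : LaurentSeries (ResidueField A)))) := by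
  choose σ hσ hsm using hms
  choose c _ hc using fun i => h.2 _ (σ i) (isPrimitiveRoot_pow_succ fp.prim i) (hσ i)
  exact ⟨c, fun i => by rw [hsm i, ← mul_assoc]; exact hc i⟩

/-- `t(τ) - t(q² τ)` has positive middle valuation and a middle lead. -/
theorem exists_mid_diff (hq2 : q ≠ 2) (hqM : ¬ q ∣ M) (hA : A.LiesOverPrime q)
    (ht : Chart.IsTFull L₀ M t) {im : InertiaModel A Φ q t} {ms : MidSeries q (pairSer im.ψ)}
    (hms : ∀ i : Fin (q - 1), ∃ σ : fld Qb (M * q * q) →+* LaurentSeries Qb,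
      IsMiddle M q (fp.ζ ^ ((i : ℕ) + 1)) σ ∧
        ∀ y, ms.Sm i y = σ (mapF (inertiaField A).val.toRingHom (M * q * q) (im.ψ y))) :
    (∀ i, GeF fp.fr (ms.Sm i (Pairs.fst _ - Pairs.snd _)) 1) ∧
      ∃ (mD : ℤ) (ηD : modularFunctionFieldFullC (ResidueField A) M)
        (d : Fin (q - 1) → ResidueField A), ∀ i,
        HasVal fp.fr (ms.Sm i (Pairs.fst _ - Pairs.snd _)) mD
          (HahnSeries.C (d i) *
            (thetaSeries (ResidueField A) ^ mD * (ηD : LaurentSeries (ResidueField A)))) := by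
  have hq : q.Prime := Fact.out
  set g₀ := (inertiaField A).val.toRingHom with hg₀
  have hfst : mapF g₀ (M * q * q) (im.ψ (Pairs.fst _)) = heckeAlphaBar Qb (M * q) q
      (heckeAlphaBar Qb M q (ofFull Qb M t)) := by
    rw [im.isPairHom.fst, mapF_heckeAlpha, mapF_heckeAlpha, mapF_ofFull]
  have hsnd : mapF g₀ (M * q * q) (im.ψ (Pairs.snd _)) = heckeBetaBar Qb (M * q) q
      (heckeBetaBar Qb M q (ofFull Qb M t)) := by
    rw [im.isPairHom.snd, mapF_heckeBeta, mapF_heckeBeta, mapF_ofFull]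
  refine ⟨fun i => ?_, ?_⟩
  · obtain ⟨σ, hσ, hsm⟩ := hms i
    have e : ms.Sm i (Pairs.fst _ - Pairs.snd _) = scaleHom (fp.ζ ^ 0) (Haupt.tOf L₀ Qb) -
        scaleHom (fp.ζ ^ ((i : ℕ) + 1)) (Haupt.tOf L₀ Qb) := by
      rw [hsm, map_sub, map_sub, map_sub, hfst, hsnd, hσ.alpha, hσ.beta, coe_heckeAlphaBar,
        coe_ofFull_tFull ht, pow_zero, scaleHom_one]
    obtain ⟨X₀, h0, hr0, hl0⟩ := fp.series_tOf (L₀ := L₀) 0
    obtain ⟨X₁, h1, hr1, hl1⟩ := fp.series_tOf (L₀ := L₀) ((i : ℕ) + 1)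
    rw [e]
    refine geF_one_of_red_eq_zero fp.fr (fun n => ?_) ?_ ?_
    · rw [HahnSeries.coeff_sub]
      exact sub_mem (hl0 n) (hl1 n)
    · rw [← h0, ← h1, ← map_sub]
      exact intSeries_coeffMap _
    · rw [← h0, ← h1, ← map_sub, redSeries_coeffMap, map_sub, hr0, hr1, sub_self]
  · haveI : PerfectRing (ResidueField A) q := by
      haveI := FLTA.Galois.isAlgClosed_residueField A
      infer_instance
    obtain ⟨mD, ηD, hlead⟩ := fp.exists_middleLead hq2 hqM hA (M := M)
      (f := mapF g₀ (M * q * q) (im.ψ (Pairs.fst _ - Pairs.snd _)))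
      (isRational_mapF_val _) (by
        rw [map_sub, map_sub, sub_ne_zero, hfst, hsnd]
        intro h
        have h1 := congrArg (fun z : fld Qb (M * q * q) =>
          (z : LaurentSeries Qb).coeff (-1)) h
        simp only [coe_heckeAlphaBar, coe_heckeBetaBar, qExpand_qExpand,
          coe_ofFull_tFull ht] at h1
        have h2 := Haupt.coeff_tOf_pow_self L₀ (R := Qb) 1
        rw [pow_one, Nat.cast_one] at h2
        rw [h2, qExpand_coeff_of_not_dvd] at h1
        · exact one_ne_zero h1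
        · intro hd
          have h3 := Int.le_of_dvd one_pos (dvd_neg.mp hd)
          have h4 := hq.two_le
          push_cast at h3
          nlinarith)
    obtain ⟨d, hd⟩ := exists_hasVal_mid fp hms hlead
    exact ⟨mD, ηD, d, hd⟩

end FLTA.RT.Qsq

end
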