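import Fermat.Agent.RT.Qsq.KummerUnit
import Fermat.Agent.RT.Qsq.MiddleSetting
import Fermat.Agent.RT.Qsq.OuterKill
import Fermat.Agent.RT.Qsq.FramePairExists

/-!
# Eigen equations for the Kummer function of an eigenclass

`exists_eigen_fun_unit`: the constant of `T_l f = c f ^ n h ^ p` may be taken a unit of `A`, with
`h` rational.  `dvd_val_swap`: the valuation on the other outer branch is divisible by `p`.
-/

set_option autoImplicit false
set_option maxHeartbeats 1000000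
set_option synthInstance.maxHeartbeats 400000

noncomputable section

open IsLocalRing ModularCurve AlgebraicCurve FLTA.Carayol.Bridge FLTA.BadRed FLTA.LevelLowering

namespace FLTA.RT.Qsq

local notation "Qb" => AlgebraicClosure ℚ

variable {N q : ℕ} [NeZero N] [Fact q.Prime] {A : ValuationSubring Qb}

/-- **The eigen equation with a unit constant.** -/
theorem exists_eigen_fun_unit (fp : FramePair q A) {w : A} (hw : residue A w ≠ 0)
    (hqw : (q : Qb) = fp.fr₀.ϖ * (w : Qb)) {p : ℕ} [Fact p.Prime] {x : JZero N}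
    {D : Divisor.degZero (K := Qb) (F := modularFunctionFieldBar N)}
    {f₀ : fld (inertiaField A) N} (hf₀ : f₀ ≠ 0) (hDx : Pic0.mk D = x)
    (hord : ∀ v : Place Qb (modularFunctionFieldBar N),
      (p : ℤ) * (D : Divisor Qb (modularFunctionFieldBar N)) v =
        v.ord (mapF (inertiaField A).val.toRingHom N f₀))
    {Y : LaurentSeries (ResidueField A)}
    (hY : HasVal fp.fr₀ ((mapF (inertiaField A).val.toRingHom N f₀ : fld Qb N) : LaurentSeries Qb)
      0 Y)
    {l : ℕ} [NeZero l] (hl : l.Prime) (hlN : ¬ l ∣ N) {a : ℤ}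
    (heig : heckeOperatorBar N ⟨l, hl⟩ x = a • x) :
    ∃ (n : ℕ) (w' : A) (h : fld Qb N), (n : ZMod p) = a ∧ residue A w' ≠ 0 ∧ IsRational A h ∧
      h ≠ 0 ∧ heckeNormHom N l (mapF (inertiaField A).val.toRingHom N f₀) =
        algebraMap Qb _ (w' : Qb) * mapF (inertiaField A).val.toRingHom N f₀ ^ n * h ^ p := by
  set g₀ : inertiaField A →+* Qb := (inertiaField A).val.toRingHom
  set f : fld Qb N := mapF g₀ N f₀
  have hf : f ≠ 0 := (map_ne_zero _).mpr hf₀
  have hp : p.Prime := Fact.out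
  set n : ℕ := (a % (p : ℤ)).toNat
  have hn : (n : ℤ) = a % (p : ℤ) :=
    Int.toNat_of_nonneg (Int.emod_nonneg a (by exact_mod_cast hp.ne_zero))
  have hnp : (p : ℤ) ∣ a - (n : ℤ) := by
    rw [hn]
    exact Int.dvd_self_sub_emod
  obtain ⟨c, h₁, hc, hh₁, heq⟩ :=
    exists_heckeNormHom_eq ⟨l, hl⟩ hf hord (hDx.symm ▸ heig) (n : ℤ) hnp
  rw [zpow_natCast] at heq
  have hT := heckeNormHom_ne_zero N l hf
  -- the quotient is rational
  have hrat : heckeNormHom N l f / f ^ n ∈ ratField A N :=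
    (ratField A N).div_mem ((isRational_mapF_val f₀).hecke hl hlN)
      ((ratField A N).pow_mem (isRational_mapF_val f₀) n)
  obtain ⟨x₀, hx₀⟩ := exists_eq_mapF_of_coeff_mem g₀ (heckeNormHom N l f / f ^ n) fun k =>
    ⟨⟨_, mem_inertiaField.2 fun σ hσ => by
      have h := congrArg (fun s : LaurentSeries Qb => s.coeff k) (hrat σ hσ)
      rwa [coeffMap_coeff] at h⟩, rfl⟩
  have hx₀0 : x₀ ≠ 0 := fun h0 => by
    rw [h0, map_zero] at hx₀
    exact div_ne_zero hT (pow_ne_zero _ hf) hx₀.symm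
  have : CharZero (inertiaField A) := algebraRat.charZero _
  obtain ⟨c₀, z, hc₀, hxz⟩ := exists_eq_const_mul_pow_of_mapF g₀ hp.pos x₀ hx₀0
    ⟨c, h₁, by rw [hx₀, heq, div_eq_iff (pow_ne_zero _ hf)]; ring⟩
  have hz0 : z ≠ 0 := fun h0 => by
    rw [h0, zero_pow hp.ne_zero, mul_zero] at hxz
    exact hx₀0 hxz
  set h₂ : fld Qb N := mapF g₀ N z
  have heq₂ : heckeNormHom N l f = algebraMap Qb _ (g₀ c₀) * f ^ n * h₂ ^ p := by
    rw [← div_mul_cancel₀ (heckeNormHom N l f) (pow_ne_zero n hf), ← hx₀, hxz, map_mul,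
      mapF_algebraMap, map_pow]
    ring
  -- valuations
  obtain ⟨r, Z, hZ⟩ := exists_hasVal_serInj fp.fr₀ fp.fixed_mem₀ (z := serOf A N z)
    ((map_ne_zero (serOf A N)).2 hz0)
  rw [serInj_serOf] at hZ
  obtain ⟨e, u, -, hu, hce⟩ := fp.fr₀.exists_unit (g₀ c₀)
    (fp.fixed_mem₀ _ fun γ hγ => mem_inertiaField.mp c₀.2 γ hγ) ((map_ne_zero g₀).mpr hc₀)
  have hcval : HasVal fp.fr₀ (algebraMap Qb (LaurentSeries Qb) (g₀ c₀)) e
      (HahnSeries.C (residue A u)) := by
    have h := (hasVal_C_zpow (fr := fp.fr₀) e).mul (hasVal_C_unit (fr := fp.fr₀) u hu)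
    rw [add_zero, one_mul, ← map_mul, ← hce] at h
    rwa [algebraMap_laurentSeries_eq_single, ← HahnSeries.C_apply]
  have hexp := val_eigen hl hlN heq₂ hY hZ hcval
  rw [mul_zero, mul_zero, add_zero] at hexp
  -- the power of `q` moves into `h`
  have hq0 : (q : Qb) ≠ 0 := Nat.cast_ne_zero.mpr (Fact.out : q.Prime).ne_zero
  have hwA : A.valuation (w : Qb) = 1 := valuation_eq_one_of_residue_ne hw
  have hwz : ∀ i : ℤ, (w : Qb) ^ i ∈ A := fun i =>
    (A.valuation_le_one_iff _).mp (by rw [map_zpow₀, hwA, one_zpow])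
  set w' : A := u * ⟨_, hwz ((p : ℤ) * r)⟩
  have hw' : residue A w' ≠ 0 := by
    rw [map_mul]
    refine mul_ne_zero hu fun h0 => ?_
    have h1 : residue A (⟨_, hwz ((p : ℤ) * r)⟩ * ⟨_, hwz (-((p : ℤ) * r))⟩ : A) = 1 := by
      rw [← map_one (residue A)]
      congr 1
      exact Subtype.ext (by
        show (w : Qb) ^ _ * (w : Qb) ^ _ = 1
        rw [← zpow_add₀, add_neg_cancel, zpow_zero]
        intro h; rw [h, map_zero] at hwA; exact zero_ne_one hwA)
    rw [map_mul, h0, zero_mul] at h1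
    exact zero_ne_one h1
  have hval : (w' : Qb) = g₀ c₀ * (q : Qb) ^ ((p : ℤ) * r) := by
    show (u : Qb) * (w : Qb) ^ ((p : ℤ) * r) = _
    rw [hce, hqw, mul_zpow, show e = -((p : ℤ) * r) by linarith, zpow_neg]
    have := zpow_ne_zero ((p : ℤ) * r) fp.fr₀.ϖ_ne_zero
    field_simp
  refine ⟨n, w', algebraMap Qb _ ((q : Qb) ^ (-r)) * h₂, ?_, hw', ?_, ?_, ?_⟩
  · have : ((a - (n : ℤ) : ℤ) : ZMod p) = 0 := (ZMod.intCast_zmod_eq_zero_iff_dvd _ p).mpr hnp
    push_cast at this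
    exact (sub_eq_zero.mp this).symm
  · have hqg : (q : Qb) ^ (-r) = g₀ ((q : inertiaField A) ^ (-r)) := by
      rw [map_zpow₀, map_natCast]
    rw [hqg, ← mapF_algebraMap, ← map_mul]
    exact isRational_mapF_val _
  · exact mul_ne_zero ((map_ne_zero _).mpr (zpow_ne_zero _ hq0)) ((map_ne_zero _).mpr hz0)
  · have e1 : g₀ c₀ = g₀ c₀ * (q : Qb) ^ ((p : ℤ) * r) * ((q : Qb) ^ (-r)) ^ p := by
      rw [mul_assoc, ← zpow_natCast ((q : Qb) ^ (-r)), ← zpow_mul, ← zpow_add₀ hq0,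
        show (p : ℤ) * r + -r * p = 0 by ring, zpow_zero, mul_one]
    rw [heq₂, hval, e1, map_mul, map_pow, ← e1]
    ring

variable {M : ℕ} [NeZero M] [NeZero q]

omit [Fact q.Prime] in
/-- `W_{q²}` preserves rational functions. -/
theorem IsOuterSwap.isRational (hq : q.Prime)
    {W : fld Qb (M * q * q) →ₐ[Qb] fld Qb (M * q * q)} (hW : IsOuterSwap M q W)
    {x : fld Qb (M * q * q)} (hx : IsRational A x) : IsRational A (W x) := fun γ hγ => by
  have h : W.toRingHom.comp (mapF (cmap γ) (M * q * q)) =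
      (mapF (cmap γ) (M * q * q)).comp W.toRingHom := by
    refine ringHom_ext_three hq (fun g => ?_) (fun g => ?_) fun g => ?_
    · show W (mapF (cmap γ) _ _) = mapF (cmap γ) _ (W _)
      rw [mapF_heckeAlpha, mapF_heckeAlpha, hW.low, hW.low, mapF_heckeBeta, mapF_heckeBeta]
    · show W (mapF (cmap γ) _ _) = mapF (cmap γ) _ (W _)
      rw [mapF_heckeAlpha, mapF_heckeBeta, hW.mid, hW.mid, mapF_heckeAlpha, mapF_heckeBeta]
    · show W (mapF (cmap γ) _ _) = mapF (cmap γ) _ (W _)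
      rw [mapF_heckeBeta, mapF_heckeBeta, hW.high, hW.high, mapF_heckeAlpha, mapF_heckeAlpha]
  refine (mapF_eq_self_iff γ (W x)).mp ((RingHom.congr_fun h x).symm.trans ?_)
  show W (mapF (cmap γ) _ x) = W x
  rw [(mapF_eq_self_iff γ x).mpr (hx γ hγ)]

/-- **The valuation on the other outer branch is divisible by `p`.** -/
theorem dvd_val_swap (hqM : ¬ q ∣ M) (fp : FramePair q A) {w : A} (hw : residue A w ≠ 0)
    (hqw : (q : Qb) = fp.fr₀.ϖ * (w : Qb)) {p : ℕ} [Fact p.Prime] {x : JZero (M * q * q)}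
    {D : Divisor.degZero (K := Qb) (F := modularFunctionFieldBar (M * q * q))}
    {f₀ : fld (inertiaField A) (M * q * q)} (hf₀ : f₀ ≠ 0) (hDx : Pic0.mk D = x)
    (hord : ∀ v : Place Qb (modularFunctionFieldBar (M * q * q)),
      (p : ℤ) * (D : Divisor Qb (modularFunctionFieldBar (M * q * q))) v =
        v.ord (mapF (inertiaField A).val.toRingHom (M * q * q) f₀))
    {Y : LaurentSeries (ResidueField A)}
    (hY : HasVal fp.fr₀ ((mapF (inertiaField A).val.toRingHom (M * q * q) f₀ :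
      fld Qb (M * q * q)) : LaurentSeries Qb) 0 Y)
    {l : ℕ} (hl : l.Prime) (hlq : l ≠ q) (hlM : ¬ l ∣ M) {a : ℤ}
    (heig : heckeOperatorBar (M * q * q) ⟨l, hl⟩ x = a • x)
    (hne : ¬ (p : ℤ) ∣ a - ((l : ℤ) + 1))
    {W : fld Qb (M * q * q) →ₐ[Qb] fld Qb (M * q * q)} (hW : IsOuterSwap M q W)
    {m' : ℤ} {Y' : LaurentSeries (ResidueField A)}
    (hY' : HasVal fp.fr₀ ((W (mapF (inertiaField A).val.toRingHom (M * q * q) f₀) :
      fld Qb (M * q * q)) : LaurentSeries Qb) m' Y') :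
    (p : ℤ) ∣ m' := by
  have : NeZero l := ⟨hl.ne_zero⟩
  have hlN : ¬ l ∣ M * q * q := fun h => (hl.dvd_mul.mp h).elim
    (fun h => (hl.dvd_mul.mp h).elim hlM fun h' =>
      hlq ((Nat.prime_dvd_prime_iff_eq hl Fact.out).mp h'))
    fun h' => hlq ((Nat.prime_dvd_prime_iff_eq hl Fact.out).mp h')
  obtain ⟨n, w', h, hn, hw', hrat, hh, heq⟩ :=
    exists_eigen_fun_unit fp hw hqw hf₀ hDx hord hY hl hlN heig
  -- `h` and `W h` have valuations
  have hval : ∀ y : fld Qb (M * q * q), y ≠ 0 → IsRational A y →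
      ∃ r R, HasVal fp.fr₀ (y : LaurentSeries Qb) r R := by
    intro y hy0 hy
    obtain ⟨y₀, hy₀⟩ := exists_eq_mapF_of_coeff_mem (inertiaField A).val.toRingHom y fun k =>
      ⟨⟨_, mem_inertiaField.2 fun σ hσ => by
        have h := congrArg (fun s : LaurentSeries Qb => s.coeff k) (hy σ hσ)
        rwa [coeffMap_coeff] at h⟩, rfl⟩
    obtain ⟨r, R, hR⟩ := exists_hasVal_serInj fp.fr₀ fp.fixed_mem₀ (z := serOf A _ y₀)
      ((map_ne_zero (serOf A _)).2 fun h0 => hy0 (by rw [← hy₀, h0, map_zero]))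
    rw [serInj_serOf] at hR
    exact ⟨r, R, hy₀ ▸ hR⟩
  obtain ⟨r, R, hR⟩ := hval h hh hrat
  obtain ⟨r', R', hR'⟩ := hval (W h) ((map_ne_zero W).mpr hh) (hW.isRational Fact.out hrat)
  have he : HasVal fp.fr₀ (algebraMap Qb (LaurentSeries Qb) (w' : Qb)) 0
      (HahnSeries.C (residue A w')) := by
    rw [algebraMap_laurentSeries_eq_single, ← HahnSeries.C_apply]
    exact hasVal_C_unit (fr := fp.fr₀) w' hw'
  have hd := dvd_mul_sub_of_eigen Fact.out hqM hl hlq hlM hW heq hY hY' hR hR' he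
  have h2 := dvd_sub_of_not_eisenstein hd fun h => hne (by
    rw [hn] at h
    rw [← ZMod.intCast_zmod_eq_zero_iff_dvd]
    push_cast
    rw [h, sub_self])
  rwa [zero_sub, dvd_neg] at h2

end FLTA.RT.Qsq

end
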