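import Fermat.Agent.RT.Qsq.MiddleSetting

/-!
# A root over the completion at the Gauss point

A pair function whose two norms are `p`-th powers up to constants, with outer valuations divisible
by `p` and middle lead `c Θ ^ m ξ ^ p`, is exactly a `p`-th power over the Gauss field: every
constant of valuation divisible by `p` is a `p`-th power there.
-/

set_option autoImplicit false
set_option maxHeartbeats 1600000
set_option synthInstance.maxHeartbeats 400000
set_option linter.style.haveILetI false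

noncomputable section

open IsLocalRing ModularCurve Polynomial FLTA.Congruence FLTA.Carayol FLTA.Carayol.Bridge
  FLTA.BadRed FLTA.LevelLowering

namespace FLTA.RT.Qsq

local notation "Qb" => AlgebraicClosure ℚ

section Outer

variable {q : ℕ} {O : Type} [CommRing O] [IsDomain O] [IsDiscreteValuationRing O]
  [IsAdicComplete (maximalIdeal O) O] {L : Type} [Field L] [Algebra O L] [IsFractionRing O L]
  {ΨA : O[X]} {s : RootSplit ΨA} {T : O}

/-- An element of a branch of valuation divisible by `p` whose norm is `q ^ v` times a `p`-th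
power is a `p`-th power, and `p` divides `v`. -/
theorem exists_pow_outer (hs : IsGauss q ΨA s T) {p : ℕ} (hn : IsUnit (p : O))
    (hpq : Nat.Coprime p q) (hquo : Fact (Irreducible (s.map (algebraMap O L)).quo))
    {z : (s.map (algebraMap O L)).E} {n v : ℤ} {u : s.E} (hu : IsUnit u)
    (hz : z = AdjoinRoot.of _ ((q : L) ^ n) * s.mapE (algebraMap O L) u) (hdvd : (p : ℤ) ∣ n)
    {g : L} (hg : (q : L) ^ v * g ^ p = Algebra.norm L z) :
    (p : ℤ) ∣ v ∧ ∃ r, r ^ p = z := by
  have := hs.isDomain_E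
  have := hs.isLocalRing_E
  have := hs.isDiscreteValuationRing_E
  letI := (s.mapE (algebraMap O L)).toAlgebra
  have := hs.isFractionRing_E (L := L)
  have hirr : Irreducible (q : O) :=
    (IsDiscreteValuationRing.irreducible_iff_uniformizer _).2 hs.max_eq
  have hp0 : p ≠ 0 := by rintro rfl; simp at hn
  have hm : (s.map (algebraMap O L)).quo.Monic := by
    rw [RootSplit.quo_map]; exact hs.monic_quo.map _
  have := hm.finite_adjoinRoot
  have := hs.monic_quo.finite_adjoinRoot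
  have hfin : Module.finrank L (s.map (algebraMap O L)).E = q := by
    rw [(AdjoinRoot.powerBasis' hm).finrank, AdjoinRoot.powerBasis'_dim, RootSplit.quo_map,
      hs.monic_quo.natDegree_map, hs.natDegree_quo]
  have hnu : Algebra.norm L (s.mapE (algebraMap O L) u) =
      algebraMap O L (Algebra.norm O u) :=
    norm_adjoinRoot_map hs.monic_quo (algebraMap O L) (s.quo_map (algebraMap O L)).symm u
  have hnz : Algebra.norm L z =
      algebraMap O L (Algebra.norm O u) * algebraMap O L (q : O) ^ ((q : ℤ) * n) := by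
    rw [hz, map_mul, hnu, ← AdjoinRoot.algebraMap_eq, Algebra.norm_algebraMap, hfin, mul_comm,
      map_natCast, ← zpow_natCast, ← zpow_mul, mul_comm n]
  have hq0 : (q : L) ≠ 0 := by
    rw [← map_natCast (algebraMap O L), map_ne_zero_iff _ (IsFractionRing.injective O L)]
    exact hirr.ne_zero
  have hv : (p : ℤ) ∣ v := by
    rcases eq_or_ne g 0 with rfl | hg0
    · rw [zero_pow hp0, mul_zero, hnz] at hg
      exact absurd hg.symm (mul_ne_zero ((map_ne_zero_iff _ (IsFractionRing.injective O L)).2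
        (hu.map (Algebra.norm O)).ne_zero) (zpow_ne_zero _ ((map_ne_zero_iff _
          (IsFractionRing.injective O L)).2 hirr.ne_zero)))
    obtain ⟨a, j, ha, rfl⟩ := exists_eq_unit_mul_zpow (B := O) hirr hg0
    rw [hnz, mul_pow, ← map_pow, ← zpow_natCast (algebraMap O L (q : O) ^ j), ← zpow_mul,
      map_natCast, mul_comm, mul_assoc, ← zpow_add₀ hq0, ← map_natCast (algebraMap O L)] at hg
    obtain ⟨he, -⟩ := unit_mul_zpow_inj hirr (ha.pow p) (hu.map (Algebra.norm O)) hg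
    obtain ⟨i, rfl⟩ := hdvd
    exact ⟨(q : ℤ) * i - j, by linear_combination he⟩
  refine ⟨hv, ?_⟩
  obtain ⟨i, rfl⟩ := hv
  refine hs.exists_root_outer hn hpq z ?_ ((q : L) ^ i * g) ?_
  · rw [hz]
    exact mul_ne_zero ((_root_.map_ne_zero _).2 (zpow_ne_zero _ hq0))
      ((map_ne_zero_iff _ (IsFractionRing.injective s.E (s.map (algebraMap O L)).E)).2 hu.ne_zero)
  · rw [← hg, mul_pow, ← zpow_natCast ((q : L) ^ i), ← zpow_mul, mul_comm i]

end Outer

variable {q L₀ M : ℕ} [Fact q.Prime] [NeZero q] [NeZero L₀] [NeZero M]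
  {A : ValuationSubring Qb} [CharP (ResidueField A) q] {Φ : ℤ[X][X]}
  {t : ↥(modularFunctionFieldFull M)}

variable {O : Type} [CommRing O] [IsDomain O] [IsDiscreteValuationRing O]
  [IsAdicComplete (maximalIdeal O) O] {L : Type} [Field L] [Algebra O L] [IsFractionRing O L]
  {ΨA : O[X]} {s : RootSplit ΨA} {T : O} {ν : fld (inertiaField A) M →+* L}
  {hΨ : (inertiaPhi A Φ t).map ν = ΨA.map (algebraMap O L)}

omit [Fact q.Prime] [CharP (ResidueField A) q] [NeZero L₀] in
/-- Constants are powers of `q` times `p`-th powers. -/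
theorem exists_const_decomp {fp : FramePair q A} {im : InertiaModel A Φ q t}
    (hs : IsGauss q ΨA s T) (G : GaussRes fp s ν hΨ (pairSer im.ψ))
    (hC : ∀ c : ResidueField A, ∃ a : O, G.hbar (AdjoinRoot.of s.quo a) = HahnSeries.C c)
    {p : ℕ} (hp : 0 < p) (hn : IsUnit (p : O)) {c : inertiaField A} (hc : c ≠ 0) :
    ∃ (n : ℤ) (w : L), ν (algebraMap _ _ c) = (q : L) ^ n * w ^ p := by
  have := hs.isDomain_E
  have := hs.isLocalRing_E
  have := hs.isDiscreteValuationRing_E
  have := Fact.mk (hs.irreducible_quo (L := L))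
  have := G.local_hom
  letI := (s.mapE (algebraMap O L)).toAlgebra
  have := hs.isFractionRing_E (L := L)
  haveI := FLTA.Galois.isAlgClosed_residueField A
  have := henselianLocalRing_of_isAdicComplete (B := O)
  have hloc : IsLocalHom (AdjoinRoot.of s.quo) := ⟨fun a ha => by
    by_contra hna
    have ha' : a ∈ maximalIdeal O := hna
    rw [hs.max_eq, Ideal.mem_span_singleton] at ha'
    obtain ⟨d, rfl⟩ := ha'
    rw [map_mul, map_natCast] at ha
    exact ((IsDiscreteValuationRing.irreducible_iff_uniformizer _).2 hs.maximalIdeal_E).not_isUnit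
      (isUnit_of_mul_isUnit_left ha)⟩
  obtain ⟨n, ε, -, hε, hcε⟩ := fp.fr₀.exists_unit (c : Qb)
    (fp.fixed_mem₀ _ (mem_inertiaField.mp c.2)) fun h => hc (Subtype.ext h)
  have hser : HasVal fp.fr₀ (pairSer im.ψ (Pairs.ofBase _ (algebraMap _ _ c))) n
      (HahnSeries.C (residue A ε)) := by
    have e : pairSer im.ψ (Pairs.ofBase _ (algebraMap _ _ c)) =
        HahnSeries.C (fp.fr₀.ϖ ^ n) * HahnSeries.C (ε : Qb) := by
      rw [pairSer_apply, im.isPairHom.base, AlgHom.commutes, AlgHom.commutes, mapF_algebraMap,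
        ← map_mul, ← hcε]
      exact algebraMap_laurentSeries_eq_single Qb _
    rw [e]
    have h := (hasVal_C_zpow (fr := fp.fr₀) n).mul (hasVal_C_unit (fr := fp.fr₀) ε hε)
    rwa [add_zero, one_mul] at h
  obtain ⟨u, c', hc', hu, hbr, hh⟩ := G.compat _ n _ hser
  haveI : IsLocalHom (G.hbar.comp (RingHom.id s.E)) := by rw [RingHom.comp_id]; exact G.local_hom
  obtain ⟨v, hv, hνc, hvu⟩ := exists_unit_preimage (AdjoinRoot.of s.quo) (L := L) (B := s.E)
    (FM := (s.map (algebraMap O L)).E) (q := q) hs.max_eq hs.maximalIdeal_E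
    (j := AdjoinRoot.of (s.map (algebraMap O L)).quo)
    (fun a => by simp [RingHom.algebraMap_toAlgebra, RootSplit.mapE])
    hu (z := ν (algebraMap _ _ c)) (m := n) (by
      have e : (s.map (algebraMap O L)).br₁ (Pairs.map ν hΨ (Pairs.ofBase _ (algebraMap _ _ c))) =
          AdjoinRoot.of _ (ν (algebraMap _ _ c)) := by simp [RootSplit.br₁]
      rw [← e, hbr, map_zpow₀, map_natCast, map_natCast, mul_comm]
      rfl)
  obtain ⟨e, he⟩ := IsAlgClosed.exists_pow_nat_eq (c' * residue A ε) hp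
  obtain ⟨a, ha⟩ := hC e
  have hres : residue O a ^ p = residue O v := by
    rw [← map_pow, ← sub_eq_zero, ← map_sub, residue_eq_zero_iff, mem_maximalIdeal, mem_nonunits_iff]
    intro hau
    have h1 : G.hbar (AdjoinRoot.of s.quo (a ^ p - v)) = 0 := by
      rw [map_sub, map_sub, map_pow, map_pow, ha, hvu, hh, ← map_pow, he, ← map_mul, sub_self]
    exact ((hau.map (AdjoinRoot.of s.quo)).map G.hbar).ne_zero h1
  obtain ⟨w, hw⟩ := exists_pow_eq_of_residue hn hv hres
  refine ⟨n, algebraMap O L w, ?_⟩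
  rw [hνc, ← map_pow, hw, map_natCast, mul_comm]

/-- **A root over the Gauss field.** -/
theorem exists_pow_gauss (hq2 : q ≠ 2) (hqM : ¬ q ∣ M) (hA : A.LiesOverPrime q)
    (ht : Chart.IsTFull L₀ M t) {fp : FramePair q A} {im : InertiaModel A Φ q t}
    (hs : IsGauss q ΨA s T) (hT : ν (ofFull (inertiaField A) M t) = algebraMap O L T)
    (G : GaussRes fp s ν hΨ (pairSer im.ψ))
    (hC : ∀ c : ResidueField A, ∃ a : O, G.hbar (AdjoinRoot.of s.quo a) = HahnSeries.C c)
    (hgen : ∀ d : ℕ, [NeZero d] → d ∣ M → ∃ x : fld (inertiaField A) M,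
      HasVal fp.fr₀ (pairSer im.ψ (Pairs.ofBase _ x)) 0
        (qExpand (ResidueField A) q (qExpand (ResidueField A) d (jqModC (ResidueField A)))))
    {p : ℕ} (hp : p.Prime) (hpq : p ≠ q) {y : Pairs (inertiaPhi A Φ t)} {m : ℤ}
    {η : modularFunctionFieldFullC (ResidueField A) M}
    (hlead : HasMiddleLead fp.fr (thetaSeries (ResidueField A))
      (mapF (inertiaField A).val.toRingHom (M * q * q) (im.ψ y)) m η)
    (hη : ∃ ξ, ξ ^ p = η)
    (hval₁ : ∀ n Y, HasVal fp.fr₀ (pairSer im.ψ y) n Y → (p : ℤ) ∣ n)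
    (hval₀ : ∀ n Y, HasVal fp.fr₀ (pairSer im.ψ (Pairs.swap _ y)) n Y → (p : ℤ) ∣ n)
    (hfst : ∃ c : inertiaField A, c ≠ 0 ∧ ∃ g,
      Pairs.normFst _ y = AdjoinRoot.of _ (algebraMap _ _ c) * g ^ p)
    (hsnd : ∃ c : inertiaField A, c ≠ 0 ∧ ∃ g,
      Pairs.normSnd _ y = AdjoinRoot.of _ (algebraMap _ _ c) * g ^ p) :
    ∃ Y : Pairs (ΨA.map (algebraMap O L)), Y ^ p = Pairs.map ν hΨ y := by
  have hqp : q.Prime := Fact.out
  have hf := Fact.mk im.irreducible_phi
  have := Fact.mk (im.irreducible_snd hf)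
  have hquo := Fact.mk (hs.irreducible_quo (L := L))
  have hG := Fact.mk (hs.irreducible_G (L := L))
  have hcop : Nat.Coprime p q := (Nat.coprime_primes hp hqp).mpr hpq
  have hn : IsUnit (p : O) := by
    by_contra h
    have h' : (p : O) ∈ maximalIdeal O := h
    obtain ⟨α, β, hαβ⟩ := (Nat.isCoprime_iff_coprime.mpr hcop : IsCoprime (p : ℤ) q)
    refine (maximalIdeal.isMaximal O).ne_top ((Ideal.eq_top_iff_one _).2 ?_)
    rw [show (1 : O) = (α : O) * (p : O) + (β : O) * (q : O) by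
      have h1 := congrArg (Int.cast : ℤ → O) hαβ
      push_cast at h1
      exact h1.symm]
    exact add_mem (Ideal.mul_mem_left _ _ h')
      (Ideal.mul_mem_left _ _ (hs.max_eq ▸ Ideal.mem_span_singleton_self _))
  set tL := s.map (algebraMap O L) with htL
  have hΨm : (ΨA.map (algebraMap O L)).Monic := hs.monic.map _
  have hd : 1 < (ΨA.map (algebraMap O L)).natDegree := by
    rw [hs.monic.natDegree_map, hs.natDegree_eq]; have := hqp.two_le; omega
  have h0 := hs.quo_eval_x₀_ne_zero (L := L)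
  have hΨ₀m : (inertiaPhi A Φ t).Monic := monic_of_injective ν.injective (hΨ ▸ hΨm)
  have hd₀ : 0 < (inertiaPhi A Φ t).natDegree := by
    have := hΨ₀m.natDegree_map ν
    rw [hΨ] at this
    omega
  have hmap : ∀ (y' : Pairs (inertiaPhi A Φ t)) (c : inertiaField A)
      (g : AdjoinRoot (inertiaPhi A Φ t)),
      Pairs.normFst _ y' = AdjoinRoot.of _ (algebraMap _ _ c) * g ^ p →
      Pairs.normFst _ (Pairs.map ν hΨ y') = AdjoinRoot.of _ (ν (algebraMap _ _ c)) *
        AdjoinRoot.map ν _ _ hΨ.symm.dvd g ^ p := fun y' c g h => by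
    rw [Pairs.normFst_map hΨ₀m hd₀, h, map_mul, map_pow, AdjoinRoot.map_of]
  -- a branch through the first root
  have key : ∀ y' : Pairs (inertiaPhi A Φ t), y' ≠ 0 →
      (∀ n Y, HasVal fp.fr₀ (pairSer im.ψ (Pairs.swap _ y')) n Y → (p : ℤ) ∣ n) →
      ∀ (c : inertiaField A) (g : AdjoinRoot (inertiaPhi A Φ t)), c ≠ 0 →
      Pairs.normFst _ y' = AdjoinRoot.of _ (algebraMap _ _ c) * g ^ p →
      (∃ r, r ^ p = tL.br₀ (Pairs.map ν hΨ y')) ∧ ∃ w, w ^ p = ν (algebraMap _ _ c) := by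
    intro y' hy' hval c g hc hnorm
    obtain ⟨n, Y, hY⟩ := G.hasVal (Pairs.swap _ y') fun h => hy' (by
      rw [← Pairs.swap_swap y', h, map_zero])
    obtain ⟨u, -, -, hu, hbr, -⟩ := G.compat _ n Y hY
    have hz : tL.br₀ (Pairs.map ν hΨ y') =
        AdjoinRoot.of _ ((q : L) ^ n) * s.mapE (algebraMap O L) u := by
      rw [← hbr, Pairs.map_swap, ← IsGauss.br₀_swap, Pairs.swap_swap]
    obtain ⟨v, w, hcw⟩ := exists_const_decomp hs G hC hp.pos hn hc
    obtain ⟨hv, r, hr⟩ := exists_pow_outer hs hn hcop hquo hu hz (hval n Y hY) (v := v)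
      (g := w * tL.proj₀ (AdjoinRoot.map ν _ _ hΨ.symm.dvd g)) (by
        rw [← tL.proj₀_normFst hΨm (by omega), hmap y' c g hnorm, map_mul, map_pow, mul_pow,
          RootSplit.proj₀, AdjoinRoot.lift_of, RingHom.id_apply, hcw, mul_assoc])
    obtain ⟨i, rfl⟩ := hv
    refine ⟨⟨r, hr⟩, (q : L) ^ i * w, ?_⟩
    rw [hcw, mul_pow, ← zpow_natCast ((q : L) ^ i), ← zpow_mul, mul_comm i]
  obtain ⟨c₁, hc₁, g₁, hg₁⟩ := hfst
  obtain ⟨c₂, hc₂, g₂, hg₂⟩ := hsnd
  have hy : y ≠ 0 := fun h => by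
    obtain ⟨ms, hms⟩ := exists_midSeries fp hq2 hqM ht im
    obtain ⟨c, hc⟩ := exists_hasVal_mid fp hms hlead
    have h2 := hqp.two_le
    exact (hc ⟨0, by omega⟩).ne_zero (by rw [h, map_zero])
  obtain ⟨⟨r₀, hr₀⟩, w₁, hw₁⟩ := key y hy hval₀ c₁ g₁ hc₁ hg₁
  obtain ⟨⟨r₁, hr₁⟩, -⟩ := key (Pairs.swap _ y) (fun h => hy (by
      rw [← Pairs.swap_swap y, h, map_zero])) (by rwa [Pairs.swap_swap]) c₂ g₂ hc₂ hg₂
  rw [Pairs.map_swap, IsGauss.br₀_swap] at hr₁
  -- the middle branch
  have hb₁ : tL.br₁ (Pairs.map ν hΨ y) ≠ 0 :=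
    (_root_.map_ne_zero (tL.br₁.comp (Pairs.map ν hΨ))).2 hy
  obtain ⟨ms, hms⟩ := exists_midSeries fp hq2 hqM ht im
  obtain ⟨hD, mD, ηD, d, hdlead⟩ := exists_mid_diff fp hq2 hqM hA ht hms
  obtain ⟨c, hc⟩ := exists_hasVal_mid fp hms hlead
  obtain ⟨ξ, rfl⟩ := hη
  obtain ⟨rm, hrm⟩ := exists_pow_brₘ hq2 hs G ms hT hD (M := M) hC
    hgen
    (thetaSeries_ne_zero _) hdlead hp.ne_zero hn hcop hquo hG (y := y)
    (g := AdjoinRoot.of _ w₁ * tL.proj₁ (AdjoinRoot.map ν _ _ hΨ.symm.dvd g₁) / r₁)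
    (by
      rw [div_pow, mul_pow, ← map_pow, ← map_pow, hw₁, hr₁]
      have h := tL.proj₁_normFst hΨm hd h0 (Pairs.map ν hΨ y)
      rw [hmap y c₁ g₁ hg₁, map_mul, map_pow] at h
      have e : tL.proj₁ (AdjoinRoot.of _ (ν (algebraMap _ _ c₁))) =
          AdjoinRoot.of _ (ν (algebraMap _ _ c₁)) := by simp [RootSplit.proj₁]
      rw [e, ← map_pow] at h
      rw [h, mul_div_cancel_left₀ _ hb₁])
    hc
  obtain ⟨Y, h1, h2, h3⟩ := tL.br_surjective hΨm hd h0 r₀ r₁ rm
  refine ⟨Y, sub_eq_zero.1 (tL.br_injective hΨm hd h0 ?_ ?_ ?_)⟩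
  · rw [map_sub, map_pow, h1, hr₀, sub_self]
  · rw [map_sub, map_pow, h2, hr₁, sub_self]
  · rw [map_sub, map_pow, h3, hrm, sub_self]

end FLTA.RT.Qsq

end
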