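import Fermat.Agent.Carayol.BridgeCover
import Fermat.Agent.BadRed.Ordinary.GenusCard
import Fermat.Agent.BadRed.ModularFibre

/-!
# The glued points are as many as the nodes allow

For `4 ∣ M` there are no elliptic points, so the special fibre of level `M q` has
`ψ(M) (q - 1) / 12` glued points, while the level `M` has degree `ψ(M) / 6` over the line of the
Hauptmodul of level `4`.
-/

set_option autoImplicit false
set_option maxHeartbeats 1000000
set_option synthInstance.maxHeartbeats 400000

noncomputable section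

open Polynomial IsLocalRing ModularCurve AlgebraicCurve FLTA.Carayol FLTA.BadRed

namespace FLTA.RT.Qsq

local notation "Qb" => AlgebraicClosure ℚ

/-- `Bridge.exists_cover` with the degree of the model. -/
theorem exists_cover_natDegree (q L M : ℕ) [Fact q.Prime] [NeZero L] [NeZero M]
    (hL : Haupt.IsHauptLevel L) (hLM : L ∣ M) (hqM : ¬ q ∣ M) :
    ∃ (t θ : ↥(modularFunctionFieldFull M)) (Q₀ : (Smooth.Zloc q)[X][X]),
      Chart.IsTFull L M t ∧
      IntermediateField.adjoin ℚ ({t, θ} : Set ↥(modularFunctionFieldFull M)) = ⊤ ∧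
      Q₀.eval₂ (Polynomial.eval₂RingHom
        ((algebraMap ℚ ↥(modularFunctionFieldFull M)).comp (GaloisRep.ratLocalizedAt q).subtype) t)
        θ = 0 ∧
      (Chart.jNum L).natDegree * Q₀.natDegree = dedekindPsi M ∧
      ∀ (W : Type) [CommRing W] [IsDomain W] [IsDiscreteValuationRing W] [CharZero W]
        [IsAdicComplete (maximalIdeal W) W] [IsAlgClosed (ResidueField W)]
        [Fact (Prime (C (q : W) : W[X]))] (_ : maximalIdeal W = Ideal.span {(q : W)})
        (π : Smooth.Zloc q →+* W), LineCover W q L (Q₀.map (mapRingHom π)) := by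
  obtain ⟨t, ht⟩ := Chart.exists_isTFull hL hLM
  obtain ⟨D⟩ := Chart.nonempty_tModel hL ht
  refine ⟨t, D.θ, D.Q.map (mapRingHom (Int.castRingHom (Smooth.Zloc q))), ht, D.adjoin_eq, ?_, ?_, ?_⟩
  · rw [eval₂_map]
    refine Eq.trans ?_ D.eval_eq_zero
    refine congrArg (fun f => eval₂ f D.θ D.Q) (Chart.intHom_ext ?_)
    simp [Chart.evalInt_X]
  · rw [D.monic.natDegree_map, D.natDegree_eq, Chart.finrank_eq_relfinrank ht,
      ← ht.relfinrank_jField_tField_rat hL]
    exact ht.relfinrank_mul hL (Nat.cast_ne_zero.mpr (NeZero.ne M)) ht.tOf_rat_mem_full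
  intro W _ _ _ _ _ _ _ hmax π
  have hQ : (D.Q.map (mapRingHom (Int.castRingHom (Smooth.Zloc q)))).map (mapRingHom π) =
      D.Q.map (mapRingHom (Int.castRingHom W)) := by
    rw [Polynomial.map_map, mapRingHom_comp]
    congr 2
    exact RingHom.ext_int _ _
  rw [hQ]
  have : HenselianRing W (maximalIdeal W) := IsAdicComplete.henselianRing W (maximalIdeal W)
  have : HenselianLocalRing W :=
    { is_henselian := fun f hf a₀ ha hd =>
        HenselianRing.is_henselian f hf a₀ ha (hd.map (Ideal.Quotient.mk (maximalIdeal W))) }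
  have : CharP (ResidueField W) q := by
    refine (CharP.charP_iff_prime_eq_zero Fact.out).2 ?_
    rw [← map_natCast (residue W), residue_eq_zero_iff, hmax]
    exact Ideal.mem_span_singleton_self _
  have : CharZero (PowerSeries W) := charZero_of_injective_ringHom PowerSeries.C_injective
  have : CharZero (FractionRing (PowerSeries W)) := charZero_of_injective_algebraMap
    (IsFractionRing.injective (PowerSeries W) (FractionRing (PowerSeries W)))
  have hqcop : M.Coprime q := ((Fact.out : q.Prime).coprime_iff_not_dvd.mpr hqM).symm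
  have hdegQ : (D.Q.map (mapRingHom (Int.castRingHom W))).natDegree = D.Q.natDegree :=
    D.monic.natDegree_map _
  have hsplit : ∀ (g : W[X] →+* FractionRing (PowerSeries W)),
      Chart.SplitsAt t (g X) →
      SplitsIn ((D.Q.map (mapRingHom (Int.castRingHom W))).map g)
        (D.Q.map (mapRingHom (Int.castRingHom W))).natDegree := by
    intro g hg
    obtain ⟨r, hr, hprod⟩ := hg.exists_prod_roots (Chart.evalInt t)
      (g.comp (mapRingHom (Int.castRingHom W)))
      (fun φ hφ => Chart.intHom_ext (by simpa [Chart.evalInt_X] using hφ))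
      D.monic D.natDegree_eq D.eval_eq_zero D.adjoin_eq
    rw [hdegQ, Polynomial.map_map]
    exact ⟨r, hr, hprod⟩
  refine
    { monic := D.monic.map _
      irreducible := ?_
      gauss := Bridge.exists_gauss_iso hL hLM hqM ht D W hmax
      splits_point := fun t₀ ht₀ => hsplit _ ?_
      splits_cusp := fun t₀ ht₀ => ⟨M, NeZero.pos M, hqcop, hsplit _ ?_⟩
      splits_inf := ⟨M, NeZero.pos M, hqcop, hsplit _ ?_⟩ }
  · obtain ⟨A, _, _, _, _, f, g, -⟩ := Bridge.exists_gauss_iso hL hLM hqM ht D W hmax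
    exact Bridge.irreducible_of_isDomain_adjoinRoot (gaussHom W q) (Bridge.injective_gaussHom W q)
      (D.monic.map _) (g.injective.isDomain g.toRingHom)
  · rw [show pointHom W t₀ 1 X = algebraMap (PowerSeries W) _ (PowerSeries.X + PowerSeries.C t₀) by
      simp [pointHom, pointMap, add_comm]]
    refine Chart.splitsAt_of_not_cusp hL hLM hqM ht t₀ ?_
    rwa [aeval_def, ← eval_map, Subsingleton.elim (algebraMap ℤ W) (Int.castRingHom W)]
  · rw [show pointHom W t₀ M X = algebraMap (PowerSeries W) _ (PowerSeries.C t₀ + PowerSeries.X ^ M)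
      by simp [pointHom, pointMap]]
    refine Chart.splitsAt_cusp_value hL hLM hqM ht t₀ ?_
    rwa [aeval_def, ← eval_map, Subsingleton.elim (algebraMap ℤ W) (Int.castRingHom W)]
  · rw [show infHom W M X = (algebraMap (PowerSeries W) _ PowerSeries.X)⁻¹ ^ M by simp [infHom]]
    exact Chart.splitsAt_infty hL hLM hqM ht

theorem nuTwo_eq_zero_of_four_dvd {M : ℕ} (h4 : 4 ∣ M) : nuTwo M = 0 := by
  rw [nuTwo, Nat.card_eq_zero]
  refine Or.inl ⟨fun ⟨x, hx⟩ => ?_⟩
  have h := congrArg (ZMod.castHom h4 (ZMod 4)) hx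
  rw [map_add, map_pow, map_one, map_zero] at h
  generalize ZMod.castHom h4 (ZMod 4) x = y at h
  revert y
  decide

theorem nuThree_eq_zero_of_two_dvd {M : ℕ} (h2 : 2 ∣ M) : nuThree M = 0 := by
  rw [nuThree, Nat.card_eq_zero]
  refine Or.inl ⟨fun ⟨x, hx⟩ => ?_⟩
  have h := congrArg (ZMod.castHom h2 (ZMod 2)) hx
  rw [map_add, map_add, map_pow, map_one, map_zero] at h
  generalize ZMod.castHom h2 (ZMod 2) x = y at h
  revert y
  decide

variable {q M : ℕ} [hq : Fact q.Prime] [NeZero q] [NeZero M]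
  {A : ValuationSubring Qb} [CharP (ResidueField A) q] [PerfectRing (ResidueField A) q]
  [IsAlgClosed (ResidueField A)] {hA : A.LiesOverPrime q} {hqM : ¬ q ∣ M}
  {S : Finset (Place (ResidueField A) (modularFunctionFieldFullC (ResidueField A) M))} {m₀ : ℕ}


omit [IsAlgClosed (ResidueField A)] in
/-- `12 |S| = (q - 1) ψ(M)`. -/
theorem twelve_mul_card_gluing (h4 : 4 ∣ M) (hS : (badFibre M q A hA hqM).IsGluing S m₀) :
    12 * S.card = (q - 1) * dedekindPsi M := by
  have h1 : (FLTA.PlaceRed.genusX0 M : ℚ) = genusFormula M :=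
    FLTA.Curves.genusFF_modularFunctionFieldBar M
  have h2 : (FLTA.PlaceRed.genusX0 (M * q) : ℚ) = genusFormula (M * q) :=
    FLTA.Curves.genusFF_modularFunctionFieldBar (M * q)
  rw [genusFormula, nuTwo_eq_zero_of_four_dvd h4,
    nuThree_eq_zero_of_two_dvd (dvd_trans (by norm_num) h4)] at h1
  rw [genusFormula, nuTwo_eq_zero_of_four_dvd (h4.mul_right q),
    nuThree_eq_zero_of_two_dvd (dvd_trans (by norm_num) (h4.mul_right q)),
    FLTA.Congruence.dedekindPsi_mul_prime M q hq.out hqM, cuspCount_mul M q hqM] at h2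
  have h3 : ((S.card : ℤ) : ℚ) + 2 * ((FLTA.PlaceRed.genusX0 M : ℤ) : ℚ) =
      ((FLTA.PlaceRed.genusX0 (M * q) : ℤ) : ℚ) + 1 := by exact_mod_cast hS.card_eq
  push_cast at h1 h2 h3
  have h5 : ((12 * S.card : ℕ) : ℚ) = (((q - 1) * dedekindPsi M : ℕ) : ℚ) := by
    push_cast [Nat.cast_sub hq.out.one_le]
    linarith
  exact_mod_cast h5

/-- The glued points are as many as the nodes allow. -/
theorem natDegree_mul_le_card_gluing {R T : Type} [CommRing R] [CommRing T] {Q₀ : R[X][X]}
    (π : R →+* T) (hdeg : (Chart.jNum 4).natDegree * Q₀.natDegree = dedekindPsi M) (h4 : 4 ∣ M)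
    (hq2 : q ≠ 2) (hS : (badFibre M q A hA hqM).IsGluing S m₀) :
    (Q₀.map (mapRingHom π)).natDegree * ((q - 1) / 2) ≤ S.card ∧ S.Nonempty := by
  have h6 : (Chart.jNum 4).natDegree = 6 := by
    rw [Chart.jNum, if_pos rfl]
    compute_degree!
  rw [h6] at hdeg
  have hS12 := twelve_mul_card_gluing h4 hS
  have hψ := FLTA.Congruence.dedekindPsi_pos M
  obtain ⟨r, hr⟩ : ∃ r, q = 2 * r + 1 := hq.out.odd_of_ne_two hq2
  subst hr
  have hr0 : 0 < r := by have := hq.out.two_le; omega
  have e : (2 * r + 1 - 1) / 2 = r := by omega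
  rw [e]
  refine ⟨(Nat.mul_le_mul_right r natDegree_map_le).trans ?_, Finset.card_pos.mp ?_⟩
  · rw [show 2 * r + 1 - 1 = 2 * r by omega, ← hdeg] at hS12
    nlinarith
  · rw [show 2 * r + 1 - 1 = 2 * r by omega] at hS12
    rcases Nat.eq_zero_or_pos S.card with h | h
    · rw [h, mul_zero, eq_comm, mul_eq_zero] at hS12
      omega
    · exact h

end FLTA.RT.Qsq

end
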