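import Fermat.Agent.RT.Qsq.GaussSeries
import Fermat.Agent.Carayol.BridgeRep
import Fermat.Agent.Carayol.BridgeRepFixed
import Fermat.Agent.Carayol.BridgeDescend

/-!
# Fixed Kummer functions of valuation `0` at infinity
-/

set_option autoImplicit false
set_option maxHeartbeats 1000000
set_option synthInstance.maxHeartbeats 400000

noncomputable section

open IsLocalRing ModularCurve AlgebraicCurve FLTA.Carayol.Bridge FLTA.BadRed FLTA.LevelLowering

namespace FLTA.RT.Qsq

local notation "Qb" => AlgebraicClosure ℚ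

/-- An inertia-fixed class killed by `n` has a Kummer function over the inertia field of valuation
`0` at infinity. -/
theorem exists_kummer_unit {N q : ℕ} [NeZero N] {A : ValuationSubring Qb} (fr : Frame A (residue A))
    (hfix : ∀ c : Qb, (∀ γ ∈ A.inertiaSubgroupIn ℚ, γ c = c) → c ∈ fr.L) [Fact q.Prime]
    {w : A} (hw : residue A w ≠ 0) (hqw : (q : Qb) = fr.ϖ * (w : Qb))
    {n : ℕ} (x : JZero N) (hx : n • x = 0) (hxfix : ∀ σ ∈ A.inertiaSubgroupIn ℚ, σ • x = x) :
    ∃ (D : Divisor.degZero (K := Qb) (F := modularFunctionFieldBar N))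
      (f₀ : fld (inertiaField A) N) (Y : LaurentSeries (ResidueField A)),
      f₀ ≠ 0 ∧ Pic0.mk D = x ∧
      (∀ v : Place Qb (modularFunctionFieldBar N),
        (n : ℤ) * (D : Divisor Qb (modularFunctionFieldBar N)) v =
          v.ord (mapF (inertiaField A).val.toRingHom N f₀)) ∧
      HasVal fr ((mapF (inertiaField A).val.toRingHom N f₀ : fld Qb N) : LaurentSeries Qb) 0 Y := by
  set g₀ : inertiaField A →+* Qb := (inertiaField A).val.toRingHom
  obtain ⟨D, f, hf, hDx, hord, hcoeff⟩ := exists_fixed_rep (A.inertiaSubgroupIn ℚ) x hx hxfix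
  obtain ⟨f₁, hf₁⟩ := exists_eq_mapF_of_coeff_mem g₀ f fun k =>
    ⟨⟨_, mem_inertiaField.2 fun σ hσ => hcoeff σ hσ k⟩, rfl⟩
  have hf₁0 : f₁ ≠ 0 := fun h => hf (by rw [← hf₁, h, map_zero])
  obtain ⟨m, Y, hY⟩ := exists_hasVal_serInj fr hfix (z := serOf A N f₁)
    ((map_ne_zero (serOf A N)).2 hf₁0)
  rw [serInj_serOf] at hY
  have hq0 : (q : inertiaField A) ≠ 0 := fun h => (Fact.out : q.Prime).ne_zero (by
    have h1 := congrArg g₀ h
    rw [map_natCast, map_zero] at h1
    exact_mod_cast h1)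
  set c : inertiaField A := (q : inertiaField A) ^ (-m)
  have hc : c ≠ 0 := zpow_ne_zero _ hq0
  have hqv : HasVal fr (HahnSeries.C (q : Qb)) 1 (HahnSeries.C (residue A w)) := by
    have h := (hasVal_C_zpow (fr := fr) 1).mul (hasVal_C_unit (fr := fr) w hw)
    rwa [add_zero, one_mul, ← map_mul, zpow_one, ← hqw] at h
  have hcv : HasVal fr (HahnSeries.C (g₀ c)) (-m) (HahnSeries.C (residue A w ^ (-m))) := by
    have h := hqv.zpow (-m)
    rwa [mul_one, ← map_zpow₀, ← map_zpow₀, ← map_natCast g₀, ← map_zpow₀] at h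
  refine ⟨D, algebraMap _ _ c * f₁, HahnSeries.C (residue A w ^ (-m)) * Y,
    mul_ne_zero ((map_ne_zero _).2 hc) hf₁0, hDx, fun v => ?_, ?_⟩
  · rw [map_mul, mapF_algebraMap, hf₁,
      v.ord_mul ((map_ne_zero _).2 ((map_ne_zero _).2 hc)) hf, FLTA.Curves.ord_algebraMap, zero_add,
      hord]
  · have h := hcv.mul hY
    rw [neg_add_cancel] at h
    rw [map_mul, mapF_algebraMap]
    convert h using 1
    rw [MulMemClass.coe_mul, HahnSeries.C_apply, ← algebraMap_laurentSeries_eq_single]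
    rfl

end FLTA.RT.Qsq

end
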