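import Fermat.Agent.Carayol.Chart.GaussModel

/-!
# The degree of the cover and the degree of the reduced curve over the line of `t`
-/

set_option autoImplicit false

noncomputable section

open Polynomial ModularCurve

namespace FLTA.RT.Qsq

open FLTA.Carayol

variable {L₀ M : ℕ} [NeZero L₀] [NeZero M] {t : ↥(modularFunctionFieldFull M)}

/-- A model of degree `ψ(M) / deg jNum` has degree at most that of the reduced curve over
`k(t)`. -/
theorem natDegree_le_relfinrank {q : ℕ} [Fact q.Prime] (hqM : ¬ q ∣ M)
    (hL : Haupt.IsHauptLevel L₀) (ht : Chart.IsTFull L₀ M t) {R T : Type} [CommRing R] [CommRing T]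
    {Q₀ : R[X][X]} (π : R →+* T)
    (hdeg : (Chart.jNum L₀).natDegree * Q₀.natDegree = dedekindPsi M) (k : Type) [Field k]
    [CharP k q] :
    (Q₀.map (mapRingHom π)).natDegree ≤
      IntermediateField.relfinrank (Chart.tField L₀ k) (modularFunctionFieldFullC k M) := by
  let _ : Algebra (ZMod q) k := ZMod.algebra _ q
  let _ : Algebra ↥(GaloisRep.ratLocalizedAt q) k :=
    ((algebraMap (ZMod q) k).comp (FLTA.Igusa.zlocToZMod q)).toAlgebra
  refine natDegree_map_le.trans (le_trans (le_of_eq ?_) (ht.relfinrank_le (K := k) hL hqM))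
  have h := ht.relfinrank_mul hL (Nat.cast_ne_zero.mpr (NeZero.ne M)) ht.tOf_rat_mem_full
  rw [ht.relfinrank_jField_tField_rat hL, ← hdeg] at h
  exact (Nat.eq_of_mul_eq_mul_left (Chart.natDegree_jNum_pos L₀) h).symm

end FLTA.RT.Qsq

end
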