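import Fermat.Agent.RT.Qsq.SeriesHat

/-!
# Modular functions over the fraction field of `W` in the completion at `q`

The extension of `serToB ∘ serOf` from the inertia field to the fraction field of `W`.
-/

set_option autoImplicit false
set_option synthInstance.maxHeartbeats 400000
set_option maxHeartbeats 800000

noncomputable section

open IsLocalRing ModularCurve Polynomial FLTA.Carayol FLTA.Carayol.Bridge FLTA.BadRed

namespace FLTA.RT.Qsq

local notation "Qb" => AlgebraicClosure ℚ

variable {W : Type} [CommRing W] [IsDomain W] {K : Type} [Field K] [Algebra W K]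
  [IsFractionRing W K]

variable (W K) in
/-- Fractions of series over `W` as series over `K`. -/
def modelInj : FractionRing (LaurentSeries W) →+* LaurentSeries K :=
  IsFractionRing.lift (injective_coeffMap (IsFractionRing.injective W K))

theorem modelInj_algebraMap (a : LaurentSeries W) :
    modelInj W K (algebraMap _ _ a) = coeffMap (algebraMap W K) a :=
  IsFractionRing.lift_algebraMap _ a

theorem C_mem_modelInj (c : K) : (HahnSeries.C c : LaurentSeries K) ∈ (modelInj W K).fieldRange := by
  obtain ⟨a, b, -, rfl⟩ := IsFractionRing.div_surjective W c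
  have h : ∀ w : W, (HahnSeries.C (algebraMap W K w) : LaurentSeries K) ∈
      (modelInj W K).fieldRange := fun w => RingHom.mem_fieldRange.mpr
    ⟨algebraMap _ _ (HahnSeries.C w : LaurentSeries W), by rw [modelInj_algebraMap, coeffMap_const]⟩
  rw [map_div₀]
  exact div_mem (h a) (h b)

variable [Algebra ℚ K]

variable (W) in
/-- Modular functions over `K` are fractions of series over `W`. -/
theorem fld_mem_modelInj (n : ℕ) [NeZero n] (x : fld K n) :
    (x : LaurentSeries K) ∈ (modelInj W K).fieldRange := by
  have h := x.2
  simp only [fld_eq_full, modularFunctionFieldFullC] at h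
  refine (show (IntermediateField.adjoin K (divisorExpansionsC K n)).toSubfield ≤ _ from ?_) h
  rw [IntermediateField.adjoin_toSubfield]
  refine Subfield.closure_le.mpr ?_
  rintro z (⟨c, rfl⟩ | ⟨d, hd, hdn, rfl⟩)
  · rw [SetLike.mem_coe, algebraMap_laurentSeries_eq_single, ← HahnSeries.C_apply]
    exact C_mem_modelInj c
  · exact RingHom.mem_fieldRange.mpr ⟨algebraMap _ _ (qExpand W d (jqModC W)), by
      rw [modelInj_algebraMap, coeffMap_qExpand, coeffMap_jqModC]⟩

variable (W) in
/-- The fraction of a modular function over `K`. -/
def modelOf (n : ℕ) [NeZero n] : fld K n →+* FractionRing (LaurentSeries W) :=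
  (modelInj W K).rangeRestrictFieldEquiv.symm.toRingHom.comp
    ((fld K n).val.toRingHom.codRestrict (modelInj W K).fieldRange (fld_mem_modelInj W n))

theorem modelInj_modelOf (n : ℕ) [NeZero n] (x : fld K n) :
    modelInj W K (modelOf W n x) = (x : LaurentSeries K) :=
  (modelInj W K).rangeRestrictFieldEquiv_apply_symm_apply ⟨_, fld_mem_modelInj W n x⟩

variable [IsDiscreteValuationRing W] {q : ℕ} [Fact q.Prime]
  [Fact (Prime (PowerSeries.C (q : W) : PowerSeries W))]
  (hW : maximalIdeal W = Ideal.span {(q : W)})

/-- Modular functions over `K` in the completion at `q`. -/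
def modelToB (n : ℕ) [NeZero n] : fld K n →+* FractionRing (SerB W q) :=
  (IsFractionRing.lift (g := (algebraMap (SerB W q) (FractionRing (SerB W q))).comp
    (laurentToHat hW)) ((IsFractionRing.injective _ _).comp (laurentToHat_injective hW))).comp
    (modelOf W n)

/-- A function whose series has coefficients in `W`. -/
theorem modelToB_eq {n : ℕ} [NeZero n] {x : fld K n} {a : LaurentSeries W}
    (h : (x : LaurentSeries K) = coeffMap (algebraMap W K) a) :
    modelToB hW n x = algebraMap _ _ (laurentToHat hW a) := by
  have e : modelOf W n x = algebraMap _ _ a := (modelInj W K).injective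
    (by rw [modelInj_modelOf, modelInj_algebraMap, h])
  rw [modelToB, RingHom.comp_apply, e, IsFractionRing.lift_algebraMap]
  rfl

theorem modelToB_const {n : ℕ} [NeZero n] (w : W) :
    modelToB hW n (algebraMap K (fld K n) (algebraMap W K w)) =
      algebraMap _ _ (laurentToHat hW (HahnSeries.C w)) :=
  modelToB_eq hW (by
    rw [coeffMap_const, HahnSeries.C_apply, ← algebraMap_laurentSeries_eq_single]
    rfl)

/-- Compatibility with the inertia field. -/
theorem modelToB_mapF {A : ValuationSubring Qb} (j : intRing A →+* W)
    (hj : Function.Injective j) (ι : inertiaField A →+* K)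
    (hι : ι.comp (intRing A).subtype = (algebraMap W K).comp j) (n : ℕ) [NeZero n]
    (x : fld (inertiaField A) n) :
    modelToB hW n (mapF ι n x) = serToB hW j hj (serOf A n x) := by
  obtain ⟨a, b, hb, hab⟩ := IsFractionRing.div_surjective (LaurentSeries (intRing A)) (serOf A n x)
  have hb0 : b ≠ 0 := nonZeroDivisors.ne_zero hb
  have h1 := congrArg (serInj A) hab
  rw [map_div₀, serInj_algebraMap, serInj_algebraMap, serInj_serOf,
    div_eq_iff ((map_ne_zero_iff _ (intSer_injective A)).mpr hb0)] at h1
  have h2 : coeffMap (intRing A).subtype a =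
      (x : LaurentSeries (inertiaField A)) * coeffMap (intRing A).subtype b := by
    apply injective_coeffMap (f := (inertiaField A).val.toRingHom) Subtype.val_injective
    rw [map_mul, coeffMap_coeffMap, coeffMap_coeffMap]
    exact h1
  have h3 := congrArg (coeffMap ι) h2
  rw [map_mul, coeffMap_coeffMap, coeffMap_coeffMap, hι, ← coeffMap_coeffMap (algebraMap W K) j,
    ← coeffMap_coeffMap (algebraMap W K) j] at h3
  have hjb : coeffMap j b ≠ 0 := (map_ne_zero_iff _ (injective_coeffMap hj)).mpr hb0
  have e : modelOf W n (mapF ι n x) = algebraMap _ _ (coeffMap j a) /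
      algebraMap _ (FractionRing (LaurentSeries W)) (coeffMap j b) := by
    rw [eq_div_iff ((map_ne_zero_iff _ (IsFractionRing.injective _ _)).mpr hjb)]
    refine (modelInj W K).injective ?_
    rw [map_mul, modelInj_modelOf, modelInj_algebraMap, modelInj_algebraMap, h3]
    rfl
  rw [modelToB, RingHom.comp_apply, e, map_div₀, IsFractionRing.lift_algebraMap,
    IsFractionRing.lift_algebraMap, ← hab, map_div₀, serToB_algebraMap, serToB_algebraMap]
  rfl

end FLTA.RT.Qsq

end
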