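import Fermat.Agent.RT.Qsq.GaussMap
import Fermat.Agent.RT.Qsq.PairHom
import Fermat.Agent.RT.Qsq.SeriesModel
import Fermat.Agent.RT.Qsq.MiddleVal
import Fermat.Agent.Carayol.Node.Count

/-!
# The Gauss point seen from expansions at infinity

The residues at the Gauss point of the cover as series, with the constants and the substituted
generators of level `M` among them, and the expansions of functions of the two coordinates.
-/

set_option autoImplicit false
set_option maxHeartbeats 1000000
set_option synthInstance.maxHeartbeats 400000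

noncomputable section

open IsLocalRing Polynomial ModularCurve AlgebraicCurve FLTA.Carayol FLTA.Carayol.Bridge
  FLTA.BadRed FLTA.LevelLowering

namespace FLTA.RT.Qsq

local notation "Qb" => AlgebraicClosure ℚ

variable {q L₀ M : ℕ} [hq : Fact q.Prime] [NeZero q] [NeZero L₀] [NeZero M]
  {A : ValuationSubring Qb} {Φ : ℤ[X][X]} {t : ↥(modularFunctionFieldFull M)}

/-- The expansion at infinity of a function over the inertia field. -/
def fldSer (A : ValuationSubring Qb) (n : ℕ) [NeZero n] :
    fld (inertiaField A) n →+* LaurentSeries Qb :=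
  (fld Qb n).val.toRingHom.comp (mapF (inertiaField A).val.toRingHom n)

omit hq in
theorem pairSer_ofBase (im : InertiaModel A Φ q t) (a : fld (inertiaField A) M) :
    pairSer im.ψ (Pairs.ofBase _ a) = qExpand Qb q (fldSer A M a) := by
  show ((mapF (inertiaField A).val.toRingHom (M * q * q) (im.ψ (Pairs.ofBase _ a))) :
    LaurentSeries Qb) = _
  rw [im.isPairHom.base, mapF_heckeAlpha, mapF_heckeBeta, coe_heckeAlphaBar, coe_heckeBetaBar]
  rfl

omit hq in
theorem pairSer_fst (im : InertiaModel A Φ q t) (a : AdjoinRoot (inertiaPhi A Φ t)) :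
    pairSer im.ψ (onFst _ a) = fldSer A (M * q) (im.e a) := by
  show ((mapF (inertiaField A).val.toRingHom (M * q * q) (im.ψ (AdjoinRoot.of _ a))) :
    LaurentSeries Qb) = _
  rw [im.ψ_fst, mapF_heckeAlpha, coe_heckeAlphaBar]
  rfl

omit hq in
theorem pairSer_swap (im : InertiaModel A Φ q t) (hqM : ¬ q ∣ M) [Fact q.Prime]
    (hL : Haupt.IsHauptLevel L₀) (ht : Chart.IsTFull L₀ M t)
    {w₀ : fld (inertiaField A) (M * q) →+* fld (inertiaField A) (M * q)}
    (hw₀ : IsSwap (inertiaField A) q t w₀) (a : AdjoinRoot (inertiaPhi A Φ t)) :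
    pairSer im.ψ (Pairs.swap _ (onFst _ a)) = qExpand Qb q
      ((BadRed.swapBar M q hqM (mapF (inertiaField A).val.toRingHom (M * q) (im.e a)) :
        fld Qb (M * q)) : LaurentSeries Qb) := by
  have hswap : ∀ b, im.ψ (Pairs.swap _ (AdjoinRoot.of _ b)) =
      heckeBetaBar _ (M * q) q (w₀ (im.e b)) := by
    intro b
    refine RingHom.congr_fun
      (f := (im.ψ.comp (Pairs.swap _)).comp (AdjoinRoot.of (sndPoly (inertiaPhi A Φ t))))
      (g := (heckeBetaBar _ (M * q) q).toRingHom.comp (w₀.comp im.e))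
      (AdjoinRoot.ringHom_ext (RingHom.ext fun r => ?_) ?_) b
    · show im.ψ (Pairs.swap _ (Pairs.ofBase _ r)) =
        heckeBetaBar _ (M * q) q (w₀ (im.e (AdjoinRoot.of _ r)))
      rw [Pairs.swap_ofBase, im.isPairHom.base, im.e_of, hw₀.1]
      exact Subtype.ext (by simp)
    · show im.ψ (Pairs.swap _ (Pairs.fst _)) = heckeBetaBar _ (M * q) q (w₀ (im.e (AdjoinRoot.root _)))
      rw [Pairs.swap_fst, im.isPairHom.snd, im.e_root, hw₀.2]
  show ((mapF (inertiaField A).val.toRingHom (M * q * q)
    (im.ψ (Pairs.swap _ (AdjoinRoot.of _ a)))) : LaurentSeries Qb) = _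
  rw [hswap, mapF_heckeBeta, coe_heckeBetaBar,
    hw₀.mapF_comm hL ht _ (isSwap_swapBar (t := t) hqM)]
  rfl

variable [CharP (ResidueField A) q] {W : Type} [CommRing W] [IsDomain W]
  [IsDiscreteValuationRing W] [CharZero W] [Fact (Prime (C (q : W) : W[X]))]
  [Fact (Prime (PowerSeries.C (q : W) : PowerSeries W))] {Q : W[X][X]}

/-- **The Gauss point from infinity.** -/
theorem exists_setting (hA : A.LiesOverPrime q) (fp : FramePair q A) {w : A}
    (hw : residue A w ≠ 0) (hqw : (q : Qb) = fp.fr₀.ϖ * (w : Qb))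
    (hW : maximalIdeal W = Ideal.span {(q : W)}) (ι : inertiaField A →+* FractionRing W)
    (j : intRing A →+* W) (hj : Function.Injective j)
    (hι : ι.comp (intRing A).subtype = (algebraMap W (FractionRing W)).comp j)
    (r : W →+* ResidueField A) (hr : RingHom.ker r = maximalIdeal W)
    (hrj : r.comp j = (residue A).comp (intIncl A)) (ht : Chart.IsTFull L₀ M t)
    (gm : GaussModel W q Φ Q) (m : CoverModel (W := W) (FractionRing W) q Φ Q t)
    (im : InertiaModel A Φ q t) :
    ∃ (hΨ : (inertiaPhi A Φ t).map (gm.g.comp (baseMap m ι)) =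
        (phiAt Φ (gaussCoeff gm.f)).map (algebraMap gm.A (FractionRing gm.A)))
      (G : GaussRes fp gm.sA (gm.g.comp (baseMap m ι)) hΨ (pairSer im.ψ)),
      (∀ (x : fld (inertiaField A) M) (a : LaurentSeries (intRing A)),
        serOf A (M * q * q) (im.ψ (Pairs.ofBase _ x)) = algebraMap _ _ a →
        coeffMap ((residue A).comp (intIncl A)) a ≠ 0 →
          ∃ v : gm.A, G.hbar (AdjoinRoot.of gm.sA.quo v) =
            coeffMap ((residue A).comp (intIncl A)) a) ∧
      (∀ c : ResidueField A, ∃ v : gm.A,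
        G.hbar (AdjoinRoot.of gm.sA.quo v) = HahnSeries.C c) ∧
      ∀ d : ℕ, [NeZero d] → d ∣ M → ∃ x : fld (inertiaField A) M,
        HasVal fp.fr₀ (pairSer im.ψ (Pairs.ofBase _ x)) 0
          (qExpand (ResidueField A) q (qExpand (ResidueField A) d (jqModC (ResidueField A)))) := by
  have hqp : q.Prime := Fact.out
  have := Fact.mk im.irreducible_phi
  have := Fact.mk (im.irreducible_snd ⟨im.irreducible_phi⟩)
  set ν : fld (inertiaField A) M →+* FractionRing gm.A := gm.g.comp (baseMap m ι)
  have hΨ : (inertiaPhi A Φ t).map ν =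
      (phiAt Φ (gaussCoeff gm.f)).map (algebraMap gm.A (FractionRing gm.A)) := by
    rw [gm.phi_gauss, ← Polynomial.map_map, map_inertiaPhi]
  have hbX : baseMap m ι (ofFull (inertiaField A) M t) = coverBase Q X := m.γ_bij.1 (by
    rw [γ_baseMap, mapF_ofFull, m.γ_X])
  have hT : ν (ofFull (inertiaField A) M t) =
      algebraMap gm.A (FractionRing gm.A) (gaussCoeff gm.f X) := by
    rw [RingHom.comp_apply, hbX, ← RingHom.comp_apply gm.g, gm.g_base]
    rfl
  -- the map of the Gauss field to the series
  set τ : CoverAlg W Q →+* FractionRing (SerB W q) :=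
    ((modelToB hW (M * q * q)).comp m.ψ).comp (Pairs.ofBase (coverPhi Φ Q)) with hτ
  obtain ⟨jL, hjL⟩ := exists_gaussMap hW r hr gm τ (qExpand W q (Haupt.tOf L₀ W))
    (fun p hp => by
      rw [coeffMap_qExpand, coeffMap_tOf]
      refine aeval_qExpand_ne_zero ?_ p hp
      refine Haupt.order_eq_of_coeff ?_ fun i hi => ?_
      · rw [coeff_tOf_neg_one]; exact one_ne_zero
      · rw [coeff_tOf_of_lt L₀ _ hi])
    (fun u => by
      rw [← modelToB_const hW (K := FractionRing W) (n := M * q * q) u, ← m.ψ_const]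
      rfl)
    (by
      refine modelToB_eq hW ?_
      show ((m.ψ (AdjoinRoot.of _ (AdjoinRoot.of _ (coverBase Q X)))) :
        LaurentSeries (FractionRing W)) = _
      rw [m.ψ_fst, m.e_of, m.γ_X, coe_heckeAlphaBar, coe_heckeBetaBar, coeffMap_qExpand,
        coeffMap_tOf, coe_ofFull_tFull ht])
  obtain ⟨G, hG⟩ := exists_gaussRes_lift fp hw hqw hW j hj r hr hrj ht im.isPairHom gm.isGauss ν
    hΨ hT jL fun a => by
      have h1 := RingHom.congr_fun hjL (baseMap m ι a)
      rw [hτ, RingHom.comp_apply, RingHom.comp_apply, RingHom.comp_apply] at h1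
      rw [RingHom.comp_apply gm.g, ← h1, ← modelToB_mapF hW j hj ι hι, ← ψ_map m ι im,
        Pairs.map_ofBase]
  refine ⟨hΨ, G, hG, fun c => ?_, fun d _ hd => ?_⟩
  · rcases eq_or_ne c 0 with rfl | hc
    · exact ⟨0, by rw [map_zero, map_zero, map_zero]⟩
    obtain ⟨a, rfl⟩ := residue_surjective c
    obtain ⟨z, hz, hzr⟩ := exists_fixed_residue hqp hA a
    obtain ⟨v, hv⟩ := hG (algebraMap (inertiaField A) _ ⟨(z : Qb), hz⟩)
      (HahnSeries.C (⟨⟨(z : Qb), hz⟩, z.2⟩ : intRing A)) (by
        apply (serInj A).injective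
        rw [serInj_serOf, serInj_algebraMap, intSer, coeffMap_const]
        refine (pairSer_ofBase im _).trans ?_
        rw [fldSer, RingHom.comp_apply, mapF_algebraMap]
        show qExpand Qb q (algebraMap Qb (LaurentSeries Qb) (z : Qb)) = _
        rw [algebraMap_laurentSeries_eq_single, qExpand_single, mul_zero, ← HahnSeries.C_apply]
        rfl)
      (by
        rw [coeffMap_const, ne_eq, map_eq_zero_iff _ HahnSeries.C_injective]
        show residue A z ≠ 0
        rwa [hzr])
    refine ⟨v, hv.trans ?_⟩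
    rw [coeffMap_const, ← hzr]
    rfl
  · refine ⟨jOf (inertiaField A) d hd, ?_⟩
    have e : pairSer im.ψ (Pairs.ofBase _ (jOf (inertiaField A) d hd)) =
        coeffMap A.subtype (qExpand A q (qExpand A d (jqModC A))) := by
      rw [pairSer_ofBase, fldSer, RingHom.comp_apply, coeffMap_qExpand, coeffMap_qExpand,
        coeffMap_jqModC]
      refine congrArg (qExpand Qb q) ?_
      show ((mapF (inertiaField A).val.toRingHom M (jOf (inertiaField A) d hd)) :
        LaurentSeries Qb) = _
      rw [coe_mapF, coe_jOf, coeffMap_qExpand, coeffMap_jqModC]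
    have hred : redSeries A (residue A)
        (coeffMap A.subtype (qExpand A q (qExpand A d (jqModC A)))) =
          qExpand (ResidueField A) q (qExpand (ResidueField A) d (jqModC (ResidueField A))) := by
      rw [redSeries_coeffMap, coeffMap_qExpand, coeffMap_qExpand, coeffMap_jqModC]
    have hne : qExpand (ResidueField A) q (qExpand (ResidueField A) d (jqModC (ResidueField A))) ≠ 0 :=
      (_root_.map_ne_zero _).2 ((_root_.map_ne_zero _).2 (jqModC_ne_zero_of_nontrivial _))
    have hval : fp.fr₀.IsVal (coeffMap A.subtype (qExpand A q (qExpand A d (jqModC A)))) 0 :=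
      ⟨by rw [Frame.ge_zero_iff]; exact intSeries_coeffMap _, by
        rw [neg_zero, zpow_zero, one_smul, hred]; exact hne⟩
    have h := hasVal_of_isVal hval
    rwa [hval.lead_eq fp.fr₀, neg_zero, zpow_zero, one_smul, hred, ← e] at h

end FLTA.RT.Qsq

end
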