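import Fermat.Agent.RT.Qsq.NodeHom
import Fermat.Agent.RT.Qsq.DegreeFull
import Fermat.Agent.RT.Qsq.FamilyRoot
import Fermat.Agent.RT.Qsq.MiddleSetting
import Fermat.Agent.RT.Qsq.Setting

/-!
# The residue field at the Gauss point is the function field of level `M` in characteristic `q`

The reduced functions of level `M` are the residues at the Gauss point: they embed by the
substituted expansions and there are enough of them, the residue field having at most the degree
of the cover over the line.
-/

set_option autoImplicit false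
set_option maxHeartbeats 1600000
set_option synthInstance.maxHeartbeats 400000
set_option linter.style.haveILetI false

noncomputable section

open IsLocalRing Polynomial ModularCurve FLTA.Carayol FLTA.Congruence FLTA.BadRed
  FLTA.LevelLowering FLTA.Carayol.Bridge

namespace FLTA.RT.Qsq

local notation "Qb" => AlgebraicClosure ℚ

/-- A series which is a `q ^ n`-th power for every `n` is a constant. -/
theorem eq_C_of_forall_exists_pow {k : Type} [Field k] {q : ℕ} [Fact q.Prime] [CharP k q]
    {x : LaurentSeries k} (hx : ∀ n : ℕ, ∃ y, y ^ q ^ n = x) : x = HahnSeries.C (x.coeff 0) := by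
  haveI : ExpChar k q := ExpChar.prime Fact.out
  haveI : NeZero q := ⟨(Fact.out : q.Prime).ne_zero⟩
  have key : ∀ (n : ℕ) (y : LaurentSeries k) (i : ℤ), (y ^ q ^ n).coeff i ≠ 0 →
      (q : ℤ) ^ n ∣ i := by
    intro n
    induction n with
    | zero => intro y i _; rw [pow_zero]; exact one_dvd i
    | succ n ih =>
      intro y i hi
      rw [pow_succ, pow_mul, ← FLTA.Congruence.qExpand_coeffMap_frobenius (R := k) (ℓ := q)] at hi
      by_cases hd : (q : ℤ) ∣ i
      · obtain ⟨i', rfl⟩ := hd
        rw [qExpand_coeff_mul, coeffMap_coeff] at hi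
        rw [pow_succ']
        refine mul_dvd_mul_left _ (ih y i' fun h => hi ?_)
        rw [h, map_zero]
      · exact absurd (qExpand_coeff_of_not_dvd q _ hd) hi
  ext i
  rw [HahnSeries.C_apply, HahnSeries.coeff_single]
  split_ifs with h
  · rw [h]
  by_contra hc
  obtain ⟨y, hy⟩ := hx i.natAbs
  have h1 := key i.natAbs y i (hy ▸ hc)
  have h2 : (q : ℤ) ^ i.natAbs ≤ (i.natAbs : ℤ) := by
    rw [Int.natCast_natAbs]
    exact Int.le_of_dvd (abs_pos.2 h) ((dvd_abs _ _).2 h1)
  exact absurd h2 (not_le.2 (by exact_mod_cast Nat.lt_pow_self (Fact.out : q.Prime).one_lt))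

/-- Perfect elements have order zero. -/
theorem order_eq_zero_of_forall_exists_pow {k : Type} [Field k] {q : ℕ} [Fact q.Prime] [CharP k q]
    {x : LaurentSeries k} (hx : ∀ n : ℕ, ∃ y, y ^ q ^ n = x) : x.order = 0 := by
  rw [eq_C_of_forall_exists_pow hx, HahnSeries.C_apply]
  rcases eq_or_ne (x.coeff 0) 0 with h | h
  · rw [h, map_zero, HahnSeries.order_zero]
  · rw [HahnSeries.order_single h]

section Dependence

variable {W : Type} [CommRing W] [IsDomain W] [IsDiscreteValuationRing W]
  {q : ℕ} [Fact (Prime (C (q : W) : W[X]))] {Φ : ℤ[X][X]} {Q : W[X][X]}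

/-- More residues than the degree of the cover are dependent over the residues of the line. -/
theorem exists_residue_dependence (gm : GaussModel W q Φ Q) (hQ : Q.Monic) {F : Type} [Field F]
    (ρ : F →+* ResidueField gm.A) (E : Subfield F)
    (hE : ∀ P : W[X], ∃ g ∈ E, ρ g = residue gm.A (gaussCoeff gm.f P))
    (v : Fin (Q.natDegree + 1) → ResidueField gm.A) :
    ∃ g : Fin (Q.natDegree + 1) → F, (∀ i, g i ∈ E) ∧ (∃ i, g i ≠ 0) ∧
      ∑ i, ρ (g i) * v i = 0 := by
  classical
  let H := HatAt (C (q : W) : W[X])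
  let K := FractionRing H
  choose a ha using fun i => residue_surjective (R := gm.A) (v i)
  have hm : (Q.map (gaussHom W q)).Monic := hQ.map _
  let x : Fin (Q.natDegree + 1) → AdjoinRoot (Q.map (gaussHom W q)) := fun i =>
    gm.e.symm (algebraMap gm.A (FractionRing gm.A) (a i))
  have hdep : ¬ LinearIndependent K x := fun h => by
    have := hm.finite_adjoinRoot
    have h1 := h.fintype_card_le_finrank
    rw [Fintype.card_fin, (AdjoinRoot.powerBasis' hm).finrank, AdjoinRoot.powerBasis'_dim,
      hQ.natDegree_map] at h1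
    omega
  obtain ⟨h, hsum, i₁, hi₁⟩ := Fintype.not_linearIndependent_iff.1 hdep
  obtain ⟨i₀, hi₀, hle⟩ : ∃ i₀, h i₀ ≠ 0 ∧
      ∀ j ∈ (Finset.univ : Finset (Fin (Q.natDegree + 1))), ∃ b : H,
        algebraMap H K b * h i₀ = h j := by
    induction (Finset.univ : Finset (Fin (Q.natDegree + 1))) using Finset.induction with
    | empty => exact ⟨i₁, hi₁, fun j hj => absurd hj (Finset.notMem_empty j)⟩
    | insert j s _ ih =>
      obtain ⟨i₀, hi₀, hs⟩ := ih
      obtain ⟨b, hb⟩ | ⟨b, hb⟩ := ValuationRing.isInteger_or_isInteger H (h j / h i₀)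
      · refine ⟨i₀, hi₀, fun l hl => ?_⟩
        rcases Finset.mem_insert.1 hl with rfl | hl
        · exact ⟨b, by rw [hb, div_mul_cancel₀ _ hi₀]⟩
        · exact hs l hl
      · by_cases hj0 : h j = 0
        · refine ⟨i₀, hi₀, fun l hl => ?_⟩
          rcases Finset.mem_insert.1 hl with rfl | hl
          · exact ⟨0, by rw [map_zero, zero_mul, hj0]⟩
          · exact hs l hl
        · refine ⟨j, hj0, fun l hl => ?_⟩
          rcases Finset.mem_insert.1 hl with rfl | hl
          · exact ⟨1, by rw [map_one, one_mul]⟩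
          · obtain ⟨b', hb'⟩ := hs l hl
            refine ⟨b' * b, ?_⟩
            rw [map_mul, hb, inv_div, mul_assoc, div_mul_cancel₀ _ hj0, hb']
  choose b hb using fun j => hle j (Finset.mem_univ j)
  have hA : ∑ j, gm.f (b j) * a j = 0 := by
    apply IsFractionRing.injective gm.A (FractionRing gm.A)
    have h0 := congrArg gm.e hsum
    simp only [map_sum, Algebra.smul_def, map_mul, map_zero, AdjoinRoot.algebraMap_eq, x,
      RingEquiv.apply_symm_apply] at h0
    rw [map_sum, map_zero]
    have hne : gm.e (AdjoinRoot.of _ (h i₀)) ≠ 0 :=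
      (_root_.map_ne_zero (gm.e.toRingHom.comp (AdjoinRoot.of (Q.map (gaussHom W q))))).2 hi₀
    refine mul_left_cancel₀ hne ?_
    rw [Finset.mul_sum, mul_zero, ← h0]
    refine Finset.sum_congr rfl fun j _ => ?_
    rw [← hb j, map_mul, map_mul, map_mul, gm.e_coeff]
    ring
  have hfrac : ∀ j, ∃ g ∈ E, ρ g = residue gm.A (gm.f (b j)) := by
    intro j
    obtain ⟨r, s, hs, d, hd⟩ := exists_residue_frac (C (q : W) : W[X]) (b j)
    obtain ⟨gr, hgr, hgr'⟩ := hE r
    obtain ⟨gs, hgs, hgs'⟩ := hE s
    have hsu : residue gm.A (gaussCoeff gm.f s) ≠ 0 :=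
      (((isUnit_toHat (C (q : W) : W[X]) hs).map gm.f).map (residue gm.A)).ne_zero
    refine ⟨gr / gs, E.div_mem hgr hgs, ?_⟩
    rw [map_div₀, hgr', hgs', div_eq_iff hsu, eq_comm, mul_comm]
    have hq0 : residue gm.A (gm.f (toHat _ (C (q : W) : W[X]))) = 0 := by
      have hCq : toHat (C (q : W) : W[X]) (C (q : W)) = (q : H) :=
        (congrArg (toHat (C (q : W) : W[X])) (map_natCast C q)).trans (map_natCast _ q)
      rw [hCq, map_natCast, residue_eq_zero_iff, gm.max_eq]
      exact Ideal.mem_span_singleton_self _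
    have h2 := congrArg (fun z => residue gm.A (gm.f z)) hd
    simp only [map_sub, map_mul] at h2
    rw [hq0, zero_mul, sub_eq_zero] at h2
    exact h2
  choose g hgE hg using hfrac
  refine ⟨g, hgE, ⟨i₀, fun h0 => ?_⟩, ?_⟩
  · have hb0 : b i₀ = 1 := IsFractionRing.injective H K (by
      rw [map_one]
      exact mul_right_cancel₀ hi₀ ((hb i₀).trans (one_mul _).symm))
    have := hg i₀
    rw [h0, hb0, map_one, map_one, map_zero] at this
    exact zero_ne_one this
  · have h1 := congrArg (residue gm.A) hA
    simpa only [map_sum, map_mul, map_zero, hg, ha] using h1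

end Dependence

variable {q L₀ M : ℕ} [Fact q.Prime] [NeZero q] [NeZero L₀] [NeZero M]
  {A : ValuationSubring Qb} [CharP (ResidueField A) q] {Φ : ℤ[X][X]}
  {t : ↥(modularFunctionFieldFull M)}

section Residues

variable {O : Type} [CommRing O] [IsDomain O] [IsDiscreteValuationRing O]
  [IsAdicComplete (maximalIdeal O) O] {L : Type} [Field L] [Algebra O L] [IsFractionRing O L]
  {R₀ : Type} [Field R₀] {Ψ₀ : R₀[X]} {fp : FramePair q A} {ΨA : O[X]} {s : RootSplit ΨA} {T : O}
  {ν : R₀ →+* L} {hΨ : Ψ₀.map ν = ΨA.map (algebraMap O L)}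
  {Sr : Pairs Ψ₀ →+* LaurentSeries Qb}

omit [NeZero q] [IsAdicComplete (maximalIdeal O) O] [Fact q.Prime] [IsFractionRing O L] in
/-- The residue series of `O` kills the maximal ideal. -/
theorem isLocalHom_hbar_of (hs : IsGauss q ΨA s T) (G : GaussRes fp s ν hΨ Sr) :
    IsLocalHom (G.hbar.comp (AdjoinRoot.of s.quo)) := ⟨fun a ha => by
  by_contra hna
  have ha' : a ∈ maximalIdeal O := hna
  rw [hs.max_eq, Ideal.mem_span_singleton] at ha'
  obtain ⟨d, rfl⟩ := ha'
  rw [map_mul, map_natCast] at ha
  have hu : IsUnit ((q : LaurentSeries (ResidueField A))) := isUnit_of_mul_isUnit_left ha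
  rw [← map_natCast (HahnSeries.C (Γ := ℤ) (R := ResidueField A)), CharP.cast_eq_zero,
    map_zero] at hu
  exact not_isUnit_zero hu⟩

/-- The reduced functions of level `M` as residues at the Gauss point. -/
theorem exists_resHom (hs : IsGauss q ΨA s T) (G : GaussRes fp s ν hΨ Sr)
    (hC : ∀ c : ResidueField A, ∃ a : O, G.hbar (AdjoinRoot.of s.quo a) = HahnSeries.C c)
    (hgen : ∀ d : ℕ, [NeZero d] → d ∣ M → ∃ r : R₀,
      HasVal fp.fr₀ (Sr (Pairs.ofBase Ψ₀ r)) 0
        (qExpand (ResidueField A) q (qExpand (ResidueField A) d (jqModC (ResidueField A))))) :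
    ∃ ρf : modularFunctionFieldFullC (ResidueField A) M →+* ResidueField O,
      ∀ (x : modularFunctionFieldFullC (ResidueField A) M) (a : O),
        residue O a = ρf x ↔ G.hbar (AdjoinRoot.of s.quo a) =
          qExpand (ResidueField A) q (x : LaurentSeries (ResidueField A)) := by
  have := isLocalHom_hbar_of hs G
  let h : ResidueField O →+* LaurentSeries (ResidueField A) :=
    ResidueField.lift (G.hbar.comp (AdjoinRoot.of s.quo))
  have hh : ∀ a, h (residue O a) = G.hbar (AdjoinRoot.of s.quo a) :=
    fun a => ResidueField.lift_residue_apply _ a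
  have hmem : ∀ x : modularFunctionFieldFullC (ResidueField A) M, ∃ z,
      h z = qExpand (ResidueField A) q (x : LaurentSeries (ResidueField A)) := fun x => by
    obtain ⟨a, ha⟩ := qExpand_full_mem hs G hC hgen x
    exact ⟨residue O a, (hh a).trans ha⟩
  choose r hr using hmem
  refine ⟨{ toFun := r, map_one' := ?_, map_mul' := fun x y => ?_, map_zero' := ?_,
            map_add' := fun x y => ?_ }, fun x a => ⟨fun e => ?_, fun e => h.injective ?_⟩⟩
  · exact h.injective (by rw [hr, map_one, OneMemClass.coe_one, map_one])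
  · exact h.injective (by rw [hr, map_mul, hr, hr, ← map_mul]; rfl)
  · exact h.injective (by rw [hr, map_zero, ZeroMemClass.coe_zero, map_zero])
  · exact h.injective (by rw [hr, map_add, hr, hr, ← map_add]; rfl)
  · rw [← hh, e]; exact hr x
  · rw [hh, e]; exact (hr x).symm

end Residues

variable {W : Type} [CommRing W] [IsDomain W] [IsDiscreteValuationRing W]
  [Fact (Prime (C (q : W) : W[X]))] {Q : W[X][X]} {gm : GaussModel W q Φ Q}
  {fp : FramePair q A} {im : InertiaModel A Φ q t} {ν : fld (inertiaField A) M →+* FractionRing gm.A}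
  {hΨ : (inertiaPhi A Φ t).map ν =
    (phiAt Φ (gaussCoeff gm.f)).map (algebraMap gm.A (FractionRing gm.A))}

/-- The residue of `T` is a multiple of the substituted `t`. -/
theorem exists_hbar_T (ht : Chart.IsTFull L₀ M t)
    (G : GaussRes fp gm.sA ν hΨ (pairSer im.ψ))
    (hT : ν (ofFull (inertiaField A) M t) =
      algebraMap gm.A (FractionRing gm.A) (gaussCoeff gm.f X)) :
    ∃ c : ResidueField A, c ≠ 0 ∧ G.hbar (AdjoinRoot.of gm.sA.quo (gaussCoeff gm.f X)) =
      HahnSeries.C c * qExpand (ResidueField A) q (Haupt.tOf L₀ (ResidueField A)) := by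
  have hs := gm.isGauss
  have := hs.isDomain_E
  have := hs.isLocalRing_E
  have := hs.isDiscreteValuationRing_E
  have := Fact.mk (hs.irreducible_quo (L := FractionRing gm.A))
  letI := (gm.sA.mapE (algebraMap gm.A (FractionRing gm.A))).toAlgebra
  have := hs.isFractionRing_E (L := FractionRing gm.A)
  have e : pairSer im.ψ (Pairs.ofBase _ (ofFull (inertiaField A) M t)) =
      coeffMap A.subtype (qExpand A q (Haupt.tOf L₀ A)) := by
    rw [pairSer_ofBase, fldSer, RingHom.comp_apply, coeffMap_qExpand, coeffMap_tOf, mapF_ofFull,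
      show ((fld Qb M).val.toRingHom (ofFull Qb M t)) =
        (ofFull Qb M t : LaurentSeries Qb) from rfl, coe_ofFull_tFull ht]
  have hred : redSeries A (residue A) (coeffMap A.subtype (qExpand A q (Haupt.tOf L₀ A))) =
      qExpand (ResidueField A) q (Haupt.tOf L₀ (ResidueField A)) := by
    rw [redSeries_coeffMap, coeffMap_qExpand, coeffMap_tOf]
  have hne : qExpand (ResidueField A) q (Haupt.tOf L₀ (ResidueField A)) ≠ 0 := by
    refine (_root_.map_ne_zero _).2 fun h0 => ?_
    have h1 := Haupt.coeff_tOf_pow_self L₀ (R := ResidueField A) 1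
    rw [pow_one, h0, HahnSeries.coeff_zero] at h1
    simp at h1
  have hval : fp.fr₀.IsVal (coeffMap A.subtype (qExpand A q (Haupt.tOf L₀ A))) 0 :=
    ⟨by rw [Frame.ge_zero_iff]; exact intSeries_coeffMap _, by
      rw [neg_zero, zpow_zero, one_smul, hred]; exact hne⟩
  have h := hasVal_of_isVal hval
  rw [hval.lead_eq fp.fr₀, neg_zero, zpow_zero, one_smul, hred, ← e] at h
  obtain ⟨u, c, hc, -, hbr, hh⟩ := G.compat _ 0 _ h
  refine ⟨c, hc, ?_⟩
  rw [← hh]
  refine congrArg G.hbar (IsFractionRing.injective gm.sA.E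
    (gm.sA.map (algebraMap gm.A (FractionRing gm.A))).E ?_)
  show gm.sA.mapE (algebraMap gm.A (FractionRing gm.A)) _ =
    gm.sA.mapE (algebraMap gm.A (FractionRing gm.A)) u
  rw [zpow_zero, map_one, one_mul] at hbr
  rw [← hbr]
  simp [RootSplit.br₁, RootSplit.mapE, hT]

/-- **The residue field at the Gauss point.** -/
theorem exists_residualField [IsAlgClosed (ResidueField W)] (hW : maximalIdeal W = Ideal.span {(q : W)})
    (hqM : ¬ q ∣ M) (hL : Haupt.IsHauptLevel L₀) (ht : Chart.IsTFull L₀ M t) (hQ : Q.Monic)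
    (hQ0 : 0 < Q.natDegree)
    (hdeg : Q.natDegree ≤ IntermediateField.relfinrank (Chart.tField L₀ (ResidueField A))
      (modularFunctionFieldFullC (ResidueField A) M))
    (G : GaussRes fp gm.sA ν hΨ (pairSer im.ψ))
    (hC : ∀ c : ResidueField A, ∃ a : gm.A, G.hbar (AdjoinRoot.of gm.sA.quo a) = HahnSeries.C c)
    (hgen : ∀ d : ℕ, [NeZero d] → d ∣ M → ∃ r : fld (inertiaField A) M,
      HasVal fp.fr₀ (pairSer im.ψ (Pairs.ofBase _ r)) 0
        (qExpand (ResidueField A) q (qExpand (ResidueField A) d (jqModC (ResidueField A)))))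
    (hT : ν (ofFull (inertiaField A) M t) =
      algebraMap gm.A (FractionRing gm.A) (gaussCoeff gm.f X)) :
    ∃ (ρf : modularFunctionFieldFullC (ResidueField A) M →+* ResidueField gm.A)
      (tC : modularFunctionFieldFullC (ResidueField A) M),
      (∀ (x : modularFunctionFieldFullC (ResidueField A) M) (a : gm.A),
        residue gm.A a = ρf x ↔ G.hbar (AdjoinRoot.of gm.sA.quo a) =
          qExpand (ResidueField A) q (x : LaurentSeries (ResidueField A))) ∧
      ρf tC = residue gm.A (gaussCoeff gm.f X) ∧
      Module.Finite (IntermediateField.adjoin (ResidueField A)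
        ({tC} : Set (modularFunctionFieldFullC (ResidueField A) M)))
        (modularFunctionFieldFullC (ResidueField A) M) ∧
      Module.finrank (IntermediateField.adjoin (ResidueField A)
        ({tC} : Set (modularFunctionFieldFullC (ResidueField A) M)))
        (modularFunctionFieldFullC (ResidueField A) M) = Q.natDegree ∧
      (∀ w : W, ∃ c : ResidueField A,
        ρf (algebraMap _ _ c) = residue gm.A (gaussCoeff gm.f (C w))) ∧
      Function.Surjective ρf := by
  classical
  haveI := FLTA.Galois.isAlgClosed_residueField A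
  have hs := gm.isGauss
  obtain ⟨ρf, hρf⟩ := exists_resHom hs G hC hgen
  obtain ⟨c, hc, hTc⟩ := exists_hbar_T ht G hT
  let _ : Algebra (ZMod q) (ResidueField A) := ZMod.algebra _ q
  let _ : Algebra ↥(GaloisRep.ratLocalizedAt q) (ResidueField A) :=
    ((algebraMap (ZMod q) (ResidueField A)).comp (FLTA.Igusa.zlocToZMod q)).toAlgebra
  let tF : modularFunctionFieldFullC (ResidueField A) M :=
    ⟨Haupt.tOf L₀ (ResidueField A), ht.tOf_mem_full hL hqM⟩
  let tC : modularFunctionFieldFullC (ResidueField A) M := algebraMap _ _ c * tF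
  have hcst : ∀ e : ResidueField A, qExpand (ResidueField A) q
      (((algebraMap _ (modularFunctionFieldFullC (ResidueField A) M) e :
        modularFunctionFieldFullC (ResidueField A) M)) : LaurentSeries (ResidueField A)) =
      HahnSeries.C e := fun e => by
    show qExpand (ResidueField A) q (algebraMap (ResidueField A) _ e) = _
    rw [algebraMap_laurentSeries_eq_single, qExpand_single, mul_zero, HahnSeries.C_apply]
  have htC : ρf tC = residue gm.A (gaussCoeff gm.f X) := by
    refine ((hρf _ _).2 ?_).symm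
    rw [hTc, MulMemClass.coe_mul, map_mul, hcst]
  -- the constants
  have hconst : ∀ w : W, ∃ e : ResidueField A,
      ρf (algebraMap _ _ e) = residue gm.A (gaussCoeff gm.f (C w)) := by
    intro w
    haveI := charP_residueW (q := q) hW
    have hperf : ∀ n : ℕ, ∃ y : LaurentSeries (ResidueField A),
        y ^ q ^ n = G.hbar (AdjoinRoot.of gm.sA.quo (gaussCoeff gm.f (C w))) := by
      intro n
      obtain ⟨z, hz⟩ := IsAlgClosed.exists_pow_nat_eq (residue W w)
        (pow_pos (Fact.out : q.Prime).pos n)
      obtain ⟨v, rfl⟩ := residue_surjective z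
      rw [← map_pow, ← sub_eq_zero, ← map_sub, residue_eq_zero_iff, hW,
        Ideal.mem_span_singleton] at hz
      obtain ⟨d, hd⟩ := hz
      refine ⟨G.hbar (AdjoinRoot.of gm.sA.quo (gaussCoeff gm.f (C v))), ?_⟩
      rw [← map_pow, ← map_pow, ← map_pow, ← sub_eq_zero, ← map_sub, ← map_sub, ← map_sub,
        ← map_pow, ← map_sub, hd, map_mul C, map_natCast C, map_mul, map_natCast, map_mul,
        map_natCast, map_mul, map_natCast,
        ← map_natCast (HahnSeries.C (Γ := ℤ) (R := ResidueField A)), CharP.cast_eq_zero, map_zero,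
        zero_mul]
    exact ⟨_, ((hρf _ _).2 ((eq_C_of_forall_exists_pow hperf).trans (hcst _).symm)).symm⟩
  let E : IntermediateField (ResidueField A) (modularFunctionFieldFullC (ResidueField A) M) :=
    IntermediateField.adjoin (ResidueField A) {tC}
  have hE : ∀ P : W[X], ∃ g ∈ E.toSubfield, ρf g = residue gm.A (gaussCoeff gm.f P) := by
    intro P
    induction P using Polynomial.induction_on' with
    | add P R hP hR =>
      obtain ⟨g, hg, hg'⟩ := hP
      obtain ⟨g', hg₁, hg₂⟩ := hR
      exact ⟨g + g', add_mem hg hg₁, by rw [map_add, map_add, map_add, hg', hg₂]⟩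
    | monomial i w =>
      obtain ⟨e, he⟩ := hconst w
      refine ⟨algebraMap _ _ e * tC ^ i, E.toSubfield.mul_mem (E.algebraMap_mem e)
        (pow_mem (IntermediateField.mem_adjoin_simple_self _ tC) i), ?_⟩
      rw [← C_mul_X_pow_eq_monomial, map_mul, map_mul, map_mul, map_pow, map_pow, map_pow, he, htC]
  -- the degree
  have htF : E = IntermediateField.adjoin (ResidueField A) {tF} := by
    refine le_antisymm ?_ ?_ <;> refine IntermediateField.adjoin_le_iff.2
      (Set.singleton_subset_iff.2 ?_)
    · exact mul_mem (IntermediateField.algebraMap_mem _ c)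
        (IntermediateField.mem_adjoin_simple_self _ tF)
    · have : tF = algebraMap _ _ c⁻¹ * tC := by
        rw [← mul_assoc, ← map_mul, inv_mul_cancel₀ hc, map_one, one_mul]
      rw [this]
      exact mul_mem (IntermediateField.algebraMap_mem _ _)
        (IntermediateField.mem_adjoin_simple_self _ tC)
  have hfin : Q.natDegree ≤ Module.finrank E (modularFunctionFieldFullC (ResidueField A) M) := by
    have h2 := IntermediateField.relfinrank_map_map E
      (⊤ : IntermediateField (ResidueField A) (modularFunctionFieldFullC (ResidueField A) M))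
      (modularFunctionFieldFullC (ResidueField A) M).val
    rw [IntermediateField.relfinrank_top_right, ← AlgHom.fieldRange_eq_map,
      IntermediateField.fieldRange_val, htF, IntermediateField.adjoin_map,
      Set.image_singleton] at h2
    rw [htF]
    exact hdeg.trans h2.le
  have hfinite : Module.Finite E (modularFunctionFieldFullC (ResidueField A) M) :=
    Module.finite_of_finrank_pos (by omega)
  have hdep := exists_residue_dependence gm hQ ρf E.toSubfield hE
  have hup : Module.finrank E (modularFunctionFieldFullC (ResidueField A) M) ≤ Q.natDegree := by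
    by_contra hlt
    let b := Module.finBasis E (modularFunctionFieldFullC (ResidueField A) M)
    let e : Fin (Q.natDegree + 1) → Fin (Module.finrank E
      (modularFunctionFieldFullC (ResidueField A) M)) := Fin.castLE (by omega)
    obtain ⟨g, hg, ⟨i, hi⟩, hsum⟩ := hdep fun i => ρf (b (e i))
    have hli := b.linearIndependent.comp e (Fin.castLE_injective _)
    refine hi ?_
    have := Fintype.linearIndependent_iff.1 hli (fun i => ⟨g i, hg i⟩) (ρf.injective (by
      rw [map_zero, map_sum, ← hsum]
      exact Finset.sum_congr rfl fun i _ => by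
        rw [Algebra.smul_def, map_mul]
        rfl)) i
    exact congrArg Subtype.val this
  refine ⟨ρf, tC, hρf, htC, hfinite, le_antisymm hup hfin, hconst, fun z => ?_⟩
  by_contra hz
  have heq := le_antisymm hup hfin
  let b := Module.finBasisOfFinrankEq E (modularFunctionFieldFullC (ResidueField A) M) heq
  obtain ⟨g, hg, ⟨i, hi⟩, hsum⟩ := hdep (Fin.snoc (fun i => ρf (b i)) z)
  rw [Fin.sum_univ_castSucc] at hsum
  simp only [Fin.snoc_castSucc, Fin.snoc_last] at hsum
  rw [← Finset.sum_congr rfl fun i _ => map_mul ρf _ _, ← map_sum] at hsum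
  rcases eq_or_ne (g (Fin.last _)) 0 with hl | hl
  · rw [hl, map_zero, zero_mul, add_zero, map_eq_zero] at hsum
    refine hi ?_
    rcases Fin.eq_castSucc_or_eq_last i with ⟨j, rfl⟩ | rfl
    · have := Fintype.linearIndependent_iff.1 b.linearIndependent
        (fun i => ⟨g i.castSucc, hg _⟩) (hsum ▸ Finset.sum_congr rfl fun i _ => by
          rw [Algebra.smul_def]; rfl) j
      exact congrArg Subtype.val this
    · exact hl
  · refine hz ⟨-(∑ i : Fin Q.natDegree, g i.castSucc * b i) / g (Fin.last _), ?_⟩
    rw [map_div₀, map_neg, div_eq_iff ((_root_.map_ne_zero ρf).2 hl)]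
    linear_combination -hsum

end FLTA.RT.Qsq

end
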