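import Fermat.Agent.RT.Qsq.GaussRootP

/-!
# The unit on the middle branch

A pair function with outer valuations divisible by `p` and norms `p`-th powers up to constants has
`p`-th roots on the outer branches, and on the middle branch it is a unit `u` times a `p`-th power,
the residue of `u ^ q` being a twisted form of its middle lead.
-/

set_option autoImplicit false
set_option maxHeartbeats 1600000
set_option synthInstance.maxHeartbeats 400000
set_option linter.style.haveILetI false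

noncomputable section

open IsLocalRing ModularCurve Polynomial FLTA.Congruence FLTA.Carayol FLTA.Carayol.Bridge
  FLTA.BadRed FLTA.LevelLowering

namespace FLTA.RT.Qsq

local notation "Qb" => AlgebraicClosure ℚ

variable {q L₀ M : ℕ} [Fact q.Prime] [NeZero q] [NeZero L₀] [NeZero M]
  {A : ValuationSubring Qb} [CharP (ResidueField A) q] [PerfectRing (ResidueField A) q]
  {Φ : ℤ[X][X]} {t : ↥(modularFunctionFieldFull M)}
  {O : Type} [CommRing O] [IsDomain O] [IsDiscreteValuationRing O]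
  [IsAdicComplete (maximalIdeal O) O] {L : Type} [Field L] [Algebra O L] [IsFractionRing O L]
  {ΨA : O[X]} {s : RootSplit ΨA} {T : O} {ν : fld (inertiaField A) M →+* L}
  {hΨ : (inertiaPhi A Φ t).map ν = ΨA.map (algebraMap O L)}

/-- The value in an extension of a constant times `η` over a power of `ηD`. -/
theorem val_const_mul_div {k F : Type} [Field k] [Field F] [Algebra k F] (S : IntermediateField k F)
    (c : k) (η ηD : S) (n : ℤ) :
    ((algebraMap k S c * η * (ηD ^ n)⁻¹ : S) : F) =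
      algebraMap k F c * ((η : F) * ((ηD : F) ^ n)⁻¹) := by
  rw [MulMemClass.coe_mul, MulMemClass.coe_mul, IntermediateField.coe_inv,
    show ((ηD ^ n : S) : F) = (ηD : F) ^ n from map_zpow₀ S.val ηD n, mul_assoc]
  rfl

/-- The series of a constant times `η` over a power of `ηD`. -/
theorem coe_const_mul_div {k : Type} [Field k] {M : ℕ} [NeZero M] (c : k)
    (η ηD : modularFunctionFieldFullC k M) (n : ℤ) :
    ((algebraMap k (modularFunctionFieldFullC k M) c * η * (ηD ^ n)⁻¹ :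
        modularFunctionFieldFullC k M) : LaurentSeries k) =
      HahnSeries.C c * ((η : LaurentSeries k) * ((ηD : LaurentSeries k) ^ n)⁻¹) := by
  refine (val_const_mul_div _ c η ηD n).trans ?_
  rw [algebraMap_laurentSeries_eq_single]
  rfl

/-- Powers of the weight cancel. -/
theorem cancel_weight {F : Type*} [Field F] {θ x η c : F} (hθ : θ ≠ 0) (a n : ℤ) :
    c * (θ ^ (n * a) * x * ((θ ^ a * η) ^ n)⁻¹) = c * (x * (η ^ n)⁻¹) := by
  have h0 : θ ^ (a * n) ≠ 0 := zpow_ne_zero _ hθ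
  rw [mul_zpow, ← zpow_mul, mul_comm n a]
  field_simp

/-- The series at `q ^ q` of the Frobenius twist is the `q`-th power. -/
theorem qExpand_frob_smul (k : Type) [Field k] (q : ℕ) [Fact q.Prime] [NeZero q] [CharP k q]
    [PerfectRing k q] {M : ℕ} (x : modularFunctionFieldFullC k M) :
    qExpand k q ((FLTA.Congruence.frobSemilinear k q M • x : modularFunctionFieldFullC k M) :
        LaurentSeries k) = (x : LaurentSeries k) ^ q := by
  rw [FLTA.Congruence.coe_frobSemilinear_smul]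
  haveI : ExpChar k q := ExpChar.prime Fact.out
  exact FLTA.Congruence.qExpand_coeffMap_frobenius (R := k) (ℓ := q) _

/-- **The unit on the middle branch and its residue.** -/
theorem exists_middle_unit (hq2 : q ≠ 2) (hqM : ¬ q ∣ M) (hA : A.LiesOverPrime q)
    (ht : Chart.IsTFull L₀ M t) {fp : FramePair q A} {im : InertiaModel A Φ q t}
    (hs : IsGauss q ΨA s T) (hT : ν (ofFull (inertiaField A) M t) = algebraMap O L T)
    (G : GaussRes fp s ν hΨ (pairSer im.ψ))
    (hC : ∀ c : ResidueField A, ∃ a : O, G.hbar (AdjoinRoot.of s.quo a) = HahnSeries.C c)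
    (hgen : ∀ d : ℕ, [NeZero d] → d ∣ M → ∃ x : fld (inertiaField A) M,
      HasVal fp.fr₀ (pairSer im.ψ (Pairs.ofBase _ x)) 0
        (qExpand (ResidueField A) q (qExpand (ResidueField A) d (jqModC (ResidueField A)))))
    {p : ℕ} (hp : p.Prime) (hpq : p ≠ q) {y : Pairs (inertiaPhi A Φ t)} {m : ℤ}
    {η : modularFunctionFieldFullC (ResidueField A) M}
    (hlead : HasMiddleLead fp.fr (thetaSeries (ResidueField A))
      (mapF (inertiaField A).val.toRingHom (M * q * q) (im.ψ y)) m η)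
    (hval₁ : ∀ n Y, HasVal fp.fr₀ (pairSer im.ψ y) n Y → (p : ℤ) ∣ n)
    (hval₀ : ∀ n Y, HasVal fp.fr₀ (pairSer im.ψ (Pairs.swap _ y)) n Y → (p : ℤ) ∣ n)
    (hfst : ∃ c : inertiaField A, c ≠ 0 ∧ ∃ g,
      Pairs.normFst _ y = AdjoinRoot.of _ (algebraMap _ _ c) * g ^ p)
    (hsnd : ∃ c : inertiaField A, c ≠ 0 ∧ ∃ g,
      Pairs.normSnd _ y = AdjoinRoot.of _ (algebraMap _ _ c) * g ^ p) :
    ∃ (u : s.E') (i : ℤ) (a : O) (c : ResidueField A)
      (ηD : modularFunctionFieldFullC (ResidueField A) M),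
      η ≠ 0 ∧ ηD ≠ 0 ∧ c ≠ 0 ∧ IsUnit u ∧
      (∃ r, r ^ p = (s.map (algebraMap O L)).br₀ (Pairs.map ν hΨ y)) ∧
      (∃ r, r ^ p = (s.map (algebraMap O L)).br₁ (Pairs.map ν hΨ y)) ∧
      (∃ _ : Fact (Irreducible (s.map (algebraMap O L)).quo),
        ∃ _ : Fact (Irreducible (s.map (algebraMap O L)).G),
        (s.map (algebraMap O L)).brₘ (Pairs.map ν hΨ y) = s.mapE' (algebraMap O L) u *
          s.mapE' (algebraMap O L)
            (AdjoinRoot.of s.G (AdjoinRoot.root s.quo) - AdjoinRoot.root s.G) ^ ((p : ℤ) * i)) ∧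
      AdjoinRoot.of s.G (AdjoinRoot.root s.quo) - AdjoinRoot.root s.G ∣
        u ^ q - AdjoinRoot.of s.G (AdjoinRoot.of s.quo a) ∧
      G.hbar (AdjoinRoot.of s.quo a) = qExpand (ResidueField A) q
        (((FLTA.Congruence.frobSemilinear (ResidueField A) q M •
          (algebraMap (ResidueField A) (modularFunctionFieldFullC (ResidueField A) M) c * η *
            (ηD ^ ((p : ℤ) * i))⁻¹) : modularFunctionFieldFullC (ResidueField A) M)) :
          LaurentSeries (ResidueField A)) := by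
  have hqp : q.Prime := Fact.out
  have hf := Fact.mk im.irreducible_phi
  have := Fact.mk (im.irreducible_snd hf)
  have hquo := Fact.mk (hs.irreducible_quo (L := L))
  have hG := Fact.mk (hs.irreducible_G (L := L))
  have hcop : Nat.Coprime p q := (Nat.coprime_primes hp hqp).mpr hpq
  have hn : IsUnit (p : O) := by
    by_contra h
    have h' : (p : O) ∈ maximalIdeal O := h
    obtain ⟨α, β, hαβ⟩ := (Nat.isCoprime_iff_coprime.mpr hcop : IsCoprime (p : ℤ) q)
    refine (maximalIdeal.isMaximal O).ne_top ((Ideal.eq_top_iff_one _).2 ?_)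
    rw [show (1 : O) = (α : O) * (p : O) + (β : O) * (q : O) by
      have h1 := congrArg (Int.cast : ℤ → O) hαβ
      push_cast at h1
      exact h1.symm]
    exact add_mem (Ideal.mul_mem_left _ _ h')
      (Ideal.mul_mem_left _ _ (hs.max_eq ▸ Ideal.mem_span_singleton_self _))
  have hΨm : (ΨA.map (algebraMap O L)).Monic := hs.monic.map _
  have hd : 1 < (ΨA.map (algebraMap O L)).natDegree := by
    rw [hs.monic.natDegree_map, hs.natDegree_eq]; have := hqp.two_le; omega
  have h0 := hs.quo_eval_x₀_ne_zero (L := L)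
  have hΨ₀m : (inertiaPhi A Φ t).Monic := monic_of_injective ν.injective (hΨ ▸ hΨm)
  have hd₀ : 0 < (inertiaPhi A Φ t).natDegree := by
    have := hΨ₀m.natDegree_map ν
    rw [hΨ] at this
    omega
  have hmap : ∀ (y' : Pairs (inertiaPhi A Φ t)) (c : inertiaField A)
      (g : AdjoinRoot (inertiaPhi A Φ t)),
      Pairs.normFst _ y' = AdjoinRoot.of _ (algebraMap _ _ c) * g ^ p →
      Pairs.normFst _ (Pairs.map ν hΨ y') = AdjoinRoot.of _ (ν (algebraMap _ _ c)) *
        AdjoinRoot.map ν _ _ hΨ.symm.dvd g ^ p := fun y' c g h => by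
    rw [Pairs.normFst_map hΨ₀m hd₀, h, map_mul, map_pow, AdjoinRoot.map_of]
  -- a branch through the first root
  have key : ∀ y' : Pairs (inertiaPhi A Φ t), y' ≠ 0 →
      (∀ n Y, HasVal fp.fr₀ (pairSer im.ψ (Pairs.swap _ y')) n Y → (p : ℤ) ∣ n) →
      ∀ (c : inertiaField A) (g : AdjoinRoot (inertiaPhi A Φ t)), c ≠ 0 →
      Pairs.normFst _ y' = AdjoinRoot.of _ (algebraMap _ _ c) * g ^ p →
      (∃ r, r ^ p = (s.map (algebraMap O L)).br₀ (Pairs.map ν hΨ y')) ∧ ∃ w, w ^ p = ν (algebraMap _ _ c) := by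
    intro y' hy' hval c g hc hnorm
    obtain ⟨n, Y, hY⟩ := G.hasVal (Pairs.swap _ y') fun h => hy' (by
      rw [← Pairs.swap_swap y', h, map_zero])
    obtain ⟨u, -, -, hu, hbr, -⟩ := G.compat _ n Y hY
    have hz : (s.map (algebraMap O L)).br₀ (Pairs.map ν hΨ y') =
        AdjoinRoot.of _ ((q : L) ^ n) * s.mapE (algebraMap O L) u := by
      rw [← hbr, Pairs.map_swap, ← IsGauss.br₀_swap, Pairs.swap_swap]
    obtain ⟨v, w, hcw⟩ := exists_const_decomp hs G hC hp.pos hn hc
    obtain ⟨hv, r, hr⟩ := exists_pow_outer hs hn hcop hquo hu hz (hval n Y hY) (v := v)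
      (g := w * (s.map (algebraMap O L)).proj₀ (AdjoinRoot.map ν _ _ hΨ.symm.dvd g)) (by
        rw [← (s.map (algebraMap O L)).proj₀_normFst hΨm (by omega), hmap y' c g hnorm, map_mul, map_pow, mul_pow,
          RootSplit.proj₀, AdjoinRoot.lift_of, RingHom.id_apply, hcw, mul_assoc])
    obtain ⟨i, rfl⟩ := hv
    refine ⟨⟨r, hr⟩, (q : L) ^ i * w, ?_⟩
    rw [hcw, mul_pow, ← zpow_natCast ((q : L) ^ i), ← zpow_mul, mul_comm i]
  obtain ⟨c₁, hc₁, g₁, hg₁⟩ := hfst
  obtain ⟨c₂, hc₂, g₂, hg₂⟩ := hsnd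
  have hy : y ≠ 0 := fun h => by
    obtain ⟨ms, hms⟩ := exists_midSeries fp hq2 hqM ht im
    obtain ⟨c, hc⟩ := exists_hasVal_mid fp hms hlead
    have h2 := hqp.two_le
    exact (hc ⟨0, by omega⟩).ne_zero (by rw [h, map_zero])
  obtain ⟨⟨r₀, hr₀⟩, w₁, hw₁⟩ := key y hy hval₀ c₁ g₁ hc₁ hg₁
  obtain ⟨⟨r₁, hr₁⟩, -⟩ := key (Pairs.swap _ y) (fun h => hy (by
      rw [← Pairs.swap_swap y, h, map_zero])) (by rwa [Pairs.swap_swap]) c₂ g₂ hc₂ hg₂
  rw [Pairs.map_swap, IsGauss.br₀_swap] at hr₁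
  -- the middle branch
  have hb₁ : (s.map (algebraMap O L)).br₁ (Pairs.map ν hΨ y) ≠ 0 :=
    (_root_.map_ne_zero ((s.map (algebraMap O L)).br₁.comp (Pairs.map ν hΨ))).2 hy
  obtain ⟨ms, hms⟩ := exists_midSeries fp hq2 hqM ht im
  obtain ⟨hD, mD, ηD, d, hdlead⟩ := exists_mid_diff fp hq2 hqM hA ht hms
  obtain ⟨c, hc⟩ := exists_hasVal_mid fp hms hlead
  obtain ⟨_, _, _, _, _, hfrac, -, hirr', -⟩ := middle_facts (L := L) hs
  letI : Algebra s.E' (s.map (algebraMap O L)).E' := (s.mapE' (algebraMap O L)).toAlgebra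
  have := hfrac
  have hbm : (s.map (algebraMap O L)).brₘ (Pairs.map ν hΨ y) ≠ 0 :=
    (_root_.map_ne_zero ((s.map (algebraMap O L)).brₘ.comp (Pairs.map ν hΨ))).2 hy
  obtain ⟨u, k, hu, he⟩ := exists_eq_unit_mul_zpow (B := s.E') hirr' hbm
  have he' : (s.map (algebraMap O L)).brₘ (Pairs.map ν hΨ y) = s.mapE' (algebraMap O L) u *
      s.mapE' (algebraMap O L)
        (AdjoinRoot.of s.G (AdjoinRoot.root s.quo) - AdjoinRoot.root s.G) ^ k := he
  have hnorm : (AdjoinRoot.of _ w₁ * (s.map (algebraMap O L)).proj₁ (AdjoinRoot.map ν _ _ hΨ.symm.dvd g₁) / r₁) ^ p =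
      Algebra.norm (s.map (algebraMap O L)).E ((s.map (algebraMap O L)).brₘ (Pairs.map ν hΨ y)) := by
    rw [div_pow, mul_pow, ← map_pow, ← map_pow, hw₁, hr₁]
    have h := (s.map (algebraMap O L)).proj₁_normFst hΨm hd h0 (Pairs.map ν hΨ y)
    rw [hmap y c₁ g₁ hg₁, map_mul, map_pow] at h
    have e : (s.map (algebraMap O L)).proj₁ (AdjoinRoot.of _ (ν (algebraMap _ _ c₁))) =
        AdjoinRoot.of _ (ν (algebraMap _ _ c₁)) := by simp [RootSplit.proj₁]
    rw [e, ← map_pow] at h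
    rw [h, mul_div_cancel_left₀ _ hb₁]
  obtain ⟨b, w, hub⟩ := exists_middle_decomp s u
  obtain ⟨i, rfl⟩ := dvd_of_norm hs hp.ne_zero hu hquo hG (by rw [hnorm, he'])
  obtain ⟨hm, c', hc', hb⟩ := middle_residue hq2 hs G ms hT hD (y := y) hdlead hu hub
    ⟨hquo, hG, he'⟩ hc
  have h2 := hqp.two_le
  have hi0 : 0 < q - 1 := by omega
  have hηne : η ≠ 0 := fun h => (hc ⟨0, hi0⟩).lead_ne_zero (by simp [h])
  have hηD : ηD ≠ 0 := fun h => (hdlead ⟨0, hi0⟩).lead_ne_zero (by simp [h])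
  have hbx : G.hbar b =
      ((algebraMap (ResidueField A) (modularFunctionFieldFullC (ResidueField A) M) c' * η *
        (ηD ^ ((p : ℤ) * i))⁻¹ : modularFunctionFieldFullC (ResidueField A) M) :
        LaurentSeries (ResidueField A)) := by
    rw [hb, coe_const_mul_div, hm]
    exact cancel_weight (thetaSeries_ne_zero _) mD ((p : ℤ) * i)
  haveI := FLTA.Galois.isAlgClosed_residueField A
  obtain ⟨a, ha⟩ := qExpand_full_mem hs G hC hgen
    (FLTA.Congruence.frobSemilinear (ResidueField A) q M •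
      (algebraMap (ResidueField A) (modularFunctionFieldFullC (ResidueField A) M) c' * η *
        (ηD ^ ((p : ℤ) * i))⁻¹))
  refine ⟨u, i, a, c', ηD, hηne, hηD, hc', hu, ⟨r₀, hr₀⟩, ⟨r₁, hr₁⟩, ⟨hquo, hG, he'⟩, ?_, ha⟩
  have := hs.isDomain_E
  have := hs.isLocalRing_E
  have := hs.isDiscreteValuationRing_E
  have := G.local_hom
  have hxq : G.hbar (AdjoinRoot.of s.quo a) = G.hbar (b ^ q) := by
    rw [map_pow, hbx]
    exact ha.trans (qExpand_frob_smul (ResidueField A) q _)
  have hmem : b ^ q - AdjoinRoot.of s.quo a ∈ maximalIdeal s.E := fun hunit =>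
    (hunit.map G.hbar).ne_zero (by rw [map_sub, hxq, sub_self])
  rw [hs.maximalIdeal_E, Ideal.mem_span_singleton] at hmem
  obtain ⟨e₀, he₀⟩ := hmem
  set π : s.E' := AdjoinRoot.root s.G - AdjoinRoot.of s.G (AdjoinRoot.root s.quo) with hπ
  have hq : π ∣ AdjoinRoot.of s.G (q : s.E) := Ideal.mem_span_singleton.mp hs.isShiftEis_G.of_mem_span
  rw [show AdjoinRoot.of s.G (AdjoinRoot.root s.quo) - AdjoinRoot.root s.G = -π by rw [hπ, neg_sub],
    neg_dvd]
  have h1 : π ∣ u ^ q - AdjoinRoot.of s.G b ^ q :=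
    (Dvd.intro w (by rw [hub, add_sub_cancel_left]) : π ∣ u - AdjoinRoot.of s.G b).trans (sub_dvd_pow_sub_pow _ _ q)
  have h3 : π ∣ AdjoinRoot.of s.G b ^ q - AdjoinRoot.of s.G (AdjoinRoot.of s.quo a) := by
    rw [← map_pow, ← map_sub, he₀, map_mul]
    exact hq.mul_right _
  have := dvd_add h1 h3
  rwa [sub_add_sub_cancel] at this

end FLTA.RT.Qsq

end
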