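import Fermat.Agent.RT.Qsq.MiddleDescent
import Fermat.Agent.RT.Qsq.MiddlePlaces
import Fermat.Agent.RT.Qsq.MiddleUnit
import Fermat.Agent.RT.Qsq.Assembly
import Fermat.Agent.Carayol.UnitPoint
import Fermat.Agent.Carayol.UnitCusp
import Fermat.Agent.Curves.BasicModular
import Fermat.Agent.Mazur.Cusps

/-!
# The middle lead has orders divisible by `p`

At every place of the level `M` curve in characteristic `q` the point of the cover over it makes
the residue of the middle unit a `p`-th power, so `p` divides the order of the middle lead there.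
-/

set_option autoImplicit false
set_option maxHeartbeats 2000000
set_option synthInstance.maxHeartbeats 400000
set_option linter.style.haveILetI false

noncomputable section

open IsLocalRing Polynomial ModularCurve AlgebraicCurve FLTA.Carayol FLTA.Congruence FLTA.BadRed
  FLTA.LevelLowering FLTA.Carayol.Bridge
open scoped IntermediateField

namespace FLTA.RT.Qsq

section Line

variable {W : Type} [CommRing W] [IsDomain W] [IsDiscreteValuationRing W] [CharZero W]
  [IsAdicComplete (maximalIdeal W) W] [IsAlgClosed (ResidueField W)]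
  {q : ℕ} [Fact q.Prime] [Fact (Prime (C (q : W) : W[X]))]
  [Fact (Prime (PowerSeries.C (q : W) : PowerSeries W))] {Φ : ℤ[X][X]} {Q : W[X][X]}

omit [IsAdicComplete (maximalIdeal W) W] in
/-- The points over a parametrisation with distinct roots. -/
theorem exists_points (hW : maximalIdeal W = Ideal.span {(q : W)})
    {β : W[X] →+* FractionRing (PowerSeries W)}
    (hconst : ∀ w, β (C w) = algebraMap _ _ (PowerSeries.C w)) {TB : SerB W q}
    (hTB : algebraMap _ (FractionRing (SerB W q)) TB = toHatFrac q (β X))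
    (hpow : ∀ c, c ^ q ≠ residue _ TB) (hsplit : SplitsIn (Q.map β) Q.natDegree) :
    ∃ τ : Fin Q.natDegree → (CoverAlg W Q →+* FractionRing (PowerSeries W)),
      Function.Injective τ ∧ ∀ i, (τ i).comp (coverBase Q) = β := by
  classical
  let B := SerB W q
  let b : W[X] →+* B :=
    eval₂RingHom ((toHat (PowerSeries.C (q : W) : PowerSeries W)).comp PowerSeries.C) TB
  have hb : (algebraMap B (FractionRing B)).comp b = (toHatFrac q).comp β := by
    refine Polynomial.ringHom_ext (fun w => ?_) (by simpa [b] using hTB)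
    rw [RingHom.comp_apply, RingHom.comp_apply, hconst, toHatFrac_algebraMap]
    simp [b, B]
  have hqB : (q : B) ∈ maximalIdeal B :=
    maximalIdeal_hatSeries (W := W) (q := q) ▸ Ideal.mem_span_singleton_self _
  obtain ⟨Fb, hFb⟩ := exists_hatHom hW b hqB fun c => by
    have : b X = TB := by simp [b]
    rw [this]
    exact hpow c
  have : CharZero (PowerSeries W) :=
    charZero_of_injective_ringHom (f := PowerSeries.C (R := W)) PowerSeries.C_injective
  have : CharZero B := charZero_of_injective_ringHom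
    (f := toHat (PowerSeries.C (q : W) : PowerSeries W)) (toHat_injective _)
  have hβ : Function.Injective β := by
    intro x y h
    refine toHat_injective (C (q : W) : W[X])
      (injective_of_hat (Fact.out : q.Prime).ne_zero Fb
        (IsFractionRing.injective B (FractionRing B) ?_))
    have hx : ∀ z, algebraMap B (FractionRing B) (Fb (toHat _ z)) = toHatFrac q (β z) := fun z => by
      rw [← RingHom.comp_apply Fb, hFb, ← RingHom.comp_apply (algebraMap B _), hb]
      rfl
    rw [hx, hx, h]
  obtain ⟨g, hg, hgr⟩ := exists_coverMap (K := FractionRing W[X]) hβ Q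
  obtain ⟨r, hr, hprod⟩ := hsplit
  have hroot : ∀ i, (Q.map β).eval₂ (RingHom.id _) (r i) = 0 := fun i => by
    rw [hprod, eval₂_finsetProd]
    exact Finset.prod_eq_zero (Finset.mem_univ i) (by simp)
  refine ⟨fun i => (AdjoinRoot.lift (RingHom.id _) (r i) (hroot i)).comp g, fun i j h => hr ?_,
    fun i => ?_⟩
  · have h1 := RingHom.congr_fun h (AdjoinRoot.root _)
    simpa [hgr] using h1
  · rw [RingHom.comp_assoc, show coverBase Q =
      (AdjoinRoot.of _).comp (algebraMap W[X] (FractionRing W[X])) from rfl, hg,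
      ← RingHom.comp_assoc, AdjoinRoot.lift_comp_of, RingHom.id_comp]

variable (hW : maximalIdeal W = Ideal.span {(q : W)}) (gm : GaussModel W q Φ Q)
  {k : Type} [Field k] [PerfectField k] [CharP k q] {F : Type} [Field F] [Algebra k F]
  (ρf : F →+* ResidueField gm.A)

include hW in
/-- **The order at a place over a point of the line with split cover.** -/
theorem dvd_ord_of_splits (hsurj : Function.Surjective ρf)
    {ρ : SerB W q →+* LaurentSeries (ResidueField W)} (hρl : IsLocalHom ρ)
    (hρ : ρ.comp (laurentToHat hW) = coeffMap (residue W))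
    (hγ : ∀ c : k, ∃ w : W, ρf (algebraMap k F c) = residue gm.A (gaussCoeff gm.f (C w)))
    (T : F) (hT : ρf T = residue gm.A (gaussCoeff gm.f X)) (hfin : Module.Finite k⟮T⟯ F)
    (hrank : Module.finrank k⟮T⟯ F = Q.natDegree)
    (S : F) (hS : k⟮S⟯ = k⟮T⟯) (hSpow : ∀ z : F, z ^ q ≠ S)
    {p : ℕ} (hp : p.Prime) (hpq : p.Coprime q)
    (β : ℕ → W[X] →+* FractionRing (PowerSeries W)) (P : ℕ → Prop)
    (hconst : ∀ d w, β d (C w) = algebraMap _ _ (PowerSeries.C w))
    (hPd : ∀ d, P (p * d) → P d) (hPcop : ∀ d, P d → d.Coprime q)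
    (hparam : ∀ d, P d → ∃ TB : SerB W q,
      algebraMap _ (FractionRing (SerB W q)) TB = toHatFrac q (β d X) ∧
      (∀ c, c ^ q ≠ residue _ TB) ∧
      ∀ φ : ResidueField gm.A →+* LaurentSeries (ResidueField W),
        φ (residue gm.A (gaussCoeff gm.f X)) = ρ TB →
        (∀ w, φ (residue gm.A (gaussCoeff gm.f (C w))) = HahnSeries.C (residue W w)) →
        φ (ρf S) = HahnSeries.single (d : ℤ) 1)
    (hexp : ∀ (d : ℕ) (E : FractionRing (PowerSeries W) →+* FractionRing (PowerSeries W)),
      E.comp (algebraMap (PowerSeries W) _) =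
        (algebraMap _ _).comp (PowerSeries.expand p hp.ne_zero).toRingHom →
      E.comp (β d) = β (p * d))
    (a : gm.A) (Z : F) (ha : residue gm.A a = ρf Z)
    (hloc : ∀ d, P d → ∀ (τ : CoverAlg W Q →+* FractionRing (PowerSeries W))
      (jg : FractionRing gm.A →+* FractionRing (SerB W q)) (jA : gm.A →+* SerB W q),
      τ.comp (coverBase Q) = β d → (toHatFrac q).comp τ = jg.comp gm.g →
      jg.comp (algebraMap gm.A (FractionRing gm.A)) = (algebraMap _ _).comp jA →
      ∃ d', residue (SerB W q) d' ^ p = residue _ (jA a))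
    {d : ℕ} (hd : 0 < d) (hPdd : P d) (hsplit : SplitsIn (Q.map (β d)) Q.natDegree)
    (v : Place k F) (hv : 0 < v.ord S) : (p : ℤ) ∣ v.ord Z := by
  classical
  have hq : q.Prime := Fact.out
  haveI : CharP F q := charP_of_injective_algebraMap (algebraMap k F).injective q
  haveI : ExpChar F q := ExpChar.prime hq
  rw [← hS] at hfin hrank
  haveI := hfin
  have hSdec : ∀ x : F, ∃ y : Fin q → F, x = ∑ r : Fin q, S ^ (r : ℕ) * y r ^ q :=
    Haupt.exists_sum_pow_mul_eq (k := k) hSpow
  haveI : Algebra.IsSeparable k⟮S⟯ F := ⟨fun x =>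
    FLTA.Smooth.isSeparable_of_forall_pow_ne q hSpow (Algebra.IsIntegral.isIntegral x)⟩
  have hTdec : ∀ x : gm.A, ∃ (y : Fin q → gm.A) (z : gm.A),
      x = ∑ i : Fin q, gaussCoeff gm.f X ^ (i : ℕ) * y i ^ q + (q : gm.A) * z := by
    intro x
    obtain ⟨z, hz⟩ := hsurj (residue gm.A x)
    have hTpow : ∀ z : F, z ^ q ≠ T := fun z hzT =>
      gm.not_pow (ρf z) (by rw [← map_pow, hzT, hT])
    haveI : Module.Finite k⟮T⟯ F := hS ▸ hfin
    obtain ⟨y, hy⟩ := Haupt.exists_sum_pow_mul_eq (k := k) hTpow z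
    choose y' hy' using fun i => residue_surjective (R := gm.A) (ρf (y i))
    have h0 : x - ∑ i : Fin q, gaussCoeff gm.f X ^ (i : ℕ) * y' i ^ q ∈ maximalIdeal gm.A := by
      rw [← residue_eq_zero_iff, map_sub, map_sum, sub_eq_zero, ← hz, hy, map_sum]
      exact Finset.sum_congr rfl fun i _ => by rw [map_mul, map_pow, map_pow, map_mul, map_pow,
        map_pow, hT, hy']
    rw [gm.max_eq, Ideal.mem_span_singleton] at h0
    obtain ⟨z', hz'⟩ := h0
    exact ⟨y', z', by rw [← hz']; ring⟩
  obtain ⟨TB, hTB, hpow, hφS⟩ := hparam d hPdd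
  obtain ⟨τ, hτinj, hτ⟩ := exists_points hW (hconst d) hTB hpow hsplit
  choose jg jA hc hj hjT hjC using fun i => exists_nodeMap hW gm (hconst d) hTB hpow (hτ i)
  have hρ0 : ∀ x, ρ x = 0 ↔ (q : SerB W q) ∣ x := fun x => by
    rw [← Ideal.mem_span_singleton, ← maximalIdeal_hatSeries]
    refine ⟨fun h => ?_, fun h => ?_⟩
    · by_contra hn
      exact ((notMem_maximalIdeal.1 hn).map ρ).ne_zero h
    · by_contra hne
      exact (mem_maximalIdeal x).1 h (isUnit_of_map_unit ρ x (isUnit_iff_ne_zero.2 hne))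
  choose φ hφ using fun i => exists_resLift (ρ.comp (jA i)) fun b hb => by
    rw [gm.max_eq, Ideal.mem_span_singleton] at hb
    obtain ⟨c, rfl⟩ := hb
    rw [RingHom.comp_apply, hρ0]
    exact ⟨jA i c, (map_mul (jA i) _ _).trans (congrArg (· * jA i c) (map_natCast (jA i) q))⟩
  have hφT : ∀ i, φ i (residue gm.A (gaussCoeff gm.f X)) = ρ TB := fun i => by
    rw [hφ, RingHom.comp_apply, hjT]
  have hφC : ∀ i w, φ i (residue gm.A (gaussCoeff gm.f (C w))) = HahnSeries.C (residue W w) :=
    fun i w => by rw [hφ, RingHom.comp_apply, hjC, resSeries_const hW hρ]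
  have hψS : ∀ i, φ i (ρf S) = HahnSeries.single (d : ℤ) 1 := fun i => hφS _ (hφT i) (hφC i)
  have hψinj : Function.Injective fun i => (φ i).comp ρf := by
    intro i j hij
    refine hτinj ?_
    have h1 : jA i = jA j := by
      refine eq_of_residual (q := q) maximalIdeal_hatSeries hTdec (by rw [hjT, hjT]) fun x => ?_
      obtain ⟨z, hz⟩ := hsurj (residue gm.A x)
      have h := RingHom.congr_fun hij z
      simp only [RingHom.comp_apply, hz, hφ] at h
      rw [← hρ0, map_sub, sub_eq_zero]
      exact h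
    exact eq_of_nodeMap gm (hc i) (hc j) (hj i) (h1 ▸ hj j)
  obtain ⟨i, e, he, heq⟩ := FLTA.Bridge.exists_embedding_of_place_sep (isOrdFn_order _)
    (fun i => (φ i).comp ρf) hψinj (t := S) (by rw [Fintype.card_fin, hrank])
    (fun i j x => by
      obtain ⟨x, hx⟩ := x
      induction hx using IntermediateField.adjoin_induction with
      | mem y hy =>
        rw [Set.mem_singleton_iff] at hy
        subst hy
        show φ i (ρf y) = φ j (ρf y)
        rw [hψS, hψS]
      | algebraMap c =>
        obtain ⟨w, hw⟩ := hγ c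
        show φ i (ρf (algebraMap k F c)) = φ j (ρf (algebraMap k F c))
        rw [hw, hφC, hφC]
      | add x y _ _ hx hy => simp only [map_add, hx, hy]
      | inv x _ hx => simp only [map_inv₀, hx]
      | mul x y _ _ hx hy => simp only [map_mul, hx, hy])
    (fun i c => by
      obtain ⟨w, hw⟩ := hγ c
      show (φ i (ρf (algebraMap k F c))).order = 0
      rw [hw, hφC, HahnSeries.C_apply]
      rcases eq_or_ne (residue W w) 0 with h | h
      · rw [h, HahnSeries.single_eq_zero, HahnSeries.order_zero]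
      · rw [HahnSeries.order_single h])
    (fun i => by
      show 0 < (φ i (ρf S)).order
      rw [hψS, HahnSeries.order_single one_ne_zero]
      exact_mod_cast hd) v hv
  refine dvd_ord_descent hW gm ρf hsurj hρl hρ hTdec hp hpq β P hconst hPd hPcop S hSdec hparam
    hexp a Z ha hloc v d e (τ i) (jg i) (jA i) hPdd hd (hτ i) (hc i) (hj i) fun x b hb => ?_
  rw [← heq x, RingHom.comp_apply, ← hb, hφ, RingHom.comp_apply]

omit [PerfectField k] [CharP k q] in
include hW in
/-- Constants of the reduced functions are residues of constants. -/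
theorem exists_const_lift [IsAlgClosed k] {L : ℕ} [NeZero L] (hQ : LineCover W q L Q) (c : k) :
    ∃ w : W, ρf (algebraMap k F c) = residue gm.A (gaussCoeff gm.f (C w)) := by
  have hq : q.Prime := Fact.out
  haveI := charP_residueW (q := q) hW
  obtain ⟨ρ, hρl, hρ⟩ := exists_resSeries hW (residue W) ker_residue
  obtain ⟨d, -, hdq, hsplit⟩ := hQ.splits_inf
  obtain ⟨TB, hTB, hpow, -⟩ := exists_param_inf hW hdq hρ
  obtain ⟨τ, -, hτ⟩ := exists_points hW (fun w => by simp [infHom]) hTB hpow hsplit
  have hn : 0 < Q.natDegree :=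
    hQ.monic.natDegree_map (algebraMap W[X] (FractionRing W[X])) ▸ hQ.irreducible.natDegree_pos
  obtain ⟨jg, jA, hc, hj, -, hjC⟩ :=
    exists_nodeMap hW gm (fun w => by simp [infHom]) hTB hpow (hτ ⟨0, hn⟩)
  obtain ⟨φ, hφ⟩ := exists_resLift (ρ.comp jA) fun b hb => by
    rw [gm.max_eq, Ideal.mem_span_singleton] at hb
    obtain ⟨b', rfl⟩ := hb
    by_contra hne
    have hu := isUnit_of_map_unit (ρ) _ (isUnit_iff_ne_zero.2 hne)
    have hm : jA ((q : gm.A) * b') ∈ maximalIdeal (SerB W q) := by
      rw [maximalIdeal_hatSeries, Ideal.mem_span_singleton]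
      exact ⟨jA b', (map_mul jA _ _).trans (congrArg (· * jA b') (map_natCast jA q))⟩
    exact (mem_maximalIdeal _).1 hm hu
  have hperf : ∀ n : ℕ, ∃ y, y ^ q ^ n = φ (ρf (algebraMap k F c)) := fun n => by
    obtain ⟨z, hz⟩ := IsAlgClosed.exists_pow_nat_eq c (pow_pos hq.pos n)
    exact ⟨φ (ρf (algebraMap k F z)), by rw [← map_pow, ← map_pow, ← map_pow, hz]⟩
  obtain ⟨w, hw⟩ := residue_surjective (R := W) ((φ (ρf (algebraMap k F c))).coeff 0)
  refine ⟨w, φ.injective ?_⟩
  rw [eq_C_of_forall_exists_pow hperf, hφ, RingHom.comp_apply, hjC, resSeries_const hW hρ, hw]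


end Line


local notation "Qb" => AlgebraicClosure ℚ

variable {q L₀ M : ℕ} [Fact q.Prime] [NeZero q] [NeZero L₀] [NeZero M]
  {A : ValuationSubring Qb} [CharP (ResidueField A) q] [PerfectRing (ResidueField A) q]
  [IsAlgClosed (ResidueField A)] {Φ : ℤ[X][X]} {t : ↥(modularFunctionFieldFull M)}
  {W : Type} [CommRing W] [IsDomain W] [IsDiscreteValuationRing W] [CharZero W]
  [IsAdicComplete (maximalIdeal W) W] [IsAlgClosed (ResidueField W)]
  [Fact (Prime (C (q : W) : W[X]))] [Fact (Prime (PowerSeries.C (q : W) : PowerSeries W))]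
  {Q : W[X][X]}

/-- **`p` divides every order of the middle lead.** -/
theorem dvd_ord_middle (hq2 : q ≠ 2) (hqM : ¬ q ∣ M) (hA : A.LiesOverPrime q)
    (hW : maximalIdeal W = Ideal.span {(q : W)}) (hL : Haupt.IsHauptLevel L₀) (hqL : ¬ q ∣ L₀)
    (hΦ : Haupt.IsModEq q L₀ Φ) (hQ : LineCover W q L₀ Q) (ht : Chart.IsTFull L₀ M t)
    (hdeg : Q.natDegree ≤ IntermediateField.relfinrank (Chart.tField L₀ (ResidueField A))
      (modularFunctionFieldFullC (ResidueField A) M))
    (gm : GaussModel W q Φ Q) (m : CoverModel (W := W) (FractionRing W) q Φ Q t)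
    (ι : inertiaField A →+* FractionRing W) (im : InertiaModel A Φ q t) (fp : FramePair q A)
    (hΨ : (inertiaPhi A Φ t).map (gm.g.comp (baseMap m ι)) =
      (phiAt Φ (gaussCoeff gm.f)).map (algebraMap gm.A (FractionRing gm.A)))
    (hT : (gm.g.comp (baseMap m ι)) (ofFull (inertiaField A) M t) =
      algebraMap gm.A (FractionRing gm.A) (gaussCoeff gm.f X))
    (G : GaussRes fp gm.sA (gm.g.comp (baseMap m ι)) hΨ (pairSer im.ψ))
    (hC : ∀ c : ResidueField A, ∃ v : gm.A,
      G.hbar (AdjoinRoot.of gm.sA.quo v) = HahnSeries.C c)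
    (hgen : ∀ d : ℕ, [NeZero d] → d ∣ M → ∃ x : fld (inertiaField A) M,
      HasVal fp.fr₀ (pairSer im.ψ (Pairs.ofBase _ x)) 0
        (qExpand (ResidueField A) q (qExpand (ResidueField A) d (jqModC (ResidueField A)))))
    {p : ℕ} (hp : p.Prime) (hpq : p ≠ q)
    (f₀ : fld (inertiaField A) (M * q * q)) (hf₀ : f₀ ≠ 0)
    (hdiv : ∀ v : Place Qb (modularFunctionFieldBar (M * q * q)),
      (p : ℤ) ∣ v.ord (mapF (inertiaField A).val.toRingHom (M * q * q) f₀))
    (y₀ : Pairs (inertiaPhi A Φ t)) (hy₀ : im.ψ y₀ = f₀) {mm : ℤ}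
    {η : modularFunctionFieldFullC (ResidueField A) M}
    (hlead : HasMiddleLead fp.fr (thetaSeries (ResidueField A))
      (mapF (inertiaField A).val.toRingHom (M * q * q) f₀) mm η)
    (hval₁ : ∀ n Y, HasVal fp.fr₀ (pairSer im.ψ y₀) n Y → (p : ℤ) ∣ n)
    (hval₀ : ∀ n Y, HasVal fp.fr₀ (pairSer im.ψ (Pairs.swap _ y₀)) n Y → (p : ℤ) ∣ n)
    (hfst : ∃ c : inertiaField A, c ≠ 0 ∧ ∃ g,
      Pairs.normFst _ y₀ = AdjoinRoot.of _ (algebraMap _ _ c) * g ^ p)
    (hsnd : ∃ c : inertiaField A, c ≠ 0 ∧ ∃ g,
      Pairs.normSnd _ y₀ = AdjoinRoot.of _ (algebraMap _ _ c) * g ^ p)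
    (v : Place (ResidueField A) (modularFunctionFieldFullC (ResidueField A) M)) :
    (p : ℤ) ∣ v.ord η := by
  classical
  have hqp : q.Prime := Fact.out
  have hpq' : Nat.Coprime p q := (Nat.coprime_primes hp hqp).2 hpq
  set g₀ : inertiaField A →+* Qb := (inertiaField A).val.toRingHom
  haveI : CharZero (inertiaField A) := algebraRat.charZero _
  -- the element
  set y := Pairs.map (baseMap m ι) (map_inertiaPhi m ι) y₀ with hy
  have hψy : m.ψ y = mapF ι (M * q * q) f₀ := by rw [hy, ψ_map, hy₀]
  have hyu : IsUnit y := by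
    have h0 : mapF ι (M * q * q) f₀ ≠ 0 := (_root_.map_ne_zero _).2 hf₀
    obtain ⟨z, hz⟩ := m.ψ_bij.2 (mapF ι (M * q * q) f₀)⁻¹
    exact IsUnit.of_mul_eq_one z (m.ψ_bij.1 (by
      rw [map_mul, hψy, hz, mul_inv_cancel₀ h0, map_one]))
  have hhor : HorizDivisible Φ Q p y := by
    intro Ω _ φ w hw
    let j₀ : fld (inertiaField A) (M * q * q) →+* Pairs (coverPhi Φ Q) :=
      (RingEquiv.ofBijective m.ψ m.ψ_bij).symm.toRingHom.comp (mapF ι (M * q * q))
    have hj₀ : ∀ x, m.ψ (j₀ x) = mapF ι (M * q * q) x := fun x =>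
      (RingEquiv.ofBijective m.ψ m.ψ_bij).apply_symm_apply _
    rw [show y = j₀ f₀ from m.ψ_bij.1 (by rw [hψy, hj₀])]
    refine exists_pow_eq_valuation g₀ hp.pos f₀ hdiv (φ.comp j₀) w fun c hc => ?_
    obtain ⟨a, b, hb, hab⟩ := IsFractionRing.div_surjective W (ι c)
    have hb0 : b ≠ 0 := nonZeroDivisors.ne_zero hb
    have ha0 : a ≠ 0 := by
      rintro rfl
      rw [map_zero, zero_div, eq_comm, map_eq_zero] at hab
      exact hc hab
    have h1 : j₀ (algebraMap _ _ c) * coverConst Φ _ b = coverConst Φ _ a := m.ψ_bij.1 (by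
      rw [map_mul, hj₀, m.ψ_const, m.ψ_const, mapF_algebraMap, ← map_mul, ← hab,
        div_mul_cancel₀ _ ((map_ne_zero_iff _ (IsFractionRing.injective W _)).2 hb0)])
    have h2 := congrArg (fun x => w (φ x)) h1
    simp only [map_mul, hw b hb0, hw a ha0, mul_one] at h2
    exact h2
  -- the middle unit
  obtain ⟨u, i, a, c, ηD, hη0, hηD0, hc, hu, hr₀, hr₁, ⟨hquo, hGirr, hbm⟩, hua, hbar⟩ :=
    exists_middle_unit hq2 hqM hA ht gm.isGauss hT G hC hgen hp hpq (y := y₀)
      (by rw [hy₀]; exact hlead) hval₁ hval₀ hfst hsnd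
  set z : modularFunctionFieldFullC (ResidueField A) M :=
    algebraMap _ _ c * η * (ηD ^ ((p : ℤ) * i))⁻¹ with hz
  set Z : modularFunctionFieldFullC (ResidueField A) M :=
    FLTA.Congruence.frobSemilinear (ResidueField A) q M • z with hZdef
  -- the residue field
  have hQd : 0 < Q.natDegree :=
    hQ.monic.natDegree_map (algebraMap W[X] (FractionRing W[X])) ▸ hQ.irreducible.natDegree_pos
  obtain ⟨ρf, T, hρf, hTr, hfin, hrank, -, hsurj⟩ :=
    exists_residualField hW hqM hL ht hQ.monic hQd hdeg G hC hgen hT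
  have ha : residue gm.A a = ρf Z := (hρf Z a).2 hbar
  have hγ := exists_const_lift hW gm (k := ResidueField A) ρf hQ
  obtain ⟨ρ, hρl, hρ⟩ := exists_resSeries hW (residue W) ker_residue
  have hTpow : ∀ z : modularFunctionFieldFullC (ResidueField A) M, z ^ q ≠ T := fun z hzT =>
    gm.not_pow (ρf z) (by rw [← map_pow, hzT, hTr])
  -- the local root at every point
  have hy' : Pairs.map (gm.g.comp (baseMap m ι)) hΨ y₀ =
      Pairs.map gm.g gm.phi_gauss.symm y := by rw [hy, Pairs.map_map_apply]
  rw [hy'] at hr₀ hr₁ hbm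
  have hloc : ∀ (β : W[X] →+* FractionRing (PowerSeries W)),
      PointRootUnit q Φ p β → (∀ w, β (C w) = algebraMap _ _ (PowerSeries.C w)) →
      ∀ TB : SerB W q, algebraMap _ (FractionRing (SerB W q)) TB = toHatFrac q (β X) →
      (∀ c, c ^ q ≠ residue _ TB) →
      ∀ (τ : CoverAlg W Q →+* FractionRing (PowerSeries W))
        (jg : FractionRing gm.A →+* FractionRing (SerB W q)) (jA : gm.A →+* SerB W q),
        τ.comp (coverBase Q) = β → (toHatFrac q).comp τ = jg.comp gm.g →
        jg.comp (algebraMap gm.A (FractionRing gm.A)) = (algebraMap _ _).comp jA →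
        ∃ d', residue (SerB W q) d' ^ p = residue _ (jA a) :=
    fun β hroot _ TB hTB hpow τ jg jA hτ hcomm hjA =>
      exists_pow_residue_point gm hp.ne_zero hTB hpow hroot hτ hcomm hjA hyu hhor hr₀ hr₁ hu hbm hua
  -- every place
  have key : ∀ w : Place (ResidueField A) (modularFunctionFieldFullC (ResidueField A) M),
      (p : ℤ) ∣ w.ord Z := by
    intro w
    have hne : ∀ e : ResidueField A, T ≠ algebraMap _ _ e := fun e he => by
      obtain ⟨e', he'⟩ := IsAlgClosed.exists_pow_nat_eq e hqp.pos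
      exact hTpow (algebraMap _ _ e') (by rw [← map_pow, he', he])
    have hexpand : ∀ (E : FractionRing (PowerSeries W) →+* FractionRing (PowerSeries W))
        (_ : E.comp (algebraMap (PowerSeries W) _) =
          (algebraMap _ _).comp (PowerSeries.expand p hp.ne_zero).toRingHom)
        (z : PowerSeries W), E (algebraMap _ _ z) =
          algebraMap _ _ (PowerSeries.expand p hp.ne_zero z) := fun E hE z => by
      have := RingHom.congr_fun hE z
      simpa using this
    rcases lt_or_ge (w.ord T) 0 with hneg | hpos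
    · -- infinity
      have hT0 : T ≠ 0 := fun h => by rw [h, w.ord_zero] at hneg; exact lt_irrefl _ hneg
      obtain ⟨d, hd, hdq, hsplit⟩ := hQ.splits_inf
      refine dvd_ord_of_splits hW gm ρf hsurj hρl hρ hγ T hTr hfin hrank T⁻¹ ?_ ?_ hp hpq'
        (fun d => infHom W d) (fun d => 0 < d ∧ d.Coprime q) (fun d x => by simp [infHom])
        (fun e he => ⟨Nat.pos_of_mul_pos_left he.1, (Nat.Coprime.coprime_dvd_left
          (dvd_mul_left e p) he.2)⟩) (fun e he => he.2) ?_ ?_ a Z ha ?_ hd ⟨hd, hdq⟩ hsplit w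
        (by rw [w.ord_inv]; omega)
      · refine le_antisymm ?_ ?_ <;> refine IntermediateField.adjoin_le_iff.2
          (Set.singleton_subset_iff.2 ?_)
        · exact inv_mem (IntermediateField.mem_adjoin_simple_self _ T)
        · have h := inv_mem (IntermediateField.mem_adjoin_simple_self (ResidueField A) T⁻¹)
          rwa [inv_inv] at h
      · exact fun z hz => hTpow z⁻¹ (by rw [inv_pow, hz, inv_inv])
      · intro e he
        obtain ⟨TB, hTB, hpow, hTBρ⟩ := exists_param_inf hW he.2 hρ
        refine ⟨TB, hTB, hpow, fun φ hφT _ => ?_⟩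
        rw [map_inv₀, map_inv₀, hTr, hφT, hTBρ]
        refine inv_eq_of_mul_eq_one_right ?_
        rw [HahnSeries.single_mul_single, neg_add_cancel, mul_one]
        rfl
      · intro e E hE
        refine Polynomial.ringHom_ext (fun x => ?_) ?_
        · rw [RingHom.comp_apply]
          simp [infHom, hexpand E hE, PowerSeries.expand_C]
        · rw [RingHom.comp_apply]
          simp [infHom, hexpand E hE, map_pow, map_inv₀, PowerSeries.expand_X, pow_mul, inv_pow]
      · intro e he τ jg jA hτ hcomm hjA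
        obtain ⟨TB, hTB, hpow, -⟩ := exists_param_inf hW he.2 hρ
        exact hloc _ (pointRootUnit_inf hW hL hqL hΦ he.1 he.2 hp.pos hpq')
          (fun x => by simp [infHom]) TB hTB hpow τ jg jA hτ hcomm hjA
    · -- a finite value
      obtain ⟨e₀, he₀⟩ := FLTA.Mazur.exists_ord_sub_algebraMap_pos w hpos hne
      obtain ⟨x₀, hx₀⟩ := hγ e₀
      obtain ⟨t₀, hct, hcusp⟩ := exists_lift_cuspPoly hW hL hqL (residue W x₀)
      set S := T - algebraMap (ResidueField A) (modularFunctionFieldFullC (ResidueField A) M) e₀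
        with hSdef
      have hS : (ResidueField A)⟮S⟯ = (ResidueField A)⟮T⟯ := by
        refine le_antisymm ?_ ?_ <;> refine IntermediateField.adjoin_le_iff.2
          (Set.singleton_subset_iff.2 ?_)
        · exact sub_mem (IntermediateField.mem_adjoin_simple_self _ T)
            (IntermediateField.algebraMap_mem _ _)
        · have h := add_mem (IntermediateField.mem_adjoin_simple_self (ResidueField A) S)
            (IntermediateField.algebraMap_mem _ e₀)
          rwa [hSdef, sub_add_cancel] at h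
      have hSpow : ∀ z : modularFunctionFieldFullC (ResidueField A) M, z ^ q ≠ S := fun z hzS => by
        obtain ⟨e', he'⟩ := IsAlgClosed.exists_pow_nat_eq e₀ hqp.pos
        haveI : CharP (modularFunctionFieldFullC (ResidueField A) M) q :=
          charP_of_injective_algebraMap (algebraMap (ResidueField A) _).injective q
        haveI : ExpChar (modularFunctionFieldFullC (ResidueField A) M) q := ExpChar.prime hqp
        exact hTpow (z + algebraMap _ _ e') (by
          rw [add_pow_char, hzS, ← map_pow, he', hSdef, sub_add_cancel])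
      have hparam : ∀ e : ℕ, e.Coprime q → ∃ TB : SerB W q,
          algebraMap _ (FractionRing (SerB W q)) TB = toHatFrac q (pointHom W t₀ e X) ∧
          (∀ c, c ^ q ≠ residue _ TB) ∧
          ∀ φ : ResidueField gm.A →+* LaurentSeries (ResidueField W),
            φ (residue gm.A (gaussCoeff gm.f X)) = ρ TB →
            (∀ x, φ (residue gm.A (gaussCoeff gm.f (C x))) = HahnSeries.C (residue W x)) →
            φ (ρf S) = HahnSeries.single (e : ℤ) 1 := fun e he => by
        obtain ⟨TB, hTB, hpow, hTBρ⟩ := exists_param_point hW t₀ he hρ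
        refine ⟨TB, hTB, hpow, fun φ hφT hφC => ?_⟩
        rw [hSdef, map_sub, map_sub, hTr, hφT, hTBρ, hx₀, hφC, hct, add_sub_cancel_left]
      have hexp : ∀ (e : ℕ) (E : FractionRing (PowerSeries W) →+* FractionRing (PowerSeries W)),
          E.comp (algebraMap (PowerSeries W) _) =
            (algebraMap _ _).comp (PowerSeries.expand p hp.ne_zero).toRingHom →
          E.comp (pointHom W t₀ e) = pointHom W t₀ (p * e) := fun e E hE => by
        refine Polynomial.ringHom_ext (fun x => ?_) ?_
        · simp [pointHom, pointMap, hexpand E hE, PowerSeries.expand_C]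
        · simp [pointHom, pointMap, hexpand E hE, map_add, map_pow, PowerSeries.expand_C,
            PowerSeries.expand_X, pow_mul]
      rcases hcusp with hunit | hzero
      · refine dvd_ord_of_splits hW gm ρf hsurj hρl hρ hγ T hTr hfin hrank S hS hSpow hp hpq'
          (fun d => pointHom W t₀ d) (fun d => d = 1) (fun d x => by simp [pointHom, pointMap])
          (fun e he => absurd (Nat.eq_one_of_mul_eq_one_right he) hp.ne_one)
          (fun e he => by subst he; exact Nat.coprime_one_left q)
          (fun e he => hparam e (by subst he; exact Nat.coprime_one_left q)) hexp a Z ha ?_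
          Nat.one_pos rfl (hQ.splits_point t₀ hunit) w he₀
        intro e he τ jg jA hτ hcomm hjA
        subst he
        obtain ⟨TB, hTB, hpow, -⟩ := hparam 1 (Nat.coprime_one_left q)
        exact hloc _ (pointRootUnit_point hW hL hqL hΦ t₀ hunit hp.pos hpq')
          (fun x => by simp [pointHom, pointMap]) TB hTB hpow τ jg jA hτ hcomm hjA
      · obtain ⟨d, hd, hdq, hsplit⟩ := hQ.splits_cusp t₀ hzero
        refine dvd_ord_of_splits hW gm ρf hsurj hρl hρ hγ T hTr hfin hrank S hS hSpow hp hpq'
          (fun d => pointHom W t₀ d) (fun d => 0 < d ∧ d.Coprime q)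
          (fun d x => by simp [pointHom, pointMap])
          (fun e he => ⟨Nat.pos_of_mul_pos_left he.1, (Nat.Coprime.coprime_dvd_left
            (dvd_mul_left e p) he.2)⟩)
          (fun e he => he.2) (fun e he => hparam e he.2) hexp a Z ha ?_ hd ⟨hd, hdq⟩ hsplit w he₀
        intro e he τ jg jA hτ hcomm hjA
        obtain ⟨TB, hTB, hpow, -⟩ := hparam e he.2
        exact hloc _ (pointRootUnit_cusp hW hL hqL hΦ t₀ hzero he.1 he.2 hp.pos hpq')
          (fun x => by simp [pointHom, pointMap]) TB hTB hpow τ jg jA hτ hcomm hjA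
  -- undo Frobenius and remove the `p`-th powers
  have h1 := key (FLTA.Congruence.frobSemilinear (ResidueField A) q M • v)
  rw [hZdef, SemilinearAut.ord_smul, hz] at h1
  have hc0 : algebraMap (ResidueField A) (modularFunctionFieldFullC (ResidueField A) M) c ≠ 0 :=
    (_root_.map_ne_zero _).2 hc
  have hD0 : ηD ^ ((p : ℤ) * i) ≠ 0 := zpow_ne_zero _ hηD0
  rw [v.ord_mul (mul_ne_zero hc0 hη0) (inv_ne_zero hD0), v.ord_mul hc0 hη0,
    FLTA.Curves.ord_algebraMap, zero_add, v.ord_inv] at h1
  have h2 : ∀ (n : ℤ), v.ord (ηD ^ n) = n * v.ord ηD := fun n => by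
    rcases n with n | n
    · rw [Int.ofNat_eq_natCast, zpow_natCast, (FLTA.Bridge.isOrdFn_place v).map_pow]
    · rw [zpow_negSucc, v.ord_inv, (FLTA.Bridge.isOrdFn_place v).map_pow, Int.negSucc_eq]
      push_cast
      ring
  rw [h2] at h1
  exact (Int.dvd_add_left (dvd_neg.2 ((dvd_mul_right (p : ℤ) i).mul_right _))).1 h1

end FLTA.RT.Qsq

end
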