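import Fermat.Agent.RT.Qsq.GaussRootP

/-!
# The middle valuation of a function with `p`-th power norms

If the two norms of a pair function are `p`-th powers up to constants and its outer valuations are
divisible by `p`, so is the valuation of its middle lead.
-/

set_option autoImplicit false
set_option maxHeartbeats 1600000
set_option synthInstance.maxHeartbeats 400000
set_option linter.style.haveILetI false

noncomputable section

open IsLocalRing ModularCurve Polynomial FLTA.Congruence FLTA.Carayol FLTA.Carayol.Bridge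
  FLTA.BadRed FLTA.LevelLowering

namespace FLTA.RT.Qsq

local notation "Qb" => AlgebraicClosure ℚ

variable {q L₀ M : ℕ} [Fact q.Prime] [NeZero q] [NeZero L₀] [NeZero M]
  {A : ValuationSubring Qb} [CharP (ResidueField A) q] {Φ : ℤ[X][X]}
  {t : ↥(modularFunctionFieldFull M)}

variable {O : Type} [CommRing O] [IsDomain O] [IsDiscreteValuationRing O]
  [IsAdicComplete (maximalIdeal O) O] {L : Type} [Field L] [Algebra O L] [IsFractionRing O L]
  {ΨA : O[X]} {s : RootSplit ΨA} {T : O} {ν : fld (inertiaField A) M →+* L}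
  {hΨ : (inertiaPhi A Φ t).map ν = ΨA.map (algebraMap O L)}

/-- **The middle valuation is divisible by `p`.** -/
theorem dvd_middle_exp (hq2 : q ≠ 2) (hqM : ¬ q ∣ M) (hA : A.LiesOverPrime q)
    (ht : Chart.IsTFull L₀ M t) {fp : FramePair q A} {im : InertiaModel A Φ q t}
    (hs : IsGauss q ΨA s T) (hT : ν (ofFull (inertiaField A) M t) = algebraMap O L T)
    (G : GaussRes fp s ν hΨ (pairSer im.ψ))
    (hC : ∀ c : ResidueField A, ∃ a : O, G.hbar (AdjoinRoot.of s.quo a) = HahnSeries.C c)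
    {p : ℕ} (hp : p.Prime) (hpq : p ≠ q) {y : Pairs (inertiaPhi A Φ t)} {m : ℤ}
    {η : modularFunctionFieldFullC (ResidueField A) M}
    (hlead : HasMiddleLead fp.fr (thetaSeries (ResidueField A))
      (mapF (inertiaField A).val.toRingHom (M * q * q) (im.ψ y)) m η)
    (hval₁ : ∀ n Y, HasVal fp.fr₀ (pairSer im.ψ y) n Y → (p : ℤ) ∣ n)
    (hval₀ : ∀ n Y, HasVal fp.fr₀ (pairSer im.ψ (Pairs.swap _ y)) n Y → (p : ℤ) ∣ n)
    (hfst : ∃ c : inertiaField A, c ≠ 0 ∧ ∃ g,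
      Pairs.normFst _ y = AdjoinRoot.of _ (algebraMap _ _ c) * g ^ p)
    (hsnd : ∃ c : inertiaField A, c ≠ 0 ∧ ∃ g,
      Pairs.normSnd _ y = AdjoinRoot.of _ (algebraMap _ _ c) * g ^ p) :
    (p : ℤ) ∣ m := by
  have hqp : q.Prime := Fact.out
  have hf := Fact.mk im.irreducible_phi
  have := Fact.mk (im.irreducible_snd hf)
  have hquo := Fact.mk (hs.irreducible_quo (L := L))
  have hG := Fact.mk (hs.irreducible_G (L := L))
  have hcop : Nat.Coprime p q := (Nat.coprime_primes hp hqp).mpr hpq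
  have hn : IsUnit (p : O) := by
    by_contra h
    have h' : (p : O) ∈ maximalIdeal O := h
    obtain ⟨α, β, hαβ⟩ := (Nat.isCoprime_iff_coprime.mpr hcop : IsCoprime (p : ℤ) q)
    refine (maximalIdeal.isMaximal O).ne_top ((Ideal.eq_top_iff_one _).2 ?_)
    rw [show (1 : O) = (α : O) * (p : O) + (β : O) * (q : O) by
      have h1 := congrArg (Int.cast : ℤ → O) hαβ
      push_cast at h1
      exact h1.symm]
    exact add_mem (Ideal.mul_mem_left _ _ h')
      (Ideal.mul_mem_left _ _ (hs.max_eq ▸ Ideal.mem_span_singleton_self _))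
  set tL := s.map (algebraMap O L) with htL
  have hΨm : (ΨA.map (algebraMap O L)).Monic := hs.monic.map _
  have hd : 1 < (ΨA.map (algebraMap O L)).natDegree := by
    rw [hs.monic.natDegree_map, hs.natDegree_eq]; have := hqp.two_le; omega
  have h0 := hs.quo_eval_x₀_ne_zero (L := L)
  have hΨ₀m : (inertiaPhi A Φ t).Monic := monic_of_injective ν.injective (hΨ ▸ hΨm)
  have hd₀ : 0 < (inertiaPhi A Φ t).natDegree := by
    have := hΨ₀m.natDegree_map ν
    rw [hΨ] at this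
    omega
  have hmap : ∀ (y' : Pairs (inertiaPhi A Φ t)) (c : inertiaField A)
      (g : AdjoinRoot (inertiaPhi A Φ t)),
      Pairs.normFst _ y' = AdjoinRoot.of _ (algebraMap _ _ c) * g ^ p →
      Pairs.normFst _ (Pairs.map ν hΨ y') = AdjoinRoot.of _ (ν (algebraMap _ _ c)) *
        AdjoinRoot.map ν _ _ hΨ.symm.dvd g ^ p := fun y' c g h => by
    rw [Pairs.normFst_map hΨ₀m hd₀, h, map_mul, map_pow, AdjoinRoot.map_of]
  -- a branch through the first root
  have key : ∀ y' : Pairs (inertiaPhi A Φ t), y' ≠ 0 →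
      (∀ n Y, HasVal fp.fr₀ (pairSer im.ψ (Pairs.swap _ y')) n Y → (p : ℤ) ∣ n) →
      ∀ (c : inertiaField A) (g : AdjoinRoot (inertiaPhi A Φ t)), c ≠ 0 →
      Pairs.normFst _ y' = AdjoinRoot.of _ (algebraMap _ _ c) * g ^ p →
      (∃ r, r ^ p = tL.br₀ (Pairs.map ν hΨ y')) ∧ ∃ w, w ^ p = ν (algebraMap _ _ c) := by
    intro y' hy' hval c g hc hnorm
    obtain ⟨n, Y, hY⟩ := G.hasVal (Pairs.swap _ y') fun h => hy' (by
      rw [← Pairs.swap_swap y', h, map_zero])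
    obtain ⟨u, -, -, hu, hbr, -⟩ := G.compat _ n Y hY
    have hz : tL.br₀ (Pairs.map ν hΨ y') =
        AdjoinRoot.of _ ((q : L) ^ n) * s.mapE (algebraMap O L) u := by
      rw [← hbr, Pairs.map_swap, ← IsGauss.br₀_swap, Pairs.swap_swap]
    obtain ⟨v, w, hcw⟩ := exists_const_decomp hs G hC hp.pos hn hc
    obtain ⟨hv, r, hr⟩ := exists_pow_outer hs hn hcop hquo hu hz (hval n Y hY) (v := v)
      (g := w * tL.proj₀ (AdjoinRoot.map ν _ _ hΨ.symm.dvd g)) (by
        rw [← tL.proj₀_normFst hΨm (by omega), hmap y' c g hnorm, map_mul, map_pow, mul_pow,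
          RootSplit.proj₀, AdjoinRoot.lift_of, RingHom.id_apply, hcw, mul_assoc])
    obtain ⟨i, rfl⟩ := hv
    refine ⟨⟨r, hr⟩, (q : L) ^ i * w, ?_⟩
    rw [hcw, mul_pow, ← zpow_natCast ((q : L) ^ i), ← zpow_mul, mul_comm i]
  obtain ⟨c₁, hc₁, g₁, hg₁⟩ := hfst
  obtain ⟨c₂, hc₂, g₂, hg₂⟩ := hsnd
  have hy : y ≠ 0 := fun h => by
    obtain ⟨ms, hms⟩ := exists_midSeries fp hq2 hqM ht im
    obtain ⟨c, hc⟩ := exists_hasVal_mid fp hms hlead
    have h2 := hqp.two_le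
    exact (hc ⟨0, by omega⟩).ne_zero (by rw [h, map_zero])
  obtain ⟨⟨r₀, hr₀⟩, w₁, hw₁⟩ := key y hy hval₀ c₁ g₁ hc₁ hg₁
  obtain ⟨⟨r₁, hr₁⟩, -⟩ := key (Pairs.swap _ y) (fun h => hy (by
      rw [← Pairs.swap_swap y, h, map_zero])) (by rwa [Pairs.swap_swap]) c₂ g₂ hc₂ hg₂
  rw [Pairs.map_swap, IsGauss.br₀_swap] at hr₁
  -- the middle branch
  have hb₁ : tL.br₁ (Pairs.map ν hΨ y) ≠ 0 :=
    (_root_.map_ne_zero (tL.br₁.comp (Pairs.map ν hΨ))).2 hy
  obtain ⟨ms, hms⟩ := exists_midSeries fp hq2 hqM ht im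
  obtain ⟨hD, mD, ηD, d, hdlead⟩ := exists_mid_diff fp hq2 hqM hA ht hms
  obtain ⟨c, hc⟩ := exists_hasVal_mid fp hms hlead
  obtain ⟨_, _, _, _, _, hfrac, -, hirr', -⟩ := middle_facts (L := L) hs
  letI : Algebra s.E' tL.E' := (s.mapE' (algebraMap O L)).toAlgebra
  have := hfrac
  have hbm : tL.brₘ (Pairs.map ν hΨ y) ≠ 0 :=
    (_root_.map_ne_zero (tL.brₘ.comp (Pairs.map ν hΨ))).2 hy
  obtain ⟨u, k, hu, he⟩ := exists_eq_unit_mul_zpow (B := s.E') hirr' hbm
  have he' : tL.brₘ (Pairs.map ν hΨ y) = s.mapE' (algebraMap O L) u *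
      s.mapE' (algebraMap O L)
        (AdjoinRoot.of s.G (AdjoinRoot.root s.quo) - AdjoinRoot.root s.G) ^ k := he
  have hnorm : (AdjoinRoot.of _ w₁ * tL.proj₁ (AdjoinRoot.map ν _ _ hΨ.symm.dvd g₁) / r₁) ^ p =
      Algebra.norm tL.E (tL.brₘ (Pairs.map ν hΨ y)) := by
    rw [div_pow, mul_pow, ← map_pow, ← map_pow, hw₁, hr₁]
    have h := tL.proj₁_normFst hΨm hd h0 (Pairs.map ν hΨ y)
    rw [hmap y c₁ g₁ hg₁, map_mul, map_pow] at h
    have e : tL.proj₁ (AdjoinRoot.of _ (ν (algebraMap _ _ c₁))) =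
        AdjoinRoot.of _ (ν (algebraMap _ _ c₁)) := by simp [RootSplit.proj₁]
    rw [e, ← map_pow] at h
    rw [h, mul_div_cancel_left₀ _ hb₁]
  obtain ⟨b, w, hub⟩ := exists_middle_decomp s u
  obtain ⟨hm, -⟩ := middle_residue hq2 hs G ms hT hD (y := y) hdlead hu hub ⟨hquo, hG, he'⟩ hc
  rw [hm]
  exact (dvd_of_norm hs hp.ne_zero hu hquo hG (by rw [hnorm, he'])).mul_right mD

end FLTA.RT.Qsq

end
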