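import Fermat.Agent.RT.Qsq.MiddleEmb
import Fermat.Agent.LevelLowering.HeckeNorm
import Fermat.Agent.BadRed.Modular

/-!
# The involution `W_{q²}` of level `M q²`

It exchanges `j(a τ)` and `j(a q² τ)`, fixes `j(a q τ)`, and commutes with `T_l`.
-/

set_option autoImplicit false
set_option synthInstance.maxHeartbeats 400000

noncomputable section

open AlgebraicCurve ModularCurve FLTA.Congruence FLTA.Carayol.Bridge

namespace FLTA.RT.Qsq

local notation "Qb" => AlgebraicClosure ℚ

variable (M q : ℕ) [NeZero M] [NeZero q]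

/-- The characterisation of `W_{q²}`. -/
structure IsOuterSwap (W : fld Qb (M * q * q) →ₐ[Qb] fld Qb (M * q * q)) : Prop where
  low : ∀ g, W (heckeAlphaBar Qb (M * q) q (heckeAlphaBar Qb M q g)) =
    heckeBetaBar Qb (M * q) q (heckeBetaBar Qb M q g)
  mid : ∀ g, W (heckeAlphaBar Qb (M * q) q (heckeBetaBar Qb M q g)) =
    heckeAlphaBar Qb (M * q) q (heckeBetaBar Qb M q g)
  high : ∀ g, W (heckeBetaBar Qb (M * q) q (heckeBetaBar Qb M q g)) =
    heckeAlphaBar Qb (M * q) q (heckeAlphaBar Qb M q g)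

variable {M q}

variable (M q) in
/-- Level `M q` is generated by its two images of level `M`. -/
theorem subfield_eq_top_two (hq : q.Prime) (S : Subfield (fld Qb (M * q)))
    (hα : ∀ g, heckeAlphaBar Qb M q g ∈ S) (hβ : ∀ g, heckeBetaBar Qb M q g ∈ S) : S = ⊤ := by
  refine eq_top_iff.mpr fun x _ => ?_
  have hle : (fld Qb (M * q)).toSubfield ≤ S.map (fld Qb (M * q)).toSubfield.subtype := by
    have h := congrArg IntermediateField.toSubfield
      (laurentBaseChange_full_eq_adjoin (L := Qb) (M * q))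
    rw [IntermediateField.adjoin_toSubfield] at h
    refine h.le.trans (Subfield.closure_le.mpr ?_)
    rintro z (⟨a, rfl⟩ | ⟨d, hd, hdM, rfl⟩)
    · have ha := hα (algebraMap Qb _ a)
      rw [AlgHom.commutes] at ha
      exact ⟨_, ha, rfl⟩
    · by_cases hqd : q ∣ d
      · obtain ⟨d', rfl⟩ := hqd
        have : NeZero d' := ⟨right_ne_zero_of_mul (NeZero.ne (q * d'))⟩
        have hd' : d' ∣ M :=
          Nat.dvd_of_mul_dvd_mul_left hq.pos (by rwa [mul_comm M q] at hdM)
        exact ⟨_, hβ (jGenBar M d' hd'), qExpand_qExpand d' q (jqModC Qb)⟩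
      · have hdM' : d ∣ M := ((hq.coprime_iff_not_dvd.mpr hqd).symm).dvd_of_dvd_mul_right hdM
        exact ⟨_, hα (jGenBar M d hdM'), rfl⟩
  obtain ⟨y, hy, hyx⟩ := Subfield.mem_map.mp (hle x.2)
  exact (Subtype.ext hyx : y = x) ▸ hy

/-- Homomorphisms out of level `M q²` are determined on the three images of level `M`. -/
theorem ringHom_ext_three (hq : q.Prime) {E : Type*} [Field E]
    {σ τ : fld Qb (M * q * q) →+* E}
    (h0 : ∀ g, σ (heckeAlphaBar Qb (M * q) q (heckeAlphaBar Qb M q g)) =
      τ (heckeAlphaBar Qb (M * q) q (heckeAlphaBar Qb M q g)))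
    (h1 : ∀ g, σ (heckeAlphaBar Qb (M * q) q (heckeBetaBar Qb M q g)) =
      τ (heckeAlphaBar Qb (M * q) q (heckeBetaBar Qb M q g)))
    (h2 : ∀ g, σ (heckeBetaBar Qb (M * q) q (heckeBetaBar Qb M q g)) =
      τ (heckeBetaBar Qb (M * q) q (heckeBetaBar Qb M q g))) : σ = τ :=
  ringHom_ext_middle hq (fun x => RingHom.congr_fun (ringHom_ext_alpha_beta q M hq
    (σ := σ.comp (heckeAlphaBar Qb (M * q) q).toRingHom)
    (τ := τ.comp (heckeAlphaBar Qb (M * q) q).toRingHom) h0 h1) x) h2

theorem IsOuterSwap.involutive (hq : q.Prime) {W : fld Qb (M * q * q) →ₐ[Qb] fld Qb (M * q * q)}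
    (hW : IsOuterSwap M q W) (x : fld Qb (M * q * q)) : W (W x) = x := by
  refine RingHom.congr_fun (ringHom_ext_three hq (σ := (W.comp W).toRingHom)
    (τ := RingHom.id _) (fun g => ?_) (fun g => ?_) fun g => ?_) x
  · show W (W _) = _
    rw [hW.low, hW.high, RingHom.id_apply]
  · show W (W _) = _
    rw [hW.mid, hW.mid, RingHom.id_apply]
  · show W (W _) = _
    rw [hW.high, hW.low, RingHom.id_apply]

/-- The embedding exchanging the outer images. -/
theorem exists_outerEmb (hq : q.Prime) (hqM : ¬ q ∣ M) :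
    ∃ φ : fld Qb (M * q * q) →+* AlgebraicClosure (LaurentSeries Qb),
      (∀ g, φ (heckeAlphaBar Qb (M * q) q (heckeAlphaBar Qb M q g)) =
        algebraMap (LaurentSeries Qb) (AlgebraicClosure (LaurentSeries Qb))
          (qExpand Qb (q * q) (g : LaurentSeries Qb))) ∧
      (∀ g, φ (heckeAlphaBar Qb (M * q) q (heckeBetaBar Qb M q g)) =
        algebraMap (LaurentSeries Qb) (AlgebraicClosure (LaurentSeries Qb))
          (qExpand Qb q (g : LaurentSeries Qb))) ∧
      ∀ g, φ (heckeBetaBar Qb (M * q) q (heckeBetaBar Qb M q g)) =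
        algebraMap (LaurentSeries Qb) (AlgebraicClosure (LaurentSeries Qb))
          (g : LaurentSeries Qb) := by
  classical
  have : Fact q.Prime := ⟨hq⟩
  obtain ⟨ζ, hζ⟩ := exists_isPrimitiveRoot_units Qb q
  let aF := algebraAlong (heckeBetaBar Qb (M * q) q)
  have hdeg : Module.finrank (fld Qb (M * q)) (fld Qb (M * q * q)) = q := by
    have h := finrankAlong_beta Qb (M * q) q hq
    rw [if_pos (dvd_mul_left q M)] at h
    exact h
  have : FiniteDimensional (fld Qb (M * q)) (fld Qb (M * q * q)) :=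
    Module.finite_of_finrank_pos (by rw [hdeg]; exact hq.pos)
  have : CharZero (fld Qb (M * q)) :=
    charZero_of_injective_algebraMap (algebraMap Qb _).injective
  set S := BadRed.swapBar M q hqM with hS
  set E := AlgebraicClosure (LaurentSeries Qb)
  set ι : LaurentSeries Qb →+* E := algebraMap (LaurentSeries Qb) E with hι
  let aE : Algebra (fld Qb (M * q)) E :=
    ((ι.comp (fld Qb (M * q)).toSubfield.subtype).comp S.toRingHom).toAlgebra
  have hφ : ∀ (φ : fld Qb (M * q * q) →ₐ[fld Qb (M * q)] E) g,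
      φ.toRingHom (heckeBetaBar Qb (M * q) q g) = ι ((S g : fld Qb (M * q)) : LaurentSeries Qb) :=
    fun φ g => φ.commutes g
  have hSα : ∀ g, S (heckeAlphaBar Qb M q g) = heckeBetaBar Qb M q g :=
    BadRed.swapBar_apply_alpha M q hqM
  have hSβ : ∀ g, S (heckeBetaBar Qb M q g) = heckeAlphaBar Qb M q g := fun g =>
    DFunLike.congr_fun (BadRed.swapBar_beta M q hqM) g
  have hmid : ∀ (φ : fld Qb (M * q * q) →ₐ[fld Qb (M * q)] E) g,
      φ.toRingHom (heckeAlphaBar Qb (M * q) q (heckeBetaBar Qb M q g)) =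
        ι (qExpand Qb q (g : LaurentSeries Qb)) := fun φ g => by
    rw [← beta_alpha, hφ, hSα, coe_heckeBetaBar]
  have hhigh : ∀ (φ : fld Qb (M * q * q) →ₐ[fld Qb (M * q)] E) g,
      φ.toRingHom (heckeBetaBar Qb (M * q) q (heckeBetaBar Qb M q g)) =
        ι (g : LaurentSeries Qb) := fun φ g => by
    rw [hφ, hSβ, coe_heckeAlphaBar]
  have hex : ∀ φ : fld Qb (M * q * q) →ₐ[fld Qb (M * q)] E, ∃ c : Option (Fin q), ∀ g,
      φ.toRingHom (heckeAlphaBar Qb (M * q) q (heckeAlphaBar Qb M q g)) =
        ι (conjSubst q ζ c (g : LaurentSeries Qb)) := fun φ => by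
    obtain ⟨c, hc⟩ := exists_conjSubst_of_root q M hq hqM modPolyExists_algebraicClosure hζ ι
      ((φ.toRingHom.comp (heckeAlphaBar Qb (M * q) q).toRingHom).comp S.toRingHom) fun x => by
        show φ.toRingHom (heckeAlphaBar Qb (M * q) q (S (heckeAlphaBar Qb M q x))) = _
        rw [hSα, hmid]
    refine ⟨c, fun g => ?_⟩
    have := hc g
    rwa [RingHom.comp_apply, RingHom.comp_apply, AlgHom.toRingHom_eq_coe S, RingHom.coe_coe,
      hSβ] at this
  choose label hlabel using hex
  have hinj : Function.Injective label := fun φ ψ h =>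
    AlgHom.coe_ringHom_injective (ringHom_ext_three hq
      (fun g => (hlabel φ g).trans (by rw [h]; exact (hlabel ψ g).symm))
      (fun g => (hmid φ g).trans (hmid ψ g).symm)
      fun g => (hhigh φ g).trans (hhigh ψ g).symm)
  obtain ⟨φ, hφn⟩ : ∃ φ, label φ = none := by
    by_contra hcon
    push Not at hcon
    have hsub : Finset.univ.image label ⊆
        (Finset.univ.erase (⟨0, hq.pos⟩ : Fin q)).image some := by
      intro c hc
      obtain ⟨φ, -, rfl⟩ := Finset.mem_image.mp hc
      rcases hl : label φ with - | i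
      · exact absurd hl (hcon φ)
      · refine Finset.mem_image.mpr ⟨i, Finset.mem_erase.mpr ⟨?_, Finset.mem_univ _⟩, rfl⟩
        rintro rfl
        have h0 := hlabel φ (jGenBar M 1 (one_dvd M))
        rw [hl] at h0
        have h1 := hhigh φ (jGenBar M 1 (one_dvd M))
        simp only [conjSubst, pow_zero, scaleHom_one] at h0
        have he := congrArg (Subtype.val (p := (· ∈ fld Qb (M * q * q))))
          (φ.toRingHom.injective (h0.trans h1.symm))
        simp only [coe_heckeAlphaBar, coe_heckeBetaBar, coe_jGenBar, qExpand_qExpand] at he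
        rw [← substHom_one_right 1, ← substHom_one_right (q * (q * 1))] at he
        have := (substHom_jqModC_inj he).1
        nlinarith [hq.two_le]
    have h := (Finset.card_le_card hsub).trans Finset.card_image_le
    rw [Finset.card_image_of_injective _ hinj, Finset.card_univ, AlgHom.card, hdeg,
      Finset.card_erase_of_mem (Finset.mem_univ _), Finset.card_univ, Fintype.card_fin] at h
    have := hq.two_le
    omega
  have hlow : ∀ g, φ.toRingHom (heckeAlphaBar Qb (M * q) q (heckeAlphaBar Qb M q g)) =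
      ι (qExpand Qb (q * q) (g : LaurentSeries Qb)) := fun g => by
    rw [hlabel, hφn, conjSubst]
  exact ⟨φ.toRingHom, hlow, hmid φ, hhigh φ⟩

/-- Values lie in a subfield as soon as those at the three images do. -/
theorem mem_range_of_gen (hq : q.Prime) {E F : Type*} [Field E] [Field F]
    (φ : fld Qb (M * q * q) →+* E) (ι : F →+* E)
    (h0 : ∀ g, φ (heckeAlphaBar Qb (M * q) q (heckeAlphaBar Qb M q g)) ∈ ι.fieldRange)
    (h1 : ∀ g, φ (heckeAlphaBar Qb (M * q) q (heckeBetaBar Qb M q g)) ∈ ι.fieldRange)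
    (h2 : ∀ g, φ (heckeBetaBar Qb (M * q) q (heckeBetaBar Qb M q g)) ∈ ι.fieldRange)
    (x : fld Qb (M * q * q)) : φ x ∈ ι.fieldRange := by
  refine Subfield.mem_comap.mp ((subfield_eq_top M q hq (ι.fieldRange.comap φ) (fun g => ?_)
    fun g => Subfield.mem_comap.mpr (h2 g)).ge (Subfield.mem_top x))
  exact Subfield.mem_comap.mp ((subfield_eq_top_two M q hq
    ((ι.fieldRange.comap φ).comap (heckeAlphaBar Qb (M * q) q).toRingHom)
    (fun g => Subfield.mem_comap.mpr (Subfield.mem_comap.mpr (h0 g)))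
    fun g => Subfield.mem_comap.mpr (Subfield.mem_comap.mpr (h1 g))).ge (Subfield.mem_top g))

/-- An embedding with values in the field is an endomorphism. -/
theorem exists_algHom_of_emb (hq : q.Prime) {E : Type*} [Field E] (ι : LaurentSeries Qb →+* E)
    (φ : fld Qb (M * q * q) →+* E)
    (hlow : ∀ g, φ (heckeAlphaBar Qb (M * q) q (heckeAlphaBar Qb M q g)) =
      ι (qExpand Qb (q * q) (g : LaurentSeries Qb)))
    (hmid : ∀ g, φ (heckeAlphaBar Qb (M * q) q (heckeBetaBar Qb M q g)) =
      ι (qExpand Qb q (g : LaurentSeries Qb)))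
    (hhigh : ∀ g, φ (heckeBetaBar Qb (M * q) q (heckeBetaBar Qb M q g)) =
      ι (g : LaurentSeries Qb)) :
    ∃ W : fld Qb (M * q * q) →ₐ[Qb] fld Qb (M * q * q), IsOuterSwap M q W := by
  let ι' : fld Qb (M * q * q) →+* E := ι.comp (fld Qb (M * q * q)).toSubfield.subtype
  have hι' : ∀ y, ι' y = ι (y : LaurentSeries Qb) := fun _ => rfl
  have elow : ∀ g, ι' (heckeBetaBar Qb (M * q) q (heckeBetaBar Qb M q g)) =
      φ (heckeAlphaBar Qb (M * q) q (heckeAlphaBar Qb M q g)) := fun g => by
    rw [hlow, hι', coe_heckeBetaBar, coe_heckeBetaBar, qExpand_qExpand]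
  have emid : ∀ g, ι' (heckeAlphaBar Qb (M * q) q (heckeBetaBar Qb M q g)) =
      φ (heckeAlphaBar Qb (M * q) q (heckeBetaBar Qb M q g)) := fun g => by
    rw [hmid, hι', coe_heckeAlphaBar, coe_heckeBetaBar]
  have ehigh : ∀ g, ι' (heckeAlphaBar Qb (M * q) q (heckeAlphaBar Qb M q g)) =
      φ (heckeBetaBar Qb (M * q) q (heckeBetaBar Qb M q g)) := fun g => by
    rw [hhigh, hι', coe_heckeAlphaBar, coe_heckeAlphaBar]
  have hrange : ∀ x, φ x ∈ ι'.fieldRange := mem_range_of_gen hq φ ι'
    (fun g => ⟨_, elow g⟩) (fun g => ⟨_, emid g⟩) fun g => ⟨_, ehigh g⟩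
  choose W hW using hrange
  refine ⟨{ toFun := W
            map_one' := ι'.injective (by rw [hW, map_one, map_one])
            map_mul' := fun x y => ι'.injective (by rw [map_mul ι', hW, hW, hW, map_mul])
            map_zero' := ι'.injective (by rw [hW, map_zero, map_zero])
            map_add' := fun x y => ι'.injective (by rw [map_add ι', hW, hW, hW, map_add])
            commutes' := fun a => ι'.injective ?_ }, ?_⟩
  · show ι' (W _) = _
    rw [hW]
    have h := hhigh (algebraMap Qb _ a)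
    rw [AlgHom.commutes, AlgHom.commutes] at h
    exact h
  · exact ⟨fun g => ι'.injective ((hW _).trans (elow g).symm),
      fun g => ι'.injective ((hW _).trans (emid g).symm),
      fun g => ι'.injective ((hW _).trans (ehigh g).symm)⟩

/-- `W_{q²}` exists. -/
theorem exists_isOuterSwap (hq : q.Prime) (hqM : ¬ q ∣ M) :
    ∃ W : fld Qb (M * q * q) →ₐ[Qb] fld Qb (M * q * q), IsOuterSwap M q W := by
  obtain ⟨φ, h1, h2, h3⟩ := exists_outerEmb (M := M) hq hqM
  exact exists_algHom_of_emb hq _ φ h1 h2 h3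

/-- `T_l` commutes with `W_{q²}`. -/
theorem heckeNormHom_outerSwap (hq : q.Prime) (hqM : ¬ q ∣ M) {l : ℕ} [NeZero l] (hl : l.Prime)
    (hlq : l ≠ q) {W : fld Qb (M * q * q) →ₐ[Qb] fld Qb (M * q * q)} (hW : IsOuterSwap M q W)
    (f : fld Qb (M * q * q)) :
    W (LevelLowering.heckeNormHom (M * q * q) l f) =
      LevelLowering.heckeNormHom (M * q * q) l (W f) := by
  have hqMl : ¬ q ∣ M * l := fun h => (hq.dvd_mul.mp h).elim hqM fun h' =>
    hlq ((Nat.prime_dvd_prime_iff_eq hq hl).mp h').symm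
  obtain ⟨Wl, hWl⟩ := exists_isOuterSwap (M := M * l) hq hqMl
  have hd : M * l * q * q ∣ M * q * q * l := dvd_of_eq (by ring)
  have hd' : M * q * q * l ∣ M * l * q * q := dvd_of_eq (by ring)
  set W' : fld Qb (M * q * q * l) →ₐ[Qb] fld Qb (M * q * q * l) :=
    (incl Qb hd).comp (Wl.comp (incl Qb hd')) with hW'
  have key : ∀ (y : fld Qb (M * l * q * q)) (x : fld Qb (M * q * q * l)),
      (x : LaurentSeries Qb) = y → W' x = incl Qb hd (Wl y) := fun y x h => by
    rw [hW', AlgHom.comp_apply, AlgHom.comp_apply, show incl Qb hd' x = y from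
      Subtype.ext (by rw [coe_incl, h])]
  have hinv : ∀ x, W' (W' x) = x := fun x => by
    rw [key (Wl (incl Qb hd' x)) (W' x) (by rw [hW']; simp), hWl.involutive hq]
    exact Subtype.ext (by simp)
  refine LevelLowering.map_norm_along (heckeAlphaBar Qb (M * q * q) l)
    (heckeBetaBar Qb (M * q * q) l) W W' (hW.involutive hq) hinv (fun x => ?_) (fun x => ?_) f
  · refine RingHom.congr_fun (ringHom_ext_three hq
      (σ := (W'.comp (heckeAlphaBar Qb (M * q * q) l)).toRingHom)
      (τ := ((heckeAlphaBar Qb (M * q * q) l).comp W).toRingHom)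
      (fun g => ?_) (fun g => ?_) fun g => ?_) x
    · show W' (heckeAlphaBar Qb (M * q * q) l _) = heckeAlphaBar Qb (M * q * q) l (W _)
      rw [hW.low, key (heckeAlphaBar Qb (M * l * q) q (heckeAlphaBar Qb (M * l) q
        (heckeAlphaBar Qb M l g))) _ (by simp), hWl.low]
      exact Subtype.ext (by simp [qExpand_qExpand])
    · show W' (heckeAlphaBar Qb (M * q * q) l _) = heckeAlphaBar Qb (M * q * q) l (W _)
      rw [hW.mid, key (heckeAlphaBar Qb (M * l * q) q (heckeBetaBar Qb (M * l) q
        (heckeAlphaBar Qb M l g))) _ (by simp), hWl.mid]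
      exact Subtype.ext (by simp [qExpand_qExpand])
    · show W' (heckeAlphaBar Qb (M * q * q) l _) = heckeAlphaBar Qb (M * q * q) l (W _)
      rw [hW.high, key (heckeBetaBar Qb (M * l * q) q (heckeBetaBar Qb (M * l) q
        (heckeAlphaBar Qb M l g))) _ (by simp), hWl.high]
      exact Subtype.ext (by simp [qExpand_qExpand])
  · refine RingHom.congr_fun (ringHom_ext_three hq
      (σ := (W'.comp (heckeBetaBar Qb (M * q * q) l)).toRingHom)
      (τ := ((heckeBetaBar Qb (M * q * q) l).comp W).toRingHom)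
      (fun g => ?_) (fun g => ?_) fun g => ?_) x
    · show W' (heckeBetaBar Qb (M * q * q) l _) = heckeBetaBar Qb (M * q * q) l (W _)
      rw [hW.low, key (heckeAlphaBar Qb (M * l * q) q (heckeAlphaBar Qb (M * l) q
        (heckeBetaBar Qb M l g))) _ (by simp), hWl.low]
      exact Subtype.ext (by simp [qExpand_qExpand, mul_comm, mul_left_comm])
    · show W' (heckeBetaBar Qb (M * q * q) l _) = heckeBetaBar Qb (M * q * q) l (W _)
      rw [hW.mid, key (heckeAlphaBar Qb (M * l * q) q (heckeBetaBar Qb (M * l) q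
        (heckeBetaBar Qb M l g))) _ (by simp [qExpand_qExpand, mul_comm]), hWl.mid]
      exact Subtype.ext (by simp [qExpand_qExpand, mul_comm])
    · show W' (heckeBetaBar Qb (M * q * q) l _) = heckeBetaBar Qb (M * q * q) l (W _)
      rw [hW.high, key (heckeBetaBar Qb (M * l * q) q (heckeBetaBar Qb (M * l) q
        (heckeBetaBar Qb M l g))) _ (by simp [qExpand_qExpand, mul_comm, mul_left_comm]),
        hWl.high]
      exact Subtype.ext (by simp [qExpand_qExpand])

end FLTA.RT.Qsq

end
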