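import Fermat.Agent.RT.Qsq.PairHom
import Fermat.Agent.RT.Qsq.OuterSwap

/-!
# The swap of the pairs is `W_{q²}`
-/

set_option autoImplicit false
set_option synthInstance.maxHeartbeats 400000
set_option maxHeartbeats 800000

noncomputable section

open Polynomial ModularCurve AlgebraicCurve FLTA.Carayol FLTA.Carayol.Bridge

namespace FLTA.RT.Qsq

local notation "Qb" => AlgebraicClosure ℚ

variable {q M : ℕ} [NeZero q] [NeZero M] {A : ValuationSubring Qb} {Φ : ℤ[X][X]}
  {t : ↥(modularFunctionFieldFull M)}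

/-- `W_{q²}` on the functions of pairs over the inertia field is the swap of the coordinates. -/
theorem outerSwap_pairs {W : fld Qb (M * q * q) →ₐ[Qb] fld Qb (M * q * q)}
    (hW : IsOuterSwap M q W) {ψ : Pairs (inertiaPhi A Φ t) →+* fld (inertiaField A) (M * q * q)}
    (hψ : IsPairHom q ψ) (y : Pairs (inertiaPhi A Φ t)) :
    W (mapF (inertiaField A).val.toRingHom (M * q * q) (ψ y)) =
      mapF (inertiaField A).val.toRingHom (M * q * q) (ψ (Pairs.swap _ y)) := by
  refine RingHom.congr_fun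
    (f := (W.toRingHom.comp (mapF (inertiaField A).val.toRingHom (M * q * q))).comp ψ)
    (g := ((mapF (inertiaField A).val.toRingHom (M * q * q)).comp ψ).comp (Pairs.swap _))
    (Pairs.ringHom_ext (RingHom.ext fun a => ?_) ?_ ?_) y
  · show W (mapF _ _ (ψ (Pairs.ofBase _ a))) = mapF _ _ (ψ (Pairs.swap _ (Pairs.ofBase _ a)))
    rw [Pairs.swap_ofBase, hψ.base, mapF_heckeAlpha, mapF_heckeBeta, hW.mid]
  · show W (mapF _ _ (ψ (Pairs.fst _))) = mapF _ _ (ψ (Pairs.swap _ (Pairs.fst _)))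
    rw [Pairs.swap_fst, hψ.fst, hψ.snd, mapF_heckeAlpha, mapF_heckeAlpha, mapF_heckeBeta,
      mapF_heckeBeta, hW.low]
  · show W (mapF _ _ (ψ (Pairs.snd _))) = mapF _ _ (ψ (Pairs.swap _ (Pairs.snd _)))
    rw [← Pairs.swap_fst, Pairs.swap_swap, Pairs.swap_fst, hψ.fst, hψ.snd, mapF_heckeAlpha,
      mapF_heckeAlpha, mapF_heckeBeta, mapF_heckeBeta, hW.high]

end FLTA.RT.Qsq

end
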