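import Fermat.Agent.RT.Qsq.Equivariant
import Fermat.Agent.LevelLowering.GlobalDefs
import Fermat.Agent.Carayol.BridgeFields
import Fermat.Agent.LT2.RaiseSpec
import Fermat.Agent.GaloisReps.TateConstructCommute
import Fermat.Agent.BadRed.Ordinary.GoodLevel

/-!
# An eigenclass which is a sum of two pullbacks vanishes

If the Kummer function of an eigenclass of level `M q²` is, up to constants and `p`-th powers, the
product of pullbacks of Kummer functions of level `M q`, the class is a sum of two pullbacks; a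
Hecke polynomial which is `1` on the system and `0` at the lower level then kills it.
-/

set_option autoImplicit false
set_option synthInstance.maxHeartbeats 400000

noncomputable section

open AlgebraicCurve ModularCurve
open FLTA.Carayol.Bridge
open FLTA.LevelLowering (heckeLiftMod heckeLiftBar)

namespace FLTA.RT.Qsq

local notation "Qb" => AlgebraicClosure ℚ
local notation "Γ" => AlgebraicClosure ℚ ≃ₐ[ℚ] AlgebraicClosure ℚ

/-- The pullback of classes is equivariant for intertwined semilinear automorphisms. -/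
theorem pullPic_semilinear_smul {K F F' : Type*} [Field K] [Field F] [Field F'] [Algebra K F]
    [Algebra K F'] [HasPrincipalDivisors K F] [IsAlgClosed K] [CharZero K] (φ : F' →ₐ[K] F)
    (hint : φ.toRingHom.IsIntegral) (hFI : FundamentalIdentityAlong K φ hint)
    {g : SemilinearAut K F'} {g' : SemilinearAut K F}
    (h : ∀ x : F', g' • φ x = φ (g • x)) (P : Pic0 K F') :
    BadRed.BadFibre.pullPic φ hint hFI (g • P) =
      g' • BadRed.BadFibre.pullPic φ hint hFI P := by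
  obtain ⟨D, rfl⟩ := Pic0.mk_surjective P
  rw [SemilinearAut.pic0_smul_mk, BadRed.BadFibre.pullPic_mk, BadRed.BadFibre.pullPic_mk,
    SemilinearAut.pic0_smul_mk]
  exact congrArg Pic0.mk (Subtype.ext (GaloisReps.pullbackAlong_smul φ hint h (D : Divisor K F')))

theorem pullPic_alpha_galois (M q : ℕ) [NeZero M] [NeZero q] (σ : Γ) (x : JZero M) :
    LT2.pullAlpha M q (σ • x) = σ • LT2.pullAlpha M q x := by
  rw [galois_smul_pic0_def, galois_smul_pic0_def]
  exact pullPic_semilinear_smul _ _ _ (GaloisReps.heckeAlphaBar_galois M q σ) x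

theorem pullPic_beta_galois (M q : ℕ) [NeZero M] [NeZero q] (σ : Γ) (x : JZero M) :
    LT2.pullBeta M q (σ • x) = σ • LT2.pullBeta M q x := by
  rw [galois_smul_pic0_def, galois_smul_pic0_def]
  exact pullPic_semilinear_smul _ _ _ (GaloisReps.heckeBetaBar_galois M q σ) x

/-- A polynomial in the good operators commutes with an equivariant map on `p`-torsion. -/
theorem map_heckeLiftBar {L N p : ℕ} [NeZero L] [NeZero N] [Fact p.Prime] {S : Finset ℕ}
    (f : JZero L →+ JZero N) (hf : ∀ (σ : Γ) (x : JZero L), f (σ • x) = σ • f x) (hpS : p ∈ S)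
    (hL : ∀ ℓ : ℕ, ℓ.Prime → ℓ ∣ L → ℓ ∈ S) (hN : ∀ ℓ : ℕ, ℓ.Prime → ℓ ∣ N → ℓ ∈ S)
    (u : FreeAlgebra ℤ {ℓ : Nat.Primes // (ℓ : ℕ) ∉ S}) :
    ∀ y : JZero L, p • y = 0 → f (heckeLiftBar L S u y) = heckeLiftBar N S u (f y) := by
  induction u using FreeAlgebra.induction with
  | grade0 r =>
    intro y _
    rw [AlgHom.commutes, AlgHom.commutes]
    exact ((congrArg f (Module.algebraMap_end_apply ℤ ℤ (JZero L) r y)).trans
      (map_zsmul f r y)).trans (Module.algebraMap_end_apply ℤ ℤ (JZero N) r (f y)).symm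
  | grade1 ℓ =>
    intro y hy
    simp only [heckeLiftBar, FreeAlgebra.lift_ι_apply]
    exact map_heckeOperatorBar f hf ℓ.1 (fun h => ℓ.2 (hL ℓ.1 ℓ.1.2 h))
      (fun h => ℓ.2 (hN ℓ.1 ℓ.1.2 h))
      (fun h => ℓ.2 (by rwa [(Nat.prime_dvd_prime_iff_eq ℓ.1.2 Fact.out).mp h])) hy
  | mul u v hu hv =>
    intro y hy
    rw [map_mul, map_mul, Module.End.mul_apply, Module.End.mul_apply,
      hu _ (by rw [← map_nsmul, hy, map_zero]), hv y hy]
  | add u v hu hv =>
    intro y hy
    rw [map_add (heckeLiftBar L S) u v, map_add (heckeLiftBar N S) u v]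
    exact (map_add f _ _).trans (congrArg₂ (· + ·) (hu y hy) (hv y hy))

/-- A polynomial in the good operators acts on an eigenclass through the system. -/
theorem exists_heckeLift_scalar {L p : ℕ} [NeZero L] [Fact p.Prime] {S : Finset ℕ} (a : ℕ → ℤ)
    {x : JZero L} (heig : ∀ ℓ : Nat.Primes, (ℓ : ℕ) ∉ S → heckeOperatorBar L ℓ x = a ℓ • x)
    (t : FreeAlgebra ℤ {ℓ : Nat.Primes // (ℓ : ℕ) ∉ S}) :
    ∃ c : ℤ, (c : ZMod p) = heckeLiftMod p a S t ∧ heckeLiftBar L S t x = c • x := by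
  induction t using FreeAlgebra.induction with
  | grade0 r =>
    refine ⟨r, by simp, ?_⟩
    rw [AlgHom.commutes]
    exact Module.algebraMap_end_apply ℤ ℤ (JZero L) r x
  | grade1 ℓ =>
    exact ⟨a (ℓ.1 : ℕ), by simp [heckeLiftMod], by simp [heckeLiftBar, heig ℓ.1 ℓ.2]⟩
  | mul u v hu hv =>
    obtain ⟨c, hc, hcx⟩ := hu
    obtain ⟨d, hd, hdx⟩ := hv
    refine ⟨c * d, by rw [Int.cast_mul, hc, hd, map_mul], ?_⟩
    rw [map_mul, Module.End.mul_apply, hdx, map_zsmul, hcx, ← mul_zsmul]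
    exact congrArg (· • x) (mul_comm d c)
  | add u v hu hv =>
    obtain ⟨c, hc, hcx⟩ := hu
    obtain ⟨d, hd, hdx⟩ := hv
    exact ⟨c + d, by rw [Int.cast_add, hc, hd, map_add],
      by rw [map_add, LinearMap.add_apply, hcx, hdx, add_zsmul]⟩

/-- **A sum of two pullbacks in a system separated from the lower level is zero.** -/
theorem eq_zero_of_pullbacks {M q p : ℕ} [NeZero M] [NeZero q] [Fact p.Prime] {S : Finset ℕ}
    (hS : ∀ ℓ : ℕ, ℓ.Prime → ℓ ∣ M * q → ℓ ∈ S) (hpS : p ∈ S) (a : ℕ → ℤ)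
    (t : FreeAlgebra ℤ {ℓ : Nat.Primes // (ℓ : ℕ) ∉ S}) (ht1 : heckeLiftMod p a S t = 1)
    (ht0 : heckeLiftBar (M * q) S t = 0)
    (x : JZero (M * q * q)) (hx : p • x = 0)
    (heig : ∀ ℓ : Nat.Primes, (ℓ : ℕ) ∉ S → heckeOperatorBar (M * q * q) ℓ x = a ℓ • x)
    (D₀ : Divisor.degZero (K := Qb) (F := modularFunctionFieldBar (M * q * q)))
    (D D' : Divisor.degZero (K := Qb) (F := modularFunctionFieldBar (M * q)))
    {f : fld Qb (M * q * q)} {g g' : fld Qb (M * q)} (hf : f ≠ 0) (hg : g ≠ 0) (hg' : g' ≠ 0)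
    (hx₀ : Pic0.mk D₀ = x)
    (hD₀ : ∀ v, (p : ℤ) * (D₀ : Divisor Qb (modularFunctionFieldBar (M * q * q))) v = v.ord f)
    (hD : ∀ v, (p : ℤ) * (D : Divisor Qb (modularFunctionFieldBar (M * q))) v = v.ord g)
    (hD' : ∀ v, (p : ℤ) * (D' : Divisor Qb (modularFunctionFieldBar (M * q))) v = v.ord g')
    {c : Qb} (hc : c ≠ 0) {Z : fld Qb (M * q * q)}
    (hZ : Z ^ p = algebraMap Qb _ c * f * heckeAlphaBar Qb (M * q) q g *
      heckeBetaBar Qb (M * q) q g') : x = 0 := by
  classical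
  have hp : p.Prime := Fact.out
  set α := heckeAlphaBar Qb (M * q) q
  set β := heckeBetaBar Qb (M * q) q
  obtain ⟨E, hE, e₁⟩ := LT2.pullAlpha_mk (M * q) q D
  obtain ⟨E', hE', e₂⟩ := LT2.pullBeta_mk (M * q) q D'
  have hcf : algebraMap Qb (fld Qb (M * q * q)) c * f ≠ 0 :=
    mul_ne_zero ((map_ne_zero _).mpr hc) hf
  have hag : α g ≠ 0 := (map_ne_zero α).mpr hg
  have hbg : β g' ≠ 0 := (map_ne_zero β).mpr hg'
  have hZ0 : Z ≠ 0 := fun h => by
    rw [h, zero_pow hp.ne_zero, eq_comm] at hZ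
    exact mul_ne_zero (mul_ne_zero hcf hag) hbg hZ
  -- the class is a sum of two pullbacks
  have hsum : x + LT2.pullAlpha (M * q) q (Pic0.mk D) + LT2.pullBeta (M * q) q (Pic0.mk D') = 0 := by
    rw [← hx₀, e₁, e₂, ← Pic0.mk_add, ← Pic0.mk_add]
    refine (QuotientAddGroup.eq_zero_iff _).mpr ⟨Z, hZ0, fun v => ?_⟩
    refine mul_left_cancel₀ (Nat.cast_ne_zero.mpr hp.ne_zero) (?_ : (p : ℤ) * _ = (p : ℤ) * _)
    rw [AddSubgroup.coe_subtype, AddSubgroup.coe_add, AddSubgroup.coe_add, Finsupp.add_apply,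
      Finsupp.add_apply, hE, hE', mul_add, mul_add, hD₀ v,
      (BadRed.BadFibre.kummerFn_pullback α _ hg hD).ord_eq v,
      (BadRed.BadFibre.kummerFn_pullback β _ hg' hD').ord_eq v, ← Curves.ord_pow, hZ,
      v.ord_mul (mul_ne_zero hcf hag) hbg, v.ord_mul hcf hag,
      v.ord_mul ((map_ne_zero _).mpr hc) hf, Curves.ord_algebraMap, zero_add]
  -- the lower classes are `p`-torsion
  have tors : ∀ (E : Divisor.degZero (K := Qb) (F := modularFunctionFieldBar (M * q)))
      {h : fld Qb (M * q)}, h ≠ 0 →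
      (∀ v, (p : ℤ) * (E : Divisor Qb (modularFunctionFieldBar (M * q))) v = v.ord h) →
      p • Pic0.mk E = 0 := by
    intro E h hh hv
    show ((p • E : Divisor.degZero (K := Qb) (F := modularFunctionFieldBar (M * q))) :
      Pic0 Qb (modularFunctionFieldBar (M * q))) = 0
    refine (QuotientAddGroup.eq_zero_iff _).mpr ⟨h, hh, fun v => ?_⟩
    rw [AddSubgroup.coe_subtype, AddSubgroupClass.coe_nsmul, Finsupp.smul_apply, nsmul_eq_mul]
    exact hv v
  -- the polynomial kills the pullbacks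
  have hS' : ∀ ℓ : ℕ, ℓ.Prime → ℓ ∣ M * q * q → ℓ ∈ S := fun ℓ hℓ h =>
    hS ℓ hℓ ((hℓ.dvd_mul.mp h).elim id fun h' => h'.mul_left M)
  have kill : ∀ (F : JZero (M * q) →+ JZero (M * q * q)),
      (∀ (σ : Γ) y, F (σ • y) = σ • F y) → ∀ y, p • y = 0 →
      heckeLiftBar (M * q * q) S t (F y) = 0 := fun F hF y hy => by
    rw [← map_heckeLiftBar F hF hpS hS hS' t y hy, ht0, LinearMap.zero_apply, map_zero]
  obtain ⟨k, hk, hkx⟩ := exists_heckeLift_scalar (p := p) a heig t
  rw [ht1] at hk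
  have hkill : k • x = 0 := by
    have h := congrArg (heckeLiftBar (M * q * q) S t) hsum
    rwa [map_add, map_add, map_zero, kill _ (pullPic_alpha_galois (M * q) q) _ (tors D hg hD),
      kill _ (pullPic_beta_galois (M * q) q) _ (tors D' hg' hD'), add_zero, add_zero, hkx] at h
  obtain ⟨j, hj⟩ : (p : ℤ) ∣ k - 1 := by
    rw [← ZMod.intCast_zmod_eq_zero_iff_dvd]
    simp [hk]
  calc x = k • x - j • ((p : ℤ) • x) := by
        rw [smul_smul, ← sub_smul, show k - j * (p : ℤ) = 1 by linear_combination hj, one_smul]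
    _ = 0 := by rw [hkill, natCast_zsmul, hx, smul_zero, sub_zero]

end FLTA.RT.Qsq

end
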