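import Fermat.Agent.RT.Qsq.Assembly
import Fermat.Agent.RT.Qsq.CoreNorms
import Fermat.Agent.RT.Qsq.KummerUnit
import Fermat.Agent.RT.Qsq.GaussRootP
import Fermat.Agent.RT.Qsq.OuterPairs
import Fermat.Agent.RT.Qsq.OuterKill
import Fermat.Agent.RT.Qsq.FramePairExists
import Fermat.Agent.RT.Qsq.MiddleExp
import Fermat.Agent.RT.Qsq.PullKill
import Fermat.Agent.RT.Qsq.Index
import Fermat.Agent.RT.Qsq.EigenFun
import Fermat.Agent.RT.Qsq.MiddleDvd
import Fermat.Agent.Carayol.BridgeConst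
import Fermat.Agent.Carayol.BridgeCover
import Fermat.Agent.LevelLowering.GlobalCurve

/-!
# An old-killed inertia-fixed eigenclass of `X₀(N q²)` vanishes

The leaf of step (A): over the Gauss point the Kummer function of the class has a `p`-th root, so
the class is a sum of two pullbacks from level `N q`, which the separator kills.
-/

set_option autoImplicit false
set_option maxHeartbeats 4000000
set_option synthInstance.maxHeartbeats 400000
set_option linter.style.haveILetI false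

noncomputable section

open IsLocalRing Polynomial ModularCurve AlgebraicCurve FLTA.Carayol FLTA.Carayol.Bridge
  FLTA.BadRed
open FLTA.LevelLowering (heckeLiftMod heckeLiftBar heckeNormHom)

namespace FLTA.RT.Qsq

local notation "Qb" => AlgebraicClosure ℚ

/-- **The local statement.**  At `X₀(N q²)`, an inertia-fixed `p`-torsion eigenclass killed by
both pushforwards and separated from levels `N` and `N q` is zero. -/
theorem eq_zero_of_fixed_eigen (N q p : ℕ) [NeZero N] [NeZero q] [Fact p.Prime] [Fact q.Prime]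
    (hp2 : p ≠ 2) (hq2 : q ≠ 2) (hqp : q ≠ p) (hqN : ¬ q ∣ N) (h4 : 4 ∣ N)
    (A : ValuationSubring Qb) (hA : A.LiesOverPrime q)
    (S : Finset ℕ) (hS : ∀ ℓ : ℕ, ℓ.Prime → ℓ ∣ N * q → ℓ ∈ S) (hpS : p ∈ S) (a : ℕ → ℤ)
    (t : FreeAlgebra ℤ {ℓ : Nat.Primes // (ℓ : ℕ) ∉ S}) (ht1 : heckeLiftMod p a S t = 1)
    (ht0 : heckeLiftBar (N * q) S t = 0) (ht0N : heckeLiftBar N S t = 0)
    (hne : ∃ ℓ : ℕ, ℓ.Prime ∧ ℓ ∉ S ∧ ¬ (p : ℤ) ∣ a ℓ - (ℓ + 1))
    (x : JZero (N * q * q)) (hx : p • x = 0)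
    (hfix : ∀ σ ∈ A.inertiaSubgroupIn ℚ, σ • x = x)
    (heig : ∀ ℓ : Nat.Primes, (ℓ : ℕ) ∉ S → heckeOperatorBar (N * q * q) ℓ x = a ℓ • x)
    (hα : Carayol.pushAlpha (N * q) q x = 0) (hβ : Carayol.pushBeta (N * q) q x = 0) :
    x = 0 := by
  classical
  have hq : q.Prime := Fact.out
  have hp : p.Prime := Fact.out
  haveI := Galois.charP_residueField hq hA
  haveI := Galois.isAlgClosed_residueField A
  haveI : PerfectRing (ResidueField A) q := inferInstance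
  have hL : Haupt.IsHauptLevel 4 := Or.inl rfl
  have hqL : ¬ q ∣ 4 := fun h => hqN (h.trans h4)
  -- constants
  obtain ⟨fp, w, hw, hqw⟩ := exists_framePair (q := q) hA
  obtain ⟨D, f₀, Y₀, hf₀, hDx, hdiv, hY₀⟩ :=
    exists_kummer_unit fp.fr₀ fp.fixed_mem₀ hw hqw x hx hfix
  obtain ⟨W, _, _, _, _, _, _, _, π, ι, j, r, hW, hj, hιj, hr, hrj⟩ :=
    exists_constants_residue (q := q) hA
  haveI : CharZero (FractionRing W) :=
    charZero_of_injective_algebraMap (IsFractionRing.injective W (FractionRing W))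
  haveI : Fact (Prime (PowerSeries.C (q : W) : PowerSeries W)) :=
    ⟨prime_C_powerSeries ((IsDiscreteValuationRing.irreducible_iff_uniformizer _).2 hW)⟩
  obtain ⟨Φ, hΦ⟩ := Haupt.exists_isModEq q 4 hL hqL
  obtain ⟨tt, θ, Q₀, htt, hgen₀, hroot₀, hdeg₀, hQall⟩ := exists_cover_natDegree q 4 N hL h4 hqN
  have hQ := hQall W hW π
  obtain ⟨gm⟩ := nonempty_gaussModel hL hqL hΦ hQ
  obtain ⟨cm⟩ := nonempty_coverModel (K := FractionRing W) hqN hL hΦ htt hgen₀ hroot₀ π hQ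
  obtain ⟨im⟩ := nonempty_inertiaModel (A := A) hqN hL hΦ htt
  obtain ⟨hΨ, G, -, hC, hgen⟩ := exists_setting hA fp hw hqw hW ι j hj (RingHom.ext hιj) r hr
    (RingHom.ext hrj) htt gm cm im
  obtain ⟨S', m₀, hS'⟩ := (badFibre N q A hA hqN).exists_isGluing
  have hindex : (Q₀.map (mapRingHom π)).natDegree * ((q - 1) / 2) ≤ S'.card ∧ S'.Nonempty :=
    natDegree_mul_le_card_gluing π hdeg₀ h4 hq2 hS'
  obtain ⟨y₀, hy₀⟩ := im.ψ_bij.2 f₀
  set g₀ : inertiaField A →+* Qb := (inertiaField A).val.toRingHom with hg₀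
  set f : fld Qb (N * q * q) := mapF g₀ (N * q * q) f₀ with hf
  have hfne : f ≠ 0 := (_root_.map_ne_zero _).2 hf₀
  have heigen : ∀ (l : ℕ) (_ : NeZero l), l.Prime → l ∉ S → ∃ (n : ℕ) (w : A) (h : fld Qb (N * q * q)),
      (n : ZMod p) = a l ∧ residue A w ≠ 0 ∧ IsRational A h ∧
        heckeNormHom (N * q * q) l f = algebraMap Qb _ (w : Qb) * f ^ n * h ^ p := fun l _ hl hlS => by
    obtain ⟨n, w', h, h1, h2, h3, -, h4⟩ := exists_eigen_fun_unit fp hw hqw hf₀ hDx hdiv hY₀ hl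
      (fun hd => hlS (hS l hl ((hl.dvd_mul.mp hd).elim id fun h' => h'.mul_left N)))
      (heig ⟨l, hl⟩ hlS)
    exact ⟨n, w', h, h1, h2, h3, h4⟩
  obtain ⟨W', hW'⟩ := exists_isOuterSwap (M := N) hq hqN
  have hswap : ∀ n Y, HasVal fp.fr₀ (W' f : LaurentSeries Qb) n Y → (p : ℤ) ∣ n := fun n Y hY => by
    obtain ⟨l, hl, hlS, hla⟩ := hne
    exact dvd_val_swap hqN fp hw hqw hf₀ hDx hdiv hY₀ hl
      (fun h => hlS (hS l hl (h ▸ dvd_mul_left q N))) (fun h => hlS (hS l hl (h.mul_right q)))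
      (heig ⟨l, hl⟩ hlS) (by exact_mod_cast hla) hW' hY
  -- valuations
  have hval₁ : ∀ n Y, HasVal fp.fr₀ (pairSer im.ψ y₀) n Y → (p : ℤ) ∣ n := fun n Y h => by
    rw [pairSer_apply, hy₀] at h
    rw [(h.unique hY₀).1]
    exact dvd_zero _
  have hval₀ : ∀ n Y, HasVal fp.fr₀ (pairSer im.ψ (Pairs.swap _ y₀)) n Y → (p : ℤ) ∣ n :=
    fun n Y h => hswap n Y (by
      rw [hf, ← hy₀, outerSwap_pairs hW' im.isPairHom]
      exact h)
  obtain ⟨hfst, hsnd⟩ := exists_norms_eq_const_mul_pow hqN hL hΦ htt im hp.pos D hf₀ hdiv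
    (hDx ▸ hα) (hDx ▸ hβ) y₀ hy₀
  -- the middle
  obtain ⟨mm, η, hlead⟩ := fp.exists_middleLead hq2 hqN hA (f := f) (isRational_mapF_val f₀) hfne
  have hT : (gm.g.comp (baseMap cm ι)) (ofFull (inertiaField A) N tt) =
      algebraMap gm.A (FractionRing gm.A) (gaussCoeff gm.f X) := by
    have hbX : baseMap cm ι (ofFull (inertiaField A) N tt) = coverBase _ X := cm.γ_bij.1 (by
      rw [γ_baseMap, mapF_ofFull, cm.γ_X])
    rw [RingHom.comp_apply, hbX, ← RingHom.comp_apply gm.g, gm.g_base]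
    rfl
  obtain ⟨b, hb⟩ := dvd_middle_exp hq2 hqN hA htt gm.isGauss hT G hC hp (Ne.symm hqp) (y := y₀)
    (by rw [hy₀]; exact hlead) hval₁ hval₀ hfst hsnd
  have hdvd : ∀ Q : Place (ResidueField A) (modularFunctionFieldFullC (ResidueField A) N),
      (p : ℤ) ∣ Q.ord η :=
    dvd_ord_middle hq2 hqN hA hW hL hqL hΦ hQ htt
      (natDegree_le_relfinrank hqN hL htt π hdeg₀ (ResidueField A)) gm cm ι im fp hΨ hT G hC hgen
      hp (Ne.symm hqp) f₀ hf₀ (fun v => ⟨_, (hdiv v).symm⟩) y₀ hy₀ hlead hval₁ hval₀ hfst hsnd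
  subst hb
  have hη : ∃ ξ, ξ ^ p = η :=
    exists_pow_middle fp.fr hq2 hqN hA hS a t ht1 ht0N (P := IsRational A)
      (thetaSeries_ne_zero (ResidueField A))
      (fun h hh hh0 => fp.exists_middleLead hq2 hqN hA hh hh0)
      (g := middleFun N q) ⟨one_ne_zero, fun u σ hu hσ => by
        obtain ⟨c, hc, hv, hl⟩ := middleFun_lead fp hu hσ
        refine ⟨c, hc, ?_⟩
        rw [zpow_one, OneMemClass.coe_one, mul_one, ← hl]
        exact hasVal_of_isVal hv⟩
      (fun l _ hl hlS => IsRational.hecke hl (fun h => hlS (hS l hl (by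
        rcases hl.dvd_mul.mp h with h | h
        · exact h
        · exact h.mul_left N))) (isRational_middleFun N q A))
      hlead hdvd heigen
  obtain ⟨Y, hY⟩ := exists_pow_gauss hq2 hqN hA htt gm.isGauss hT G hC hgen hp (Ne.symm hqp) (y := y₀) (by rw [hy₀]; exact hlead) hη hval₁ hval₀ hfst hsnd
  obtain ⟨g, g', Dg, Dg', c, Z, hg, hg', hc, hDg, hDg', hZ⟩ :=
    exists_pullbacks_of_root hq2 hqN hA hW hΦ hQ htt gm cm ι im fp hΨ G hC hgen hS' hindex.2
      hindex.1 hp (Ne.symm hqp) f₀ hf₀ (fun v => ⟨_, (hdiv v).symm⟩) y₀ hy₀ Y hY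
  exact eq_zero_of_pullbacks hS hpS a t ht1 ht0 x hx heig D Dg Dg' hfne hg hg' hDx hdiv hDg hDg'
    hc hZ

end FLTA.RT.Qsq

end
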