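import Fermat.Agent.Carayol.BridgeKernel

/-!
# The local statement when `q ≢ ±1 (mod p)`

A torsion class fixed by inertia and killed by both pushforwards is killed by
`(q + 1) (q - 1) (q² - 1)`.
-/

set_option autoImplicit false

noncomputable section

open ModularCurve AlgebraicCurve

namespace FLTA.RT.Qsq

local notation "Qb" => AlgebraicClosure ℚ

/-- `coreExp q` is prime to `p` unless `q ≡ ±1 (mod p)`. -/
theorem not_dvd_coreExp {p q : ℕ} (hp : p.Prime) (hq : 1 ≤ q) (h1 : (q : ZMod p) ≠ 1)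
    (h2 : (q : ZMod p) ≠ -1) : ¬ p ∣ Carayol.coreExp q := by
  have : Fact p.Prime := ⟨hp⟩
  rw [Carayol.coreExp, ← ZMod.natCast_eq_zero_iff]
  have hsq : 1 ≤ q ^ 2 := Nat.one_le_pow _ _ hq
  push_cast [Nat.cast_sub hq, Nat.cast_sub hsq]
  rw [show ((q : ZMod p) ^ 2 - 1) = ((q : ZMod p) - 1) * ((q : ZMod p) + 1) by ring]
  simp [sub_eq_zero, add_eq_zero_iff_eq_neg, h1, h2]

/-- A divisibility of levels which is an equality is an isomorphism of fields. -/
theorem finrankAlong_incl_self (K : Type) [Field K] [Algebra ℚ K] (m : ℕ) [NeZero m] (h : m ∣ m) :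
    finrankAlong K (Carayol.Bridge.incl K h) = 1 := by
  have hb : Function.Bijective (Carayol.Bridge.incl K h) :=
    ⟨(Carayol.Bridge.incl K h).toRingHom.injective,
      fun x => ⟨x, Subtype.ext (Carayol.Bridge.coe_incl K h x)⟩⟩
  letI := algebraAlong (Carayol.Bridge.incl K h)
  show Module.finrank (Carayol.Bridge.fld K m) (Carayol.Bridge.fld K m) = 1
  exact finrank_eq_one (1 : Carayol.Bridge.fld K m) one_ne_zero fun w => by
    obtain ⟨c, hc⟩ := hb.2 w
    exact ⟨c, (Algebra.smul_def c _).trans (by rw [mul_one]; exact hc)⟩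

/-- **The local statement for `q ≢ ±1 (mod p)`.** -/
theorem eq_zero_of_ne_one_ne_neg_one (N q p : ℕ) [NeZero N] [NeZero q] [Fact p.Prime]
    [Fact q.Prime] (hqp : q ≠ p) (hqN : ¬ q ∣ N) (h4 : 4 ∣ N)
    (h1 : (q : ZMod p) ≠ 1) (h2 : (q : ZMod p) ≠ -1)
    (A : ValuationSubring Qb) (hA : A.LiesOverPrime q)
    (x : JZero (N * q * q)) (hx : p • x = 0) (hfix : ∀ σ ∈ A.inertiaSubgroupIn ℚ, σ • x = x)
    (hα : Carayol.pushAlpha (N * q) q x = 0) (hβ : Carayol.pushBeta (N * q) q x = 0) : x = 0 := by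
  have hp : p.Prime := Fact.out
  have hq : q.Prime := Fact.out
  have h := Carayol.Bridge.nsmul_coreExp_smul_eq_zero q N N 4 dvd_rfl h4 hqN (Or.inl rfl) dvd_rfl p
    ((Nat.coprime_primes hp hq).mpr (Ne.symm hqp)) A hA x hx hfix hα hβ
  rw [finrankAlong_incl_self, mul_one] at h
  obtain ⟨u, v, huv⟩ := Nat.isCoprime_iff_coprime.mpr
    ((hp.coprime_iff_not_dvd).mpr (not_dvd_coreExp hp hq.one_le h1 h2))
  calc x = (u * (p : ℤ) + v * (Carayol.coreExp q : ℤ)) • x := by rw [huv, one_zsmul]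
    _ = 0 := by
      rw [add_zsmul, mul_zsmul, mul_zsmul, natCast_zsmul, natCast_zsmul, hx, h, smul_zero,
        smul_zero, add_zero]

end FLTA.RT.Qsq

end
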