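import Fermat.Agent.Congruence.Torsion
import Fermat.Agent.Galois.Places

/-!
# Galois equivariant maps commute with the good Hecke operators on torsion

At `ℓ ∤ m L` the relation `σ² - T_ℓ σ + ℓ = 0` on `J₀(L)[m]` expresses `T_ℓ` through the Frobenius.
-/

set_option autoImplicit false

noncomputable section

open ModularCurve

namespace FLTA.RT.Qsq

local notation "Qb" => AlgebraicClosure ℚ
local notation "Γ" => AlgebraicClosure ℚ ≃ₐ[ℚ] AlgebraicClosure ℚ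

/-- An equivariant homomorphism commutes with `T_ℓ` on `m`-torsion. -/
theorem map_heckeOperatorBar {L N m : ℕ} [NeZero L] [NeZero N] (f : JZero L →+ JZero N)
    (hf : ∀ (σ : Γ) (x : JZero L), f (σ • x) = σ • f x) (ℓ : Nat.Primes) (hℓL : ¬ (ℓ : ℕ) ∣ L)
    (hℓN : ¬ (ℓ : ℕ) ∣ N) (hℓm : ¬ (ℓ : ℕ) ∣ m) {x : JZero L} (hx : m • x = 0) :
    f (heckeOperatorBar L ℓ x) = heckeOperatorBar N ℓ (f x) := by
  obtain ⟨A, hA⟩ := FLTA.Galois.exists_liesOverPrime ℓ.2
  obtain ⟨σ, hσ⟩ := FLTA.Galois.exists_isFrobeniusAt ℓ.2 hA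
  have hy : m • (σ⁻¹ • x) = 0 := FLTA.Congruence.nsmul_smul_eq_zero hx
  have h1 := FLTA.Congruence.frobenius_quadratic_torsion ℓ.2 hℓL hA hℓm hσ hy
  have h2 := FLTA.Congruence.frobenius_quadratic_torsion ℓ.2 hℓN hA hℓm hσ
    (x := f (σ⁻¹ • x)) (by rw [← map_nsmul, hy, map_zero])
  rw [smul_inv_smul] at h1
  have h3 := congrArg f h1
  rw [map_add, map_sub, map_zsmul, map_zero, sub_add_eq_add_sub, sub_eq_zero] at h3
  rw [sub_add_eq_add_sub, sub_eq_zero, ← hf σ, smul_inv_smul, ← hf σ] at h2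
  exact h3.symm.trans h2

end FLTA.RT.Qsq

end
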