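import Fermat.Agent.BadRed.Toric.Eval
import Fermat.Agent.PlaceRed.DeuringRR
import Fermat.Agent.Curves.RRSpace

/-!
# Leading coefficients at prescribed places

For a divisor `E`, finitely many distinct places `pts` and functions `η i` with order `E (pts i)` at
`pts i`, the values of `x * η i` at the places form a surjection from `L(E)` once the degree of
`E` is large.
-/

set_option autoImplicit false

noncomputable section

open AlgebraicCurve FLTA.BadRed.BadFibre

namespace FLTA.RT.Qsq

variable {k : Type*} [Field k] {C : Type*} [Field C] [Algebra k C] {g : ℕ}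
  (rr : FLTA.PlaceRed.RRCurve k C g) {ι : Type*} (pts : ι → Place k C) (E : Divisor k C)
  (η : ι → C) (hη0 : ∀ i, η i ≠ 0) (hη : ∀ i, (pts i).ord (η i) = E (pts i))

include hη0 hη in
theorem mul_mem_place {x : C} (hx : x ∈ riemannRochSpace E) (i : ι) :
    x * η i ∈ (pts i).toValuationSubring := by
  rcases eq_or_ne x 0 with rfl | hx0
  · rw [zero_mul]; exact zero_mem _
  have h := (mem_riemannRochSpace_iff.mp hx (pts i)).resolve_left hx0
  refine (Curves.mem_iff_ord_nonneg _ (mul_ne_zero hx0 (hη0 i))).mpr ?_
  rw [(pts i).ord_mul hx0 (hη0 i), hη]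
  omega

/-- The values of `x * η i` at the places `pts i`. -/
def shiftEval : riemannRochSpace E →ₗ[k] (ι → k) where
  toFun x i := placeVal (pts i) ((x : C) * η i)
  map_add' x y := funext fun i => by
    show placeVal (pts i) (((x + y : riemannRochSpace E) : C) * η i) = _
    rw [Submodule.coe_add, add_mul]
    exact placeVal_add (rr.deg_eq_one _) (mul_mem_place pts E η hη0 hη x.2 i)
      (mul_mem_place pts E η hη0 hη y.2 i)
  map_smul' c x := funext fun i => by
    show placeVal (pts i) (((c • x : riemannRochSpace E) : C) * η i) = _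
    rw [Submodule.coe_smul, smul_mul_assoc]
    exact placeVal_smul (rr.deg_eq_one _) c (mul_mem_place pts E η hη0 hη x.2 i)

theorem shiftEval_apply (x : riemannRochSpace E) (i : ι) :
    shiftEval rr pts E η hη0 hη x i = placeVal (pts i) ((x : C) * η i) := rfl

include rr in
theorem shiftEval_surjective [Fintype ι] (hinj : Function.Injective pts)
    (hdeg : 2 * (g : ℤ) + Fintype.card ι ≤ Divisor.degree E + 1) :
    Function.Surjective (shiftEval rr pts E η hη0 hη) := by
  classical
  have := rr.finiteDimensional E
  set E' : Divisor k C := E - ∑ i, Finsupp.single (pts i) 1 with hE'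
  have := rr.finiteDimensional E'
  have hdeg' : Divisor.degree E' = Divisor.degree E - Fintype.card ι := by
    rw [hE', map_sub, map_sum]
    simp [Divisor.degree_single, rr.deg_eq_one]
  have hfin' := rr.finrank_eq E' (by rw [hdeg']; omega)
  have hfin := rr.finrank_eq E (by omega)
  rw [hdeg'] at hfin'
  have hker : (LinearMap.ker (shiftEval rr pts E η hη0 hη)).map (Submodule.subtype _) ≤
      riemannRochSpace E' := by
    rintro _ ⟨x, hx, rfl⟩
    rw [mem_riemannRochSpace_iff]
    intro v
    rcases eq_or_ne (x : C) 0 with h0 | h0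
    · exact Or.inl h0
    right
    have hxv := (mem_riemannRochSpace_iff.mp x.2 v).resolve_left h0
    by_cases hv : ∃ i, pts i = v
    · obtain ⟨i, rfl⟩ := hv
      have hval : placeVal (pts i) ((x : C) * η i) = 0 := congrFun (LinearMap.mem_ker.mp hx) i
      rw [placeVal_eq_zero_iff (rr.deg_eq_one _) (mul_mem_place pts E η hη0 hη x.2 i)] at hval
      have hpos := hval.resolve_left (mul_ne_zero h0 (hη0 i))
      rw [(pts i).ord_mul h0 (hη0 i), hη] at hpos
      have hsum : (∑ j, Finsupp.single (pts j) (1 : ℤ)) (pts i) = 1 := by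
        rw [Finsupp.finsetSum_apply,
          Finset.sum_eq_single i (fun j _ hj => Finsupp.single_eq_of_ne (fun h => hj (hinj h).symm))
            (fun h => absurd (Finset.mem_univ i) h), Finsupp.single_eq_same]
      rw [hE', Finsupp.sub_apply, hsum]
      show -(E (pts i) - 1) ≤ (pts i).ord (x : C)
      omega
    · have hsum : (∑ j, Finsupp.single (pts j) (1 : ℤ)) v = 0 := by
        rw [Finsupp.finsetSum_apply]
        exact Finset.sum_eq_zero fun j _ => Finsupp.single_eq_of_ne fun h => hv ⟨j, h.symm⟩
      rw [hE', Finsupp.sub_apply, hsum, sub_zero]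
      exact hxv
  have h1 := Submodule.finrank_mono hker
  rw [Submodule.finrank_map_subtype_eq] at h1
  have h2 := (shiftEval rr pts E η hη0 hη).finrank_range_add_finrank_ker
  rw [← LinearMap.range_eq_top]
  refine Submodule.eq_top_of_finrank_eq ?_
  have h4 := Submodule.finrank_le (LinearMap.range (shiftEval rr pts E η hη0 hη))
  rw [Module.finrank_pi] at h4 ⊢
  omega

end FLTA.RT.Qsq
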