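import Fermat.Agent.RT.Qsq.SSKernel
import Fermat.Agent.BadRed.Galois
import Fermat.Agent.Mazur.FiniteRed
import Fermat.Agent.Grass.TorsionFinite

/-!
# The inputs of the supersingular count for `X₀(N q)` at a place over `q`

The two pushforwards, the torsion counts, and finiteness of the classes of the reduced curve fixed
by the square of Frobenius.
-/

set_option autoImplicit false
set_option synthInstance.maxHeartbeats 400000

noncomputable section

open AlgebraicCurve ModularCurve FLTA.BadRed FLTA.Mazur

namespace FLTA.RT.Qsq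

local notation "Qb" => AlgebraicClosure ℚ

section Fixed

variable {k : Type} [Field k] {q : ℕ} [Fact q.Prime] [CharP k q] [PerfectRing k q]
  (N : ℕ) [NeZero N]

open FLTA.Congruence

local notation "Fk" => modularFunctionFieldFullC k N

/-- Finitely many places are fixed by a positive power of the Frobenius. -/
theorem finite_fixed_places [IsAlgClosed k] {i : ℕ} (hi : 0 < i) :
    {P : Place k Fk | frobSemilinear k q N ^ i • P = P}.Finite := by
  classical
  haveI := isSepFunctionField_levelField (K := k) N Fk
  have hne : (Polynomial.X ^ q ^ i - Polynomial.X : Polynomial k) ≠ 0 :=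
    FiniteField.X_pow_card_pow_sub_X_ne_zero k hi.ne' (Fact.out : q.Prime).one_lt
  refine Set.Finite.subset (((FLTA.Curves.divFn (K := k) (jEl N Fk)).support.finite_toSet).union
    (Set.Finite.biUnion (Polynomial.finite_setOf_isRoot hne) fun a _ =>
      (FLTA.Curves.divFn (K := k) ((jEl N Fk) - algebraMap k _ a)).support.finite_toSet))
    fun P hP => ?_
  rcases lt_or_ge (P.ord (jEl N Fk)) 0 with h | h
  · left
    rw [Finset.mem_coe, Finsupp.mem_support_iff, FLTA.Curves.divFn_apply]
    exact h.ne
  · obtain ⟨a, ha⟩ := exists_ord_sub_algebraMap_pos P h (jEl_ne_algebraMap N _)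
    refine Or.inr (Set.mem_biUnion (x := a) ?_ ?_)
    · have h1 := SemilinearAut.ord_smul (frobSemilinear k q N ^ i) P
        ((jEl N Fk) - algebraMap k _ a)
      rw [hP, smul_sub, SemilinearAut.smul_algebraMap, baseAut_frobSemilinear_pow,
        frobSemilinear_pow_smul_jEl] at h1
      have h2 := ord_sub_algebraMap_unique P (h1 ▸ ha) ha
      simp [Polynomial.IsRoot, h2]
    · rw [Finset.mem_coe, Finsupp.mem_support_iff, FLTA.Curves.divFn_apply]
      exact ha.ne'

/-- A constant kills the classes fixed by the square of Frobenius. -/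
theorem exists_kill_fixed [IsAlgClosed k] :
    ∃ M : ℕ, 0 < M ∧ ∀ E : Divisor k Fk, Divisor.degree E = 0 →
      frobSemilinear k q N • frobSemilinear k q N • E - E ∈ Divisor.principal (K := k) (F := Fk) →
      M • E ∈ Divisor.principal (K := k) (F := Fk) := by
  haveI := isSepFunctionField_levelField (K := k) N Fk
  set g := frobSemilinear k q N
  have h2 : 2 ≤ q ^ 2 := le_trans (Fact.out : q.Prime).two_le (Nat.le_self_pow two_ne_zero q)
  have hfin : {z : Pic0 k Fk | (g * g) • z = z}.Finite := by
    refine FLTA.Mazur.FrobFixed.finite_fixed_pic0 h2 (g * g) (fun a => ?_)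
      (P₀ := cuspInf N _)
      (by rw [mul_smul]; simp only [g, frobSemilinear_smul_cuspInf]) fun i hi => ?_
    · rw [SemilinearAut.baseAut_mul, pow_two, pow_mul]
      rfl
    · rw [← pow_two, ← pow_mul]
      exact finite_fixed_places N (by omega)
  let T : AddSubgroup (Pic0 k Fk) :=
    { carrier := {z | (g * g) • z = z}
      zero_mem' := smul_zero _
      add_mem' := fun {x y} hx hy => by
        show (g * g) • (x + y) = x + y
        rw [smul_add, hx, hy]
      neg_mem' := fun {x} hx => by
        show (g * g) • (-x) = -x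
        rw [smul_neg, hx] }
  haveI : Finite T := hfin.to_subtype
  refine ⟨Nat.card T, Nat.card_pos, fun E hE hmem => ?_⟩
  let D : Divisor.degZero (K := k) (F := Fk) := ⟨E, hE⟩
  have hD : Pic0.mk D ∈ T := by
    show (g * g) • Pic0.mk D = Pic0.mk D
    rw [SemilinearAut.pic0_smul_mk, ← sub_eq_zero]
    refine (QuotientAddGroup.eq_zero_iff _).mpr (AddSubgroup.mem_addSubgroupOf.mpr ?_)
    rw [AddSubgroupClass.coe_sub]
    show (g * g) • E - E ∈ _
    rwa [mul_smul]
  have h := congrArg Subtype.val (card_nsmul_eq_zero' (x := (⟨_, hD⟩ : T)))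
  have h' : Pic0.mk (Nat.card T • D) = 0 :=
    (map_nsmul (QuotientAddGroup.mk' _) _ D).trans h
  exact AddSubgroup.mem_addSubgroupOf.mp ((QuotientAddGroup.eq_zero_iff _).mp h')

end Fixed

/-- The torsion count of `J₀(M)`. -/
theorem natCard_torsion_bar (M : ℕ) [NeZero M] {n : ℕ} (hn : 0 < n) :
    Nat.card (Pic0.torsion Qb (modularFunctionFieldBar M) n) =
      n ^ (2 * FLTA.PlaceRed.genusX0 M) := by
  have : Algebra.EssFiniteType Qb (modularFunctionFieldBar M) := by
    refine IntermediateField.essFiniteType_iff.2 ?_
    rw [show modularFunctionFieldBar M = modularFunctionFieldFullC Qb M from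
      FLTA.Curves.laurentBaseChange_full_eq M Qb]
    exact IntermediateField.fg_adjoin_of_finite (FLTA.Curves.finite_divisorExpansionsC Qb M)
  exact FLTA.PicTorsion.natCard_torsion_charZero Qb (modularFunctionFieldBar M) n hn.ne'

variable (N q : ℕ) [NeZero N] [NeZero q] [hq : Fact q.Prime]
  (A : ValuationSubring Qb) (hA : A.LiesOverPrime q) (hqN : ¬ q ∣ N)
  [CharP (IsLocalRing.ResidueField A) q] [PerfectRing (IsLocalRing.ResidueField A) q]
  [IsAlgClosed (IsLocalRing.ResidueField A)]

/-- The inputs at `X₀(N q)`. -/
def ssInput : SSInput (badFibre N q A hA hqN) where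
  push := (Carayol.pushAlpha N q).prod (Carayol.pushBeta N q)
  normsTrivial n x hx h := by
    obtain ⟨D, rfl⟩ := Pic0.mk_surjective x
    rw [AddMonoidHom.prod_apply, Prod.mk_eq_zero] at h
    obtain ⟨hα, hβ⟩ := h
    rw [Carayol.pushAlpha, Carayol.pushPic_mk_eq_zero_iff] at hα
    rw [Carayol.pushBeta, Carayol.pushPic_mk_eq_zero_iff] at hβ
    exact (badFibre N q A hA hqN).normsTrivial_of_pushforward (Curves.isIntegral_of_algHom _)
      (Curves.isIntegral_of_algHom _) (Curves.finiteAlong _)
      (Curves.normFormulaAlong _ _ (Curves.separableAlong_of_charZero _))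
      (Curves.normFormulaAlong _ _ (Curves.separableAlong_of_charZero _)) hx hα
      (pushforwardAlong_mem_principal_congr (swapBar_alpha N q hqN) _ _ hβ)
  card_torsion n hn := natCard_torsion_bar (N * q) hn
  card_torsion' n hn := natCard_torsion_bar N hn
  M := (exists_kill_fixed (k := IsLocalRing.ResidueField A) (q := q) N).choose
  M_pos := (exists_kill_fixed (k := IsLocalRing.ResidueField A) (q := q) N).choose_spec.1
  fixed := (exists_kill_fixed (k := IsLocalRing.ResidueField A) (q := q) N).choose_spec.2

end FLTA.RT.Qsq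

end
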