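import Fermat.Agent.RT.Qsq.SSCount

/-!
# Operators killing all residual divisors, and the toric classes of prime order

An additive operator on divisors of the reduced curve which maps every residual divisor modulo `n`
into multiples of `n` kills the degree zero divisors on the glued points.  There are exactly
`p ^ (#S - 1)` toric classes for a prime `p`.
-/

set_option autoImplicit false

noncomputable section

open AlgebraicCurve FLTA.Curves FLTA.BadRed

namespace FLTA.RT.Qsq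

variable {K : Type*} [Field K] [IsAlgClosed K] [CharZero K] {A : ValuationSubring K}
  {k : Type*} [Field k] [IsAlgClosed k] {π : A →+* k}
  {q : ℕ} [NeZero q] [Fact q.Prime] [CharP k q]
  {F : Type*} [Field F] [Algebra K F] {F' : Type*} [Field F'] [Algebra K F']
  {Fk : Type*} [Field Fk] [Algebra k Fk] {g gF : ℕ}
  {B : BadFibre A π q F F' Fk g gF} {S : Finset (Place k Fk)} {m₀ : ℕ}

omit [IsAlgClosed k] [CharP k q] in
theorem dvd_apply_of_forall_dvd {n : ℕ} (L : Divisor k Fk →+ Divisor k Fk) {Δ : Divisor k Fk}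
    (h : ∀ Q, (n : ℤ) ∣ Δ Q) (Q : Place k Fk) : (n : ℤ) ∣ L Δ Q := by
  have e : Δ = n • floorDiv n Δ := Finsupp.ext fun R => by
    rw [Finsupp.smul_apply, nsmul_eq_mul, floorDiv_apply]
    exact (Int.mul_ediv_cancel' (h R)).symm
  rw [e, map_nsmul, Finsupp.smul_apply, nsmul_eq_mul]
  exact dvd_mul_right _ _

/-- An operator sending residual divisors into multiples kills degree zero divisors on `S`. -/
theorem apply_eq_zero_of_kills (hS : B.IsGluing S m₀) (hne : S.Nonempty) (I : SSInput B)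
    (L : Divisor k Fk →+ Divisor k Fk)
    (hL : ∀ n : ℕ, (n : k) ≠ 0 → ∀ (x : Pic0 K F) (R : Divisor k Fk), n • x = 0 →
      IsRes B n x R → ∀ Q, (n : ℤ) ∣ L R Q)
    {p : ℕ} (hp : p.Prime) (hpk : (p : k) ≠ 0) {E : Divisor k Fk} (hE : ∀ Q ∉ S, E Q = 0)
    (hdeg : Divisor.degree E = 0) : L E = 0 := by
  obtain ⟨Q₀, hQ₀⟩ := hne
  ext Q
  rw [Finsupp.zero_apply]
  by_contra hQ
  set v : ℤ := (I.C.factorial : ℤ) * L E Q with hv
  obtain ⟨j, hj⟩ := pow_unbounded_of_one_lt v.natAbs hp.one_lt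
  have hnk : ((p ^ j : ℕ) : k) ≠ 0 := by rw [Nat.cast_pow]; exact pow_ne_zero _ hpk
  obtain ⟨x, R, hx, hR, hRE⟩ := exists_res_approx hS I hnk ⟨Q₀, hQ₀⟩ hE hdeg
  have h1 := hL _ hnk x R hx hR Q
  have h2 := dvd_apply_of_forall_dvd L (Δ := R - I.C.factorial • E) (fun P => by
    rw [Finsupp.sub_apply, Finsupp.smul_apply, nsmul_eq_mul]; exact hRE P) Q
  rw [map_sub, map_nsmul, Finsupp.sub_apply, Finsupp.smul_apply, nsmul_eq_mul] at h2
  have h3 : ((p ^ j : ℕ) : ℤ) ∣ v := (dvd_sub_right h1).mp h2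
  have hv0 : v ≠ 0 := mul_ne_zero (by exact_mod_cast (Nat.factorial_pos _).ne') hQ
  have := Nat.le_of_dvd (Int.natAbs_pos.mpr hv0) (Int.natCast_dvd.mp h3)
  omega

/-- The divisor of a function which is a `p`-th power away from `S` is killed modulo `p`. -/
theorem dvd_apply_divisorOf (hS : B.IsGluing S m₀) (hne : S.Nonempty) (I : SSInput B)
    (L : Divisor k Fk →+ Divisor k Fk)
    (hL : ∀ n : ℕ, (n : k) ≠ 0 → ∀ (x : Pic0 K F) (R : Divisor k Fk), n • x = 0 →
      IsRes B n x R → ∀ Q, (n : ℤ) ∣ L R Q)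
    {p : ℕ} (hp : p.Prime) (hpk : (p : k) ≠ 0) {y : Fk}
    (hy : ∀ Q ∉ S, (p : ℤ) ∣ Q.ord y) (Q : Place k Fk) :
    (p : ℤ) ∣ L (B.rrk.divisorOf y) Q := by
  classical
  obtain ⟨Q₀, hQ₀⟩ := id hne
  set D := B.rrk.divisorOf y with hD
  set E₀ := D.filter (· ∈ S) with hE₀
  set E := E₀ - Finsupp.single Q₀ (Divisor.degree E₀) with hE
  have hout : ∀ R ∉ S, E R = 0 := fun R hR => by
    rw [hE, Finsupp.sub_apply, Finsupp.single_eq_of_ne (fun h => hR (by rw [h]; exact hQ₀)),
      hE₀, Finsupp.filter_apply_neg _ _ hR, sub_zero]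
  have hdeg : Divisor.degree E = 0 := by
    rw [hE, map_sub, B.rrk.degree_single_eq, sub_self]
  have hdvd0 : ∀ R, (p : ℤ) ∣ (D - E₀) R := fun R => by
    by_cases hR : R ∈ S
    · rw [Finsupp.sub_apply, hE₀, Finsupp.filter_apply_pos _ _ hR, sub_self]; exact dvd_zero _
    · rw [Finsupp.sub_apply, hE₀, Finsupp.filter_apply_neg _ _ hR, sub_zero, hD,
        FLTA.PlaceRed.RRCurve.divisorOf_apply]
      exact hy R hR
  have hdeg0 : (p : ℤ) ∣ Divisor.degree E₀ := by
    have h1 : Divisor.degree E₀ = -Divisor.degree (D - E₀) := by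
      rw [map_sub, hD, B.rrk.degree_divisorOf]; ring
    rw [h1, B.rrk.degree_eq_sum, dvd_neg]
    exact Finset.dvd_sum fun R _ => hdvd0 R
  have hdvd : ∀ R, (p : ℤ) ∣ (D - E) R := fun R => by
    rw [hE, sub_sub_eq_add_sub, add_sub_right_comm, Finsupp.add_apply]
    refine dvd_add (hdvd0 R) ?_
    rw [Finsupp.single_apply]
    split_ifs
    exacts [hdeg0, dvd_zero _]
  have h2 := dvd_apply_of_forall_dvd L hdvd Q
  rwa [map_sub, apply_eq_zero_of_kills hS hne I L hL hp hpk hout hdeg, sub_zero] at h2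

/-- A toric class for `p ^ (j + 1)` killed by `p` is toric for `p`. -/
theorem isToric_of_pow {p j : ℕ} (hp : 0 < p) {x : Pic0 K F} (h : B.IsToric (p ^ (j + 1)) x)
    (hx : p • x = 0) : B.IsToric p x := by
  obtain ⟨D, f, hf, hmk, hord, hred⟩ := h
  obtain ⟨f', hf', hf'D⟩ := AddSubgroup.mem_addSubgroupOf.mp
    ((QuotientAddGroup.eq_zero_iff (p • D)).mp ((map_nsmul (QuotientAddGroup.mk' _) p D).trans
      (by rw [show (QuotientAddGroup.mk' _) D = x from hmk]; exact hx)))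
  have hord' : ∀ P : Place K F, (p : ℤ) * (D : Divisor K F) P = P.ord f' := fun P => by
    have := hf'D P
    rwa [AddSubgroupClass.coe_nsmul, Finsupp.smul_apply, nsmul_eq_mul] at this
  refine ⟨D, f', hf', hmk, hord', fun i => ?_⟩
  set m := p ^ j with hm
  have hmpos : 0 < m := pow_pos hp _
  obtain ⟨e, he⟩ := B.exists_eq_algebraMap_of_ord_eq_zero (u := f * (f' ^ m)⁻¹)
    (mul_ne_zero hf (inv_ne_zero (pow_ne_zero _ hf'))) fun v => by
    rw [v.ord_mul hf (inv_ne_zero (pow_ne_zero _ hf')), v.ord_inv, FLTA.Curves.ord_pow, ← hord,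
      ← hord', hm, pow_succ]
    push_cast
    ring
  rw [mul_inv_eq_iff_eq_mul₀ (pow_ne_zero _ hf')] at he
  obtain ⟨c, η, hc, hη, hr⟩ := hred i
  obtain ⟨d, ρ, hd, hρ, hrd⟩ := B.exists_hasRed_smul i hf'
  obtain ⟨μ, hμ, hμe⟩ := exists_eq_mul_of_hasRed (a := c * e / d ^ m) (hasRed_pow hrd m)
    (p' := η ^ p ^ (j + 1)) (by
      rw [smul_pow, smul_smul, div_mul_cancel₀ _ (pow_ne_zero _ hd), mul_smul,
        Algebra.smul_def e, ← he]
      exact hr) (pow_ne_zero _ hρ) (pow_ne_zero _ hη)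
  obtain ⟨ν, hν⟩ := FLTA.LevelLowering.eq_algebraMap_of_forall_ord B.rrk
    (f := ρ * (η ^ p)⁻¹) fun Q => by
    have h1 := congrArg Q.ord hμe
    rw [FLTA.Curves.ord_pow, Q.ord_mul ((map_ne_zero _).mpr hμ) (pow_ne_zero _ hρ),
      FLTA.Curves.ord_algebraMap, FLTA.Curves.ord_pow, zero_add, hm, pow_succ] at h1
    rw [Q.ord_mul hρ (inv_ne_zero (pow_ne_zero _ hη)), Q.ord_inv, FLTA.Curves.ord_pow]
    push_cast at h1
    have h2 : ((p : ℤ) ^ j) * ((p : ℤ) * Q.ord η) = (p : ℤ) ^ j * Q.ord ρ := by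
      rw [← h1]; ring
    have := mul_left_cancel₀ (pow_ne_zero _ (by exact_mod_cast hp.ne')) h2
    omega
  rw [mul_inv_eq_iff_eq_mul₀ (pow_ne_zero _ hη)] at hν
  obtain ⟨r, hrν⟩ := IsAlgClosed.exists_pow_nat_eq ν hp
  have hν0 : ν ≠ 0 := fun h0 => hρ (by rw [hν, h0, map_zero, zero_mul])
  exact ⟨d, algebraMap k Fk r * η, hd, mul_ne_zero ((map_ne_zero _).mpr fun h0 => hν0 (by
    rw [← hrν, h0, zero_pow hp.ne'])) hη, by rw [mul_pow, ← map_pow, hrν, ← hν]; exact hrd⟩

/-- **The toric classes of prime order.** -/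
theorem natCard_toricGroup (hS : B.IsGluing S m₀) (hne : S.Nonempty) (I : SSInput B) {p : ℕ}
    (hp : p.Prime) (hpk : (p : k) ≠ 0) :
    Nat.card (toricGroup B p) = p ^ (S.card - 1) := by
  obtain ⟨Q, hQ⟩ := id hne
  let Q₀ : S := ⟨Q, hQ⟩
  refine le_antisymm (natCard_toric_le hS hpk Q₀) ?_
  obtain ⟨a, u, hu, hau⟩ := Nat.exists_eq_pow_mul_and_not_dvd (Nat.factorial_pos I.C).ne' p
    hp.ne_one
  set n := p ^ (a + 1) with hn
  have hnpos : 0 < n := pow_pos hp.pos _
  have hnk : (n : k) ≠ 0 := by rw [hn, Nat.cast_pow]; exact pow_ne_zero _ hpk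
  obtain ⟨h, hinj⟩ := exists_toricHom (B := B) hS hnk Q₀
  have : NeZero n := ⟨hnpos.ne'⟩
  have : NeZero p := ⟨hp.ne_zero⟩
  have : Finite (Additive ({Q : S // Q ≠ Q₀} → rootsOfUnity n k)) :=
    Finite.of_equiv _ Additive.ofMul
  have hidx : Nat.card (Additive ({Q : S // Q ≠ Q₀} → rootsOfUnity n k)) ≤ I.C * Nat.card h.range := by
    rw [natCard_twistTarget hnk, ← Nat.card_congr (AddMonoidHom.ofInjective hinj).toEquiv]
    exact le_natCard_toric hS I hnpos Q₀
  obtain ⟨v, -, hv⟩ := Nat.exists_mul_mod_eq_one_of_coprime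
    ((hp.coprime_iff_not_dvd.mpr hu).symm) hp.one_lt
  -- every element of order `p` is in the range
  have hrange : ∀ w : {Q : S // Q ≠ Q₀} → rootsOfUnity p k, ∃ x : toricGroup B n,
      h x = Additive.ofMul (fun R => Subgroup.inclusion
        (rootsOfUnity_le_of_dvd (dvd_pow_self p a.succ_ne_zero)) (w R)) := by
    intro w
    have hz : ∀ R, ∃ z : rootsOfUnity n k,
        (z : kˣ) ^ I.C.factorial = (w R : kˣ) := fun R => by
      obtain ⟨z, hz⟩ := IsAlgClosed.exists_pow_nat_eq (((w R : kˣ) : k) ^ v)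
        (pow_pos hp.pos a)
      have hw : ((w R : kˣ) : k) ^ p = 1 := by
        rw [← Units.val_pow_eq_pow_val]
        exact congrArg Units.val (w R).2
      have hzn : z ^ n = 1 := by
        rw [hn, pow_succ, pow_mul, hz, ← pow_mul, mul_comm, pow_mul, hw, one_pow]
      refine ⟨rootsOfUnity.mkOfPowEq z hzn, Units.ext ?_⟩
      rw [Units.val_pow_eq_pow_val, rootsOfUnity.val_mkOfPowEq_coe, hau, pow_mul, hz, ← pow_mul]
      conv_lhs => rw [mul_comm v u, ← Nat.div_add_mod (u * v) p, hv, pow_add, pow_mul, hw,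
        one_pow, one_mul, pow_one]
    choose z hz using hz
    obtain ⟨x, hx⟩ := factorial_nsmul_mem h.range hidx (Additive.ofMul z)
    refine ⟨x, hx.trans ?_⟩
    rw [← ofMul_pow]
    refine congrArg Additive.ofMul (funext fun R => Subtype.ext ?_)
    rw [Pi.pow_apply, SubmonoidClass.coe_pow]
    exact hz R
  choose x hx using hrange
  have hxp : ∀ w, p • ((x w : toricGroup B n) : Pic0 K F) = 0 := fun w => by
    have : p • x w = 0 := hinj (by
      rw [map_nsmul, hx, map_zero, ← ofMul_pow, ← ofMul_one]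
      exact congrArg Additive.ofMul (funext fun R => Subtype.ext (w R).2))
    exact congrArg (fun y : toricGroup B n => (y : Pic0 K F)) this
  have hfin : Finite (toricGroup B p) := by
    have := I.finite_torsion hp.pos
    exact Finite.of_injective (fun y : toricGroup B p => (⟨y.1, mem_torsion_iff_nsmul.mpr
      (nsmul_eq_zero_of_isToric B y.2)⟩ : Pic0.torsion K F p))
      fun y y' h => Subtype.ext (congrArg (fun z : Pic0.torsion K F p => (z : Pic0 K F)) h)
  rw [← natCard_twistTarget hpk Q₀]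
  refine Nat.card_le_card_of_injective
    (fun w => (⟨(x (Additive.toMul w) : Pic0 K F),
      isToric_of_pow hp.pos (x _).2 (hxp _)⟩ : toricGroup B p)) fun w w' hww => ?_
  have e : x (Additive.toMul w) = x (Additive.toMul w') :=
    Subtype.ext (congrArg (fun y : toricGroup B p => (y : Pic0 K F)) hww)
  have e2 := congrArg h e
  rw [hx, hx] at e2
  refine Additive.toMul.injective (funext fun R => Subgroup.inclusion_injective
    (rootsOfUnity_le_of_dvd (M := k) (show p ∣ n from dvd_pow_self p a.succ_ne_zero)) ?_)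
  exact congrFun (Additive.ofMul.injective e2) R

end FLTA.RT.Qsq
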