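import Fermat.Agent.RT.Qsq.MiddleRational
import Fermat.Agent.Carayol.BridgeConst
import Fermat.Agent.Carayol.CoreAssembly

/-!
# Series over the inertia field in the completion at `q`

`SerF A` is the field of fractions of the Laurent series with coefficients in the integers of the
inertia field.  It maps to series over `ℚ̄` and, through a complete ring `W` with the same residue
field, to the completion of `W[[e]]` at `q`, whose residues are series over the residue field.
-/

set_option autoImplicit false
set_option synthInstance.maxHeartbeats 400000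
set_option maxHeartbeats 800000

noncomputable section

open IsLocalRing ModularCurve Polynomial FLTA.Carayol FLTA.Carayol.Bridge FLTA.BadRed
  FLTA.LevelLowering

namespace FLTA.RT.Qsq

local notation "Qb" => AlgebraicClosure ℚ

/-- The integers of the inertia field. -/
abbrev intRing (A : ValuationSubring Qb) : ValuationSubring (inertiaField A) :=
  A.comap (inertiaField A).val.toRingHom

/-- The inclusion of the integers of the inertia field. -/
def intIncl (A : ValuationSubring Qb) : intRing A →+* A :=
  ((inertiaField A).val.toRingHom.comp (intRing A).subtype).codRestrict A.toSubring fun x => x.2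

@[simp] theorem coe_intIncl (A : ValuationSubring Qb) (x : intRing A) :
    ((intIncl A x : A) : Qb) = ((x : inertiaField A) : Qb) := rfl

/-- Fractions of integral series over the inertia field. -/
abbrev SerF (A : ValuationSubring Qb) : Type := FractionRing (LaurentSeries (intRing A))

theorem injective_coeffMap {R S : Type*} [CommRing R] [CommRing S] {f : R →+* S}
    (hf : Function.Injective f) : Function.Injective (coeffMap f) := fun x y h =>
  HahnSeries.ext (funext fun i => hf (by
    simpa only [coeffMap_coeff] using congrArg (fun z : LaurentSeries S => z.coeff i) h))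

theorem coeffMap_const {R S : Type*} [CommRing R] [CommRing S] (f : R →+* S) (a : R) :
    coeffMap f (HahnSeries.C a) = HahnSeries.C (f a) := by
  ext i
  rw [coeffMap_coeff, HahnSeries.C_apply, HahnSeries.C_apply, HahnSeries.coeff_single,
    HahnSeries.coeff_single]
  split_ifs <;> simp

/-- The series over `ℚ̄` of an integral series. -/
def intSer (A : ValuationSubring Qb) : LaurentSeries (intRing A) →+* LaurentSeries Qb :=
  coeffMap (A.subtype.comp (intIncl A))

theorem intSer_injective (A : ValuationSubring Qb) : Function.Injective (intSer A) :=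
  injective_coeffMap fun x y h => Subtype.ext (Subtype.ext h)

/-- The series over `ℚ̄` of a fraction. -/
def serInj (A : ValuationSubring Qb) : SerF A →+* LaurentSeries Qb :=
  IsFractionRing.lift (intSer_injective A)

theorem serInj_algebraMap (A : ValuationSubring Qb) (a : LaurentSeries (intRing A)) :
    serInj A (algebraMap _ (SerF A) a) = intSer A a :=
  IsFractionRing.lift_algebraMap _ a

theorem qExpand_jqModC_mem {A : ValuationSubring Qb} (d : ℕ) [NeZero d] :
    qExpand Qb d (jqModC Qb) ∈ (serInj A).fieldRange :=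
  RingHom.mem_fieldRange.mpr ⟨algebraMap _ _ (qExpand (intRing A) d (jqModC (intRing A))), by
    rw [serInj_algebraMap, intSer, coeffMap_qExpand, coeffMap_jqModC]⟩

theorem C_mem_serInj {A : ValuationSubring Qb} (c : inertiaField A) :
    (HahnSeries.C (c : Qb) : LaurentSeries Qb) ∈ (serInj A).fieldRange := by
  rcases (intRing A).mem_or_inv_mem c with h | h
  · exact RingHom.mem_fieldRange.mpr ⟨algebraMap _ _ (HahnSeries.C (⟨c, h⟩ : intRing A)), by
      rw [serInj_algebraMap, intSer, coeffMap_const]; rfl⟩
  · have h1 : (HahnSeries.C ((c : Qb)⁻¹) : LaurentSeries Qb) ∈ (serInj A).fieldRange :=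
      RingHom.mem_fieldRange.mpr ⟨algebraMap _ _ (HahnSeries.C (⟨c⁻¹, h⟩ : intRing A)), by
        rw [serInj_algebraMap, intSer, coeffMap_const]; rfl⟩
    have h2 := inv_mem h1
    rwa [← map_inv₀, inv_inv] at h2

variable (A : ValuationSubring Qb)

/-- Modular functions over the inertia field are fractions of integral series. -/
theorem fld_mem_serInj (n : ℕ) [NeZero n] (x : fld (inertiaField A) n) :
    (mapF (inertiaField A).val.toRingHom n x : LaurentSeries Qb) ∈ (serInj A).fieldRange := by
  set g₀ := (inertiaField A).val.toRingHom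
  have hx : (x : LaurentSeries (inertiaField A)) ∈ (serInj A).fieldRange.comap (coeffMap g₀) := by
    have h := x.2
    simp only [fld_eq_full, modularFunctionFieldFullC] at h
    refine (show (IntermediateField.adjoin (inertiaField A)
      (divisorExpansionsC (inertiaField A) n)).toSubfield ≤ _ from ?_) h
    rw [IntermediateField.adjoin_toSubfield]
    refine Subfield.closure_le.mpr ?_
    rintro z (⟨c, rfl⟩ | ⟨d, hd, hdn, rfl⟩)
    · rw [SetLike.mem_coe, Subfield.mem_comap, algebraMap_laurentSeries_eq_single,
        ← HahnSeries.C_apply, coeffMap_const]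
      exact C_mem_serInj c
    · rw [SetLike.mem_coe, Subfield.mem_comap, coeffMap_qExpand, coeffMap_jqModC]
      exact qExpand_jqModC_mem d
  exact hx

/-- The fraction of a modular function over the inertia field. -/
def serOf (n : ℕ) [NeZero n] : fld (inertiaField A) n →+* SerF A :=
  (serInj A).rangeRestrictFieldEquiv.symm.toRingHom.comp
    (((fld Qb n).val.toRingHom.comp (mapF (inertiaField A).val.toRingHom n)).codRestrict
      (serInj A).fieldRange (fld_mem_serInj A n))

theorem serInj_serOf (n : ℕ) [NeZero n] (x : fld (inertiaField A) n) :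
    serInj A (serOf A n x) = (mapF (inertiaField A).val.toRingHom n x : LaurentSeries Qb) :=
  (serInj A).rangeRestrictFieldEquiv_apply_symm_apply ⟨_, fld_mem_serInj A n x⟩

section Hat

theorem div_pow_mul_units {K : Type*} [Field K] {Q a b b' : K} (hQ : Q ≠ 0) (hb : b * b' = 1)
    {i l : ℕ} : Q ^ i * a / (Q ^ l * b) = Q ^ ((i : ℤ) - l) * (a * b') := by
  rw [eq_inv_of_mul_eq_one_right hb, zpow_sub₀ hQ, zpow_natCast, zpow_natCast]
  ring

variable {A} {W : Type} [CommRing W] [IsDomain W] [IsDiscreteValuationRing W]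
  {q : ℕ} [Fact q.Prime] [Fact (Prime (PowerSeries.C (q : W) : PowerSeries W))]
  (hW : maximalIdeal W = Ideal.span {(q : W)})

/-- The completion of `W[[e]]` at `q`. -/
abbrev SerB (W : Type) [CommRing W] (q : ℕ)
    [Fact (Prime (PowerSeries.C (q : W) : PowerSeries W))] : Type :=
  HatAt (PowerSeries.C (q : W) : PowerSeries W)

omit [Fact q.Prime] [Fact (Prime (PowerSeries.C (q : W) : PowerSeries W))] in
include hW in
theorem not_dvd_X : ¬ (PowerSeries.C (q : W) : PowerSeries W) ∣ PowerSeries.X := fun h => by
  rw [C_dvd_powerSeries_iff ((IsDiscreteValuationRing.irreducible_iff_uniformizer _).2 hW),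
    PowerSeries.map_X] at h
  exact PowerSeries.X_ne_zero h

/-- Laurent series over `W` in the completion. -/
def laurentToHat : LaurentSeries W →+* SerB W q :=
  IsLocalization.Away.lift (S := LaurentSeries W) PowerSeries.X
    (isUnit_toHat _ (not_dvd_X (q := q) hW))

theorem laurentToHat_coe (z : PowerSeries W) :
    laurentToHat hW (algebraMap (PowerSeries W) (LaurentSeries W) z) = toHat _ z :=
  IsLocalization.Away.lift_eq _ _ z

theorem laurentToHat_injective : Function.Injective (laurentToHat (q := q) hW) := by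
  rw [injective_iff_map_eq_zero]
  intro x hx
  obtain ⟨⟨z, ⟨_, i, rfl⟩⟩, hz⟩ :=
    IsLocalization.surj (Submonoid.powers (PowerSeries.X : PowerSeries W)) x
  have h := congrArg (laurentToHat (q := q) hW) hz
  rw [map_mul, hx, zero_mul, laurentToHat_coe, eq_comm,
    map_eq_zero_iff _ (toHat_injective _)] at h
  simp only at hz h
  rw [h, map_zero, mul_eq_zero] at hz
  refine hz.resolve_right fun h0 => ?_
  exact pow_ne_zero i PowerSeries.X_ne_zero
    (HahnSeries.ofPowerSeries_injective (h0.trans (map_zero _).symm))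

variable {k : Type} [Field k] (r : W →+* k)

omit [Fact q.Prime] [Fact (Prime (PowerSeries.C (q : W) : PowerSeries W))] in
include hW in
theorem map_natCast_residue (hr : RingHom.ker r = maximalIdeal W) : r (q : W) = 0 := by
  rw [← RingHom.mem_ker, hr, hW]
  exact Ideal.mem_span_singleton_self _

/-- The residue of the completion is a series. -/
theorem exists_resSeries (hr : RingHom.ker r = maximalIdeal W) :
    ∃ ρ : SerB W q →+* LaurentSeries k, IsLocalHom ρ ∧
      ρ.comp (laurentToHat hW) = coeffMap r := by
  have : IsAdicComplete (maximalIdeal (LaurentSeries k)) (LaurentSeries k) := by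
    rw [maximalIdeal_eq_bot]
    infer_instance
  let f : PowerSeries W →+* LaurentSeries k :=
    (coeffMap r).comp (algebraMap (PowerSeries W) (LaurentSeries W))
  have hf0 : f (PowerSeries.C (q : W)) = 0 := by
    rw [RingHom.comp_apply, show (PowerSeries.C (q : W) : PowerSeries W) = (q : PowerSeries W) from
      map_natCast _ q, map_natCast, map_natCast]
    rw [← map_natCast (HahnSeries.C (Γ := ℤ) (R := k)), ← map_natCast r,
      map_natCast_residue hW r hr, map_zero]
  obtain ⟨ρ, hρ⟩ := exists_hat_lift (PowerSeries.C (q : W) : PowerSeries W) f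
    (by rw [hf0]; exact zero_mem _) fun z hz => by
      refine isUnit_iff_ne_zero.mpr fun h0 => hz ?_
      rw [C_dvd_powerSeries_iff ((IsDiscreteValuationRing.irreducible_iff_uniformizer _).2 hW)]
      ext i
      rw [PowerSeries.coeff_map, map_zero, residue_eq_zero_iff, ← hr, RingHom.mem_ker]
      have := congrArg (fun s : LaurentSeries k => s.coeff (i : ℤ)) h0
      simpa [f] using this
  refine ⟨ρ, ⟨fun a ha => ?_⟩, ?_⟩
  · by_contra hna
    have ha' : a ∈ maximalIdeal _ := hna
    rw [maximalIdeal_hatAt, Ideal.mem_span_singleton] at ha'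
    obtain ⟨c, rfl⟩ := ha'
    rw [map_mul, ← RingHom.comp_apply, hρ, hf0, zero_mul] at ha
    exact not_isUnit_zero ha
  · refine IsLocalization.ringHom_ext (Submonoid.powers (PowerSeries.X : PowerSeries W))
      (RingHom.ext fun z => ?_)
    rw [RingHom.comp_apply, RingHom.comp_apply, laurentToHat_coe, ← RingHom.comp_apply, hρ]

variable {r} (j : intRing A →+* W) (hj : Function.Injective j)

/-- Fractions of integral series in the completion. -/
def serToB : SerF A →+* FractionRing (SerB W q) :=
  IsFractionRing.lift (g := (algebraMap (SerB W q) (FractionRing (SerB W q))).comp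
    ((laurentToHat hW).comp (coeffMap j)))
    ((IsFractionRing.injective _ _).comp
      ((laurentToHat_injective hW).comp (injective_coeffMap hj)))

theorem serToB_algebraMap (a : LaurentSeries (intRing A)) :
    serToB hW j hj (algebraMap _ (SerF A) a) =
      algebraMap _ (FractionRing (SerB W q)) (laurentToHat hW (coeffMap j a)) :=
  IsFractionRing.lift_algebraMap _ a

/-- Valuation and leading part of an integral series in the completion. -/
theorem exists_unit_laurentToHat {r : W →+* ResidueField A}
    (hrj : r.comp j = (residue A).comp (intIncl A)) {fr₀ : Frame A (residue A)}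
    (hfix : ∀ c : Qb, (∀ γ ∈ A.inertiaSubgroupIn ℚ, γ c = c) → c ∈ fr₀.L)
    {w : A} (hw : residue A w ≠ 0) (hq : (q : Qb) = fr₀.ϖ * (w : Qb))
    {ρ : SerB W q →+* LaurentSeries (ResidueField A)} (hρl : IsLocalHom ρ)
    (hρ : ρ.comp (laurentToHat hW) = coeffMap r)
    {a : LaurentSeries (intRing A)} (ha : a ≠ 0) :
    ∃ (n : ℕ) (u : SerB W q) (c : ResidueField A), c ≠ 0 ∧ IsUnit u ∧
      fr₀.IsVal (intSer A a) n ∧
      laurentToHat hW (coeffMap j a) = (q : SerB W q) ^ n * u ∧
      ρ u = HahnSeries.C c * fr₀.lead (intSer A a) := by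
  have hint : IntSeries A (intSer A a) := fun i => by
    rw [intSer, coeffMap_coeff]
    exact ((intIncl A) (a.coeff i)).2
  obtain ⟨n, hn⟩ := fr₀.exists_isVal (y := intSer A a)
    (fun i => hfix _ fun γ hγ => by
      rw [intSer, coeffMap_coeff]
      exact mem_inertiaField.mp ((a.coeff i : inertiaField A)).2 γ hγ)
    ((map_ne_zero_iff _ (intSer_injective A)).mpr ha) ⟨1, one_ne_zero, by rwa [one_smul]⟩
  obtain ⟨n, rfl⟩ := Int.eq_ofNat_of_zero_le ((hn.ge_iff fr₀).mp ((fr₀.ge_zero_iff _).mpr hint))
  have hwA : (w : Qb)⁻¹ ∈ A := residue_ne_zero_inv_mem residue_surjective w.2 hw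
  have hqn : (q : inertiaField A) ^ n ≠ 0 :=
    pow_ne_zero _ (Nat.cast_ne_zero.mpr (Fact.out : q.Prime).ne_zero)
  have hw0 : (w : Qb) ≠ 0 := fun h => hw (by rw [show w = 0 from Subtype.ext h, map_zero])
  have key : ∀ i : ℤ, ((((a.coeff i : inertiaField A) / (q : inertiaField A) ^ n :
      inertiaField A)) : Qb) =
        ((w : Qb)⁻¹) ^ n * (fr₀.ϖ ^ (-(n : ℤ)) • intSer A a).coeff i := fun i => by
    have hϖ := fr₀.ϖ_ne_zero
    rw [HahnSeries.coeff_smul, intSer, coeffMap_coeff, smul_eq_mul, zpow_neg, zpow_natCast,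
      inv_pow]
    push_cast
    rw [hq, mul_pow, RingHom.comp_apply]
    field_simp
    rfl
  let a' : LaurentSeries (intRing A) :=
    { coeff := fun i => ⟨(a.coeff i : inertiaField A) / (q : inertiaField A) ^ n, by
        show ((inertiaField A).val.toRingHom _) ∈ A
        exact (congrArg (· ∈ A) (key i)).mpr (mul_mem (pow_mem hwA n) (hn.1 i))⟩
      isPWO_support' := a.isPWO_support.mono fun i hi h => hi (Subtype.ext (by simp [h])) }
  have haa' : a = HahnSeries.C ((q : intRing A) ^ n) * a' := by
    ext i
    rw [HahnSeries.C_mul_eq_smul, HahnSeries.coeff_smul, smul_eq_mul]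
    push_cast
    show ((a.coeff i : inertiaField A) : Qb) =
      (((q : inertiaField A) ^ n * ((a.coeff i : inertiaField A) / (q : inertiaField A) ^ n) :
        inertiaField A) : Qb)
    rw [mul_div_cancel₀ _ hqn]
  have hred : coeffMap (r.comp j) a' =
      HahnSeries.C ((residue A w)⁻¹ ^ n) * fr₀.lead (intSer A a) := by
    rw [hn.lead_eq fr₀, hrj, HahnSeries.C_mul_eq_smul]
    ext i
    rw [coeffMap_coeff, HahnSeries.coeff_smul, smul_eq_mul, redSeries_coeff]
    set x : A := ⟨_, hn.1 i⟩
    have e : intIncl A (a'.coeff i) = ⟨(w : Qb)⁻¹, hwA⟩ ^ n * x := Subtype.ext (key i)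
    rw [RingHom.comp_apply, e, map_mul, map_pow, show (fr₀.ϖ ^ (-(n : ℤ)) • intSer A a).coeff i =
      (x : Qb) from rfl, redCoeff_coe]
    congr 2
    refine eq_inv_of_mul_eq_one_left ?_
    rw [← map_mul, show (⟨(w : Qb)⁻¹, hwA⟩ : A) * w = 1 from Subtype.ext (inv_mul_cancel₀ hw0),
      map_one]
  refine ⟨n, laurentToHat hW (coeffMap j a'), (residue A w)⁻¹ ^ n,
    pow_ne_zero _ (inv_ne_zero hw), ?_, hn, ?_, ?_⟩
  · refine hρl.map_nonunit _ (isUnit_iff_ne_zero.mpr ?_)
    rw [← RingHom.comp_apply, hρ, coeffMap_coeffMap, hred]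
    exact mul_ne_zero (fun h => pow_ne_zero n (inv_ne_zero hw)
      (HahnSeries.C_injective (h.trans (map_zero _).symm))) (hn.lead_ne_zero fr₀)
  · conv_lhs => rw [haa']
    rw [map_mul, map_mul, map_pow, map_pow, map_pow]
    congr 2
    exact map_natCast ((laurentToHat hW).comp ((coeffMap j).comp
      (HahnSeries.C (Γ := ℤ) (R := intRing A)))) q
  · rw [← RingHom.comp_apply, hρ, coeffMap_coeffMap, hred]

/-- **Valuations and leading parts in the completion.** -/
theorem exists_unit_serToB {r : W →+* ResidueField A}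
    (hrj : r.comp j = (residue A).comp (intIncl A)) {fr₀ : Frame A (residue A)}
    (hfix : ∀ c : Qb, (∀ γ ∈ A.inertiaSubgroupIn ℚ, γ c = c) → c ∈ fr₀.L)
    {w : A} (hw : residue A w ≠ 0) (hq : (q : Qb) = fr₀.ϖ * (w : Qb))
    {ρ : SerB W q →+* LaurentSeries (ResidueField A)} (hρl : IsLocalHom ρ)
    (hρ : ρ.comp (laurentToHat hW) = coeffMap r)
    {z : SerF A} {n : ℤ} {Y : LaurentSeries (ResidueField A)}
    (hz : HasVal fr₀ (serInj A z) n Y) :
    ∃ (u : SerB W q) (c : ResidueField A), c ≠ 0 ∧ IsUnit u ∧
      serToB hW j hj z = algebraMap _ _ (q : SerB W q) ^ n * algebraMap _ _ u ∧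
      ρ u = HahnSeries.C c * Y := by
  have hqB : algebraMap (SerB W q) (FractionRing (SerB W q)) (q : SerB W q) ≠ 0 := by
    refine (map_ne_zero_iff _ (IsFractionRing.injective _ _)).mpr fun h => ?_
    rw [← map_natCast ((toHat (PowerSeries.C (q : W) : PowerSeries W)).comp PowerSeries.C) q,
      RingHom.comp_apply] at h
    exact toHat_self_ne_zero (PowerSeries.C (q : W) : PowerSeries W) h
  obtain ⟨a, b, hb, rfl⟩ := IsFractionRing.div_surjective (LaurentSeries (intRing A)) z
  have hb0 : b ≠ 0 := nonZeroDivisors.ne_zero hb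
  have hz0 := hz.ne_zero
  have ha0 : a ≠ 0 := fun h => hz0 (by rw [h, map_zero, zero_div, map_zero])
  obtain ⟨na, ua, ca, hca, hua, hna, hta, hla⟩ :=
    exists_unit_laurentToHat hW j hrj hfix hw hq hρl hρ ha0
  obtain ⟨nb, ub, cb, hcb, hub, hnb, htb, hlb⟩ :=
    exists_unit_laurentToHat hW j hrj hfix hw hq hρl hρ hb0
  rw [map_div₀, serInj_algebraMap, serInj_algebraMap] at hz
  obtain ⟨rfl, rfl⟩ := hz.unique (show HasVal fr₀ (intSer A a / intSer A b) ((na : ℤ) - nb)
      (fr₀.lead (intSer A a) / fr₀.lead (intSer A b)) from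
    ⟨_, _, _, _, hna, hnb, div_mul_cancel₀ _ (hnb.ne_zero fr₀), rfl,
      div_mul_cancel₀ _ (hnb.lead_ne_zero fr₀)⟩)
  obtain ⟨v, hv⟩ := hub.exists_right_inv
  refine ⟨ua * v, ca / cb, div_ne_zero hca hcb, hua.mul (IsUnit.of_mul_eq_one_right _ hv), ?_, ?_⟩
  · have hvinv : algebraMap (SerB W q) (FractionRing (SerB W q)) ub *
        algebraMap _ _ v = 1 := by rw [← map_mul, hv, map_one]
    rw [map_div₀, serToB_algebraMap, serToB_algebraMap, hta, htb]
    refine (congrArg₂ (· / ·) (by rw [map_mul, map_pow]) (by rw [map_mul, map_pow])).trans ?_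
    rw [map_mul]
    exact div_pow_mul_units hqB hvinv
  · have h1 : ρ ub * ρ v = 1 := by rw [← map_mul, hv, map_one]
    rw [map_mul, hla, eq_inv_of_mul_eq_one_right h1, hlb, map_div₀, mul_inv, div_eq_mul_inv,
      div_eq_mul_inv]
    ring

end Hat

end FLTA.RT.Qsq

end
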