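import Fermat.Agent.RT.Qsq.ToricKummer
import Fermat.Agent.RT.Qsq.MiddleVal
import Fermat.Agent.RT.Qsq.SeriesHat
import Fermat.Agent.RT.MazurFrame
import Fermat.Agent.Carayol.BridgeDescend
import Fermat.Agent.BadRed.Toric

/-!
# Toric classes as functions over the inertia field

A toric class of level `M q` of order dividing `n` has a Kummer function with coefficients in the
inertia field whose expansions at the two cusps have valuation divisible by `n` and lead with a
constant times the `n`-th power of a reduced function of level `M`.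
-/

set_option autoImplicit false
set_option maxHeartbeats 1000000
set_option synthInstance.maxHeartbeats 400000

noncomputable section

open AlgebraicCurve ModularCurve IsLocalRing FLTA.BadRed FLTA.LevelLowering FLTA.Carayol.Bridge

namespace FLTA.RT.Qsq

section Generic

variable {K : Type*} [Field K] [IsAlgClosed K] [CharZero K] {A : ValuationSubring K}
  {k : Type*} [Field k] [IsAlgClosed k] {π : A →+* k}
  {q : ℕ} [NeZero q] [Fact q.Prime] [CharP k q]
  {F : Type*} [Field F] [Algebra K F] {F' : Type*} [Field F'] [Algebra K F']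
  {Fk : Type*} [Field Fk] [Algebra k Fk] {g gF : ℕ} {B : BadFibre A π q F F' Fk g gF}

omit [IsAlgClosed K] [CharZero K] [IsAlgClosed k] [Fact q.Prime] [CharP k q] in
/-- A reduction is a valuation `0` with that leading series. -/
theorem hasVal_of_hasRed (fr : Frame A π) {i : Fin 2} {x : F} {P : Fk} (h : B.HasRed i x P)
    (hP : P ≠ 0) : HasVal fr (B.e i x) 0 (B.exk P) := by
  obtain ⟨a, b, ha, hb, hb0, hab, hred⟩ := h
  have hz : ∀ y : LaurentSeries K, fr.ϖ ^ (-(0 : ℤ)) • y = y := fun y => by simp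
  have hbv : fr.IsVal (B.e i b) 0 := ⟨by rwa [fr.ge_zero_iff], by rw [hz]; exact hb0⟩
  have hav : fr.IsVal (B.e i a) 0 := ⟨by rwa [fr.ge_zero_iff], by
    rw [hz, ← hred]; exact mul_ne_zero ((map_ne_zero B.exk).mpr hP) hb0⟩
  exact ⟨_, _, 0, 0, hav, hbv, by rw [← map_mul, hab], (sub_zero 0).symm,
    by rw [hbv.lead_eq fr, hav.lead_eq fr, hz, hz, hred]⟩

omit [IsAlgClosed K] [IsAlgClosed k] [NeZero q] [Fact q.Prime] [CharP k q] in
/-- The valuations of constants of known valuation in `q`. -/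
theorem exists_hasVal_C_of_hasVal [NeZero q] (fr : Frame A π) :
    ∃ e : ℤ, ∀ {c : K} {v : ℤ}, FLTA.BadRed.HasVal A q c v →
      ∃ a : k, a ≠ 0 ∧ HasVal fr (HahnSeries.C c) (v * e) (HahnSeries.C a) := by
  have hq0 : (q : K) ≠ 0 := Nat.cast_ne_zero.mpr (NeZero.ne q)
  obtain ⟨e, u, -, hu, hqe⟩ := fr.exists_unit (q : K) (natCast_mem fr.L q) hq0
  refine ⟨e, fun {c v} hc => ?_⟩
  obtain ⟨hc0, h1, h2⟩ := hc
  have hq : HasVal fr (HahnSeries.C (q : K)) e (HahnSeries.C (π u)) := by
    have h := (hasVal_C_zpow (fr := fr) e).mul (hasVal_C_unit (fr := fr) u hu)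
    rwa [add_zero, one_mul, ← map_mul, ← hqe] at h
  have hu' : π ⟨_, h1⟩ ≠ 0 := fun h0 => by
    have h3 : π ⟨_, h1⟩ * π ⟨_, h2⟩ = 1 := by
      rw [← map_mul, ← map_one π]
      congr 1
      exact Subtype.ext (by
        show c / (q : K) ^ v * ((q : K) ^ v / c) = 1
        field_simp)
    rw [h0, zero_mul] at h3
    exact zero_ne_one h3
  refine ⟨π u ^ v * π ⟨_, h1⟩, mul_ne_zero (zpow_ne_zero _ hu) hu', ?_⟩
  have h := (hq.zpow v).mul (hasVal_C_unit (fr := fr) ⟨_, h1⟩ hu')
  rw [add_zero, ← map_zpow₀, ← map_zpow₀, ← map_mul, ← map_mul] at h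
  rwa [mul_div_cancel₀ _ (zpow_ne_zero _ hq0)] at h

omit [IsAlgClosed K] [IsAlgClosed k] [Fact q.Prime] [CharP k q] in
/-- Leading series after scaling the first component to valuation `0`. -/
theorem exists_hasVal_of_scaledRed (fr : Frame A π) {n : ℕ} {f : F} (d : B.ScaledRed f) {v : ℤ}
    (hv : FLTA.BadRed.HasVal A q (d.c 1 / d.c 0) v) (hn : (n : ℤ) ∣ v) (i : Fin 2) :
    ∃ (m : ℤ) (a : k), a ≠ 0 ∧ (n : ℤ) ∣ m ∧
      HasVal fr (B.e i (d.c 0 • f)) m (HahnSeries.C a * B.exk (d.p i)) := by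
  revert i
  refine Fin.forall_fin_two.mpr ⟨⟨0, 1, one_ne_zero, dvd_zero _, ?_⟩, ?_⟩
  · rw [map_one, one_mul]
    exact hasVal_of_hasRed fr (d.red 0) (d.p_ne 0)
  · obtain ⟨e, he⟩ := exists_hasVal_C_of_hasVal (q := q) fr
    obtain ⟨a, ha, hC⟩ := he hv.inv
    refine ⟨-v * e + 0, a, ha, by rw [add_zero]; exact dvd_mul_of_dvd_left hn.neg_right _, ?_⟩
    have h := hC.mul (hasVal_of_hasRed fr (d.red 1) (d.p_ne 1))
    have e1 : d.c 0 • f = algebraMap K F ((d.c 1 / d.c 0)⁻¹) * (d.c 1 • f) := by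
      rw [← Algebra.smul_def, smul_smul, inv_div, div_mul_cancel₀ _ (d.c_ne 1)]
    rwa [e1, map_mul, AlgHom.commutes, algebraMap_laurentSeries_eq_single, ← HahnSeries.C_apply]

end Generic

section Modular

local notation "Qb" => AlgebraicClosure ℚ

variable {M q : ℕ} [NeZero M] [NeZero q] [hq : Fact q.Prime] {A : ValuationSubring Qb}
  [CharP (ResidueField A) q] [PerfectRing (ResidueField A) q] [IsAlgClosed (ResidueField A)]
  (hA : A.LiesOverPrime q) (hqM : ¬ q ∣ M)

/-- **Fixed functions of toric classes.** -/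
theorem exists_toric_function {S : Finset (Place (ResidueField A)
      (modularFunctionFieldFullC (ResidueField A) M))} {m₀ : ℕ}
    (hS : (badFibre M q A hA hqM).IsGluing S m₀) (hne : S.Nonempty) (fr : Frame A (residue A))
    {n : ℕ} (hnk : (n : ResidueField A) ≠ 0) {x : JZero (M * q)} (hnx : n • x = 0)
    (hx : (badFibre M q A hA hqM).IsToric n x) :
    ∃ (D : Divisor.degZero (K := Qb) (F := modularFunctionFieldBar (M * q)))
      (g₀ : fld (inertiaField A) (M * q)), g₀ ≠ 0 ∧ Pic0.mk D = x ∧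
      (∀ v : Place Qb (modularFunctionFieldBar (M * q)),
        (n : ℤ) * (D : Divisor Qb (modularFunctionFieldBar (M * q))) v =
          v.ord (mapF (inertiaField A).val.toRingHom (M * q) g₀)) ∧
      ∀ i : Fin 2, ∃ (m : ℤ) (a : ResidueField A) (η : modularFunctionFieldFullC (ResidueField A) M),
        a ≠ 0 ∧ (n : ℤ) ∣ m ∧
          HasVal fr ((badFibre M q A hA hqM).e i (mapF (inertiaField A).val.toRingHom (M * q) g₀)) m
            (HahnSeries.C a * (η : LaurentSeries (ResidueField A)) ^ n) := by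
  set B := badFibre M q A hA hqM
  obtain ⟨D, f, hf, hDx, hord, hfix⟩ := FLTA.RT.exists_fixed_kummer_jZero M q A hA hqM hnx
    fun σ hσ => by
      obtain ⟨s, hs, hsI⟩ := exists_inertiaSym M q A hA hqM hσ
      have h := B.inertia_smul_of_isToric hnk s hsI hx
      rw [hs] at h
      simpa only [galois_smul_pic0_def] using h
  obtain ⟨d, v, hv, hnv, hpow⟩ := exists_pow_red_of_isToric hS hne hnk hx hf hDx hord hfix
  obtain ⟨dG, hdG⟩ := BadFibre.exists_fixed_scaledRed hf hfix
  have hv' : FLTA.BadRed.HasVal A q (dG.c 1 / dG.c 0) v := BadFibre.DiffVal.hasVal ⟨d, hv⟩ dG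
  obtain ⟨g₀, hg₀⟩ := exists_eq_mapF_of_coeff_mem (inertiaField A).val.toRingHom (dG.c 0 • f)
    fun i => ⟨⟨((dG.c 0 • f : modularFunctionFieldBar (M * q)) : LaurentSeries Qb).coeff i,
      mem_inertiaField.2 fun σ hσ => by
        obtain ⟨s, hs, hsI⟩ := exists_inertiaSym M q A hA hqM hσ
        have hmem : s ∈ (FLTA.RT.inertiaSys M q A hA hqM).I := ⟨hsI, σ, hσ, hs⟩
        have h1 : s.σ • (dG.c 0 • f) = dG.c 0 • f := by
          rw [Algebra.smul_def, smul_mul', SemilinearAut.smul_algebraMap, hdG 0 s hmem, hfix s hmem]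
        rw [hs] at h1
        have h2 := congrArg (fun z : modularFunctionFieldBar (M * q) =>
          (z : LaurentSeries Qb).coeff i) h1
        simpa [coe_arithmeticGalois_smul] using h2⟩, rfl⟩
  have hc : dG.c 0 • f ≠ 0 := smul_ne_zero (dG.c_ne 0) hf
  refine ⟨D, g₀, fun h => hc (by rw [← hg₀, h, map_zero]), hDx, fun w => ?_, fun i => ?_⟩
  · rw [hg₀, Algebra.smul_def, w.ord_mul ((map_ne_zero _).mpr (dG.c_ne 0)) hf, FLTA.Curves.ord_algebraMap,
      zero_add, hord]
  · rw [hg₀]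
    obtain ⟨m, a, ha, hm, hval⟩ := exists_hasVal_of_scaledRed fr dG hv' hnv i
    obtain ⟨u, hu, hup⟩ := BadFibre.ScaledRed.exists_p_eq d dG i
    obtain ⟨η, hη⟩ := hpow i
    refine ⟨m, a * u, η, mul_ne_zero ha hu, hm, ?_⟩
    have e : B.exk (dG.p i) = HahnSeries.C u * (η : LaurentSeries (ResidueField A)) ^ n := by
      rw [hup, map_mul, AlgHom.commutes, ← hη, map_pow, algebraMap_laurentSeries_eq_single,
        ← HahnSeries.C_apply]
      rfl
    rw [map_mul, mul_assoc, ← e]
    exact hval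

end Modular

end FLTA.RT.Qsq

end
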