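import Fermat.Agent.RT.Qsq.Model
import Fermat.Agent.RT.Qsq.ToricVal
import Fermat.Agent.RT.Qsq.SSInstance
import Fermat.Agent.RT.Qsq.SSMain
import Fermat.Agent.Carayol.BridgeHoriz
import Fermat.Agent.Carayol.BridgeDescend
import Fermat.Agent.Carayol.BridgeRep
import Fermat.Agent.Carayol.Node.Main

/-!
# The family of functions of toric classes on the cover

Functions over the inertia field with divisors divisible by `n`, read in level `M q` of the model,
have horizontal multiplicities divisible by `n`, and two of them differing by an `n`-th power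
belong to the same class.  The toric classes supply `p ^ (#S - 1)` of them.
-/

set_option autoImplicit false
set_option maxHeartbeats 1000000
set_option synthInstance.maxHeartbeats 400000
set_option linter.style.haveILetI false

noncomputable section

open AlgebraicCurve ModularCurve IsLocalRing Polynomial FLTA.BadRed FLTA.LevelLowering
  FLTA.Carayol FLTA.Carayol.Bridge

namespace FLTA.RT.Qsq

local notation "Qb" => AlgebraicClosure ℚ

variable {W : Type} [CommRing W] [IsDomain W] [CharZero W]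
variable {q M : ℕ} [NeZero q] [NeZero M]
variable [Fact (Prime (C (q : W) : W[X]))]
variable {K : Type} [Field K] [Algebra ℚ K] [Algebra W K]
  {K₀ : Type} [Field K₀] [Algebra ℚ K₀] (ι : K₀ →+* K) {Φ : ℤ[X][X]} {Q : W[X][X]}
  {t : ↥(modularFunctionFieldFull M)}

omit [CharZero W] in
/-- Functions with divisible divisors have divisible horizontal multiplicities. -/
theorem horizDivisible_onFst [IsFractionRing W K] (m : CoverModel (W := W) K q Φ Q t)
    (g₀ : K₀ →+* Qb) {n : ℕ} (hn : 0 < n) (g : fld K₀ (M * q))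
    (hdiv : ∀ w : Place Qb (modularFunctionFieldBar (M * q)), (n : ℤ) ∣ w.ord (mapF g₀ (M * q) g))
    {a : AdjoinRoot (coverPhi Φ Q)} (ha : m.e a = mapF ι (M * q) g) :
    HorizDivisible Φ Q n (onFst _ a) := by
  intro Ω _ φ v hv
  let j₀ : fld K₀ (M * q) →+* Pairs (coverPhi Φ Q) :=
    (onFst (coverPhi Φ Q)).comp ((RingEquiv.ofBijective m.e m.e_bij).symm.toRingHom.comp
      (mapF ι (M * q)))
  have hj₀ : ∀ x b, m.e b = mapF ι (M * q) x → j₀ x = onFst _ b := fun x b hb => by
    show onFst _ ((RingEquiv.ofBijective m.e m.e_bij).symm (mapF ι (M * q) x)) = _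
    rw [← hb]
    exact congrArg _ ((RingEquiv.ofBijective m.e m.e_bij).symm_apply_apply b)
  rw [← hj₀ g a ha]
  refine exists_pow_eq_valuation g₀ hn g hdiv (φ.comp j₀) v fun c hc => ?_
  obtain ⟨u, w, hw, huw⟩ := IsFractionRing.div_surjective W (ι c)
  have hw0 : w ≠ 0 := nonZeroDivisors.ne_zero hw
  have hu0 : u ≠ 0 := by
    rintro rfl
    rw [map_zero, zero_div, eq_comm, map_eq_zero] at huw
    exact hc huw
  obtain ⟨b, hb⟩ := m.e_bij.2 (mapF ι (M * q) (algebraMap K₀ _ c))
  have hcw : b * AdjoinRoot.of _ (coverBase Q (C w)) = AdjoinRoot.of _ (coverBase Q (C u)) :=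
    m.e_bij.1 (by
      rw [map_mul, hb, m.e_const, m.e_const, mapF_algebraMap, ← map_mul, ← huw,
        div_mul_cancel₀ _ ((_root_.map_ne_zero_iff _ (IsFractionRing.injective W K)).2 hw0)])
  have hconst : ∀ r : W, φ (onFst _ (AdjoinRoot.of _ (coverBase Q (C r)))) =
      φ (coverConst Φ Q r) := fun r => rfl
  have h2 := congrArg (fun z => v (φ (onFst _ z))) hcw
  simp only [map_mul, hconst, hv w hw0, hv u hu0, mul_one] at h2
  rw [RingHom.comp_apply, hj₀ _ b hb]
  exact h2

omit [IsDomain W] [CharZero W] in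
/-- Two functions differing by an `n`-th power on the cover give the same class. -/
theorem eq_of_mul_pow [CharZero K₀] (m : CoverModel (W := W) K q Φ Q t) (g₀ : K₀ →+* Qb) {n : ℕ}
    (hn : 0 < n) {g g' : fld K₀ (M * q)} (hg : g ≠ 0) (hg' : g' ≠ 0)
    {D D' : Divisor.degZero (K := Qb) (F := modularFunctionFieldBar (M * q))}
    (hD : ∀ w, (n : ℤ) * (D : Divisor Qb (modularFunctionFieldBar (M * q))) w =
      w.ord (mapF g₀ (M * q) g))
    (hD' : ∀ w, (n : ℤ) * (D' : Divisor Qb (modularFunctionFieldBar (M * q))) w =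
      w.ord (mapF g₀ (M * q) g'))
    {a a' : AdjoinRoot (coverPhi Φ Q)} (ha : m.e a = mapF ι (M * q) g)
    (ha' : m.e a' = mapF ι (M * q) g') {Z : AdjoinRoot (coverPhi Φ Q)} (hZ : a = a' * Z ^ n) :
    Pic0.mk D = Pic0.mk D' := by
  obtain ⟨c, h, hc, hh⟩ := exists_eq_const_mul_pow_of_mapF ι hn (g / g') (div_ne_zero hg hg')
    ⟨1, m.e Z, by
      rw [map_one, one_mul, map_div₀, ← ha, ← ha', hZ, map_mul, map_pow,
        mul_div_cancel_left₀ _ (by rw [ha']; exact (_root_.map_ne_zero _).2 hg')]⟩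
  have hh0 : h ≠ 0 := fun h0 => div_ne_zero hg hg' (by rw [hh, h0, zero_pow hn.ne', mul_zero])
  have hG : ∀ w : Place Qb (modularFunctionFieldBar (M * q)),
      w.ord (mapF g₀ (M * q) g) - w.ord (mapF g₀ (M * q) g') =
        (n : ℤ) * w.ord (mapF g₀ (M * q) h) := fun w => by
    have e : mapF g₀ (M * q) g = algebraMap Qb _ (g₀ c) * mapF g₀ (M * q) h ^ n *
        mapF g₀ (M * q) g' := by
      rw [← mapF_algebraMap, ← map_pow, ← map_mul, ← hh, ← map_mul, div_mul_cancel₀ _ hg']
    have h1 : algebraMap Qb (fld Qb (M * q)) (g₀ c) ≠ 0 :=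
      (_root_.map_ne_zero _).2 ((_root_.map_ne_zero _).2 hc)
    have h2 : mapF g₀ (M * q) h ^ n ≠ 0 := pow_ne_zero _ ((_root_.map_ne_zero _).2 hh0)
    rw [e, w.ord_mul (mul_ne_zero h1 h2) ((_root_.map_ne_zero _).2 hg'), w.ord_mul h1 h2,
      FLTA.Curves.ord_algebraMap, FLTA.Curves.ord_pow]
    ring
  refine (QuotientAddGroup.eq_iff_sub_mem).mpr (AddSubgroup.mem_addSubgroupOf.mpr
    ⟨mapF g₀ (M * q) h, (_root_.map_ne_zero _).2 hh0, fun w => ?_⟩)
  have h1 := hG w
  rw [← hD, ← hD', ← mul_sub] at h1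
  rw [AddSubgroupClass.coe_sub, Finsupp.sub_apply]
  exact mul_left_cancel₀ (Nat.cast_ne_zero.2 hn.ne') h1

section Toric

variable {A : ValuationSubring Qb} [hq : Fact q.Prime]
  [CharP (ResidueField A) q] [PerfectRing (ResidueField A) q] [IsAlgClosed (ResidueField A)]
  (hA : A.LiesOverPrime q) (hqM : ¬ q ∣ M)

/-- The data of a toric class: divisor, function over the inertia field, leading series. -/
structure ToricFun (fr : Frame A (residue A)) (n : ℕ) (x : JZero (M * q)) where
  /-- the divisor -/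
  D : Divisor.degZero (K := Qb) (F := modularFunctionFieldBar (M * q))
  /-- the function -/
  g : fld (inertiaField A) (M * q)
  g_ne : g ≠ 0
  mk_eq : Pic0.mk D = x
  ord_eq : ∀ v : Place Qb (modularFunctionFieldBar (M * q)),
    (n : ℤ) * (D : Divisor Qb (modularFunctionFieldBar (M * q))) v =
      v.ord (mapF (inertiaField A).val.toRingHom (M * q) g)
  val : ∀ i : Fin 2, ∃ (m : ℤ) (a : ResidueField A)
      (η : modularFunctionFieldFullC (ResidueField A) M),
    a ≠ 0 ∧ (n : ℤ) ∣ m ∧
      HasVal fr ((badFibre M q A hA hqM).e i (mapF (inertiaField A).val.toRingHom (M * q) g)) m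
        (HahnSeries.C a * (η : LaurentSeries (ResidueField A)) ^ n)

/-- Every element of the toric group has such data, and there are `p ^ (#S - 1)` of them. -/
theorem exists_toricFuns {S : Finset (Place (ResidueField A)
      (modularFunctionFieldFullC (ResidueField A) M))} {m₀ : ℕ}
    (hS : (badFibre M q A hA hqM).IsGluing S m₀) (hne : S.Nonempty) (fr : Frame A (residue A))
    {p : ℕ} (hp : p.Prime) (hpk : (p : ResidueField A) ≠ 0) :
    ∃ (I : Type) (_ : Fintype I) (z : I → JZero (M * q)),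
      Fintype.card I = p ^ (S.card - 1) ∧ Function.Injective z ∧ (∀ i, p • z i = 0) ∧
        ∀ i, Nonempty (ToricFun hA hqM fr p (z i)) := by
  set B := badFibre M q A hA hqM
  have hcard := natCard_toricGroup hS hne (ssInput M q A hA hqM) hp hpk
  haveI : Finite (toricGroup B p) := Nat.finite_of_card_ne_zero (by
    rw [hcard]; exact pow_ne_zero _ hp.ne_zero)
  have hkill : ∀ x : toricGroup B p, p • (x : JZero (M * q)) = 0 := fun x => by
    obtain ⟨D, f, hf, hmk, hord, -⟩ := x.2
    rw [← hmk]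
    refine (QuotientAddGroup.eq_zero_iff (p • D)).mpr
      (AddSubgroup.mem_addSubgroupOf.mpr ⟨f, hf, fun w => ?_⟩)
    rw [AddSubgroup.coe_nsmul, Finsupp.smul_apply, nsmul_eq_mul, hord]
  refine ⟨toricGroup B p, Fintype.ofFinite _, fun x => x, ?_, Subtype.val_injective, hkill,
    fun x => ?_⟩
  · rw [Fintype.card_eq_nat_card, hcard]
  · obtain ⟨D, g, hg, hmk, hord, hval⟩ :=
      exists_toric_function hA hqM hS hne fr hpk (hkill x) x.2
    exact ⟨⟨D, g, hg, hmk, hord, hval⟩⟩

end Toric

end FLTA.RT.Qsq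

end
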