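import Fermat.Agent.RT.Qsq.FamilyRoot
import Fermat.Agent.RT.Qsq.FamilyModel
import Fermat.Agent.RT.Qsq.Setting

/-!
# The members of the toric family on the two Gauss branches

A function over the inertia field with divisible valuations and leading series constants times
`n`-th powers at both cusps of level `M q` has `n`-th roots on both branches of the cover at the
Gauss point; the transform by the involution of a Kummer function is one again.
-/

set_option autoImplicit false
set_option maxHeartbeats 1000000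
set_option synthInstance.maxHeartbeats 400000
set_option linter.style.haveILetI false

noncomputable section

open IsLocalRing Polynomial ModularCurve AlgebraicCurve FLTA.Carayol FLTA.Carayol.Bridge
  FLTA.BadRed FLTA.LevelLowering

namespace FLTA.RT.Qsq

section Series

variable {K : Type*} [Field K] {A : ValuationSubring K} {k : Type*} [Field k] {π : A →+* k}
  (fr : Frame A π)

theorem qExpand_smul {F : Type*} [Field F] (l : ℕ) [NeZero l] (c : F) (x : LaurentSeries F) :
    qExpand F l (c • x) = c • qExpand F l x := by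
  rw [LevelLowering.smul_eq_C_mul, LevelLowering.smul_eq_C_mul, map_mul, qExpand_C]

theorem isVal_qExpand (l : ℕ) [NeZero l] {x : LaurentSeries K} {n : ℤ} (h : fr.IsVal x n) :
    fr.IsVal (qExpand K l x) n ∧ fr.lead (qExpand K l x) = qExpand k l (fr.lead x) := by
  have e : fr.ϖ ^ (-n) • qExpand K l x = qExpand K l (fr.ϖ ^ (-n) • x) := (qExpand_smul l _ x).symm
  have hred : redSeries A π (fr.ϖ ^ (-n) • qExpand K l x) =
      qExpand k l (redSeries A π (fr.ϖ ^ (-n) • x)) := by rw [e, redSeries_qExpand l h.1]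
  have h1 : fr.IsVal (qExpand K l x) n := ⟨by
    show IntSeries A _
    rw [e]
    exact IntSeries.qExpand l h.1, by
    rw [hred]; exact (_root_.map_ne_zero _).2 h.2⟩
  exact ⟨h1, by rw [h1.lead_eq fr, h.lead_eq fr, hred]⟩

variable {fr} in
/-- Valuations and leading series under `τ ↦ l τ`. -/
theorem HasVal.qExpand (l : ℕ) [NeZero l] {y : LaurentSeries K} {n : ℤ} {Y : LaurentSeries k}
    (h : HasVal fr y n Y) :
    HasVal fr (ModularCurve.qExpand K l y) n (ModularCurve.qExpand k l Y) := by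
  obtain ⟨a, b, na, nb, ha, hb, he, rfl, hY⟩ := h
  refine ⟨_, _, na, nb, (isVal_qExpand fr l ha).1, (isVal_qExpand fr l hb).1,
    by rw [← map_mul, he], rfl, ?_⟩
  rw [(isVal_qExpand fr l ha).2, (isVal_qExpand fr l hb).2, ← map_mul, hY]

end Series

section Kummer

variable {K F : Type*} [Field K] [Field F] [Algebra K F]

/-- The transform of a Kummer function by an automorphism is a Kummer function. -/
theorem exists_kummer_map (σ : F ≃ₐ[K] F) {n : ℕ} (hn : 0 < n)
    (hdeg : ∀ f : F, f ≠ 0 → ∃ D : Divisor K F, (∀ v : Place K F, D v = v.ord f) ∧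
      Divisor.degree D = 0)
    {f : F} (hf : f ≠ 0) (hdiv : ∀ v : Place K F, (n : ℤ) ∣ v.ord f) :
    ∃ D : Divisor.degZero (K := K) (F := F),
      ∀ v : Place K F, (n : ℤ) * (D : Divisor K F) v = v.ord (σ f) := by
  classical
  obtain ⟨Z, hZ, hZ0⟩ := hdeg (σ f) ((map_ne_zero σ).2 hf)
  have hd : ∀ v : Place K F, (n : ℤ) ∣ Z v := fun v => by
    obtain ⟨w, rfl⟩ : ∃ w, σ • w = v := ⟨σ⁻¹ • v, smul_inv_smul σ v⟩
    rw [hZ, Place.ord_smul σ w f]
    exact hdiv w
  set D : Divisor K F := Z.mapRange (fun z => z / (n : ℤ)) (Int.zero_ediv _) with hD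
  have hnD : n • D = Z := Finsupp.ext fun v => by
    rw [Finsupp.smul_apply, nsmul_eq_mul, hD, Finsupp.mapRange_apply,
      Int.mul_ediv_cancel' (hd v)]
  have h0 : Divisor.degree D = 0 := by
    have h1 : (n : ℤ) * Divisor.degree D = 0 := by
      rw [← nsmul_eq_mul, ← map_nsmul, hnD, hZ0]
    exact (mul_eq_zero.1 h1).resolve_left (Nat.cast_ne_zero.2 hn.ne')
  refine ⟨⟨D, h0⟩, fun v => ?_⟩
  show (n : ℤ) * D v = _
  rw [← hZ, ← hnD, Finsupp.smul_apply, nsmul_eq_mul]

end Kummer

local notation "Qb" => AlgebraicClosure ℚ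

variable {q L₀ M : ℕ} [hq : Fact q.Prime] [NeZero q] [NeZero L₀] [NeZero M]
  {A : ValuationSubring Qb} [CharP (ResidueField A) q] [PerfectRing (ResidueField A) q]
  [IsAlgClosed (ResidueField A)] {Φ : ℤ[X][X]} {t : ↥(modularFunctionFieldFull M)}
  {W : Type} [CommRing W] [IsDomain W] [IsDiscreteValuationRing W] [CharZero W]
  [IsAdicComplete (maximalIdeal W) W] [IsAlgClosed (ResidueField W)]
  [Fact (Prime (C (q : W) : W[X]))] {Q : W[X][X]}

omit [PerfectRing (ResidueField A) q] [IsAlgClosed (ResidueField A)] [IsAdicComplete (maximalIdeal W) W]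
  [IsAlgClosed (ResidueField W)] in
/-- **Roots on the two branches.** -/
theorem exists_branch_roots (hqM : ¬ q ∣ M) (hL : Haupt.IsHauptLevel L₀)
    (ht : Chart.IsTFull L₀ M t) (gm : GaussModel W q Φ Q)
    (m : CoverModel (W := W) (FractionRing W) q Φ Q t) (ι : inertiaField A →+* FractionRing W)
    (im : InertiaModel A Φ q t) (fp : FramePair q A)
    (hΨ : (inertiaPhi A Φ t).map (gm.g.comp (baseMap m ι)) =
      (phiAt Φ (gaussCoeff gm.f)).map (algebraMap gm.A (FractionRing gm.A)))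
    (G : GaussRes fp gm.sA (gm.g.comp (baseMap m ι)) hΨ (pairSer im.ψ))
    (hC : ∀ c : ResidueField A, ∃ v : gm.A,
      G.hbar (AdjoinRoot.of gm.sA.quo v) = HahnSeries.C c)
    (hgen : ∀ d : ℕ, [NeZero d] → d ∣ M → ∃ x : fld (inertiaField A) M,
      HasVal fp.fr₀ (pairSer im.ψ (Pairs.ofBase _ x)) 0
        (qExpand (ResidueField A) q (qExpand (ResidueField A) d (jqModC (ResidueField A)))))
    {p : ℕ} (hp : 0 < p) (hn : IsUnit (p : gm.A)) (hpq : Nat.Coprime p q)
    {w₀ : fld (inertiaField A) (M * q) →+* fld (inertiaField A) (M * q)}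
    (hw₀ : IsSwap (inertiaField A) q t w₀) (a₀ : AdjoinRoot (inertiaPhi A Φ t))
    {m₀ m₁ : ℤ} {c₀ c₁ : ResidueField A}
    {η₀ η₁ : modularFunctionFieldFullC (ResidueField A) M}
    (hd₀ : (p : ℤ) ∣ m₀) (hd₁ : (p : ℤ) ∣ m₁)
    (h₀ : HasVal fp.fr₀ (fldSer A (M * q) (im.e a₀)) m₀
      (HahnSeries.C c₀ * (η₀ : LaurentSeries (ResidueField A)) ^ p))
    (h₁ : HasVal fp.fr₀ ((BadRed.swapBar M q hqM
        (mapF (inertiaField A).val.toRingHom (M * q) (im.e a₀)) : fld Qb (M * q)) :
          LaurentSeries Qb) m₁ (HahnSeries.C c₁ * (η₁ : LaurentSeries (ResidueField A)) ^ p)) :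
    (∃ g, g ^ p = gm.split.proj₀ (AdjoinRoot.map gm.g _ _ dvd_rfl (fstMap m ι a₀))) ∧
      ∃ g, g ^ p = gm.split.proj₁ (AdjoinRoot.map gm.g _ _ dvd_rfl (fstMap m ι a₀)) := by
  set ν := gm.g.comp (baseMap m ι) with hν
  set sL := gm.sA.map (algebraMap gm.A (FractionRing gm.A))
  constructor
  · -- the branch `(x₀, x₁)`
    have hv : HasVal fp.fr₀ (pairSer im.ψ (Pairs.swap _ (onFst _ a₀))) m₁
        (HahnSeries.C c₁ *
          qExpand (ResidueField A) q (η₁ : LaurentSeries (ResidueField A)) ^ p) := by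
      rw [pairSer_swap im hqM hL ht hw₀, ← qExpand_C q c₁, ← map_pow, ← map_mul]
      exact h₁.qExpand q
    obtain ⟨g, hg⟩ := exists_pow_br₁ gm.isGauss G hp hn hpq hC hv hd₁
      (exists_residue_pow gm.isGauss G hC hgen η₁).2
    refine exists_pow_of_br₁ (q := q) gm.isGauss hpq (g := g) (hg.trans ?_)
    refine RingHom.congr_fun
      (f := ((sL.br₁.comp (Pairs.map ν hΨ)).comp (Pairs.swap _)).comp (onFst _))
      (g := (AdjoinRoot.of sL.quo).comp (gm.split.proj₀.comp
        ((AdjoinRoot.map gm.g _ _ dvd_rfl).comp (fstMap m ι))))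
      (AdjoinRoot.ringHom_ext (RingHom.ext fun r => ?_) ?_) a₀
    · show sL.br₁ (Pairs.map ν hΨ (Pairs.swap _ (Pairs.ofBase _ r))) = _
      rw [Pairs.swap_ofBase, Pairs.map_ofBase]
      simp [RootSplit.br₁, RootSplit.proj₀, fstMap, hν, sL]
    · show sL.br₁ (Pairs.map ν hΨ (Pairs.swap _ (Pairs.fst _))) = _
      rw [Pairs.swap_fst, Pairs.map_snd]
      simp [RootSplit.br₁, RootSplit.proj₀, fstMap, GaussModel.split, sL]
  · -- the branch `(x₁, x₀)`
    have hv : HasVal fp.fr₀ (pairSer im.ψ (onFst _ a₀)) m₀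
        (HahnSeries.C c₀ * (η₀ : LaurentSeries (ResidueField A)) ^ p) := by
      rw [pairSer_fst]; exact h₀
    obtain ⟨g, hg⟩ := exists_pow_br₁ gm.isGauss G hp hn hpq hC hv hd₀
      (exists_residue_pow gm.isGauss G hC hgen η₀).1
    have hquo : gm.split.quo = sL.quo :=
      congrArg (fun P => divDiff P (algebraMap gm.A (FractionRing gm.A) gm.sA.x₀)) gm.phi_gauss.symm
    let Θ : sL.E →+* gm.split.E :=
      AdjoinRoot.map (RingHom.id _) sL.quo gm.split.quo (by rw [Polynomial.map_id, hquo])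
    refine ⟨Θ g, ?_⟩
    rw [← map_pow, hg]
    refine RingHom.congr_fun (f := (Θ.comp (sL.br₁.comp (Pairs.map ν hΨ))).comp (onFst _))
      (g := gm.split.proj₁.comp ((AdjoinRoot.map gm.g _ _ dvd_rfl).comp (fstMap m ι)))
      (AdjoinRoot.ringHom_ext (RingHom.ext fun r => ?_) ?_) a₀
    · show Θ (sL.br₁ (Pairs.map ν hΨ (Pairs.ofBase _ r))) = _
      rw [Pairs.map_ofBase]
      simp [Θ, RootSplit.br₁, RootSplit.proj₁, fstMap, hν]
    · show Θ (sL.br₁ (Pairs.map ν hΨ (Pairs.fst _))) = _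
      rw [Pairs.map_fst]
      simp [Θ, RootSplit.br₁, RootSplit.proj₁, fstMap]

end FLTA.RT.Qsq

end
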