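import Fermat.Agent.Carayol.GaussRoot

/-!
# Maps out of the branch at the Gauss point

A map of the fraction fields of complete discrete valuation rings with uniformiser `q` respects
the rings, and extends to the branch `(x₁, x₀)` once a root congruent to a `q`-th root of `T` is
given.
-/

set_option autoImplicit false
set_option maxHeartbeats 800000

noncomputable section

open IsLocalRing Polynomial FLTA.Carayol

namespace FLTA.RT.Qsq

variable {A : Type} [CommRing A] [IsDomain A] [IsDiscreteValuationRing A]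
  [IsAdicComplete (maximalIdeal A) A] {L : Type} [Field L] [Algebra A L] [IsFractionRing A L]
  {B : Type} [CommRing B] [IsDomain B] [IsDiscreteValuationRing B]
  {FM : Type} [Field FM] [Algebra B FM] [IsFractionRing B FM] {q : ℕ}

omit [IsDomain A] [IsDiscreteValuationRing A] [IsAdicComplete (maximalIdeal A) A] in
/-- An element congruent to `1` is an `l`-th power for `l` prime to `q`. -/
theorem exists_pow_eq_one_add [IsLocalRing A] [HenselianLocalRing A]
    (hA : maximalIdeal A = Ideal.span {(q : A)}) {l : ℕ} (hl : l.Coprime q) (a : A) :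
    ∃ w : A, w ^ l = 1 + (q : A) * a := by
  have hq : residue A (q : A) = 0 :=
    (residue_eq_zero_iff _).2 (hA ▸ Ideal.mem_span_singleton_self _)
  refine exists_pow_eq_of_residue ?_ ?_ (c := 1) ?_
  · obtain ⟨α, β, h⟩ := hl.isCoprime
    rw [← notMem_maximalIdeal, ← residue_eq_zero_iff]
    intro h0
    have h1 := congrArg (fun i : ℤ => residue A (i : A)) h
    simp [h0, hq] at h1
  · rw [← notMem_maximalIdeal, ← residue_eq_zero_iff, map_add, map_one, map_mul, hq, zero_mul,
      add_zero]
    exact one_ne_zero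
  · rw [one_pow, map_add, map_one, map_mul, hq, zero_mul, add_zero]

/-- A map of the fraction fields respects the rings. -/
theorem exists_int_map (hqp : q.Prime) (hA : maximalIdeal A = Ideal.span {(q : A)})
    (hB : maximalIdeal B = Ideal.span {(q : B)}) (j : L →+* FM) :
    ∃ jA : A →+* B, IsLocalHom jA ∧ ∀ a, algebraMap B FM (jA a) = j (algebraMap A L a) := by
  have : HenselianLocalRing A := henselianLocalRing_of_isAdicComplete
  have hirr : Irreducible (q : B) :=
    (IsDiscreteValuationRing.irreducible_iff_uniformizer _).2 hB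
  have hq0 : algebraMap B FM (q : B) ≠ 0 :=
    (map_ne_zero_iff _ (IsFractionRing.injective B FM)).2 hirr.ne_zero
  -- elements congruent to `1` go to units
  obtain ⟨l, hlq, hl⟩ := Nat.exists_infinite_primes (q + 1)
  have hco : l.Coprime q := (Nat.coprime_primes hl hqp).2 (by omega)
  have hone : ∀ a : A, ∃ b : B, algebraMap B FM b = j (algebraMap A L (1 + (q : A) * a)) := by
    intro a
    set x := j (algebraMap A L (1 + (q : A) * a)) with hxdef
    have hne : (1 + (q : A) * a) ≠ 0 := fun h => by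
      have := congrArg (residue A) h
      rw [map_add, map_one, map_mul, (residue_eq_zero_iff _).2
        (hA ▸ Ideal.mem_span_singleton_self _), zero_mul, add_zero, map_zero] at this
      exact one_ne_zero this
    have hx : x ≠ 0 := (_root_.map_ne_zero j).2
      ((map_ne_zero_iff _ (IsFractionRing.injective A L)).2 hne)
    obtain ⟨u, i, hu, he⟩ := exists_eq_unit_mul_zpow (B := B) hirr hx
    have hi : ∀ N : ℕ, ((l ^ N : ℕ) : ℤ) ∣ i := by
      intro N
      obtain ⟨w, hw⟩ := exists_pow_eq_one_add hA (Nat.Coprime.pow_left N hco) a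
      have hw0 : j (algebraMap A L w) ≠ 0 := (_root_.map_ne_zero j).2
        ((map_ne_zero_iff _ (IsFractionRing.injective A L)).2 fun h => hne (by
          rw [← hw, h, zero_pow (pow_ne_zero _ hl.ne_zero)]))
      obtain ⟨v, m, hv, hve⟩ := exists_eq_unit_mul_zpow (B := B) hirr hw0
      have h1 : x = algebraMap B FM (v ^ (l ^ N)) * algebraMap B FM (q : B) ^ (m * (l ^ N : ℕ)) := by
        rw [hxdef, ← hw, map_pow, map_pow, hve, mul_pow, map_pow, zpow_mul, zpow_natCast]
      obtain ⟨rfl, -⟩ := unit_mul_zpow_inj hirr hu (hv.pow _) (he.symm.trans h1)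
      exact dvd_mul_left _ _
    have hi0 : i = 0 := by
      have hlt : i.natAbs < l ^ i.natAbs := Nat.lt_pow_self hl.one_lt
      exact Int.eq_zero_of_dvd_of_natAbs_lt_natAbs (hi i.natAbs) (by simpa using hlt)
    exact ⟨u, by rw [he, hi0, zpow_zero, mul_one]⟩
  have hmem : ∀ a : A, ∃ b : B, algebraMap B FM b = j (algebraMap A L a) := by
    intro a
    obtain ⟨b₁, hb₁⟩ := hone a
    obtain ⟨b₂, hb₂⟩ := hone (a * a)
    set x := j (algebraMap A L a) with hxdef
    have e₁ : algebraMap B FM (b₁ - 1) = algebraMap B FM (q : B) * x := by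
      rw [map_sub, hb₁, map_one, hxdef, map_add, map_mul, map_one, map_add, map_one, map_mul,
        map_natCast, map_natCast, map_natCast]
      ring
    have e₂ : algebraMap B FM (b₂ - 1) = algebraMap B FM (q : B) * (x * x) := by
      rw [map_sub, hb₂, map_one, hxdef, map_add, map_mul, map_one, map_add, map_one, map_mul,
        map_mul, map_mul, map_natCast, map_natCast, map_natCast]
      ring
    have h : (q : B) ∣ (b₁ - 1) * (b₁ - 1) := ⟨b₂ - 1, IsFractionRing.injective B FM (by
      rw [map_mul, map_mul, e₁, e₂]; ring)⟩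
    obtain ⟨c, hc⟩ := (hirr.prime.dvd_or_dvd h).elim id id
    refine ⟨c, mul_left_cancel₀ hq0 ?_⟩
    rw [← map_mul, ← hc, e₁]
  choose f hf using hmem
  have hinj := IsFractionRing.injective B FM
  refine ⟨
    { toFun := f
      map_one' := hinj (by rw [hf, map_one, map_one, map_one])
      map_mul' := fun a b => hinj (by rw [map_mul (algebraMap B FM), hf, hf, hf, map_mul, map_mul])
      map_zero' := hinj (by rw [hf, map_zero, map_zero, map_zero])
      map_add' := fun a b => hinj (by rw [map_add (algebraMap B FM), hf, hf, hf, map_add, map_add]) },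
    ⟨fun a ha => ?_⟩, hf⟩
  by_contra hna
  have ha' : a ∈ maximalIdeal A := hna
  rw [hA, Ideal.mem_span_singleton] at ha'
  obtain ⟨c, rfl⟩ := ha'
  refine hirr.not_isUnit (isUnit_of_dvd_unit ⟨f c, hinj ?_⟩ ha)
  show algebraMap B FM (f ((q : A) * c)) = algebraMap B FM ((q : B) * f c)
  rw [map_mul (algebraMap B FM), hf, hf, map_mul, map_mul, map_natCast, map_natCast, map_natCast]

omit [IsDomain A] [IsDiscreteValuationRing A] [IsAdicComplete (maximalIdeal A) A] in
theorem residue_comp_eq [IsLocalRing A] {k : Type} [Field k] (f : A →+* k) [IsLocalHom f]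
    {a b : A} (h : residue A a = residue A b) : f a = f b := by
  rw [← ResidueField.lift_residue_apply f, ← ResidueField.lift_residue_apply f, h]

/-- **The branch `(x₁, x₀)` maps to the completion.** -/
theorem exists_branchHom {ΨA : A[X]} {s : RootSplit ΨA} {T : A} (hs : IsGauss q ΨA s T)
    (hB : maximalIdeal B = Ideal.span {(q : B)}) {k : Type} [Field k] [CharP k q]
    (ρ : B →+* k) [IsLocalHom ρ] {R₀ : Type} [Field R₀] {Ψ₀ : R₀[X]} (ν : R₀ →+* L)
    (hΨ : Ψ₀.map ν = ΨA.map (algebraMap A L)) (j : L →+* FM) (Λ : Pairs Ψ₀ →+* FM)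
    (hΛ : ∀ a, Λ (Pairs.ofBase Ψ₀ a) = j (ν a)) {x₁ z TB : B}
    (h1 : Λ (Pairs.fst Ψ₀) = algebraMap B FM x₁) (h2 : Λ (Pairs.snd Ψ₀) = algebraMap B FM z)
    (hTB : j (algebraMap A L T) = algebraMap B FM TB)
    (hx : ρ x₁ ^ q = ρ TB) (hz : ρ z = ρ x₁ ^ (q * q)) (hne : ρ x₁ ^ (q * q) ≠ ρ x₁) :
    ∃ (h : s.E →+* B) (jE : (s.map (algebraMap A L)).E →+* FM), IsLocalHom h ∧
      (∀ a, jE (s.mapE (algebraMap A L) a) = algebraMap B FM (h a)) ∧
      ∀ y, jE ((s.map (algebraMap A L)).br₁ (Pairs.map ν hΨ y)) = Λ y := by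
  have hqp := hs.prime_q
  have := Fact.mk hqp
  have hinj := IsFractionRing.injective B FM
  obtain ⟨jA, hjl, hjA⟩ := exists_int_map (B := B) (L := L) hqp hs.max_eq hB j
  have := hjl
  have hjAT : jA T = TB := hinj (by rw [hjA, hTB])
  have hx₀ : ρ (jA s.x₀) = ρ TB ^ q := by
    rw [← hjAT]
    exact ((residue_comp_eq (ρ.comp jA) (hs.x₀_mod.trans (map_pow _ _ _).symm)).trans
      (map_pow (ρ.comp jA) T q))
  -- roots of the modular equation
  have hcomp : j.comp (algebraMap A L) = (algebraMap B FM).comp jA :=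
    RingHom.ext fun a => (hjA a).symm
  have hroot : ∀ (b : B) (p : Pairs Ψ₀), Λ p = algebraMap B FM b →
      Ψ₀.eval₂ (Pairs.ofBase Ψ₀) p = 0 → ΨA.eval₂ jA b = 0 := by
    intro b p hp hev
    refine hinj ?_
    rw [hom_eval₂, ← hcomp, ← eval₂_map, ← hΨ, eval₂_map, map_zero, ← hp,
      show j.comp ν = Λ.comp (Pairs.ofBase Ψ₀) from RingHom.ext fun a => (hΛ a).symm,
      ← hom_eval₂, hev, map_zero]
  have hx₁0 : ΨA.eval₂ jA x₁ = 0 := hroot x₁ _ h1 Pairs.eval₂_fst
  have hz0 : ΨA.eval₂ jA z = 0 := hroot z _ h2 Pairs.eval₂_snd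
  have hquo : ∀ b : B, b ≠ jA s.x₀ → ΨA.eval₂ jA b = 0 → s.quo.eval₂ jA b = 0 := by
    intro b hb h0
    have h := congrArg (eval₂ jA b) s.sub_mul_quo
    rw [eval₂_mul, h0, eval₂_sub, eval₂_X, eval₂_C, mul_eq_zero] at h
    exact h.resolve_left (sub_ne_zero.2 hb)
  have hne₁ : x₁ ≠ jA s.x₀ := fun h => hne (by
    conv_rhs => rw [h, hx₀, ← hx]
    rw [← pow_mul])
  have hzx₀ : z = jA s.x₀ := by
    by_contra hne'
    have h := congrArg ρ (hquo z hne' hz0)
    rw [hom_eval₂, map_zero] at h
    have hres : ∀ a, ρ.comp jA a = ResidueField.lift (ρ.comp jA) (residue A a) := fun a =>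
      (ResidueField.lift_residue_apply _ a).symm
    rw [show ρ.comp jA = (ResidueField.lift (ρ.comp jA)).comp (residue A) from RingHom.ext hres,
      ← eval₂_map, hs.quo_mod, eval₂_sub, eval₂_X_pow, eval₂_C, sub_eq_zero,
      ResidueField.lift_residue_apply, RingHom.comp_apply, hjAT, hz, ← hx] at h
    exact hne ((frobenius_inj k q) h)
  have hx₁q : s.quo.eval₂ jA x₁ = 0 := hquo x₁ hne₁ hx₁0
  let h : s.E →+* B := AdjoinRoot.lift jA x₁ hx₁q
  have hq' : (s.map (algebraMap A L)).quo.eval₂ j (algebraMap B FM x₁) = 0 := by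
    rw [RootSplit.quo_map, eval₂_map, hcomp, ← hom_eval₂, hx₁q, map_zero]
  let jE : (s.map (algebraMap A L)).E →+* FM := AdjoinRoot.lift j (algebraMap B FM x₁) hq'
  have hjE : ∀ a, jE (s.mapE (algebraMap A L) a) = algebraMap B FM (h a) := by
    have : jE.comp (s.mapE (algebraMap A L)) = (algebraMap B FM).comp h := by
      refine AdjoinRoot.ringHom_ext (RingHom.ext fun a => ?_) ?_
      · simp [jE, h, RootSplit.mapE, hjA]
      · simp [jE, h, RootSplit.mapE]
    exact RingHom.congr_fun this
  refine ⟨h, jE, ⟨fun a ha => ?_⟩, hjE, fun y => ?_⟩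
  · have := hs.isLocalRing_E
    by_contra hna
    have ha' : a ∈ maximalIdeal s.E := hna
    rw [hs.maximalIdeal_E, Ideal.mem_span_singleton] at ha'
    obtain ⟨c, rfl⟩ := ha'
    rw [map_mul, map_natCast] at ha
    exact ((IsDiscreteValuationRing.irreducible_iff_uniformizer _).2 hB).not_isUnit
      (isUnit_of_mul_isUnit_left ha)
  · have : (jE.comp (s.map (algebraMap A L)).br₁).comp (Pairs.map ν hΨ) = Λ := by
      refine Pairs.ringHom_ext (RingHom.ext fun a => ?_) ?_ ?_
      · simp [jE, RootSplit.br₁, hΛ]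
      · simp [jE, RootSplit.br₁, h1]
      · simp [jE, RootSplit.br₁, h2, hzx₀, hjA]
    exact RingHom.congr_fun this y

end FLTA.RT.Qsq

end
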