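import Fermat.Agent.RT.Qsq.SeriesHat
import Fermat.Agent.Carayol.Node.Local
import Fermat.Agent.Carayol.Node.Series

/-!
# The Gauss field maps to the completion of the series

A map of the cover to the fractions of the completed series, sending `T` to a series whose
reduction is transcendental, factors through the Gauss field.
-/

set_option autoImplicit false
set_option maxHeartbeats 1000000
set_option synthInstance.maxHeartbeats 400000

noncomputable section

open IsLocalRing Polynomial ModularCurve FLTA.Carayol

namespace FLTA.RT.Qsq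

variable {W : Type} [CommRing W] [IsDomain W] [IsDiscreteValuationRing W] [CharZero W]
  {q : ℕ} [Fact q.Prime] [Fact (Prime (C (q : W) : W[X]))]
  [Fact (Prime (PowerSeries.C (q : W) : PowerSeries W))] {k : Type} [Field k]
  {Φ : ℤ[X][X]} {Q : W[X][X]}

theorem exists_gaussMap (hW : maximalIdeal W = Ideal.span {(q : W)}) (r : W →+* k)
    (hr : RingHom.ker r = maximalIdeal W) (gm : GaussModel W q Φ Q)
    (τ : CoverAlg W Q →+* FractionRing (SerB W q)) (T : LaurentSeries W)
    (htr : ∀ p : k[X], p ≠ 0 → aeval (coeffMap r T) p ≠ 0)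
    (hC : ∀ w, τ (coverBase Q (C w)) = algebraMap _ _ (laurentToHat hW (HahnSeries.C w)))
    (hX : τ (coverBase Q X) = algebraMap _ _ (laurentToHat hW T)) :
    ∃ jL : FractionRing gm.A →+* FractionRing (SerB W q), τ = jL.comp gm.g := by
  have hqp : q.Prime := Fact.out
  let FM := FractionRing (SerB W q)
  let b : W[X] →+* SerB W q :=
    (laurentToHat hW).comp (eval₂RingHom (HahnSeries.C (Γ := ℤ) (R := W)) T)
  have hb : (algebraMap (SerB W q) FM).comp b = τ.comp (coverBase Q) :=
    Polynomial.ringHom_ext (fun w => by simp [b, FM, hC]) (by simp [b, FM, hX])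
  obtain ⟨ρ, hρl, hρ⟩ := exists_resSeries (W := W) (q := q) hW r hr
  obtain ⟨F, hF⟩ := exists_hat_lift (C (q : W) : W[X]) b
    (by
      rw [map_natCast C, map_natCast b, maximalIdeal_hatSeries]
      exact Ideal.mem_span_singleton_self _)
    fun p hp => by
      refine hρl.map_nonunit _ (isUnit_iff_ne_zero.2 ?_)
      have e : ρ (b p) = aeval (coeffMap r T) (p.map r) := by
        show ρ (laurentToHat hW _) = _
        rw [← RingHom.comp_apply, hρ, coe_eval₂RingHom, hom_eval₂, aeval_def, eval₂_map]
        refine congrArg (fun φ => eval₂ φ (coeffMap r T) p) (RingHom.ext fun w => ?_)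
        rw [RingHom.comp_apply, RingHom.comp_apply, coeffMap_const,
          algebraMap_laurentSeries_eq_single, HahnSeries.C_apply]
      rw [e]
      refine htr _ fun h0 => hp ((C_dvd_polynomial_iff
        ((IsDiscreteValuationRing.irreducible_iff_uniformizer _).2 hW) (p := p)).2 ?_)
      ext i
      have h1 := congrArg (fun s => s.coeff i) h0
      simp only [coeff_map, coeff_zero] at h1 ⊢
      rw [residue_eq_zero_iff, ← hr]
      exact h1
  have : CharZero (PowerSeries W) :=
    charZero_of_injective_ringHom (f := PowerSeries.C (R := W)) PowerSeries.C_injective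
  have : CharZero (SerB W q) := charZero_of_injective_ringHom
    (f := toHat (PowerSeries.C (q : W) : PowerSeries W)) (toHat_injective _)
  have hinj : Function.Injective ((algebraMap (SerB W q) FM).comp F) :=
    (IsFractionRing.injective _ FM).comp (injective_of_hat hqp.ne_zero F)
  let Φf : FractionRing (HatAt (C (q : W) : W[X])) →+* FM := IsFractionRing.lift hinj
  have hΦf : Φf.comp (gaussHom W q) = τ.comp (coverBase Q) := by
    rw [← hb, ← hF]
    ext p <;> simp [Φf, gaussHom]
  have hρ : (Q.map (gaussHom W q)).eval₂ Φf (τ (AdjoinRoot.root _)) = 0 := by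
    rw [eval₂_map, hΦf]
    have h0 : (Q.map (algebraMap W[X] (FractionRing W[X]))).eval₂ (AdjoinRoot.of _)
        (AdjoinRoot.root _) = (0 : CoverAlg W Q) := AdjoinRoot.eval₂_root _
    rw [eval₂_map] at h0
    rw [← hom_eval₂, show coverBase Q =
      (AdjoinRoot.of _).comp (algebraMap W[X] (FractionRing W[X])) from rfl, h0, map_zero]
  refine ⟨(AdjoinRoot.lift Φf _ hρ).comp gm.e.symm.toRingHom, ?_⟩
  have h1 : ∀ p, gm.e.symm (gm.g (coverBase Q p)) = AdjoinRoot.of _ (gaussHom W q p) := fun p => by
    rw [RingEquiv.symm_apply_eq, ← RingHom.comp_apply gm.g, gm.g_base]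
    exact (gm.e_coeff _).symm
  refine AdjoinRoot.ringHom_ext (IsLocalization.ringHom_ext (nonZeroDivisors W[X])
    (RingHom.ext fun p => ?_)) ?_
  · have e3 := RingHom.congr_fun hΦf p
    simp only [RingHom.comp_apply] at e3 ⊢
    rw [show AdjoinRoot.of _ (algebraMap W[X] (FractionRing W[X]) p) = coverBase Q p from rfl]
    simp only [RingEquiv.toRingHom_eq_coe, RingHom.coe_coe, h1, AdjoinRoot.lift_of, e3]
  · simp only [RingHom.comp_apply, RingEquiv.toRingHom_eq_coe, RingHom.coe_coe, gm.g_root,
      RingEquiv.symm_apply_apply, AdjoinRoot.lift_root]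

/-- A series with a simple pole, or a substitution of one, is transcendental. -/
theorem aeval_qExpand_ne_zero {d : ℕ} [NeZero d] {x : LaurentSeries k} (hx : x.order = -1)
    (p : k[X]) (hp : p ≠ 0) : aeval (qExpand k d x) p ≠ 0 := by
  have e : aeval (qExpand k d x) p = qExpand k d (aeval x p) := by
    rw [aeval_def, aeval_def, hom_eval₂]
    refine congrArg (fun φ => eval₂ φ (qExpand k d x) p) (RingHom.ext fun c => ?_)
    rw [RingHom.comp_apply, algebraMap_laurentSeries_eq_single, qExpand_single, mul_zero]
  rw [e, map_ne_zero_iff _ (qExpand k d).injective]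
  exact (Haupt.order_aeval_of_pole hx hp).1

end FLTA.RT.Qsq

end
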