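import Fermat.Agent.RT.Qsq.MiddleVal
import Mathlib.Algebra.Polynomial.Taylor
import Mathlib.Algebra.Polynomial.FieldDivision
import Mathlib.FieldTheory.IntermediateField.Basic

/-!
# Leading reductions at the totally ramified roots

`R` is a field of series whose valuations are multiples of `e`, and `P` is a monic polynomial
over `R` with one root congruent to `z₀` and `e` roots at distance exactly `1` from `X₀`.  A
polynomial in such a root has lead `c Θ ^ m η`, with `η` among the leads of `R`.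
-/

set_option autoImplicit false

noncomputable section

open ModularCurve FLTA.BadRed FLTA.LevelLowering Polynomial

namespace FLTA.RT.Qsq

variable {K : Type*} [Field K] {A : ValuationSubring K} {k : Type*} [Field k] {π : A →+* k}
  (fr : Frame A π)

/-- Quotients of bounded series with coefficients in the frame. -/
def HasRep (y : LaurentSeries K) : Prop :=
  ∃ a b : LaurentSeries K, fr.InL a ∧ fr.InL b ∧ (∃ n, fr.Ge a n) ∧ (∃ n, fr.Ge b n) ∧ b ≠ 0 ∧
    y * b = a

variable {fr}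

theorem inL_add {x y : LaurentSeries K} (hx : fr.InL x) (hy : fr.InL y) : fr.InL (x + y) :=
  fun i => by rw [HahnSeries.coeff_add]; exact add_mem (hx i) (hy i)

theorem inL_zero : fr.InL (0 : LaurentSeries K) := fun i => by
  rw [HahnSeries.coeff_zero]; exact zero_mem _

theorem inL_one : fr.InL (1 : LaurentSeries K) := fun i => by
  rw [HahnSeries.coeff_one]
  split_ifs
  · exact one_mem _
  · exact zero_mem _

theorem inL_mul {x y : LaurentSeries K} (hx : fr.InL x) (hy : fr.InL y) : fr.InL (x * y) :=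
  fun i => by
    rw [HahnSeries.coeff_mul]
    exact sum_mem fun j _ => mul_mem (hx _) (hy _)

theorem exists_bound_of_ge {a : LaurentSeries K} {n : ℤ} (h : fr.Ge a n) :
    ∃ c : K, c ≠ 0 ∧ IntSeries A (c • a) :=
  ⟨fr.ϖ ^ (-n), zpow_ne_zero _ fr.ϖ_ne_zero, h⟩

theorem exists_ge_zero : ∃ n, fr.Ge (0 : LaurentSeries K) n := ⟨0, fr.ge_zero 0⟩

theorem exists_ge_one : ∃ n, fr.Ge (1 : LaurentSeries K) n := ⟨0, (isVal_one fr).1.1⟩

theorem exists_ge_add {a b : LaurentSeries K} (ha : ∃ n, fr.Ge a n) (hb : ∃ n, fr.Ge b n) :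
    ∃ n, fr.Ge (a + b) n := by
  obtain ⟨n, hn⟩ := ha
  obtain ⟨m, hm⟩ := hb
  exact ⟨min n m, (hn.mono fr (min_le_left _ _)).add fr (hm.mono fr (min_le_right _ _))⟩

theorem exists_ge_mul {a b : LaurentSeries K} (ha : ∃ n, fr.Ge a n) (hb : ∃ n, fr.Ge b n) :
    ∃ n, fr.Ge (a * b) n := by
  obtain ⟨n, hn⟩ := ha
  obtain ⟨m, hm⟩ := hb
  exact ⟨n + m, hn.mul fr hm⟩

theorem hasRep_of_ge {y : LaurentSeries K} (h : fr.InL y) (hy : ∃ n, fr.Ge y n) : HasRep fr y :=
  ⟨y, 1, h, inL_one, hy, exists_ge_one, one_ne_zero, mul_one y⟩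

theorem HasRep.add {x y : LaurentSeries K} (hx : HasRep fr x) (hy : HasRep fr y) :
    HasRep fr (x + y) := by
  obtain ⟨a, b, ha, hb, ga, gb, hb0, he⟩ := hx
  obtain ⟨a', b', ha', hb', ga', gb', hb0', he'⟩ := hy
  exact ⟨a * b' + a' * b, b * b', inL_add (inL_mul ha hb') (inL_mul ha' hb), inL_mul hb hb',
    exists_ge_add (exists_ge_mul ga gb') (exists_ge_mul ga' gb), exists_ge_mul gb gb',
    mul_ne_zero hb0 hb0', by rw [← he, ← he']; ring⟩

theorem HasRep.mul {x y : LaurentSeries K} (hx : HasRep fr x) (hy : HasRep fr y) :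
    HasRep fr (x * y) := by
  obtain ⟨a, b, ha, hb, ga, gb, hb0, he⟩ := hx
  obtain ⟨a', b', ha', hb', ga', gb', hb0', he'⟩ := hy
  exact ⟨a * a', b * b', inL_mul ha ha', inL_mul hb hb', exists_ge_mul ga ga',
    exists_ge_mul gb gb', mul_ne_zero hb0 hb0', by rw [← he, ← he']; ring⟩

theorem hasRep_zero : HasRep fr (0 : LaurentSeries K) := hasRep_of_ge inL_zero exists_ge_zero

theorem hasRep_one : HasRep fr (1 : LaurentSeries K) := hasRep_of_ge inL_one exists_ge_one

theorem HasRep.pow {x : LaurentSeries K} (hx : HasRep fr x) : ∀ i : ℕ, HasRep fr (x ^ i) := by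
  intro i
  induction i with
  | zero => rw [pow_zero]; exact hasRep_one
  | succ i ih => rw [pow_succ]; exact ih.mul hx

theorem HasRep.exists_hasVal {y : LaurentSeries K} (h : HasRep fr y) (hy : y ≠ 0) :
    ∃ n Y, HasVal fr y n Y := by
  obtain ⟨a, b, ha, hb, ⟨n, ga⟩, ⟨m, gb⟩, hb0, he⟩ := h
  have ha0 : a ≠ 0 := he ▸ mul_ne_zero hy hb0
  obtain ⟨na, hna⟩ := fr.exists_isVal ha ha0 (exists_bound_of_ge ga)
  obtain ⟨nb, hnb⟩ := fr.exists_isVal hb hb0 (exists_bound_of_ge gb)
  exact ⟨_, fr.lead a / fr.lead b, a, b, na, nb, hna, hnb, he, rfl,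
    div_mul_cancel₀ _ (hnb.lead_ne_zero fr)⟩

theorem hasVal_prod_proportional {X : LaurentSeries k} {ι : Type*} (s : Finset ι)
    {f : ι → LaurentSeries K} {m : ℤ} {c : ι → k}
    (h : ∀ i ∈ s, HasVal fr (f i) m (HahnSeries.C (c i) * X)) :
    HasVal fr (∏ i ∈ s, f i) (s.card * m) (HahnSeries.C (∏ i ∈ s, c i) * X ^ s.card) := by
  classical
  induction s using Finset.induction with
  | empty => simpa using hasVal_one (fr := fr)
  | @insert i s hi ih =>
    have h1 := (h i (Finset.mem_insert_self i s)).mul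
      (ih fun j hj => h j (Finset.mem_insert_of_mem hj))
    rw [Finset.prod_insert hi, Finset.prod_insert hi, Finset.card_insert_of_notMem hi,
      Nat.cast_succ, add_mul, one_mul, add_comm ((s.card : ℤ) * m), map_mul, pow_succ]
    convert h1 using 1
    ring

theorem geF_prod_zero {ι : Type*} (s : Finset ι) {f : ι → LaurentSeries K}
    (h : ∀ i ∈ s, GeF fr (f i) 0) : GeF fr (∏ i ∈ s, f i) 0 := by
  classical
  induction s using Finset.induction with
  | empty => simpa using (hasVal_one (fr := fr)).geF le_rfl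
  | @insert i s hi ih =>
    rw [Finset.prod_insert hi]
    have := (h i (Finset.mem_insert_self i s)).mul
      (ih fun j hj => h j (Finset.mem_insert_of_mem hj))
    rwa [add_zero] at this

variable (fr) in
/-- The data at the totally ramified roots. -/
structure ApproxData (R : Type*) [Field R] (Fk : IntermediateField k (LaurentSeries k))
    (Θ : LaurentSeries k) (e : ℕ) where
  /-- the series of `R` -/
  θ : R →+* LaurentSeries K
  /-- the polynomial -/
  P : R[X]
  /-- the distinguished root -/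
  zi : LaurentSeries K
  /-- the other roots -/
  r : Fin e → LaurentSeries K
  /-- the centre of the other roots -/
  X₀ : R
  /-- an approximation of the distinguished root -/
  z₀ : R
  monic : P.Monic
  split : P.map θ = (X - C zi) * ∏ i, (X - C (r i))
  val : ∀ h : R, h ≠ 0 → HasRep fr (θ h) ∧
    ∃ (n : ℤ) (Y : LaurentSeries k), Y ∈ Fk ∧ HasVal fr (θ h) ((e : ℤ) * n) Y
  rep : ∀ i, HasRep fr (r i)
  center : ∀ i, ∃ c : k, c ≠ 0 ∧ HasVal fr (r i - θ X₀) 1 (HahnSeries.C c * Θ)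
  near : GeF fr (zi - θ z₀) 1
  apart : ∃ Y, HasVal fr (θ z₀ - θ X₀) 0 Y
  e_pos : 0 < e
  Θ_ne : Θ ≠ 0

namespace ApproxData

variable {R : Type*} [Field R] {Fk : IntermediateField k (LaurentSeries k)} {Θ : LaurentSeries k}
  {e : ℕ} (d : ApproxData fr R Fk Θ e)

theorem eval_eq (z : R) : d.θ (d.P.eval z) = (d.θ z - d.zi) * ∏ i, (d.θ z - d.r i) := by
  rw [← eval₂_at_apply, ← eval_map, d.split]
  simp [eval_prod]

include d in
/-- The power of `Θ` in the reduced field. -/
theorem theta_pow_mem : Θ ^ e ∈ Fk := by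
  classical
  choose c hc hr using d.center
  obtain ⟨Y₀, hY₀⟩ := d.apart
  have hz : d.z₀ - d.X₀ ≠ 0 := fun h => hY₀.ne_zero (by rw [← map_sub, h, map_zero])
  obtain ⟨-, n₀, Y₁, hY₁mem, hY₁⟩ := d.val _ hz
  rw [map_sub] at hY₁
  obtain ⟨-, rfl⟩ := hY₁.unique hY₀
  have hfirst : HasVal fr (d.θ d.X₀ - d.zi) 0 (-Y₁) := by
    have h1 := ((hasVal_C_unit (fr := fr) (-1) (by simp)).mul hY₀).add_geF (d.near.neg)
    have e1 : HahnSeries.C (((-1 : A) : K)) * (d.θ d.z₀ - d.θ d.X₀) + -(d.zi - d.θ d.z₀) =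
        d.θ d.X₀ - d.zi := by
      simp only [NegMemClass.coe_neg, OneMemClass.coe_one, map_neg, map_one]
      ring
    rw [e1] at h1
    simpa using h1
  have hprod : HasVal fr (∏ i, (d.θ d.X₀ - d.r i)) ((e : ℤ) * 1)
      (HahnSeries.C (∏ i, -c i) * Θ ^ e) := by
    have h := hasVal_prod_proportional (fr := fr) (m := 1) (c := fun i => -c i) Finset.univ
      (f := fun i => d.θ d.X₀ - d.r i) (X := Θ) fun i _ => by
        have h1 := (hasVal_C_unit (fr := fr) (-1) (by simp)).mul (hr i)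
        simpa [mul_assoc, mul_sub, sub_eq_add_neg, add_comm] using h1
    simpa using h
  have hP : d.θ (d.P.eval d.X₀) ≠ 0 := by
    rw [d.eval_eq]; exact (hfirst.mul hprod).ne_zero
  obtain ⟨-, n, Y, hYmem, hY⟩ := d.val (d.P.eval d.X₀) fun h => hP (by rw [h, map_zero])
  rw [d.eval_eq] at hY
  obtain ⟨-, rfl⟩ := hY.unique (hfirst.mul hprod)
  have hne : -Y₁ * HahnSeries.C (∏ i, -c i) ≠ 0 := mul_ne_zero (neg_ne_zero.mpr hY₀.lead_ne_zero)
    fun h => Finset.prod_ne_zero_iff.mpr (fun i _ => neg_ne_zero.mpr (hc i))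
      (HahnSeries.C_injective (h.trans (map_zero _).symm))
  have hmem : -Y₁ * HahnSeries.C (∏ i, -c i) ∈ Fk :=
    mul_mem (neg_mem hY₁mem) (by
      rw [HahnSeries.C_apply, ← algebraMap_laurentSeries_eq_single]
      exact Fk.algebraMap_mem _)
  have e2 : Θ ^ e = (-Y₁ * (HahnSeries.C (∏ i, -c i) * Θ ^ e)) /
      (-Y₁ * HahnSeries.C (∏ i, -c i)) := by
    rw [eq_div_iff hne]; ring
  rw [e2]
  exact div_mem hYmem hmem

/-- The approximations of the distinguished root. -/
def approx : ℕ → R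
  | 0 => d.z₀
  | n + 1 => approx n - d.P.eval (approx n) * ((d.z₀ - d.X₀) ^ e)⁻¹

theorem geF_approx : ∀ N : ℕ, GeF fr (d.θ (d.approx N) - d.zi) (N + 1 : ℤ) := by
  intro N
  induction N with
  | zero =>
    have h := d.near.neg
    rw [neg_sub] at h
    simpa [approx] using h
  | succ N ih =>
    obtain ⟨Y₀, hY₀⟩ := d.apart
    set z := d.θ (d.approx N) with hz
    set b := d.θ d.z₀ - d.θ d.X₀ with hb
    have hb0 : b ≠ 0 := hY₀.ne_zero
    have hfac : ∀ i ∈ (Finset.univ : Finset (Fin e)), GeF fr ((z - d.r i) * b⁻¹ - 1) 1 := by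
      intro i _
      obtain ⟨c, -, hc⟩ := d.center i
      have e1 : (z - d.r i) * b⁻¹ - 1 =
          ((z - d.zi) + (d.zi - d.θ d.z₀) - (d.r i - d.θ d.X₀)) * b⁻¹ := by
        rw [show z - d.r i = b + ((z - d.zi) + (d.zi - d.θ d.z₀) - (d.r i - d.θ d.X₀)) by
          rw [hb]; ring, add_mul, mul_inv_cancel₀ hb0]
        ring
      rw [e1]
      have h := (((ih.mono (by omega)).add d.near).sub (hc.geF le_rfl)).mul
        (hY₀.inv.geF (le_refl (-(0 : ℤ))))
      simpa using h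
    have h1 := ih.mul (geF_prod_sub_one _ hfac).neg
    have e2 : (z - d.zi) * -(∏ i, (z - d.r i) * b⁻¹ - 1) =
        d.θ (d.approx (N + 1)) - d.zi := by
      rw [approx, map_sub, map_mul, d.eval_eq, map_inv₀, map_pow, map_sub, ← hz, ← hb,
        Finset.prod_mul_distrib, Finset.prod_const, Finset.card_univ, Fintype.card_fin, inv_pow]
      ring
    rw [← e2]
    refine h1.mono ?_
    push_cast
    omega

/-- A monic polynomial of degree `e` almost vanishing at the ramified roots. -/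
theorem exists_approx_factor (N : ℕ) : ∃ G : R[X], G.Monic ∧ G.natDegree = e ∧
    ∀ i, GeF fr (G.eval₂ d.θ (d.r i)) (N + 1 : ℤ) := by
  classical
  set z := d.approx N with hz
  have hdegP : d.P.natDegree = e + 1 := by
    rw [← natDegree_map d.θ, d.split, natDegree_mul (X_sub_C_ne_zero _)
      (Finset.prod_ne_zero_iff.mpr fun i _ => X_sub_C_ne_zero _), natDegree_X_sub_C,
      natDegree_finset_prod_X_sub_C_eq_card, Finset.card_univ, Fintype.card_fin, add_comm]
  refine ⟨d.P /ₘ (X - C z), ?_, ?_, fun i => ?_⟩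
  · refine (monic_X_sub_C z).of_mul_monic_left ?_
    have hlt : (X - C z).degree ≤ d.P.degree := by
      rw [degree_X_sub_C, degree_eq_natDegree d.monic.ne_zero, hdegP]
      exact_mod_cast Nat.le_add_left 1 e
    have h := leadingCoeff_divByMonic_of_monic (monic_X_sub_C z) hlt
    rw [Monic, leadingCoeff_mul, h, d.monic, leadingCoeff_X_sub_C, one_mul]
  · rw [natDegree_divByMonic _ (monic_X_sub_C z), hdegP, natDegree_X_sub_C, Nat.add_sub_cancel]
  · have hr : d.P.eval₂ d.θ (d.r i) = 0 := by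
      rw [← eval_map, d.split, eval_mul, eval_prod,
        Finset.prod_eq_zero (Finset.mem_univ i) (by simp), mul_zero]
    have h := congrArg (fun p => p.eval₂ d.θ (d.r i))
      (modByMonic_add_div d.P (X - C z))
    simp only [modByMonic_X_sub_C_eq_C_eval, eval₂_add, eval₂_mul, eval₂_sub, eval₂_X, eval₂_C,
      hr, d.eval_eq] at h
    obtain ⟨c, hc0, hc⟩ := d.center i
    have hne : d.θ z - d.r i ≠ 0 := by
      intro h0
      obtain ⟨Y₀, hY₀⟩ := d.apart
      have hsmall : GeF fr (d.θ d.z₀ - d.θ d.X₀) 1 := by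
        have h1 := ((((d.geF_approx N).mono (by omega)).add d.near).sub (hc.geF le_rfl)).neg
        rwa [show -((d.θ (d.approx N) - d.zi) + (d.zi - d.θ d.z₀) - (d.r i - d.θ d.X₀)) =
          d.θ d.z₀ - d.θ d.X₀ by rw [← hz]; linear_combination -h0] at h1
      have h2 := hY₀.add_geF (show GeF fr _ (0 + 1) by rw [zero_add]; exact hsmall.neg)
      rw [add_neg_cancel] at h2
      exact h2.ne_zero rfl
    have key : (d.P /ₘ (X - C z)).eval₂ d.θ (d.r i) =
        (d.θ z - d.zi) * ∏ j ∈ Finset.univ.erase i, (d.θ z - d.r j) := by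
      rw [← Finset.mul_prod_erase Finset.univ _ (Finset.mem_univ i)] at h
      refine mul_left_cancel₀ hne ?_
      linear_combination -h
    rw [key]
    refine ((d.geF_approx N).mul (geF_prod_zero _ fun j _ => ?_)).mono (by omega)
    obtain ⟨cj, -, hcj⟩ := d.center j
    obtain ⟨Y₀, hY₀⟩ := d.apart
    have h1 := ((((d.geF_approx N).mono (m := 0) (by omega)).add (d.near.mono zero_le_one)).add
      (hY₀.geF le_rfl)).sub (hcj.geF zero_le_one)
    rwa [show (d.θ (d.approx N) - d.zi) + (d.zi - d.θ d.z₀) + (d.θ d.z₀ - d.θ d.X₀) -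
      (d.r j - d.θ d.X₀) = d.θ z - d.r j by rw [hz]; ring] at h1

/-- **The lead of a polynomial in a ramified root.** -/
theorem exists_lead {g : R[X]} (hg : g.natDegree ≤ e) (hne : ∀ i, g.eval₂ d.θ (d.r i) ≠ 0) :
    ∃ (m : ℤ) (η : Fk), η ≠ 0 ∧ ∀ i, ∃ c : k, c ≠ 0 ∧
      HasVal fr (g.eval₂ d.θ (d.r i)) m (HahnSeries.C c * Θ ^ m * (η : LaurentSeries k)) := by
  classical
  have hreps : ∀ i, HasRep fr (g.eval₂ d.θ (d.r i)) := by
    intro i
    rw [eval₂_eq_sum_range]
    refine Finset.sum_induction _ _ (fun a b => HasRep.add) hasRep_zero fun j _ => ?_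
    rcases eq_or_ne (g.coeff j) 0 with h | h
    · rw [h, map_zero, zero_mul]; exact hasRep_zero
    · exact (d.val _ h).1.mul ((d.rep i).pow j)
  choose m Ym hm using fun i => (hreps i).exists_hasVal (hne i)
  -- the top coefficient
  obtain ⟨v, hv⟩ : ∃ v : ℤ, GeF fr (d.θ (g.coeff e)) v := by
    rcases eq_or_ne (g.coeff e) 0 with h | h
    · exact ⟨0, by rw [h, map_zero]; exact geF_zero 0⟩
    · obtain ⟨-, n, Y, -, hY⟩ := d.val _ h
      exact ⟨_, hY.geF le_rfl⟩
  obtain ⟨N, hN⟩ : ∃ N : ℕ, ∀ i, m i < v + (N + 1 : ℤ) := by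
    obtain ⟨B, hB⟩ := (Set.finite_range m).bddAbove
    refine ⟨(B - v).toNat, fun i => ?_⟩
    have := hB ⟨i, rfl⟩
    have := Int.self_le_toNat (B - v)
    omega
  obtain ⟨G, hG, hGdeg, hGsmall⟩ := d.exists_approx_factor N
  set s := g - C (g.coeff e) * G with hs
  have hsdeg : ∀ j, e ≤ j → s.coeff j = 0 := by
    intro j hj
    rw [hs, coeff_sub, coeff_C_mul]
    rcases hj.eq_or_lt with rfl | hj'
    · rw [← hGdeg, hG.coeff_natDegree, mul_one, sub_self]
    · rw [coeff_eq_zero_of_natDegree_lt (hg.trans_lt hj'),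
        coeff_eq_zero_of_natDegree_lt (hGdeg.trans_lt hj'), mul_zero, sub_zero]
  set w := taylor d.X₀ s with hw
  have hwdeg : ∀ j, e ≤ j → w.coeff j = 0 := by
    intro j hj
    refine coeff_eq_zero_of_natDegree_lt (lt_of_lt_of_le ?_ hj)
    rw [hw, natDegree_taylor]
    by_contra hlt
    rw [not_lt] at hlt
    have hs0 : s ≠ 0 := fun h => by
      rw [h, natDegree_zero] at hlt
      exact absurd hlt (not_le.mpr d.e_pos)
    exact hs0 (leadingCoeff_eq_zero.mp (hsdeg _ hlt))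
  choose c hc hcr using d.center
  set J := (Finset.range e).filter fun j => w.coeff j ≠ 0 with hJ
  have hval : ∀ j : {j // j ∈ J}, ∃ (n : ℤ) (Y : LaurentSeries k), Y ∈ Fk ∧
      HasVal fr (d.θ (w.coeff j.1)) ((e : ℤ) * n) Y := fun j =>
    (d.val _ (Finset.mem_filter.mp j.2).2).2
  choose n Y hYmem hY using hval
  have heval : ∀ i, s.eval₂ d.θ (d.r i) =
      ∑ j : {j // j ∈ J}, d.θ (w.coeff j.1) * (d.r i - d.θ d.X₀) ^ j.1 := by
    intro i
    have h1 : s.eval₂ d.θ (d.r i) = w.eval₂ d.θ (d.r i - d.θ d.X₀) := by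
      rw [hw, taylor_apply, eval₂_comp]
      congr 1
      simp
    rw [h1, eval₂_eq_sum_range' d.θ (n := max e (w.natDegree + 1))
      (lt_of_lt_of_le (Nat.lt_succ_self _) (le_max_right _ _))]
    rw [Finset.univ_eq_attach, Finset.sum_attach J fun j => d.θ (w.coeff j) * _ ^ j]
    refine (Finset.sum_subset (fun j hj => ?_) fun j _ hj => ?_).symm
    · exact Finset.mem_range.mpr (lt_of_lt_of_le
        (Finset.mem_range.mp (Finset.mem_filter.mp hj).1) (le_max_left _ _))
    · by_cases hje : j < e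
      · have : w.coeff j = 0 := by
          by_contra h0
          exact hj (Finset.mem_filter.mpr ⟨Finset.mem_range.mpr hje, h0⟩)
        rw [this, map_zero, zero_mul]
      · rw [hwdeg j (not_lt.mp hje), map_zero, zero_mul]
  have hsplit : ∀ i, g.eval₂ d.θ (d.r i) =
      s.eval₂ d.θ (d.r i) + d.θ (g.coeff e) * G.eval₂ d.θ (d.r i) := fun i => by
    rw [hs, eval₂_sub, eval₂_mul, eval₂_C, sub_add_cancel]
  have hlarge : ∀ i, GeF fr (d.θ (g.coeff e) * G.eval₂ d.θ (d.r i)) (m i + 1) := fun i =>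
    (hv.mul (hGsmall i)).mono (by have := hN i; omega)
  have hsval : ∀ i, HasVal fr (s.eval₂ d.θ (d.r i)) (m i) (Ym i) := fun i => by
    have h := (hm i).add_geF (hlarge i).neg
    rwa [hsplit i, add_neg_cancel_right] at h
  set i₀ : Fin e := ⟨0, d.e_pos⟩
  have hJne : (Finset.univ : Finset {j // j ∈ J}).Nonempty := by
    by_contra h0
    rw [Finset.not_nonempty_iff_eq_empty] at h0
    exact (hsval i₀).ne_zero (by rw [heval i₀, h0, Finset.sum_empty])
  have hlt : ∀ j : {j // j ∈ J}, j.1 < e := fun j =>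
    Finset.mem_range.mp (Finset.mem_filter.mp j.2).1
  obtain ⟨j₀, -, hmin⟩ :=
    Finset.exists_min_image Finset.univ (fun j => (e : ℤ) * n j + (j.1 : ℤ)) hJne
  have hinj : ∀ j, (e : ℤ) * n j + (j.1 : ℤ) = (e : ℤ) * n j₀ + (j₀.1 : ℤ) → j = j₀ := by
    intro j hj
    have h1 := hlt j
    have h2 := hlt j₀
    refine Subtype.ext ?_
    have h3 : ((e : ℤ) * n j + (j.1 : ℤ)) % (e : ℤ) = ((e : ℤ) * n j₀ + (j₀.1 : ℤ)) % (e : ℤ) := by
      rw [hj]
    rw [Int.mul_add_emod_self_left, Int.mul_add_emod_self_left,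
      Int.emod_eq_of_lt (Int.natCast_nonneg _) (by exact_mod_cast h1),
      Int.emod_eq_of_lt (Int.natCast_nonneg _) (by exact_mod_cast h2)] at h3
    exact_mod_cast h3
  have hΘe := d.theta_pow_mem
  refine ⟨(e : ℤ) * n j₀ + (j₀.1 : ℤ),
    ⟨Y j₀ * (Θ ^ e) ^ (-n j₀), mul_mem (hYmem j₀) (zpow_mem hΘe _)⟩, ?_, fun i => ?_⟩
  · intro h
    exact mul_ne_zero (hY j₀).lead_ne_zero (zpow_ne_zero _ (pow_ne_zero _ d.Θ_ne))
      (congrArg Subtype.val h)
  have hterm : ∀ j, HasVal fr (d.θ (w.coeff j.1) * (d.r i - d.θ d.X₀) ^ j.1)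
      ((e : ℤ) * n j + (j.1 : ℤ)) (Y j * (HahnSeries.C (c i) * Θ) ^ j.1) := fun j => by
    have h := (hY j).mul ((hcr i).pow j.1)
    rwa [mul_one] at h
  have hsum : HasVal fr (s.eval₂ d.θ (d.r i)) ((e : ℤ) * n j₀ + (j₀.1 : ℤ))
      (Y j₀ * (HahnSeries.C (c i) * Θ) ^ j₀.1) := by
    rw [heval i, ← Finset.add_sum_erase Finset.univ _ (Finset.mem_univ j₀)]
    refine (hterm j₀).add_geF (geF_sum _ fun j hj => (hterm j).geF ?_)
    exact Int.add_one_le_of_lt (lt_of_le_of_ne (hmin j (Finset.mem_univ j))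
      fun h => (Finset.mem_erase.mp hj).1 (hinj j h.symm))
  refine ⟨c i ^ j₀.1, pow_ne_zero _ (hc i), ?_⟩
  obtain ⟨hmi, -⟩ := (hsval i).unique hsum
  have hfinal := hsum.add_geF (hmi ▸ hlarge i)
  rw [← hsplit i] at hfinal
  convert hfinal using 1
  show HahnSeries.C (c i ^ j₀.1) * Θ ^ ((e : ℤ) * n j₀ + (j₀.1 : ℤ)) *
    (Y j₀ * (Θ ^ e) ^ (-n j₀)) = Y j₀ * (HahnSeries.C (c i) * Θ) ^ j₀.1
  rw [zpow_add₀ d.Θ_ne, zpow_natCast, zpow_mul, zpow_natCast, zpow_neg, mul_pow, ← map_pow]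
  field_simp [pow_ne_zero e d.Θ_ne]

end ApproxData

end FLTA.RT.Qsq

end
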