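import Fermat.Agent.Carayol.BridgeGen
import Fermat.Agent.Congruence.NormCongr
import Mathlib.RingTheory.Polynomial.Cyclotomic.Roots
import Mathlib.FieldTheory.Normal.Basic
import Mathlib.FieldTheory.AbsoluteGaloisGroup

/-!
# The middle embeddings of level `M q²`

With `e ^ q = q`-parameter of `τ ↦ q τ`, a middle embedding sends `j(a τ) ↦ j(e ^ a)`,
`j(a q τ) ↦ j(e ^ (a q))` and `j(a q² τ) ↦ j(u ^ a e ^ a)` for a primitive `q`-th root of unity `u`.
-/

set_option autoImplicit false
set_option synthInstance.maxHeartbeats 400000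

noncomputable section

open AlgebraicCurve ModularCurve FLTA.Congruence FLTA.Carayol.Bridge

namespace FLTA.RT.Qsq

local notation "Qb" => AlgebraicClosure ℚ

variable (M q : ℕ) [NeZero M] [NeZero q]

/-- A middle embedding with root of unity `u`. -/
structure IsMiddle (u : (Qb)ˣ) (σ : fld Qb (M * q * q) →+* LaurentSeries Qb) : Prop where
  alpha : ∀ g, σ (heckeAlphaBar Qb (M * q) q g) = (g : LaurentSeries Qb)
  beta : ∀ g, σ (heckeBetaBar Qb (M * q) q (heckeBetaBar Qb M q g)) =
    scaleHom u (g : LaurentSeries Qb)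

theorem beta_alpha (g : fld Qb M) :
    heckeBetaBar Qb (M * q) q (heckeAlphaBar Qb M q g) =
      heckeAlphaBar Qb (M * q) q (heckeBetaBar Qb M q g) :=
  Subtype.ext (by simp)

/-- Level `M q²` is generated by the image along `α` and the twice iterated image along `β`. -/
theorem subfield_eq_top (hq : q.Prime) (S : Subfield (fld Qb (M * q * q)))
    (hα : ∀ g, heckeAlphaBar Qb (M * q) q g ∈ S)
    (hβ : ∀ g, heckeBetaBar Qb (M * q) q (heckeBetaBar Qb M q g) ∈ S) : S = ⊤ := by
  refine eq_top_iff.mpr fun x _ => ?_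
  have hgen : ∀ (d : ℕ) (_ : NeZero d) (hd : d ∣ M * q * q), jGenBar (M * q * q) d hd ∈ S := by
    intro d _ hd
    by_cases hqd : q ∣ d
    · obtain ⟨d', rfl⟩ := hqd
      have : NeZero d' := ⟨right_ne_zero_of_mul (NeZero.ne (q * d'))⟩
      have hd' : d' ∣ M * q :=
        Nat.dvd_of_mul_dvd_mul_left hq.pos (by rwa [mul_comm (M * q) q] at hd)
      have e : jGenBar (L := Qb) (M * q * q) (q * d') hd =
          heckeBetaBar Qb (M * q) q (jGenBar (M * q) d' hd') :=
        Subtype.ext (qExpand_qExpand d' q _).symm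
      rw [e]
      by_cases hqd' : q ∣ d'
      · obtain ⟨d'', rfl⟩ := hqd'
        have : NeZero d'' := ⟨right_ne_zero_of_mul (NeZero.ne (q * d''))⟩
        have hd'' : d'' ∣ M :=
          Nat.dvd_of_mul_dvd_mul_left hq.pos (by rwa [mul_comm M q] at hd')
        have e' : jGenBar (L := Qb) (M * q) (q * d'') hd' =
            heckeBetaBar Qb M q (jGenBar M d'' hd'') :=
          Subtype.ext (qExpand_qExpand d'' q _).symm
        rw [e']
        exact hβ _
      · have hdM : d' ∣ M :=
          ((hq.coprime_iff_not_dvd.mpr hqd').symm).dvd_of_dvd_mul_right hd'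
        have e' : jGenBar (L := Qb) (M * q) d' hd' = heckeAlphaBar Qb M q (jGenBar M d' hdM) :=
          Subtype.ext rfl
        rw [e', beta_alpha]
        exact hα _
    · have hdM : d ∣ M * q :=
        ((hq.coprime_iff_not_dvd.mpr hqd).symm).dvd_of_dvd_mul_right hd
      have e : jGenBar (L := Qb) (M * q * q) d hd =
          heckeAlphaBar Qb (M * q) q (jGenBar (M * q) d hdM) := Subtype.ext rfl
      rw [e]
      exact hα _
  set T : Subfield (LaurentSeries Qb) := S.map (fld Qb (M * q * q)).toSubfield.subtype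
  have hle : (fld Qb (M * q * q)).toSubfield ≤ T := by
    have h := congrArg IntermediateField.toSubfield
      (laurentBaseChange_full_eq_adjoin (L := Qb) (M * q * q))
    rw [IntermediateField.adjoin_toSubfield] at h
    refine h.le.trans (Subfield.closure_le.mpr ?_)
    rintro z (⟨a, rfl⟩ | ⟨d, hd, hdM, rfl⟩)
    · have ha := hα (algebraMap Qb _ a)
      rw [AlgHom.commutes] at ha
      exact ⟨_, ha, rfl⟩
    · exact ⟨_, hgen d hd hdM, rfl⟩
  obtain ⟨y, hy, hyx⟩ := Subfield.mem_map.mp (hle x.2)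
  exact (Subtype.ext hyx : y = x) ▸ hy

variable {M q}

/-- Homomorphisms agreeing on the two images agree. -/
theorem ringHom_ext_middle (hq : q.Prime) {E : Type*} [Field E]
    {σ τ : fld Qb (M * q * q) →+* E}
    (hα : ∀ g, σ (heckeAlphaBar Qb (M * q) q g) = τ (heckeAlphaBar Qb (M * q) q g))
    (hβ : ∀ g, σ (heckeBetaBar Qb (M * q) q (heckeBetaBar Qb M q g)) =
      τ (heckeBetaBar Qb (M * q) q (heckeBetaBar Qb M q g))) : σ = τ := by
  have h := subfield_eq_top M q hq (RingHom.eqLocusField σ τ) hα hβ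
  exact RingHom.ext fun x => (h ▸ Subfield.mem_top x : x ∈ RingHom.eqLocusField σ τ)

theorem IsMiddle.unique (hq : q.Prime) {u : (Qb)ˣ}
    {σ τ : fld Qb (M * q * q) →+* LaurentSeries Qb} (hσ : IsMiddle M q u σ)
    (hτ : IsMiddle M q u τ) : σ = τ :=
  ringHom_ext_middle hq (fun g => (hσ.alpha g).trans (hτ.alpha g).symm)
    fun g => (hσ.beta g).trans (hτ.beta g).symm

/-- The conjugate of a middle embedding by an automorphism of the constants. -/
theorem IsMiddle.conj {u : (Qb)ˣ} {σ : fld Qb (M * q * q) →+* LaurentSeries Qb}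
    (hσ : IsMiddle M q u σ) (γ : Qb ≃ₐ[ℚ] Qb) :
    IsMiddle M q (Units.map (γ.toRingEquiv.toRingHom : Qb →* Qb) u)
      ((coeffMap γ.toRingEquiv.toRingHom).comp
        (σ.comp (mapF γ.symm.toRingEquiv.toRingHom (M * q * q)))) := by
  have key : ∀ (n : ℕ) (x : fld Qb n),
      coeffMap γ.toRingEquiv.toRingHom
        ((mapF γ.symm.toRingEquiv.toRingHom n x : fld Qb n) : LaurentSeries Qb) = x := by
    intro n x
    ext i
    simp
  refine ⟨fun g => ?_, fun g => ?_⟩
  · rw [RingHom.comp_apply, RingHom.comp_apply, mapF_heckeAlpha, hσ.alpha, key]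
  · rw [RingHom.comp_apply, RingHom.comp_apply, mapF_heckeBeta, mapF_heckeBeta, hσ.beta,
      coeffMap_scaleHom, key]

/-- The conjugate at a rational function. -/
theorem IsMiddle.coeffMap_apply (hq : q.Prime) {u v : (Qb)ˣ}
    {σ τ : fld Qb (M * q * q) →+* LaurentSeries Qb} (hσ : IsMiddle M q u σ)
    (hτ : IsMiddle M q v τ) (γ : Qb ≃ₐ[ℚ] Qb) (hγ : γ (u : Qb) = v) {x : fld Qb (M * q * q)}
    (hx : coeffMap γ.toRingEquiv.toRingHom (x : LaurentSeries Qb) = x) :
    coeffMap γ.toRingEquiv.toRingHom (σ x) = τ x := by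
  have hv : Units.map (γ.toRingEquiv.toRingHom : Qb →* Qb) u = v := Units.ext hγ
  have h := hv ▸ hσ.conj γ
  rw [← h.unique hq hτ, RingHom.comp_apply, RingHom.comp_apply]
  congr 2
  refine Subtype.ext (HahnSeries.ext (funext fun i => ?_))
  have hi := congrArg (fun y : LaurentSeries Qb => y.coeff i) hx
  simp only [coeffMap_coeff] at hi
  rw [coe_mapF, coeffMap_coeff]
  refine γ.injective ?_
  exact hi.trans (γ.apply_symm_apply _).symm

/-- The embeddings over level `M q` into series. -/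
theorem exists_label (hq : q.Prime) (hqM : ¬ q ∣ M) {ζ : (Qb)ˣ} (hζ : IsPrimitiveRoot ζ q)
    {E : Type*} [Field E] (ι : LaurentSeries Qb →+* E) (φ : fld Qb (M * q * q) →+* E)
    (hφ : ∀ g, φ (heckeAlphaBar Qb (M * q) q g) = ι (g : LaurentSeries Qb)) :
    ∃ c : Option (Fin q), ∀ g : fld Qb M,
      φ (heckeBetaBar Qb (M * q) q (heckeBetaBar Qb M q g)) =
        ι (conjSubst q ζ c (g : LaurentSeries Qb)) :=
  exists_conjSubst_of_root q M hq hqM modPolyExists_algebraicClosure hζ ι
    (φ.comp (heckeBetaBar Qb (M * q) q).toRingHom) fun x => by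
      show φ (heckeBetaBar Qb (M * q) q (heckeAlphaBar Qb M q x)) = _
      rw [beta_alpha, hφ, coe_heckeBetaBar]

/-- For odd `q` some primitive root carries a middle embedding. -/
theorem exists_isMiddle_aux (hq : q.Prime) (hq2 : q ≠ 2) (hqM : ¬ q ∣ M) :
    ∃ (u : (Qb)ˣ) (σ : fld Qb (M * q * q) →+* LaurentSeries Qb),
      IsPrimitiveRoot u q ∧ IsMiddle M q u σ := by
  classical
  obtain ⟨ζ, hζ⟩ := exists_isPrimitiveRoot_units Qb q
  let aF := algebraAlong (heckeAlphaBar Qb (M * q) q)
  have hdeg : Module.finrank (fld Qb (M * q)) (fld Qb (M * q * q)) = q := by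
    have h := finrankAlong_alpha Qb (M * q) q hq
    rw [if_pos (dvd_mul_left q M)] at h
    exact h
  have : FiniteDimensional (fld Qb (M * q)) (fld Qb (M * q * q)) :=
    Module.finite_of_finrank_pos (by rw [hdeg]; exact hq.pos)
  have : CharZero (fld Qb (M * q)) :=
    charZero_of_injective_algebraMap (algebraMap Qb _).injective
  set E := AlgebraicClosure (LaurentSeries Qb)
  set ι : LaurentSeries Qb →+* E := algebraMap (LaurentSeries Qb) E with hι
  let aE : Algebra (fld Qb (M * q)) E :=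
    (ι.comp (fld Qb (M * q)).toSubfield.subtype).toAlgebra
  have hφ : ∀ (φ : fld Qb (M * q * q) →ₐ[fld Qb (M * q)] E) g,
      φ.toRingHom (heckeAlphaBar Qb (M * q) q g) = ι (g : LaurentSeries Qb) :=
    fun φ g => φ.commutes g
  choose label hlabel using fun φ : fld Qb (M * q * q) →ₐ[fld Qb (M * q)] E =>
    exists_label hq hqM hζ ι φ.toRingHom (hφ φ)
  have hinj : Function.Injective label := fun φ ψ h =>
    AlgHom.coe_ringHom_injective (ringHom_ext_middle hq
      (fun g => (hφ φ g).trans (hφ ψ g).symm)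
      fun g => (hlabel φ g).trans (by rw [h]; exact (hlabel ψ g).symm))
  obtain ⟨φ, i, hi, hi0⟩ : ∃ φ, ∃ i : Fin q, label φ = some i ∧ i ≠ ⟨0, hq.pos⟩ := by
    by_contra hcon
    push Not at hcon
    have hsub : (Finset.univ.image label) ⊆ {none, some (⟨0, hq.pos⟩ : Fin q)} := by
      intro c hc
      obtain ⟨φ, -, rfl⟩ := Finset.mem_image.mp hc
      rcases hl : label φ with - | i
      · simp
      · simp [hcon φ i hl]
    have h := (Finset.card_le_card hsub).trans Finset.card_le_two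
    rw [Finset.card_image_of_injective _ hinj, Finset.card_univ, AlgHom.card, hdeg] at h
    have := hq.two_le
    omega
  have hu : IsPrimitiveRoot (ζ ^ (i : ℕ)) q := by
    refine hζ.pow_of_coprime _ ((hq.coprime_iff_not_dvd.mpr fun h => hi0 ?_).symm)
    exact Fin.ext (Nat.eq_zero_of_dvd_of_lt h i.2)
  have hrange : ∀ x, φ x ∈ ι.fieldRange := by
    intro x
    have h := subfield_eq_top M q hq (ι.fieldRange.comap φ.toRingHom)
      (fun g => ⟨_, (hφ φ g).symm⟩) (fun g => ⟨_, (hlabel φ g).symm⟩)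
    exact (h ▸ Subfield.mem_top x : x ∈ ι.fieldRange.comap φ.toRingHom)
  choose s hs using hrange
  refine ⟨ζ ^ (i : ℕ),
    { toFun := s
      map_one' := ι.injective (by rw [hs, map_one, map_one])
      map_mul' := fun x y => ι.injective (by rw [map_mul ι, hs, hs, hs, map_mul])
      map_zero' := ι.injective (by rw [hs, map_zero, map_zero])
      map_add' := fun x y => ι.injective (by rw [map_add ι, hs, hs, hs, map_add]) }, hu,
    ⟨fun g => ι.injective ((hs _).trans (hφ φ g)), fun g => ι.injective ?_⟩⟩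
  have h2 := hlabel φ g
  rw [hi] at h2
  exact (hs _).trans h2

/-- Every primitive root carries a middle embedding. -/
theorem exists_isMiddle (hq : q.Prime) (hq2 : q ≠ 2) (hqM : ¬ q ∣ M) {u : (Qb)ˣ}
    (hu : IsPrimitiveRoot u q) :
    ∃ σ : fld Qb (M * q * q) →+* LaurentSeries Qb, IsMiddle M q u σ := by
  obtain ⟨v, σ, hv, hσ⟩ := exists_isMiddle_aux hq hq2 hqM
  have hu' : IsPrimitiveRoot (u : Qb) q := IsPrimitiveRoot.coe_units_iff.mpr hu
  have hv' : IsPrimitiveRoot (v : Qb) q := IsPrimitiveRoot.coe_units_iff.mpr hv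
  have hmin : minpoly ℚ (u : Qb) = minpoly ℚ (v : Qb) := by
    rw [← Polynomial.cyclotomic_eq_minpoly_rat hu' hq.pos,
      ← Polynomial.cyclotomic_eq_minpoly_rat hv' hq.pos]
  have : IsAlgClosure ℚ Qb := ⟨inferInstance, AlgebraicClosure.isAlgebraic ℚ⟩
  have : Normal ℚ Qb := IsAlgClosure.normal ℚ Qb
  obtain ⟨γ, hγ⟩ := (Normal.minpoly_eq_iff_mem_orbit (F := ℚ) (E := Qb)).mp hmin
  have hγ' : Units.map (γ.toRingEquiv.toRingHom : Qb →* Qb) v = u := Units.ext hγ
  exact ⟨_, hγ' ▸ hσ.conj γ⟩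

end FLTA.RT.Qsq

end
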