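import Fermat.Agent.RT.Qsq.MiddleVal
import Fermat.Agent.RT.Qsq.MiddleEmb
import Fermat.Agent.LevelLowering.InertiaFrame
import Mathlib.Algebra.CharP.Algebra
import Mathlib.Algebra.CharP.Frobenius

/-!
# The two frames and the first middle lead

`fr₀` has uniformizer of the valuation of `q`, `fr` contains the `q`-th roots of unity and has
uniformizer `1 - ζ`.  The function `j(q² τ) - j(τ)` has middle valuation `1` and middle lead
`c Θ`, where `Θ = q dj/dq`.
-/

set_option autoImplicit false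
set_option synthInstance.maxHeartbeats 400000

noncomputable section

open AlgebraicCurve ModularCurve IsLocalRing FLTA.Congruence FLTA.Carayol.Bridge
  FLTA.LevelLowering FLTA.BadRed

namespace FLTA.RT.Qsq

local notation "Qb" => AlgebraicClosure ℚ

/-- The frames used at the middle branch. -/
structure FramePair (q : ℕ) (A : ValuationSubring Qb) where
  /-- the unramified frame -/
  fr₀ : Frame A (residue A)
  /-- the frame containing the roots of unity -/
  fr : Frame A (residue A)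
  /-- a primitive root of unity -/
  ζ : (Qb)ˣ
  prim : IsPrimitiveRoot ζ q
  ϖ_eq : fr.ϖ = 1 - (ζ : Qb)
  ζ_mem : (ζ : Qb) ∈ fr.L
  fixed_mem₀ : ∀ c : Qb, (∀ γ ∈ A.inertiaSubgroupIn ℚ, γ c = c) → c ∈ fr₀.L
  le : fr₀.L ≤ fr.L
  unit : ∃ w : A, residue A w ≠ 0 ∧ fr₀.ϖ = fr.ϖ ^ (q - 1) * (w : Qb)

/-- The series `q dj/dq`. -/
def thetaSeries (k : Type*) [Field k] : LaurentSeries k where
  coeff n := (n : k) * (jqModC k).coeff n
  isPWO_support' := (jqModC k).isPWO_support.mono fun n hn h => hn (by simp [h])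

theorem thetaSeries_ne_zero (k : Type*) [Field k] : thetaSeries k ≠ 0 := fun h => by
  have h1 := congrArg (fun s : LaurentSeries k => s.coeff (-1)) h
  simp [thetaSeries, coeff_jqModC_neg_one] at h1

/-- Functions fixed by inertia, acting on the coefficients. -/
def IsRational {N : ℕ} (A : ValuationSubring Qb) (x : fld Qb N) : Prop :=
  ∀ γ ∈ A.inertiaSubgroupIn ℚ,
    coeffMap (γ.toRingEquiv.toRingHom) (x : LaurentSeries Qb) = x

theorem IsRational.coeff_mem {N q : ℕ} {A : ValuationSubring Qb} {x : fld Qb N}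
    (h : IsRational A x) (fp : FramePair q A) (i : ℤ) :
    (x : LaurentSeries Qb).coeff i ∈ fp.fr₀.L :=
  fp.fixed_mem₀ _ fun γ hγ => by
    have := congrArg (fun s : LaurentSeries Qb => s.coeff i) (h γ hγ)
    simpa using this

variable {q : ℕ} [Fact q.Prime] {A : ValuationSubring Qb} (fp : FramePair q A)
  [CharP (ResidueField A) q]

theorem FramePair.ζ_mem_A : (fp.ζ : Qb) ∈ A := by
  have h := sub_mem (one_mem A.toSubring) fp.fr.ϖ_mem_A
  rw [fp.ϖ_eq, sub_sub_cancel] at h
  exact h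

theorem FramePair.residue_ζ : residue A ⟨_, fp.ζ_mem_A⟩ = 1 := by
  have h : residue A ⟨fp.fr.ϖ, fp.fr.ϖ_mem_A⟩ = 0 := fp.fr.π_ϖ
  have e : (⟨fp.fr.ϖ, fp.fr.ϖ_mem_A⟩ : A) = 1 - ⟨_, fp.ζ_mem_A⟩ := Subtype.ext fp.ϖ_eq
  rw [e, map_sub, map_one, sub_eq_zero] at h
  exact h.symm

variable {M : ℕ} [NeZero M] [NeZero q]

/-- The function `j(q² τ) - j(τ)`. -/
def middleFun (M q : ℕ) [NeZero M] [NeZero q] : fld Qb (M * q * q) :=
  heckeBetaBar Qb (M * q) q (heckeBetaBar Qb M q (jGenBar M 1 (one_dvd M))) -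
    heckeAlphaBar Qb (M * q) q (heckeAlphaBar Qb M q (jGenBar M 1 (one_dvd M)))

/-- Its middle valuation is `1` and its middle lead is `c Θ`. -/
theorem middleFun_lead {u : (Qb)ˣ} (hu : IsPrimitiveRoot u q)
    {σ : fld Qb (M * q * q) →+* LaurentSeries Qb} (hσ : IsMiddle M q u σ) :
    ∃ c : ResidueField A, c ≠ 0 ∧
      fp.fr.IsVal (σ (middleFun M q)) 1 ∧
      fp.fr.lead (σ (middleFun M q)) = HahnSeries.C c * thetaSeries (ResidueField A) := by
  have hq : q.Prime := Fact.out
  obtain ⟨s, hs, hsu⟩ := (IsPrimitiveRoot.coe_units_iff.mpr fp.prim).eq_pow_of_pow_eq_one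
    (ξ := (u : Qb)) (by rw [← Units.val_pow_eq_pow_val, hu.pow_eq_one, Units.val_one])
  have hsu' : fp.ζ ^ s = u := Units.ext (by rw [Units.val_pow_eq_pow_val]; exact hsu)
  have hsq : ¬ q ∣ s := fun h => by
    have : u = 1 := by
      rw [← hsu']
      obtain ⟨i, rfl⟩ := h
      rw [pow_mul, fp.prim.pow_eq_one, one_pow]
    exact hq.one_lt.ne' (by rw [hu.eq_orderOf, this, orderOf_one])
  set z : A := ⟨_, fp.ζ_mem_A⟩
  let t : ℤ → ℕ := fun n => (((s : ℤ) * n) % (q : ℤ)).toNat
  have ht : ∀ n : ℤ, ((t n : ℕ) : ℤ) = ((s : ℤ) * n) % (q : ℤ) := fun n =>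
    Int.toNat_of_nonneg (Int.emod_nonneg _ (Int.natCast_ne_zero.mpr hq.ne_zero))
  have hut : ∀ n : ℤ, ((u ^ n : (Qb)ˣ) : Qb) = (fp.ζ : Qb) ^ t n := fun n => by
    rw [← Units.val_pow_eq_pow_val, ← hsu']
    congr 1
    rw [← zpow_natCast fp.ζ s, ← zpow_mul, ← zpow_natCast fp.ζ (t n), ht]
    conv_lhs => rw [← Int.emod_add_mul_ediv ((s : ℤ) * n) (q : ℤ)]
    rw [zpow_add, zpow_mul, zpow_natCast fp.ζ q, fp.prim.pow_eq_one, one_zpow, mul_one]
  let W : LaurentSeries A :=
    { coeff := fun n => -((∑ i ∈ Finset.range (t n), z ^ i) * (jqModC A).coeff n)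
      isPWO_support' := (jqModC A).isPWO_support.mono fun n hn h => hn (by simp [h]) }
  have hW : coeffMap A.subtype W = fp.fr.ϖ ^ (-(1 : ℤ)) • σ (middleFun M q) := by
    have hσg : σ (middleFun M q) = scaleHom u (jqModC Qb) - jqModC Qb := by
      rw [middleFun, map_sub, hσ.beta, hσ.alpha, coe_heckeAlphaBar, coe_jGenBar,
        qExpand_one_apply]
    ext n
    rw [coeffMap_coeff, HahnSeries.coeff_smul, hσg, HahnSeries.coeff_sub, scaleHom_coeff, hut,
      smul_eq_mul]
    have hj : (jqModC Qb).coeff n = (((jqModC A).coeff n : A) : Qb) := by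
      rw [← coeffMap_jqModC A.subtype, coeffMap_coeff]
      rfl
    rw [hj]
    show -((A.subtype (∑ i ∈ Finset.range (t n), z ^ i)) * _) = _
    rw [map_sum, zpow_neg, zpow_one]
    have hgeom := geom_sum_mul (fp.ζ : Qb) (t n)
    have hϖ : fp.fr.ϖ ≠ 0 := fp.fr.ϖ_ne_zero
    rw [show (∑ x ∈ Finset.range (t n), A.subtype (z ^ x)) =
      ∑ i ∈ Finset.range (t n), (fp.ζ : Qb) ^ i from
      Finset.sum_congr rfl fun i _ => by rw [map_pow]; rfl]
    field_simp
    rw [fp.ϖ_eq]
    linear_combination (((jqModC A).coeff n : A) : Qb) * hgeom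
  have hc : -((s : ℕ) : ResidueField A) ≠ 0 := by
    rw [neg_ne_zero, Ne, CharP.cast_eq_zero_iff (ResidueField A) q]
    exact hsq
  have hred : redSeries A (residue A) (fp.fr.ϖ ^ (-(1 : ℤ)) • σ (middleFun M q)) =
      HahnSeries.C (-((s : ℕ) : ResidueField A)) * thetaSeries (ResidueField A) := by
    rw [← hW, redSeries_coeffMap, HahnSeries.C_mul_eq_smul]
    ext n
    rw [coeffMap_coeff, HahnSeries.coeff_smul, smul_eq_mul]
    show residue A (-((∑ i ∈ Finset.range (t n), z ^ i) * (jqModC A).coeff n)) =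
      -((s : ℕ) : ResidueField A) * ((n : ResidueField A) * (jqModC (ResidueField A)).coeff n)
    rw [map_neg, map_mul, map_sum]
    simp only [map_pow, z, fp.residue_ζ, one_pow, Finset.sum_const, Finset.card_range,
      nsmul_eq_mul, mul_one]
    rw [← coeffMap_jqModC (residue A), coeffMap_coeff]
    have hcast : ((t n : ℕ) : ResidueField A) = (s : ResidueField A) * (n : ResidueField A) := by
      have h := congrArg (fun i : ℤ => (i : ResidueField A)) (ht n)
      simp only [Int.cast_natCast] at h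
      have h2 := congrArg (fun i : ℤ => (i : ResidueField A))
        (Int.emod_add_mul_ediv ((s : ℤ) * n) (q : ℤ))
      simp only [Int.cast_add, Int.cast_mul, Int.cast_natCast, CharP.cast_eq_zero, zero_mul,
        add_zero] at h2
      rw [h, h2]
    rw [hcast]
    ring
  have hval : fp.fr.IsVal (σ (middleFun M q)) 1 := by
    refine ⟨show IntSeries A _ from hW ▸ intSeries_coeffMap W, ?_⟩
    rw [hred]
    exact mul_ne_zero (fun h => hc (HahnSeries.C_injective (h.trans (map_zero _).symm)))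
      (thetaSeries_ne_zero _)
  exact ⟨_, hc, hval, by rw [hval.lead_eq fp.fr, hred]⟩

end FLTA.RT.Qsq

end
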