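import Fermat.Agent.RT.Qsq.MiddleTrace
import Fermat.Agent.RT.Qsq.MiddleApprox
import Fermat.Agent.RT.Qsq.MiddleTheta
import Fermat.Agent.RT.Qsq.GaussHom

/-!
# The residue on the middle branch and the middle expansions

The trace to the first root of `y`, cut off near the identity branch, is at `x₁` minus the residue
of the middle branch, and as a series it is the sum of the middle expansions.
-/

set_option autoImplicit false
set_option maxHeartbeats 1600000
set_option synthInstance.maxHeartbeats 400000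

noncomputable section

open IsLocalRing Polynomial FLTA.Carayol FLTA.BadRed FLTA.LevelLowering

namespace FLTA.RT.Qsq

local notation "Qb" => AlgebraicClosure ℚ

section RedAt

variable {K : Type*} [Field K] {A : ValuationSubring K} {k : Type*} [Field k] {π : A →+* k}
  {fr : Frame A π}

variable (fr) in
/-- Reduction at scale `n` of a fraction, possibly zero. -/
def RedAt (y : LaurentSeries K) (n : ℤ) (Y : LaurentSeries k) : Prop :=
  ∃ (a b : LaurentSeries K) (nb : ℤ), fr.Ge a (n + nb) ∧ fr.IsVal b nb ∧ y * b = a ∧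
    redSeries A π (fr.ϖ ^ (-(n + nb)) • a) = Y * fr.lead b

theorem HasVal.redAt {y : LaurentSeries K} {n : ℤ} {Y : LaurentSeries k}
    (h : HasVal fr y n Y) : RedAt fr y n Y := by
  obtain ⟨a, b, na, nb, ha, hb, he, rfl, hY⟩ := h
  exact ⟨a, b, nb, by rw [sub_add_cancel]; exact ha.1, hb, he,
    by rw [sub_add_cancel, ← ha.lead_eq fr, hY]⟩

theorem GeF.redAt {y : LaurentSeries K} {n : ℤ} (h : GeF fr y (n + 1)) : RedAt fr y n 0 := by
  obtain ⟨a, b, nb, ha, hb, he⟩ := h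
  exact ⟨a, b, nb, ha.mono fr (by omega), hb, he,
    by rw [fr.red_eq_zero_of_ge ha (by omega), zero_mul]⟩

theorem RedAt.add {x y : LaurentSeries K} {n : ℤ} {X Y : LaurentSeries k}
    (hx : RedAt fr x n X) (hy : RedAt fr y n Y) : RedAt fr (x + y) n (X + Y) := by
  obtain ⟨a, b, nb, ha, hb, he, hX⟩ := hx
  obtain ⟨a', b', nb', ha', hb', he', hY⟩ := hy
  have h1 : fr.Ge (a * b') (n + (nb + nb')) := by rw [← add_assoc]; exact ha.mul fr hb'.1
  have h2 : fr.Ge (a' * b) (n + (nb + nb')) := by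
    rw [show n + (nb + nb') = n + nb' + nb by ring]; exact ha'.mul fr hb.1
  refine ⟨a * b' + a' * b, b * b', nb + nb', h1.add fr h2, (hb.mul fr hb').1,
    by rw [← he, ← he']; ring, ?_⟩
  have key : ∀ {a b : LaurentSeries K} {i l : ℤ}, fr.Ge a i → fr.IsVal b l →
      redSeries A π (fr.ϖ ^ (-(i + l)) • (a * b)) =
        redSeries A π (fr.ϖ ^ (-i) • a) * fr.lead b := by
    intro a b i l ha hb
    rw [hb.lead_eq fr, ← redSeries_mul ha hb.1, Frame.smul_mul_smul', ← zpow_add₀ fr.ϖ_ne_zero,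
      neg_add]
  rw [smul_add, redSeries_add h1 h2, lead_mul fr hb hb']
  conv_lhs =>
    congr
    · rw [← add_assoc, key ha hb', hX]
    · rw [show n + (nb + nb') = n + nb' + nb by ring, key ha' hb, hY]
  ring

theorem redAt_sum {ι : Type*} (s : Finset ι) {f : ι → LaurentSeries K} {n : ℤ}
    {Y : ι → LaurentSeries k} (h : ∀ i ∈ s, RedAt fr (f i) n (Y i)) :
    RedAt fr (∑ i ∈ s, f i) n (∑ i ∈ s, Y i) := by
  classical
  induction s using Finset.induction with
  | empty =>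
    rw [Finset.sum_empty, Finset.sum_empty]
    exact (geF_zero (fr := fr) (n + 1)).redAt
  | @insert i s hi ih =>
    rw [Finset.sum_insert hi, Finset.sum_insert hi]
    exact (h i (Finset.mem_insert_self i s)).add
      (ih fun j hj => h j (Finset.mem_insert_of_mem hj))

theorem RedAt.eq_of_hasVal {y : LaurentSeries K} {n : ℤ} {Y Z : LaurentSeries k}
    (h : RedAt fr y n Y) (h' : HasVal fr y n Z) : Y = Z := by
  obtain ⟨a, b, nb, ha, hb, he, hY⟩ := h
  obtain ⟨a', b', na', nb', ha', hb', he', rfl, hZ⟩ := h'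
  have hx : a * b' = a' * b := by rw [← he, ← he']; ring
  have h1 := congrArg (fun s => redSeries A π (fr.ϖ ^ (-(na' + nb)) • s)) hx
  have e1 : redSeries A π (fr.ϖ ^ (-(na' + nb)) • (a * b')) = Y * fr.lead b * fr.lead b' := by
    rw [← hY, hb'.lead_eq fr, ← redSeries_mul ha hb'.1, Frame.smul_mul_smul',
      ← zpow_add₀ fr.ϖ_ne_zero]
    congr 3
    ring
  have e2 : redSeries A π (fr.ϖ ^ (-(na' + nb)) • (a' * b)) = Z * fr.lead b' * fr.lead b := by
    rw [hZ, ha'.lead_eq fr, hb.lead_eq fr, ← redSeries_mul ha'.1 hb.1, Frame.smul_mul_smul',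
      ← zpow_add₀ fr.ϖ_ne_zero, neg_add]
  simp only [e1, e2] at h1
  refine mul_right_cancel₀ (mul_ne_zero (hb.lead_ne_zero fr) (hb'.lead_ne_zero fr)) ?_
  linear_combination h1

theorem GeF.le_val {y : LaurentSeries K} {n m : ℤ} {Y : LaurentSeries k} (h : GeF fr y m)
    (h' : HasVal fr y n Y) : m ≤ n := by
  by_contra hlt
  have h1 := ((h.mono (m := n + 1) (by omega)).redAt).eq_of_hasVal h'
  exact h'.lead_ne_zero h1.symm

end RedAt

variable {q : ℕ} [Fact q.Prime] {A : ValuationSubring Qb}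
  {O : Type} [CommRing O] [IsDomain O] [IsDiscreteValuationRing O]
  [IsAdicComplete (maximalIdeal O) O] {L : Type} [Field L] [Algebra O L] [IsFractionRing O L]
  {R₀ : Type} [Field R₀] {Ψ₀ : R₀[X]}

/-- The series at the branch `(x₁, x₀)` and their residues. -/
structure GaussRes (fp : FramePair q A) {ΨA : O[X]} (s : RootSplit ΨA) (ν : R₀ →+* L)
    (hΨ : Ψ₀.map ν = ΨA.map (algebraMap O L)) (Sr : Pairs Ψ₀ →+* LaurentSeries Qb) where
  /-- the residue series -/
  hbar : s.E →+* LaurentSeries (ResidueField A)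
  local_hom : IsLocalHom hbar
  hasVal : ∀ y, y ≠ 0 → ∃ n Y, HasVal fp.fr₀ (Sr y) n Y
  compat : ∀ (y : Pairs Ψ₀) (n : ℤ) (Y : LaurentSeries (ResidueField A)),
    HasVal fp.fr₀ (Sr y) n Y → ∃ (u : s.E) (c : ResidueField A), c ≠ 0 ∧ IsUnit u ∧
      (s.map (algebraMap O L)).br₁ (Pairs.map ν hΨ y) =
        AdjoinRoot.of _ ((q : L) ^ n) * s.mapE (algebraMap O L) u ∧
      hbar u = HahnSeries.C c * Y

/-- The middle expansions. -/
structure MidSeries (q : ℕ) (Sr : Pairs Ψ₀ →+* LaurentSeries Qb) where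
  /-- the expansions -/
  Sm : Fin (q - 1) → Pairs Ψ₀ →+* LaurentSeries Qb
  of_eq : ∀ i a, Sm i (AdjoinRoot.of _ a) = Sr (AdjoinRoot.of _ a)
  inj : Function.Injective fun o : Option (Fin (q - 1)) =>
    Option.elim o (Sr (Pairs.snd Ψ₀)) fun i => Sm i (Pairs.snd Ψ₀)

omit [Fact q.Prime] in
/-- The trace to the first root as a sum of expansions. -/
theorem MidSeries.trace_eq [Fact (Irreducible Ψ₀)] (hq : 1 ≤ q) (hm : Ψ₀.Monic)
    (hd : Ψ₀.natDegree = q + 1) {Sr : Pairs Ψ₀ →+* LaurentSeries Qb} (ms : MidSeries q Sr)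
    (y : Pairs Ψ₀) :
    Sr (AdjoinRoot.of _ (Algebra.trace (AdjoinRoot Ψ₀) (Pairs Ψ₀) y)) =
      Sr y + ∑ i, ms.Sm i y := by
  classical
  have hs := Pairs.monic_sndPoly hm (Φ := Ψ₀) (by omega)
  have hdeg : (sndPoly Ψ₀).natDegree = q := by
    rw [Pairs.natDegree_sndPoly hm (by omega), hd, Nat.add_sub_cancel]
  have := hs.free_adjoinRoot
  have := hs.finite_adjoinRoot
  let e : Fin (sndPoly Ψ₀).natDegree ≃ Option (Fin (q - 1)) :=
    (finCongr (by omega : (sndPoly Ψ₀).natDegree = q - 1 + 1)).trans (finSuccEquiv (q - 1))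
  let x : Option (Fin (q - 1)) → LaurentSeries Qb := fun o =>
    Option.elim o (Sr (Pairs.snd Ψ₀)) fun i => ms.Sm i (Pairs.snd Ψ₀)
  let F : Option (Fin (q - 1)) → (Pairs Ψ₀ →+* LaurentSeries Qb) := fun o =>
    Option.elim o Sr ms.Sm
  have hF : ∀ o, (F o).comp (AdjoinRoot.of (sndPoly Ψ₀)) = Sr.comp (AdjoinRoot.of _) := by
    rintro (- | i)
    · rfl
    · exact RingHom.ext (ms.of_eq i)
  have hxF : ∀ o, x o = F o (AdjoinRoot.root _) := by rintro (- | i) <;> rfl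
  have hroot : ∀ i, (sndPoly Ψ₀).eval₂ (Sr.comp (AdjoinRoot.of _)) (x (e i)) = 0 := fun i => by
    rw [← hF (e i), hxF, ← hom_eval₂, AdjoinRoot.eval₂_root, map_zero]
  have h := (trace_and_charpoly_eq_roots (Sr.comp (AdjoinRoot.of _)) hs (fun i => x (e i)) hroot
    (fun a b hab => e.injective (ms.inj hab)) y).1
  rw [RingHom.comp_apply] at h
  rw [h]
  show _ = F none y + ∑ i, F (some i) y
  rw [← Fintype.sum_option (f := fun o => F o y)]
  refine Fintype.sum_equiv e _ _ fun i => ?_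
  have : AdjoinRoot.lift (Sr.comp (AdjoinRoot.of _)) (x (e i)) (hroot i) = F (e i) := by
    refine AdjoinRoot.ringHom_ext ?_ ?_
    · rw [AdjoinRoot.lift_comp_of, hF]
    · rw [AdjoinRoot.lift_root, hxF]
  exact RingHom.congr_fun this y

variable [CharP (ResidueField A) q] {fp : FramePair q A} {ΨA : O[X]} {s : RootSplit ΨA} {T : O}
  {ν : R₀ →+* L} {hΨ : Ψ₀.map ν = ΨA.map (algebraMap O L)}
  {Sr : Pairs Ψ₀ →+* LaurentSeries Qb} [Fact (Irreducible Ψ₀)]
  [Fact (Irreducible (sndPoly Ψ₀))]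

omit [CharP (ResidueField A) q] in
/-- **The middle residue, core case.** -/
theorem middle_core (hs : IsGauss q ΨA s T) (G : GaussRes fp s ν hΨ Sr) (ms : MidSeries q Sr)
    {τ : R₀} (hτ : ν τ = algebraMap O L T)
    (hD : ∀ i, GeF fp.fr (ms.Sm i (Pairs.fst Ψ₀ - Pairs.snd Ψ₀)) 1)
    {y : Pairs Ψ₀} {b : s.E} (hb : IsUnit b) {w : s.E'}
    (hy : (s.map (algebraMap O L)).brₘ (Pairs.map ν hΨ y) = s.mapE' (algebraMap O L)
      (AdjoinRoot.of s.G b + (AdjoinRoot.root s.G - AdjoinRoot.of s.G (AdjoinRoot.root s.quo)) * w))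
    {m : ℤ} {Y : LaurentSeries (ResidueField A)} {c : Fin (q - 1) → ResidueField A}
    (hlead : ∀ i, HasVal fp.fr (ms.Sm i y) m (HahnSeries.C (c i) * Y)) :
    m ≤ 0 ∧ (m = 0 → ∃ c' : ResidueField A, c' ≠ 0 ∧ G.hbar b = HahnSeries.C c' * Y) := by
  have hqp : q.Prime := Fact.out
  have := hs.isDomain_E
  have := hs.isLocalRing_E
  have := hs.isDiscreteValuationRing_E
  have := G.local_hom
  have := Fact.mk (hs.irreducible_quo (L := L))
  have := Fact.mk (hs.irreducible_G (L := L))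
  have hdA : 1 < ΨA.natDegree := by rw [hs.natDegree_eq]; have := hqp.two_le; omega
  have hm₀ : Ψ₀.Monic :=
    monic_of_injective ν.injective (hΨ ▸ hs.monic.map _)
  have hd₀ : Ψ₀.natDegree = q + 1 := by
    rw [← natDegree_map_eq_of_injective ν.injective, hΨ, hs.monic.natDegree_map, hs.natDegree_eq]
  set tL := s.map (algebraMap O L)
  letI := (s.mapE (algebraMap O L)).toAlgebra
  have := hs.isFractionRing_E (L := L)
  set mE : s.E →+* tL.E := s.mapE (algebraMap O L) with hmE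
  have hmEinj : Function.Injective mE := IsFractionRing.injective s.E tL.E
  let φ₁ : Pairs Ψ₀ →+* tL.E := tL.br₁.comp (Pairs.map ν hΨ)
  let φm : Pairs Ψ₀ →+* tL.E' := tL.brₘ.comp (Pairs.map ν hΨ)
  set Tq : Pairs Ψ₀ := Pairs.ofBase Ψ₀ (τ ^ q) with hTq
  -- residues
  have hq0 : residue s.E (q : s.E) = 0 :=
    (residue_eq_zero_iff _).2 (hs.maximalIdeal_E ▸ Ideal.mem_span_singleton_self _)
  set v : s.E := AdjoinRoot.root s.quo - AdjoinRoot.of s.quo (T ^ q) with hv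
  have hvu : IsUnit v := by
    rw [← notMem_maximalIdeal, ← residue_eq_zero_iff, hv, map_sub, sub_eq_zero]
    intro h0
    have h1 := congrArg (Polynomial.eval (residue s.E (AdjoinRoot.root s.quo)))
      hs.quo_map_residue_E
    rw [eval_map, ← hom_eval₂, AdjoinRoot.eval₂_root, map_zero, eval_sub, eval_pow, eval_X, eval_C,
      eq_comm, sub_eq_zero, h0, ← map_pow, ← map_pow] at h1
    have hloc : IsLocalHom ((residue s.E).comp (AdjoinRoot.of s.quo)) := ⟨fun a ha => by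
      by_contra hna
      have ha' : a ∈ maximalIdeal O := hna
      rw [hs.max_eq, Ideal.mem_span_singleton] at ha'
      obtain ⟨e, rfl⟩ := ha'
      rw [RingHom.comp_apply, map_mul, map_natCast, map_mul, hq0, zero_mul] at ha
      exact not_isUnit_zero ha⟩
    have h2 : residue O ((T ^ q) ^ q) = residue O T := by
      have := hloc
      refine (ResidueField.lift ((residue s.E).comp (AdjoinRoot.of s.quo))).injective ?_
      rw [ResidueField.lift_residue_apply, ResidueField.lift_residue_apply, RingHom.comp_apply,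
        RingHom.comp_apply, h1]
    exact hs.not_pow (residue O (T ^ q)) (by rw [← map_pow, h2])
  obtain ⟨a₀, ha₀⟩ : (q : O) ∣ s.x₀ - T ^ q := by
    rw [← Ideal.mem_span_singleton, ← hs.max_eq, ← residue_eq_zero_iff, map_sub, hs.x₀_mod,
      map_pow, sub_self]
  have h1X : φ₁ (Pairs.fst Ψ₀ - Tq) = mE v := by
    simp [φ₁, hTq, hv, hmE, RootSplit.br₁, RootSplit.mapE, hτ, tL]
  have h1Z : φ₁ (Pairs.snd Ψ₀ - Tq) = mE ((q : s.E) * AdjoinRoot.of s.quo a₀) := by
    have e : (q : s.E) * AdjoinRoot.of s.quo a₀ =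
        AdjoinRoot.of s.quo s.x₀ - AdjoinRoot.of s.quo (T ^ q) := by
      rw [← map_natCast (AdjoinRoot.of s.quo), ← map_mul, ← ha₀, map_sub]
    rw [e]
    simp [φ₁, hTq, hmE, RootSplit.br₁, RootSplit.mapE, hτ, tL]
  set π₀ : s.E' := AdjoinRoot.root s.G - AdjoinRoot.of s.G (AdjoinRoot.root s.quo) with hπ₀
  have hmX : φm (Pairs.fst Ψ₀ - Tq) = s.mapE' (algebraMap O L) (AdjoinRoot.of s.G v) := by
    simp [φm, hTq, hv, RootSplit.brₘ, RootSplit.mapE', RootSplit.mapE, hτ, tL]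
  have hmZ : φm (Pairs.snd Ψ₀ - Tq) =
      s.mapE' (algebraMap O L) (AdjoinRoot.of s.G v + π₀) := by
    simp [φm, hTq, hv, hπ₀, RootSplit.brₘ, RootSplit.mapE', RootSplit.mapE, hτ, tL]
  -- the cut off
  have hXT : Pairs.fst Ψ₀ - Tq ≠ 0 := fun h => (hvu.map mE).ne_zero (by rw [← h1X, h, map_zero])
  have hy0 : y ≠ 0 := by
    rcases Nat.eq_zero_or_pos (q - 1) with h0 | h0
    · have := hqp.two_le; omega
    · exact fun h => (hlead ⟨0, h0⟩).ne_zero (by rw [h, map_zero])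
  obtain ⟨n₁, Y₁, hY₁⟩ := G.hasVal y hy0
  obtain ⟨u₁, -, -, hu₁, hbr, -⟩ := G.compat y n₁ Y₁ hY₁
  have hpow : ∀ n : ℤ, AdjoinRoot.of tL.quo ((q : L) ^ n) = (q : tL.E) ^ n := fun n => by
    rw [map_zpow₀, map_natCast]
  obtain ⟨v', hv'⟩ := hvu.exists_right_inv
  set N : ℕ := (1 - n₁).toNat
  obtain ⟨M', hM'⟩ : ∃ M' : ℕ, n₁ + N = (M' + 1 : ℕ) := ⟨(n₁ + N - 1).toNat, by omega⟩
  set ε : Pairs Ψ₀ := ((Pairs.snd Ψ₀ - Tq) / (Pairs.fst Ψ₀ - Tq)) ^ N with hε
  have hqE : mE (q : s.E) ≠ 0 := by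
    rw [map_ne_zero_iff _ hmEinj]
    exact fun h => IsDiscreteValuationRing.not_a_field s.E
      (by rw [hs.maximalIdeal_E, h, Ideal.span_singleton_zero])
  set S₁ : s.E := (q : s.E) ^ M' * u₁ * (AdjoinRoot.of s.quo a₀ * v') ^ N
  have h1y : φ₁ (y * ε) = mE ((q : s.E) * S₁) := by
    have hvinv : (mE v)⁻¹ = mE v' :=
      (eq_inv_of_mul_eq_one_right (by rw [← map_mul, hv', map_one])).symm
    rw [map_mul, show φ₁ y = (q : tL.E) ^ n₁ * mE u₁ from hpow n₁ ▸ hbr, hε, map_pow, map_div₀, h1X, h1Z,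
      div_eq_mul_inv, hvinv, map_mul mE (q : s.E) (AdjoinRoot.of s.quo a₀), ← map_natCast mE q]
    have e : mE (q : s.E) ^ n₁ * mE (q : s.E) ^ N = mE (q : s.E) * mE (q : s.E) ^ M' := by
      rw [← zpow_natCast (mE (q : s.E)) N, ← zpow_add₀ hqE, hM', zpow_natCast, pow_succ']
    simp only [S₁, map_mul, map_pow, mul_pow]
    linear_combination mE u₁ * mE (AdjoinRoot.of s.quo a₀) ^ N * mE v' ^ N * e
  obtain ⟨w', hw'⟩ : ∃ w', s.mapE' (algebraMap O L) (AdjoinRoot.of s.G b + π₀ * w') =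
      φm (y * ε) := by
    have hv1 : AdjoinRoot.of s.G v * AdjoinRoot.of s.G v' = 1 := by
      rw [← map_mul, hv', map_one]
    have hε' : φm ε = s.mapE' (algebraMap O L) ((1 + π₀ * AdjoinRoot.of s.G v') ^ N) := by
      rw [hε, map_pow, map_div₀, hmX, hmZ, map_pow]
      congr 1
      rw [div_eq_iff (((hvu.map (AdjoinRoot.of s.G)).map _).ne_zero), ← map_mul]
      congr 1
      linear_combination -π₀ * hv1
    obtain ⟨r, hr⟩ : π₀ ∣ (1 + π₀ * AdjoinRoot.of s.G v') ^ N - 1 :=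
      (dvd_mul_right π₀ (AdjoinRoot.of s.G v')).trans (by
        have := sub_dvd_pow_sub_pow (1 + π₀ * AdjoinRoot.of s.G v') 1 N
        simpa using this)
    refine ⟨w + (AdjoinRoot.of s.G b + π₀ * w) * r, ?_⟩
    rw [map_mul, show φm y = _ from hy, hε', ← map_mul]
    congr 1
    rw [hπ₀] at hr ⊢
    linear_combination -(AdjoinRoot.of s.G b +
      (AdjoinRoot.root s.G - AdjoinRoot.of s.G (AdjoinRoot.root s.quo)) * w) * hr
  -- the trace
  set T₀ := Algebra.trace (AdjoinRoot Ψ₀) (Pairs Ψ₀) (y * ε) with hT₀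
  set S : s.E := (q : s.E) * S₁ + Algebra.trace s.E s.E' (AdjoinRoot.of s.G b + π₀ * w') with hS
  have hSres : residue s.E S = -residue s.E b := by
    rw [hS, map_add, map_mul, hq0, zero_mul, zero_add, residue_trace_middle hs]
  have hSu : IsUnit S := by
    rw [← notMem_maximalIdeal, ← residue_eq_zero_iff, hSres, neg_eq_zero, residue_eq_zero_iff,
      notMem_maximalIdeal]
    exact hb
  have hφT : φ₁ (AdjoinRoot.of _ T₀) = mE S := by
    have hmap : ∀ a, tL.proj₁ (AdjoinRoot.map ν Ψ₀ (ΨA.map (algebraMap O L)) hΨ.symm.dvd a) =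
        φ₁ (AdjoinRoot.of _ a) := by
      have e : tL.proj₁.comp (AdjoinRoot.map ν Ψ₀ (ΨA.map (algebraMap O L)) hΨ.symm.dvd) =
          φ₁.comp (AdjoinRoot.of _) := by
        refine AdjoinRoot.ringHom_ext (RingHom.ext fun a => ?_) ?_ <;>
          simp [φ₁, Pairs.map, Pairs.lift, Pairs.ofBase, Pairs.fst, RootSplit.br₁,
            RootSplit.proj₁]
      exact RingHom.congr_fun e
    obtain ⟨h', he⟩ := Pairs.map_eq_adjoinRootMap ν hΨ
    have h1 := trace_adjoinRoot_map (Pairs.monic_sndPoly hm₀ (by omega)) _ h' (y * ε)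
    rw [← hmap, hT₀, ← h1, ← RingHom.congr_fun he (y * ε),
      proj₁_trFst tL (hs.monic.map _) (by rwa [hs.monic.natDegree_map]) hs.quo_eval_x₀_ne_zero,
      show tL.br₁ (Pairs.map ν hΨ (y * ε)) = φ₁ (y * ε) from rfl, h1y,
      show tL.brₘ (Pairs.map ν hΨ (y * ε)) = φm (y * ε) from rfl, ← hw', hS,
      map_add mE]
    exact congrArg _ (trace_adjoinRoot_map (s.monic_G hs.monic hdA) mE (s.G_map _) _)
  -- valuations of the series
  obtain ⟨we, hwe, hϖ⟩ := fp.unit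
  have hT₀0 : AdjoinRoot.of (sndPoly Ψ₀) T₀ ≠ 0 := fun h => (hSu.map mE).ne_zero (by
    rw [← hφT, h, map_zero])
  have hcomb : ∀ z : Pairs Ψ₀, ∀ u : s.E, IsUnit u → ∀ j : ℕ, φ₁ z = mE ((q : s.E) ^ j * u) →
      ∃ Z c, c ≠ 0 ∧ HasVal fp.fr₀ (Sr z) j Z ∧ G.hbar u = HahnSeries.C c * Z := by
    intro z u hu j hz
    have hz0 : z ≠ 0 := fun h => by
      rw [h, map_zero] at hz
      exact mul_ne_zero (pow_ne_zero j hqE) (hu.map mE).ne_zero (by rw [← map_pow, ← map_mul, ← hz])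
    obtain ⟨n, Z, hZ⟩ := G.hasVal z hz0
    obtain ⟨u', c', hc', hu', hbr', hh⟩ := G.compat z n Z hZ
    have hirr : Irreducible (q : s.E) :=
      (IsDiscreteValuationRing.irreducible_iff_uniformizer _).2 hs.maximalIdeal_E
    have h2 : algebraMap s.E tL.E u' * algebraMap s.E tL.E (q : s.E) ^ n =
        algebraMap s.E tL.E u * algebraMap s.E tL.E (q : s.E) ^ (j : ℤ) := by
      have h3 : φ₁ z = (q : tL.E) ^ n * mE u' := hpow n ▸ hbr'
      rw [hz, map_mul, map_pow, map_natCast] at h3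
      show mE u' * mE (q : s.E) ^ n = mE u * mE (q : s.E) ^ (j : ℤ)
      rw [zpow_natCast, map_natCast, mul_comm, ← h3, mul_comm]
    obtain ⟨rfl, rfl⟩ := unit_mul_zpow_inj hirr hu' hu h2
    exact ⟨Z, c', hc', hZ, hh⟩
  obtain ⟨Z₀, c₀, hc₀, hZ₀, hh₀⟩ := hcomb _ S hSu 0 (by rw [hφT, pow_zero, one_mul])
  obtain ⟨ce, hce, htot⟩ := hasVal_of_le (fr := fp.fr) hwe hϖ hZ₀
  rw [Nat.cast_zero, mul_zero, ms.trace_eq hqp.one_le hm₀ hd₀] at htot
  have hid : GeF fp.fr (Sr (y * ε)) 1 := by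
    rcases eq_or_ne (y * ε) 0 with h0 | h0
    · rw [h0, map_zero]; exact geF_zero 1
    obtain ⟨n, Z, hZ⟩ := G.hasVal _ h0
    obtain ⟨u', -, -, hu', hbr', -⟩ := G.compat _ n Z hZ
    have hn : 1 ≤ n := by
      by_contra hn
      obtain ⟨i, rfl⟩ : ∃ i : ℕ, n = -(i : ℤ) := ⟨(-n).toNat, by omega⟩
      have h3 : φ₁ (y * ε) = (q : tL.E) ^ (-(i : ℤ)) * mE u' := hpow _ ▸ hbr'
      rw [h1y, zpow_neg, zpow_natCast, ← map_natCast mE q, eq_inv_mul_iff_mul_eq₀
        (pow_ne_zero _ hqE), ← map_pow, ← map_mul] at h3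
      have h4 := congrArg (residue s.E) (hmEinj h3)
      rw [map_mul, map_mul, hq0, zero_mul, mul_zero] at h4
      exact (hu'.map (residue s.E)).ne_zero h4.symm
    obtain ⟨c', -, hv'⟩ := hasVal_of_le (fr := fp.fr) hwe hϖ hZ
    refine hv'.geF ?_
    have : (1 : ℤ) ≤ ((q - 1 : ℕ) : ℤ) := by have := hqp.two_le; omega
    nlinarith
  have hεm : ∀ i, HasVal fp.fr (ms.Sm i ε) 0 1 := by
    intro i
    obtain ⟨Zx, cx, -, hZx, -⟩ := hcomb (Pairs.fst Ψ₀ - Tq) v hvu 0
      (by rw [h1X, pow_zero, one_mul])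
    obtain ⟨c', hc', hX⟩ := hasVal_of_le (fr := fp.fr) hwe hϖ hZx
    rw [Nat.cast_zero, mul_zero] at hX
    have hSX : ms.Sm i (Pairs.fst Ψ₀ - Tq) = Sr (Pairs.fst Ψ₀ - Tq) := by
      have : Pairs.fst Ψ₀ - Tq =
          AdjoinRoot.of _ (AdjoinRoot.root Ψ₀ - AdjoinRoot.of Ψ₀ (τ ^ q)) := by
        rw [map_sub]; rfl
      rw [this, ms.of_eq]
    have hZ' : HasVal fp.fr (ms.Sm i (Pairs.snd Ψ₀ - Tq)) 0 (HahnSeries.C c' * Zx) := by
      rw [show Pairs.snd Ψ₀ - Tq = (Pairs.fst Ψ₀ - Tq) + -(Pairs.fst Ψ₀ - Pairs.snd Ψ₀) by ring,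
        map_add, map_neg, hSX]
      exact hX.add_geF (by rw [zero_add]; exact (hD i).neg)
    have h := (hZ'.mul (hSX.symm ▸ hX : HasVal fp.fr (ms.Sm i (Pairs.fst Ψ₀ - Tq)) 0 _).inv).pow N
    rw [mul_inv_cancel₀ hX.lead_ne_zero, one_pow, neg_zero, add_zero, mul_zero] at h
    rw [hε, map_pow, map_div₀, div_eq_mul_inv]
    exact h
  have hterms : ∀ i, HasVal fp.fr (ms.Sm i (y * ε)) m (HahnSeries.C (c i) * Y) := fun i => by
    have h := (hlead i).mul (hεm i)
    rw [add_zero, mul_one, ← map_mul] at h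
    exact h
  have hle : m ≤ 0 := by
    by_contra hm
    exact htot.lead_ne_zero ((((hid.add (geF_sum _ fun i _ =>
      (hterms i).geF (by omega))).mono (m := 0 + 1) le_rfl).redAt).eq_of_hasVal htot).symm
  refine ⟨hle, fun hm0 => ?_⟩
  subst hm0
  have hred := ((hid.mono (m := 0 + 1) le_rfl).redAt.add
    (redAt_sum Finset.univ fun i _ => (hterms i).redAt)).eq_of_hasVal htot
  rw [zero_add, ← Finset.sum_mul, ← map_sum] at hred
  have hb' : G.hbar b = -G.hbar S := by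
    rw [← map_neg]
    exact residue_comp_eq G.hbar (by rw [map_neg, hSres, neg_neg])
  have hb0 : G.hbar b ≠ 0 := (hb.map G.hbar).ne_zero
  have e : G.hbar b = HahnSeries.C (-(c₀ / ce) * ∑ i, c i) * Y := by
    have hCe : (HahnSeries.C ce : LaurentSeries (ResidueField A)) ≠ 0 := fun h =>
      hce (HahnSeries.C_injective (h.trans (map_zero _).symm))
    rw [hb', hh₀, map_mul, map_neg, map_div₀]
    field_simp
    linear_combination (HahnSeries.C c₀ : LaurentSeries (ResidueField A)) * hred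
  refine ⟨_, fun h => hb0 ?_, e⟩
  rw [e, h, map_zero, zero_mul]

end FLTA.RT.Qsq

end
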