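import Fermat.Agent.RT.Qsq.GaussResidue
import Fermat.Agent.RT.Qsq.GaussDescent
import Fermat.Agent.RT.Qsq.SeriesHat
import Fermat.Agent.Carayol.BridgeModel

/-!
# The residues at the Gauss point as series

Over the inertia field, with `T = t(q τ)`, the pair `(x₁, x₀)` is `(t(τ), t(q² τ))`: the branch
`(x₁, x₀)` carries valuations and residues of expansions at infinity.
-/

set_option autoImplicit false
set_option maxHeartbeats 1600000
set_option synthInstance.maxHeartbeats 400000

noncomputable section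

open IsLocalRing ModularCurve Polynomial FLTA.Carayol FLTA.Carayol.Bridge FLTA.BadRed
  FLTA.LevelLowering

namespace FLTA.RT.Qsq

local notation "Qb" => AlgebraicClosure ℚ

theorem coeffMap_tOf {R S : Type*} [CommRing R] [CommRing S] (L₀ : ℕ) [NeZero L₀] (f : R →+* S) :
    coeffMap f (Haupt.tOf L₀ R) = Haupt.tOf L₀ S := by
  rw [Haupt.tOf, Haupt.tOf, coeffMap_coeffMap]
  exact congrArg (fun g => coeffMap g (Haupt.tSeries L₀)) (RingHom.ext_int _ _)

theorem tOf_pow_prime (k : Type*) [Field k] (q : ℕ) [Fact q.Prime] [NeZero q] [CharP k q]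
    (L₀ : ℕ) [NeZero L₀] : Haupt.tOf L₀ k ^ q = qExpand k q (Haupt.tOf L₀ k) := by
  rw [← FLTA.Congruence.qExpand_coeffMap_frobenius (R := k) (ℓ := q), coeffMap_tOf]

theorem tOf_pow_sq_ne (k : Type*) [Field k] (q : ℕ) [Fact q.Prime] [NeZero q] [CharP k q]
    (L₀ : ℕ) [NeZero L₀] : Haupt.tOf L₀ k ^ (q * q) ≠ Haupt.tOf L₀ k := by
  intro h
  rw [pow_mul, tOf_pow_prime, ← map_pow, tOf_pow_prime] at h
  have h1 := congrArg (fun z : LaurentSeries k => z.coeff (-1)) h
  have h2 := Haupt.coeff_tOf_pow_self L₀ (R := k) 1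
  rw [pow_one, Nat.cast_one] at h2
  simp only [qExpand_qExpand] at h1
  rw [h2, qExpand_coeff_of_not_dvd] at h1
  · exact zero_ne_one h1
  · intro hd
    have h3 := Int.le_of_dvd one_pos (dvd_neg.mp hd)
    have h4 := (Fact.out : q.Prime).two_le
    push_cast at h3
    nlinarith

variable {A : ValuationSubring Qb}

/-- Nonzero fractions of integral series have a valuation. -/
theorem exists_hasVal_serInj (fr₀ : Frame A (residue A))
    (hfix : ∀ c : Qb, (∀ γ ∈ A.inertiaSubgroupIn ℚ, γ c = c) → c ∈ fr₀.L)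
    {z : SerF A} (hz : z ≠ 0) : ∃ n Y, HasVal fr₀ (serInj A z) n Y := by
  obtain ⟨a, b, hb, rfl⟩ := IsFractionRing.div_surjective (LaurentSeries (intRing A)) z
  have ha : a ≠ 0 := fun h => hz (by rw [h, map_zero, zero_div])
  have key : ∀ {a : LaurentSeries (intRing A)}, a ≠ 0 → ∃ n, fr₀.IsVal (intSer A a) n := by
    intro a ha
    refine fr₀.exists_isVal (fun i => hfix _ fun γ hγ => ?_)
      ((map_ne_zero_iff _ (intSer_injective A)).mpr ha) ⟨1, one_ne_zero, fun i => ?_⟩
    · rw [intSer, coeffMap_coeff]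
      exact mem_inertiaField.mp ((a.coeff i : inertiaField A)).2 γ hγ
    · rw [one_smul, intSer, coeffMap_coeff]
      exact ((intIncl A) (a.coeff i)).2
  obtain ⟨na, hna⟩ := key ha
  obtain ⟨nb, hnb⟩ := key (nonZeroDivisors.ne_zero hb)
  rw [map_div₀, serInj_algebraMap, serInj_algebraMap]
  exact ⟨_, fr₀.lead (intSer A a) / fr₀.lead (intSer A b), _, _, _, _, hna, hnb,
    div_mul_cancel₀ _ (hnb.ne_zero fr₀), rfl, div_mul_cancel₀ _ (hnb.lead_ne_zero fr₀)⟩

variable {q L₀ M : ℕ} [Fact q.Prime] [NeZero q] [NeZero L₀] [NeZero M]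

/-- The modular equation over level `M` with the constants of inertia. -/
abbrev inertiaPhi (A : ValuationSubring Qb) (Φ : ℤ[X][X]) {M : ℕ}
    (t : ↥(modularFunctionFieldFull M)) : (fld (inertiaField A) M)[X] :=
  Φ.map (Chart.evalInt (ofFull (inertiaField A) M t))

/-- The pairs over level `M` as functions of level `M q²`: `(X, Z) = (t(τ), t(q² τ))` over
`T = t(q τ)`. -/
structure IsPairHom {Φ : ℤ[X][X]} (q : ℕ) [NeZero q] {t : ↥(modularFunctionFieldFull M)}
    (ψ : Pairs (inertiaPhi A Φ t) →+* fld (inertiaField A) (M * q * q)) : Prop where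
  base : ∀ a, ψ (Pairs.ofBase _ a) = heckeAlphaBar _ (M * q) q (heckeBetaBar _ M q a)
  fst : ψ (Pairs.fst _) =
    heckeAlphaBar _ (M * q) q (heckeAlphaBar _ M q (ofFull (inertiaField A) M t))
  snd : ψ (Pairs.snd _) =
    heckeBetaBar _ (M * q) q (heckeBetaBar _ M q (ofFull (inertiaField A) M t))

/-- The expansion at infinity of a pair function. -/
def pairSer {Φ : ℤ[X][X]} {t : ↥(modularFunctionFieldFull M)}
    (ψ : Pairs (inertiaPhi A Φ t) →+* fld (inertiaField A) (M * q * q)) :
    Pairs (inertiaPhi A Φ t) →+* LaurentSeries Qb :=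
  ((fld Qb (M * q * q)).val.toRingHom.comp (mapF (inertiaField A).val.toRingHom _)).comp ψ

omit [Fact q.Prime] in
/-- The three basic expansions. -/
theorem IsPairHom.series {Φ : ℤ[X][X]} {t : ↥(modularFunctionFieldFull M)}
    (ht : Chart.IsTFull L₀ M t)
    {ψ : Pairs (inertiaPhi A Φ t) →+* fld (inertiaField A) (M * q * q)} (h : IsPairHom q ψ) :
    serOf A (M * q * q) (ψ (Pairs.fst _)) =
        algebraMap _ (SerF A) (Haupt.tOf L₀ (intRing A)) ∧
      serOf A (M * q * q) (ψ (Pairs.ofBase _ (ofFull (inertiaField A) M t))) =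
        algebraMap _ (SerF A) (qExpand _ q (Haupt.tOf L₀ (intRing A))) ∧
      serOf A (M * q * q) (ψ (Pairs.snd _)) =
        algebraMap _ (SerF A) (qExpand _ (q * q) (Haupt.tOf L₀ (intRing A))) := by
  have ht0 : (ofFull (inertiaField A) M t : LaurentSeries (inertiaField A)) =
      Haupt.tOf L₀ (inertiaField A) := coe_ofFull_tFull ht
  refine ⟨?_, ?_, ?_⟩ <;> apply (serInj A).injective <;>
    rw [serInj_serOf, serInj_algebraMap, intSer, coe_mapF]
  · rw [h.fst, coe_heckeAlphaBar, coe_heckeAlphaBar, ht0, coeffMap_tOf, coeffMap_tOf]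
  · rw [h.base, coe_heckeAlphaBar, coe_heckeBetaBar, ht0, coeffMap_qExpand, coeffMap_tOf,
      coeffMap_qExpand, coeffMap_tOf]
  · rw [h.snd, coe_heckeBetaBar, coe_heckeBetaBar, ht0, qExpand_qExpand, coeffMap_qExpand,
      coeffMap_tOf, coeffMap_qExpand, coeffMap_tOf]

variable [CharP (ResidueField A) q] {W : Type} [CommRing W] [IsDomain W]
  [IsDiscreteValuationRing W] [Fact (Prime (PowerSeries.C (q : W) : PowerSeries W))]
  {O : Type} [CommRing O] [IsDomain O] [IsDiscreteValuationRing O]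
  [IsAdicComplete (maximalIdeal O) O] {L : Type} [Field L] [Algebra O L] [IsFractionRing O L]

/-- **The residues of the branch `(x₁, x₀)` are series**, and integral series of base elements
with nonzero reduction are such residues. -/
theorem exists_gaussRes_lift (fp : FramePair q A) {w : A} (hw : residue A w ≠ 0)
    (hq : (q : Qb) = fp.fr₀.ϖ * (w : Qb))
    (hW : maximalIdeal W = Ideal.span {(q : W)}) (j : intRing A →+* W) (hj : Function.Injective j)
    (r : W →+* ResidueField A) (hr : RingHom.ker r = maximalIdeal W)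
    (hrj : r.comp j = (residue A).comp (intIncl A))
    {Φ : ℤ[X][X]} {t : ↥(modularFunctionFieldFull M)} (ht : Chart.IsTFull L₀ M t)
    {ψ : Pairs (inertiaPhi A Φ t) →+* fld (inertiaField A) (M * q * q)} (hψ : IsPairHom q ψ)
    [Fact (Irreducible (inertiaPhi A Φ t))] [Fact (Irreducible (sndPoly (inertiaPhi A Φ t)))]
    {ΨA : O[X]} {s : RootSplit ΨA} {T : O} (hs : IsGauss q ΨA s T)
    (ν : fld (inertiaField A) M →+* L)
    (hΨ : (inertiaPhi A Φ t).map ν = ΨA.map (algebraMap O L))
    (hT : ν (ofFull (inertiaField A) M t) = algebraMap O L T)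
    (jL : L →+* FractionRing (SerB W q))
    (hjL : ∀ a, jL (ν a) =
      serToB hW j hj (serOf A (M * q * q) (ψ (Pairs.ofBase _ a)))) :
    ∃ G : GaussRes fp s ν hΨ (pairSer ψ), ∀ (x : fld (inertiaField A) M)
      (a : LaurentSeries (intRing A)),
      serOf A (M * q * q) (ψ (Pairs.ofBase _ x)) = algebraMap _ _ a →
      coeffMap ((residue A).comp (intIncl A)) a ≠ 0 →
        ∃ v : O, G.hbar (AdjoinRoot.of s.quo v) = coeffMap ((residue A).comp (intIncl A)) a := by
  have hqp : q.Prime := Fact.out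
  have := hs.isDomain_E
  have := hs.isLocalRing_E
  have := hs.isDiscreteValuationRing_E
  have := Fact.mk (hs.irreducible_quo (L := L))
  obtain ⟨ρ, hρl, hρ⟩ := exists_resSeries hW r hr
  have := hρl
  obtain ⟨hfst, hbase, hsnd⟩ := hψ.series ht
  have hρser : ∀ a : LaurentSeries (intRing A),
      ρ (laurentToHat hW (coeffMap j a)) = coeffMap ((residue A).comp (intIncl A)) a := fun a => by
    rw [← RingHom.comp_apply, hρ, coeffMap_coeffMap, hrj]
  have hB : maximalIdeal (SerB W q) = Ideal.span {(q : SerB W q)} := maximalIdeal_hatSeries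
  set Λ : Pairs (inertiaPhi A Φ t) →+* FractionRing (SerB W q) :=
    ((serToB hW j hj).comp (serOf A (M * q * q))).comp ψ with hΛ
  have : CharP (LaurentSeries (ResidueField A)) q :=
    charP_of_injective_ringHom (HahnSeries.C_injective (Γ := ℤ)) q
  obtain ⟨h, jE, hhl, hjE, hbr⟩ := exists_branchHom hs hB ρ ν hΨ jL Λ
    (fun a => (hjL a).symm)
    (x₁ := laurentToHat hW (coeffMap j (Haupt.tOf L₀ (intRing A))))
    (z := laurentToHat hW (coeffMap j (qExpand _ (q * q) (Haupt.tOf L₀ (intRing A)))))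
    (TB := laurentToHat hW (coeffMap j (qExpand _ q (Haupt.tOf L₀ (intRing A)))))
    (by simp only [hΛ, RingHom.comp_apply, hfst, serToB_algebraMap])
    (by simp only [hΛ, RingHom.comp_apply, hsnd, serToB_algebraMap])
    (by rw [← hT, hjL, hbase, serToB_algebraMap])
    (by rw [hρser, hρser, coeffMap_tOf, coeffMap_qExpand, coeffMap_tOf, tOf_pow_prime])
    (by
      rw [hρser, hρser, coeffMap_tOf, coeffMap_qExpand, coeffMap_tOf, pow_mul, tOf_pow_prime,
        ← map_pow, tOf_pow_prime, qExpand_qExpand])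
    (by rw [hρser, coeffMap_tOf]; exact tOf_pow_sq_ne _ q L₀)
  have := hhl
  refine ⟨⟨ρ.comp h, ⟨fun a ha => IsUnit.of_map h a (IsUnit.of_map ρ _ ha)⟩,
    fun y hy => ?_, fun y n Y hY => ?_⟩, fun x a hxa hane => ?_⟩
  · have hy' : serOf A (M * q * q) (ψ y) ≠ 0 := fun h0 => hy
      (ψ.injective ((serOf A (M * q * q)).injective (h0.trans (map_zero _).symm) |>.trans
        (map_zero _).symm))
    obtain ⟨n, Y, hY⟩ := exists_hasVal_serInj fp.fr₀ fp.fixed_mem₀ hy'
    rw [serInj_serOf] at hY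
    exact ⟨n, Y, hY⟩
  · have hY' : HasVal fp.fr₀ (serInj A (serOf A (M * q * q) (ψ y))) n Y := by
      rw [serInj_serOf]; exact hY
    obtain ⟨uB, c, hc, huB, hval, hlead⟩ :=
      exists_unit_serToB hW j hj hrj fp.fixed_mem₀ hw hq hρl hρ hY'
    letI := (s.mapE (algebraMap O L)).toAlgebra
    have := hs.isFractionRing_E (L := L)
    set tL := s.map (algebraMap O L)
    have hirr : Irreducible (q : s.E) :=
      (IsDiscreteValuationRing.irreducible_iff_uniformizer _).2 hs.maximalIdeal_E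
    have hne : tL.br₁ (Pairs.map ν hΨ y) ≠ 0 :=
      (_root_.map_ne_zero (tL.br₁.comp (Pairs.map ν hΨ))).2 fun h0 => hY.ne_zero (by
        rw [h0, map_zero])
    obtain ⟨u, n', hu, he⟩ := exists_eq_unit_mul_zpow (B := s.E) hirr hne
    have hirrB : Irreducible (q : SerB W q) :=
      (IsDiscreteValuationRing.irreducible_iff_uniformizer _).2 hB
    have h1 := hbr y
    rw [he, map_mul, map_zpow₀,
      show algebraMap s.E tL.E = s.mapE (algebraMap O L) from rfl, hjE, hjE, map_natCast h,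
      show Λ y = serToB hW j hj (serOf A (M * q * q) (ψ y)) from rfl, hval,
      mul_comm (_ ^ n)] at h1
    obtain ⟨rfl, hu'⟩ := unit_mul_zpow_inj hirrB (hu.map h) huB h1
    refine ⟨u, c, hc, hu, ?_, ?_⟩
    · rw [he, map_zpow₀, map_natCast, map_natCast, mul_comm]
      rfl
    · rw [RingHom.comp_apply, hu', hlead]
  · letI := (s.mapE (algebraMap O L)).toAlgebra
    obtain ⟨jA, hjAl, hjA⟩ := exists_int_map (B := SerB W q) (L := L) hqp hs.max_eq hB jL
    have := hjAl
    have hb : IsUnit (laurentToHat hW (coeffMap j a)) :=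
      IsUnit.of_map ρ _ (isUnit_iff_ne_zero.2 (by rwa [hρser]))
    obtain ⟨v, -, hv, hjv⟩ := exists_unit_preimage jA hs.max_eq hB hjA hb (z := ν x) (m := 0)
      (by rw [hjL, hxa, serToB_algebraMap, zpow_zero, mul_one])
    rw [zpow_zero, mul_one] at hv
    refine ⟨v, (congrArg ρ (IsFractionRing.injective (SerB W q) (FractionRing (SerB W q)) ?_)).trans
      (hρser a)⟩
    rw [← hjE]
    have e : s.mapE (algebraMap O L) (AdjoinRoot.of s.quo v) =
        (s.map (algebraMap O L)).br₁ (Pairs.map ν hΨ (Pairs.ofBase _ x)) := by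
      simp [RootSplit.mapE, RootSplit.br₁, hv]
    rw [e, hbr]
    show serToB hW j hj (serOf A (M * q * q) (ψ (Pairs.ofBase _ x))) = _
    rw [hxa, serToB_algebraMap]

/-- The residues of the branch `(x₁, x₀)` are series. -/
theorem exists_gaussRes (fp : FramePair q A) {w : A} (hw : residue A w ≠ 0)
    (hq : (q : Qb) = fp.fr₀.ϖ * (w : Qb))
    (hW : maximalIdeal W = Ideal.span {(q : W)}) (j : intRing A →+* W) (hj : Function.Injective j)
    (r : W →+* ResidueField A) (hr : RingHom.ker r = maximalIdeal W)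
    (hrj : r.comp j = (residue A).comp (intIncl A))
    {Φ : ℤ[X][X]} {t : ↥(modularFunctionFieldFull M)} (ht : Chart.IsTFull L₀ M t)
    {ψ : Pairs (inertiaPhi A Φ t) →+* fld (inertiaField A) (M * q * q)} (hψ : IsPairHom q ψ)
    [Fact (Irreducible (inertiaPhi A Φ t))] [Fact (Irreducible (sndPoly (inertiaPhi A Φ t)))]
    {ΨA : O[X]} {s : RootSplit ΨA} {T : O} (hs : IsGauss q ΨA s T)
    (ν : fld (inertiaField A) M →+* L)
    (hΨ : (inertiaPhi A Φ t).map ν = ΨA.map (algebraMap O L))
    (hT : ν (ofFull (inertiaField A) M t) = algebraMap O L T)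
    (jL : L →+* FractionRing (SerB W q))
    (hjL : ∀ a, jL (ν a) =
      serToB hW j hj (serOf A (M * q * q) (ψ (Pairs.ofBase _ a)))) :
    Nonempty (GaussRes fp s ν hΨ (pairSer ψ)) :=
  ⟨(exists_gaussRes_lift fp hw hq hW j hj r hr hrj ht hψ hs ν hΨ hT jL hjL).choose⟩

end FLTA.RT.Qsq

end
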