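import Fermat.Agent.RT.Qsq.Core
import Fermat.Agent.RT.Qsq.Equivariant
import Fermat.Agent.RT.LowerQ
import Fermat.Agent.EllReducible.Local
import Fermat.Agent.Galois.Places

/-!
# Step (A): the square of an odd prime leaves the level
-/

set_option autoImplicit false
set_option maxHeartbeats 800000

noncomputable section

open WeierstrassCurve ModularCurve
open FLTA.LevelLowering (heckeLiftMod heckeLiftBar CurveGlobalData)

namespace FLTA.RT.Qsq

open FLTA.EllReducible (Tors)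

local notation "Qb" => AlgebraicClosure ℚ

/-- A polynomial in the good Hecke operators acts on an eigenclass through the system. -/
theorem exists_heckeLiftBar_eigen {L p : ℕ} [NeZero L] [Fact p.Prime] {S : Finset ℕ} (a : ℕ → ℤ)
    {x : JZero L} (heig : ∀ ℓ : Nat.Primes, (ℓ : ℕ) ∉ S → heckeOperatorBar L ℓ x = a ℓ • x)
    (t : FreeAlgebra ℤ {ℓ : Nat.Primes // (ℓ : ℕ) ∉ S}) :
    ∃ c : ℤ, (c : ZMod p) = heckeLiftMod p a S t ∧ heckeLiftBar L S t x = c • x := by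
  induction t using FreeAlgebra.induction with
  | grade0 r =>
    refine ⟨r, by simp, ?_⟩
    rw [AlgHom.commutes]
    exact Module.algebraMap_end_apply ℤ ℤ (JZero L) r x
  | grade1 ℓ =>
    exact ⟨a (ℓ.1 : ℕ), by simp [heckeLiftMod], by simp [heckeLiftBar, heig ℓ.1 ℓ.2]⟩
  | mul u v hu hv =>
    obtain ⟨c, hc, hcx⟩ := hu
    obtain ⟨d, hd, hdx⟩ := hv
    refine ⟨c * d, by rw [Int.cast_mul, hc, hd, map_mul], ?_⟩
    rw [map_mul, Module.End.mul_apply, hdx, map_zsmul, hcx, ← mul_zsmul]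
    exact congrArg (· • x) (mul_comm d c)
  | add u v hu hv =>
    obtain ⟨c, hc, hcx⟩ := hu
    obtain ⟨d, hd, hdx⟩ := hv
    exact ⟨c + d, by rw [Int.cast_add, hc, hd, map_add],
      by rw [map_add, LinearMap.add_apply, hcx, hdx, add_zsmul]⟩

/-- An eigenclass killed by `p` and separated from the lower level dies under a pushforward. -/
theorem push_eq_zero {L N p : ℕ} [NeZero L] [NeZero N] [Fact p.Prime] {S : Finset ℕ} (a : ℕ → ℤ)
    (t : FreeAlgebra ℤ {ℓ : Nat.Primes // (ℓ : ℕ) ∉ S}) (ht1 : heckeLiftMod p a S t = 1)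
    (ht0 : heckeLiftBar N S t = 0) (f : JZero L →+ JZero N)
    (hf : ∀ (σ : Qb ≃ₐ[ℚ] Qb) x, f (σ • x) = σ • f x) (hpS : p ∈ S)
    (hL : ∀ ℓ : ℕ, ℓ.Prime → ℓ ∣ L → ℓ ∈ S) (hN : ∀ ℓ : ℕ, ℓ.Prime → ℓ ∣ N → ℓ ∈ S)
    {x : JZero L} (hx : p • x = 0)
    (heig : ∀ ℓ : Nat.Primes, (ℓ : ℕ) ∉ S → heckeOperatorBar L ℓ x = a ℓ • x) : f x = 0 := by
  obtain ⟨c, hc, hcx⟩ := exists_heckeLiftBar_eigen (p := p) a
    (x := f x) (fun ℓ hℓ => by
      rw [← map_heckeOperatorBar f hf ℓ (fun h => hℓ (hL ℓ ℓ.2 h)) (fun h => hℓ (hN ℓ ℓ.2 h))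
        (fun h => hℓ (by rwa [(Nat.prime_dvd_prime_iff_eq ℓ.2 Fact.out).mp h])) hx, heig ℓ hℓ,
        map_zsmul]) t
  rw [ht1] at hc
  rw [ht0, LinearMap.zero_apply] at hcx
  obtain ⟨k, hk⟩ : (p : ℤ) ∣ c - 1 := by
    rw [← ZMod.intCast_zmod_eq_zero_iff_dvd]
    simp [hc]
  have hp : (p : ℤ) • f x = 0 := by rw [natCast_zsmul, ← map_nsmul, hx, map_zero]
  calc f x = c • f x - k • ((p : ℤ) • f x) := by
        rw [smul_smul, ← sub_smul, show c - k * (p : ℤ) = 1 by linear_combination hk,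
          one_smul]
    _ = 0 := by rw [← hcx, hp, smul_zero, sub_zero]

/-- Away from `p`, inertia fixes a nonzero point of `E[p]`. -/
theorem exists_ne_zero_fixed {W : WeierstrassCurve ℤ} {p q : ℕ} (h : LiftingCurve p W)
    (hq : q.Prime) (hqp : q ≠ p) (A : ValuationSubring Qb) (hA : A.LiesOverPrime q)
    (hV : ∃ v : Tors (W.map (Int.castRingHom ℚ)) p, v ≠ 0) :
    ∃ v : Tors (W.map (Int.castRingHom ℚ)) p, v ≠ 0 ∧
      ∀ σ ∈ A.inertiaSubgroupIn ℚ, σ • v = v := by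
  by_cases hall : ∀ v : Tors (W.map (Int.castRingHom ℚ)) p,
      ∀ σ ∈ A.inertiaSubgroupIn ℚ, σ • v = v
  · obtain ⟨v, hv⟩ := hV
    exact ⟨v, hv, hall v⟩
  push Not at hall
  obtain ⟨v, σ, hσ, hne⟩ := hall
  refine ⟨σ • v - v, sub_ne_zero.mpr hne, fun τ hτ => ?_⟩
  have hp : p.Prime := by rcases h.hp with rfl | rfl <;> norm_num
  refine Subtype.ext ?_
  exact FLTA.EllReduction.smul_smul_sub_eq hq hA
    (EllReducible.semistableAt W h.semistable hq) h.hΔ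
    (fun hd => hqp ((Nat.prime_dvd_prime_iff_eq hq hp).mp hd)) hσ hτ
    (EllReducible.nsmul_coe_eq_zero v)

end FLTA.RT.Qsq

namespace FLTA.RT

open FLTA.EllReducible (Tors)

/-- **Step (A).** -/
theorem sqDescent : SqDescent := by
  intro p W hW M q hres hpM hcube hq hqp hq2 hqM
  have hp : p.Prime := by rcases hW.hp with rfl | rfl <;> norm_num
  have hp2 : p ≠ 2 := by rcases hW.hp with rfl | rfl <;> norm_num
  have : Fact p.Prime := ⟨hp⟩
  have : Fact q.Prime := ⟨hq⟩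
  have : NeZero q := ⟨hq.ne_zero⟩
  have hM0 : M ≠ 0 := fun h => hpM (h ▸ dvd_zero _)
  obtain ⟨L, rfl⟩ := hqM
  have hL0 : L ≠ 0 := fun h => hM0 (by rw [h, mul_zero])
  have hqL : ¬ q ∣ L := fun h => hcube q hq hqp (by
    rw [pow_succ]; exact mul_dvd_mul_left _ h)
  set N := Nat.lcm L 4 with hN
  have h4 : 4 ∣ N := Nat.dvd_lcm_right L 4
  have : NeZero N := ⟨Nat.lcm_ne_zero hL0 (by norm_num)⟩
  have hqN : ¬ q ∣ N := fun h => by
    rcases (hq.dvd_mul).mp (h.trans (Nat.lcm_dvd_mul L 4)) with h | h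
    · exact hqL h
    · exact hq2 ((Nat.prime_dvd_prime_iff_eq hq Nat.prime_two).mp
        (hq.dvd_of_dvd_pow (show q ∣ 2 ^ 2 by simpa using h)))
  have hlvl : Nat.lcm (q ^ 2 * L / q) 4 = N * q := by
    rw [show q ^ 2 * L / q = q * L by
      rw [pow_two, mul_assoc, Nat.mul_div_cancel_left _ hq.pos]]
    refine Nat.dvd_antisymm (Nat.lcm_dvd ?_ (h4.trans (dvd_mul_right _ _))) ?_
    · rw [mul_comm q]; exact mul_dvd_mul_right (Nat.dvd_lcm_left L 4) q
    · exact Nat.Coprime.mul_dvd_of_dvd_of_dvd (hq.coprime_iff_not_dvd.mpr hqN).symm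
        (Nat.lcm_dvd ((dvd_mul_left L q).trans (Nat.dvd_lcm_left _ _)) (Nat.dvd_lcm_right _ _))
        ((dvd_mul_right q L).trans (Nat.dvd_lcm_left _ _))
  rw [hlvl]
  have hNqq : N * q * q ≠ 0 := NeZero.ne _
  have hNq : N * q ≠ 0 := NeZero.ne _
  have hsys : HasSystem W p (q ^ 2 * L) := LowerQGlue.hasSystem_of_res hW.hΔ hM0 hres
  have hbig : W.IsResiduallyModularOfLevel p (N * q * q) :=
    LowerQGlue.res_of_dvd hW.hΔ hp2 (by
      rw [mul_assoc, ← pow_two, mul_comm N]; exact mul_dvd_mul_left _ (Nat.dvd_lcm_left L 4))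
      hNqq hsys
  set S : Finset ℕ := {p} ∪ (N * q * q).primeFactors ∪ W.Δ.natAbs.primeFactors
  have hlev : ∀ ℓ : ℕ, ℓ.Prime → ℓ ∣ N * q * q → ℓ ∈ S := fun ℓ hℓ h => by
    simp [S, Nat.mem_primeFactors, hℓ, h, hNqq]
  rcases LevelLowering.exists_curveData_or_eigenform W hW.hΔ p hp2 hW.irreducible (N * q * q)
    (N * q) (dvd_mul_right _ q) S (by simp [S]) hlev (fun ℓ hℓ hb => by
      simp only [S, Finset.mem_union, Nat.mem_primeFactors]
      exact Or.inr ⟨hℓ, Int.natCast_dvd.mp (not_not.mp hb), Int.natAbs_ne_zero.mpr hW.hΔ⟩)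
    (LowerQGlue.system_of_res hW.hΔ hNqq hbig) with h | ⟨⟨G⟩⟩
  · exact LowerQGlue.res_of_dvd hW.hΔ hp2 dvd_rfl hNq (LowerQGlue.hasSystem_of_ll h)
  rcases LevelLowering.exists_curveData_or_eigenform W hW.hΔ p hp2 hW.irreducible (N * q * q) N
    ((dvd_mul_right N q).trans (dvd_mul_right _ q)) S (by simp [S]) hlev (fun ℓ hℓ hb => by
      simp only [S, Finset.mem_union, Nat.mem_primeFactors]
      exact Or.inr ⟨hℓ, Int.natCast_dvd.mp (not_not.mp hb), Int.natAbs_ne_zero.mpr hW.hΔ⟩)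
    (LowerQGlue.system_of_res hW.hΔ hNqq hbig) with h | ⟨⟨G'⟩⟩
  · exact LowerQGlue.res_of_dvd hW.hΔ hp2 (dvd_mul_right N q) hNq (LowerQGlue.hasSystem_of_ll h)
  exfalso
  obtain ⟨A, hA⟩ := Galois.exists_liesOverPrime hq
  have hpS : p ∈ S := by simp [S]
  have hlev' : ∀ ℓ : ℕ, ℓ.Prime → ℓ ∣ N * q → ℓ ∈ S := fun ℓ hℓ h =>
    hlev ℓ hℓ (h.trans (dvd_mul_right _ q))
  have hV : ∃ v : Tors (W.map (Int.castRingHom ℚ)) p, v ≠ 0 := by
    have hirr := hW.irreducible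
    have := hirr.1
    exact exists_ne (0 : Tors (W.map (Int.castRingHom ℚ)) p)
  obtain ⟨v, hv0, hvfix⟩ := Qsq.exists_ne_zero_fixed hW hq hqp A hA hV
  have hpx : p • G.iota v = 0 := by
    rw [← map_nsmul]
    convert map_zero G.iota using 2
    rw [← Nat.cast_smul_eq_nsmul (ZMod p), ZMod.natCast_self, zero_smul]
  have heig : ∀ ℓ : Nat.Primes, (ℓ : ℕ) ∉ S →
      heckeOperatorBar (N * q * q) ℓ (G.iota v) = W.apOfModel ℓ • G.iota v :=
    fun ℓ hℓ => G.hecke_iota ℓ hℓ v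
  refine hv0 (G.iota_injective ?_)
  rw [map_zero]
  exact Qsq.eq_zero_of_fixed_eigen N q p hp2 hq2 hqp hqN h4 A hA S
    hlev' hpS (fun ℓ => W.apOfModel ℓ) (G.t * G'.t) (by rw [map_mul, G.t_eval, G'.t_eval, one_mul])
    (by rw [map_mul, G.t_old, zero_mul]) (by rw [map_mul, G'.t_old, mul_zero])
    G.exists_not_eisenstein _ hpx (fun σ hσ => by rw [← G.iota_smul, hvfix σ hσ]) heig
    (Qsq.push_eq_zero _ G.t G.t_eval G.t_old _ (Carayol.pushAlpha_galois _ _) hpS hlev hlev'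
      hpx heig)
    (Qsq.push_eq_zero _ G.t G.t_eval G.t_old _ (Carayol.pushBeta_galois _ _) hpS hlev hlev'
      hpx heig)

end FLTA.RT

end
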