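import Fermat.Agent.RT.Qsq.MiddleRoot
import Fermat.Agent.Carayol.UnitDefs
import Fermat.Agent.Carayol.Node.Main

/-!
# The middle residue at a point of the line

When the middle branch carries a unit `u` times an `n`-th power and the horizontal multiplicities
are divisible by `n`, the image of the residue of `u ^ q` at every point of the line is an `n`-th
power in the residue field of the completion at the vertical prime.
-/

set_option autoImplicit false
set_option maxHeartbeats 1600000
set_option synthInstance.maxHeartbeats 400000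
set_option linter.style.haveILetI false

noncomputable section

open IsLocalRing Polynomial FLTA.Carayol

namespace FLTA.RT.Qsq

/-- Integrality over a ring through which the map factors. -/
theorem isIntegralElem_of_comp {A B C : Type*} [CommRing A] [CommRing B] [CommRing C]
    {f : A →+* B} {g : B →+* C} {x : C} (h : (g.comp f).IsIntegralElem x) : g.IsIntegralElem x := by
  obtain ⟨P, hP, hx⟩ := h
  exact ⟨P.map f, hP.map f, by rwa [eval₂_map]⟩

section Gauss

variable {q : ℕ} {O : Type} [CommRing O] [IsDomain O] [IsDiscreteValuationRing O]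
  [IsAdicComplete (maximalIdeal O) O] {L : Type} [Field L] [Algebra O L] [IsFractionRing O L]
  {ΨA : O[X]} {s : RootSplit ΨA} {T : O}

omit [IsAdicComplete (maximalIdeal O) O] in
/-- Exact roots on the outer branches and a root up to a unit on the middle one give a root up to
an integral unit. -/
theorem hasRootUpToUnit_branches (hs : IsGauss q ΨA s T) {n : ℕ}
    {y : Pairs (ΨA.map (algebraMap O L))} {r₀ r₁ : (s.map (algebraMap O L)).E}
    {w : (s.map (algebraMap O L)).E'} {u : s.E'} (hu : IsUnit u)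
    (h₀ : r₀ ^ n = (s.map (algebraMap O L)).br₀ y) (h₁ : r₁ ^ n = (s.map (algebraMap O L)).br₁ y)
    (hm : w ^ n * s.mapE' (algebraMap O L) u = (s.map (algebraMap O L)).brₘ y) :
    HasRootUpToUnit ((Pairs.ofBase (ΨA.map (algebraMap O L))).comp (algebraMap O L)) n y := by
  have := Fact.mk (hs.irreducible_quo (L := L))
  let tL := s.map (algebraMap O L)
  have hΨm : (ΨA.map (algebraMap O L)).Monic := hs.monic.map _
  have hd : 1 < (ΨA.map (algebraMap O L)).natDegree := by
    rw [hs.monic.natDegree_map, hs.natDegree_eq]; have := hs.prime_q.two_le; omega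
  have hd' : 1 < ΨA.natDegree := by rw [hs.natDegree_eq]; have := hs.prime_q.two_le; omega
  have h0 := hs.quo_eval_x₀_ne_zero (L := L)
  obtain ⟨v, hv⟩ := hu.exists_right_inv
  obtain ⟨Y, hY₀, hY₁, hY₂⟩ := tL.br_surjective hΨm hd h0 r₀ r₁ w
  obtain ⟨ε, hε₀, hε₁, hε₂⟩ :=
    tL.br_surjective hΨm hd h0 1 1 (s.mapE' (algebraMap O L) u)
  obtain ⟨ε', hε₀', hε₁', hε₂'⟩ :=
    tL.br_surjective hΨm hd h0 1 1 (s.mapE' (algebraMap O L) v)
  have := hs.monic_quo.finite_adjoinRoot
  have := (s.monic_G hs.monic hd').finite_adjoinRoot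
  have : Module.Finite O s.E' := Module.Finite.trans s.E _
  have hint : ∀ (z : s.E') (e : Pairs (ΨA.map (algebraMap O L))), tL.br₀ e = 1 → tL.br₁ e = 1 →
      tL.brₘ e = s.mapE' (algebraMap O L) z →
      ((Pairs.ofBase (ΨA.map (algebraMap O L))).comp (algebraMap O L)).IsIntegralElem e := by
    intro z e e₀ e₁ e₂
    obtain ⟨P, hP, hPz⟩ := Algebra.IsIntegral.isIntegral (R := O) z
    refine ⟨(X - C 1) * P, (monic_X_sub_C 1).mul hP, tL.br_injective hΨm hd h0 ?_ ?_ ?_⟩
    · rw [hom_eval₂, e₀, eval₂_mul, eval₂_sub, eval₂_X, eval₂_C, map_one, sub_self, zero_mul]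
    · rw [hom_eval₂, e₁, eval₂_mul, eval₂_sub, eval₂_X, eval₂_C, map_one, sub_self, zero_mul]
    · have e : tL.brₘ.comp ((Pairs.ofBase (ΨA.map (algebraMap O L))).comp (algebraMap O L)) =
          (s.mapE' (algebraMap O L)).comp (algebraMap O s.E') := by
        refine RingHom.ext fun a => ?_
        rw [RingHom.comp_apply, RingHom.comp_apply, RingHom.comp_apply,
          show algebraMap O s.E' a = AdjoinRoot.of s.G (AdjoinRoot.of s.quo a) from rfl]
        simp [tL, RootSplit.brₘ, RootSplit.mapE', RootSplit.mapE]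
      rw [hom_eval₂, e₂, e, eval₂_mul, ← hom_eval₂ P, hPz, map_zero, mul_zero]
  refine ⟨Y, ε, ε', sub_eq_zero.1 (tL.br_injective hΨm hd h0 ?_ ?_ ?_),
    hint u ε hε₀ hε₁ hε₂, hint v ε' hε₀' hε₁' hε₂',
    sub_eq_zero.1 (tL.br_injective hΨm hd h0 ?_ ?_ ?_)⟩
  · rw [map_sub, map_mul, hε₀, hε₀', map_one, one_mul, sub_self]
  · rw [map_sub, map_mul, hε₁, hε₁', map_one, one_mul, sub_self]
  · rw [map_sub, map_mul, hε₂, hε₂', ← map_mul, hv, map_one, map_one, sub_self]
  · rw [map_sub, map_mul, map_pow, hY₀, hε₀, mul_one, h₀, sub_self]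
  · rw [map_sub, map_mul, map_pow, hY₁, hε₁, mul_one, h₁, sub_self]
  · rw [map_sub, map_mul, map_pow, hY₂, hε₂, hm, sub_self]

omit [IsAdicComplete (maximalIdeal O) O] in
/-- The `q`-th power of an element of the quotient is a scalar modulo `q`. -/
theorem exists_pow_q_mem (hs : IsGauss q ΨA s T) [IsLocalRing s.E] (b : s.E) :
    ∃ d : O, b ^ q - AdjoinRoot.of s.quo d ∈ maximalIdeal s.E := by
  have := Fact.mk hs.prime_q
  have := hs.charP_residue_E
  set ρ := (residue s.E).comp (AdjoinRoot.of s.quo) with hρ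
  have hroot : residue s.E (AdjoinRoot.root s.quo) ^ q = ρ T := by
    have h1 := congrArg (residue s.E) (AdjoinRoot.eval₂_root s.quo)
    rw [hom_eval₂, map_zero] at h1
    have hloc : IsLocalHom ρ := ⟨fun a ha => by
      by_contra hna
      have ha' : a ∈ maximalIdeal O := hna
      rw [hs.max_eq, Ideal.mem_span_singleton] at ha'
      obtain ⟨d, rfl⟩ := ha'
      rw [map_mul, map_natCast, CharP.cast_eq_zero, zero_mul] at ha
      exact not_isUnit_zero ha⟩
    have hq : ρ = (ResidueField.lift ρ).comp (residue O) :=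
      RingHom.ext fun a => (ResidueField.lift_residue_apply ρ a).symm
    rw [show (residue s.E).comp (AdjoinRoot.of s.quo) = ρ from rfl, hq, ← eval₂_map,
      hs.quo_mod] at h1
    simpa [sub_eq_zero, ResidueField.lift_residue_apply] using h1
  suffices h : ∃ d, residue s.E b ^ q = ρ d by
    obtain ⟨d, hd⟩ := h
    exact ⟨d, by rw [← residue_eq_zero_iff, map_sub, map_pow, hd]; exact sub_self _⟩
  induction b using AdjoinRoot.induction_on with
  | ih P =>
    induction P using Polynomial.induction_on' with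
    | add P R hP hR =>
      obtain ⟨d, hd⟩ := hP
      obtain ⟨e, he⟩ := hR
      exact ⟨d + e, by rw [map_add, map_add, add_pow_char, hd, he, map_add]⟩
    | monomial i c =>
      refine ⟨c ^ q * T ^ i, ?_⟩
      rw [← C_mul_X_pow_eq_monomial, map_mul, map_pow, AdjoinRoot.mk_C, AdjoinRoot.mk_X, map_mul,
        map_pow, mul_pow, ← pow_mul, mul_comm i q, pow_mul, hroot, map_mul, map_pow, map_pow]
      rfl

variable {B : Type} [CommRing B] [IsDomain B] [IsDiscreteValuationRing B]
  [IsAdicComplete (maximalIdeal B) B] {FM : Type} [Field FM] [Algebra B FM] [IsFractionRing B FM]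

omit [IsAdicComplete (maximalIdeal O) O] [IsFractionRing O L] in
/-- **The residue of the middle unit after a map of Gauss models.** -/
theorem exists_pow_residue_middle (hs : IsGauss q ΨA s T) (jA : O →+* B)
    (hB : maximalIdeal B = Ideal.span {(q : B)}) (hpow : ∀ c, c ^ q ≠ residue B (jA T))
    (jg : L →+* FM) (hjA : jg.comp (algebraMap O L) = (algebraMap B FM).comp jA)
    (e1 : (ΨA.map (algebraMap O L)).map jg = (ΨA.map jA).map (algebraMap B FM)) {n : ℕ}
    (hn : n ≠ 0) [Fact (Irreducible (s.map (algebraMap O L)).quo)]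
    [Fact (Irreducible (s.map (algebraMap O L)).G)]
    {y : Pairs (ΨA.map (algebraMap O L))} {u : s.E'} (hu : IsUnit u) {i : ℤ}
    (hm : (s.map (algebraMap O L)).brₘ y = s.mapE' (algebraMap O L) u *
      s.mapE' (algebraMap O L)
        (AdjoinRoot.of s.G (AdjoinRoot.root s.quo) - AdjoinRoot.root s.G) ^ ((n : ℤ) * i))
    {a : O} (hua : AdjoinRoot.of s.G (AdjoinRoot.root s.quo) - AdjoinRoot.root s.G ∣
      u ^ q - AdjoinRoot.of s.G (AdjoinRoot.of s.quo a))
    {G : Pairs ((ΨA.map jA).map (algebraMap B FM))} (hG : G ^ n = Pairs.map jg e1 y) :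
    ∃ d : B, residue B d ^ n = residue B (jA a) := by
  have hsB : IsGauss q (ΨA.map jA) (s.map jA) (jA T) := by
    have hloc : IsLocalHom jA := ⟨fun a ha => by
      by_contra hna
      have ha' : a ∈ maximalIdeal O := hna
      rw [hs.max_eq, Ideal.mem_span_singleton] at ha'
      obtain ⟨d, rfl⟩ := ha'
      rw [map_mul, map_natCast] at ha
      exact (mem_maximalIdeal _).1 (hB ▸ Ideal.mem_span_singleton_self _)
        (isUnit_of_mul_isUnit_left ha)⟩
    exact hs.map jA hB hpow
  set sB := s.map jA with hsBdef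
  obtain ⟨_, _, _, _, _, hfrac, -, hirr, hiff⟩ := middle_facts (L := FM) hsB
  have := hsB.isDiscreteValuationRing_E
  have hquo := Fact.mk (hsB.irreducible_quo (L := FM))
  have hGf := Fact.mk (hsB.irreducible_G (L := FM))
  letI : Algebra sB.E' (sB.map (algebraMap B FM)).E' := (sB.mapE' (algebraMap B FM)).toAlgebra
  have := hfrac
  have hof : (algebraMap B FM).comp jA = jg.comp (algebraMap O L) := hjA.symm
  -- the map of the middle fields
  let F := (sB.map (algebraMap B FM)).E'
  let i₀ : L →+* F :=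
    ((AdjoinRoot.of (sB.map (algebraMap B FM)).G).comp
      (AdjoinRoot.of (sB.map (algebraMap B FM)).quo)).comp jg
  have hev₀ : (s.map (algebraMap O L)).quo.eval₂ i₀
      (AdjoinRoot.of (sB.map (algebraMap B FM)).G
        (AdjoinRoot.root (sB.map (algebraMap B FM)).quo)) = 0 := by
    have key : ∀ P : O[X], ∀ x : F, (P.map (algebraMap O L)).eval₂ i₀ x =
        ((P.map jA).map (algebraMap B FM)).eval₂
          ((AdjoinRoot.of (sB.map (algebraMap B FM)).G).comp
            (AdjoinRoot.of (sB.map (algebraMap B FM)).quo)) x := fun P x => by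
      simp only [eval₂_map, i₀, RingHom.comp_assoc, hjA]
    rw [s.quo_map (algebraMap O L), key, ← hom_eval₂]
    have h0 := AdjoinRoot.eval₂_root (sB.map (algebraMap B FM)).quo
    simp only [hsBdef, RootSplit.quo_map] at h0 ⊢
    rw [h0, map_zero]
  let Ξ₀ : (s.map (algebraMap O L)).E →+* F := AdjoinRoot.lift i₀ _ hev₀
  have hΞ₀ : Ξ₀.comp (s.mapE (algebraMap O L)) =
      ((AdjoinRoot.of (sB.map (algebraMap B FM)).G).comp (sB.mapE (algebraMap B FM))).comp
        (s.mapE jA) := by
    refine AdjoinRoot.ringHom_ext (RingHom.ext fun x => ?_) ?_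
    · have := RingHom.congr_fun hjA x
      simp only [RingHom.comp_apply] at this
      simp [Ξ₀, i₀, RootSplit.mapE, sB, this]
    · simp [Ξ₀, RootSplit.mapE, sB]
  have hev : (s.map (algebraMap O L)).G.eval₂ Ξ₀
      (AdjoinRoot.root (sB.map (algebraMap B FM)).G) = 0 := by
    have key : ∀ P : s.E[X], ∀ x : F, (P.map (s.mapE (algebraMap O L))).eval₂ Ξ₀ x =
        ((P.map (s.mapE jA)).map (sB.mapE (algebraMap B FM))).eval₂
          (AdjoinRoot.of (sB.map (algebraMap B FM)).G) x := fun P x => by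
      simp only [eval₂_map, hΞ₀, RingHom.comp_assoc]
    rw [← s.G_map (algebraMap O L), key]
    have h0 := AdjoinRoot.eval₂_root (sB.map (algebraMap B FM)).G
    have e : (sB.map (algebraMap B FM)).G = (s.G.map (s.mapE jA)).map (sB.mapE (algebraMap B FM)) := by
      rw [s.G_map jA]
      exact (sB.G_map (algebraMap B FM)).symm
    exact (congrArg (fun P => eval₂ (AdjoinRoot.of (sB.map (algebraMap B FM)).G)
      (AdjoinRoot.root (sB.map (algebraMap B FM)).G) P) e).symm.trans h0
  let Ξ : (s.map (algebraMap O L)).E' →+* F := AdjoinRoot.lift Ξ₀ _ hev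
  have hΞ : Ξ.comp (s.mapE' (algebraMap O L)) =
      (sB.mapE' (algebraMap B FM)).comp (s.mapE' jA) := by
    refine AdjoinRoot.ringHom_ext (RingHom.ext fun x => ?_) ?_
    · have := RingHom.congr_fun hΞ₀ x
      simp only [RingHom.comp_apply] at this
      simp [Ξ, RootSplit.mapE', sB, this]
    · simp [Ξ, RootSplit.mapE', sB]
  have hΞb : Ξ.comp (s.map (algebraMap O L)).brₘ =
      (sB.map (algebraMap B FM)).brₘ.comp (Pairs.map jg e1) := by
    refine Pairs.ringHom_ext (RingHom.ext fun x => ?_) ?_ ?_ <;>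
      simp [Ξ, Ξ₀, i₀, RootSplit.brₘ]
  have hπ : s.mapE' jA (AdjoinRoot.of s.G (AdjoinRoot.root s.quo) - AdjoinRoot.root s.G) =
      AdjoinRoot.of sB.G (AdjoinRoot.root sB.quo) - AdjoinRoot.root sB.G := by
    simp [RootSplit.mapE', RootSplit.mapE, sB]
  set π := AdjoinRoot.of sB.G (AdjoinRoot.root sB.quo) - AdjoinRoot.root sB.G with hπdef
  -- the root on the middle branch
  obtain ⟨r, hrdef⟩ : ∃ r, r = (sB.map (algebraMap B FM)).brₘ G := ⟨_, rfl⟩
  have hr : r ^ n = algebraMap sB.E' F (s.mapE' jA u) *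
      algebraMap sB.E' F π ^ ((n : ℤ) * i) := by
    have h := RingHom.congr_fun hΞb y
    simp only [RingHom.comp_apply] at h
    rw [hrdef, ← map_pow, hG, ← h, hm, map_mul, map_zpow₀, ← RingHom.comp_apply Ξ,
      ← RingHom.comp_apply Ξ, hΞ, RingHom.comp_apply, RingHom.comp_apply, hπ]
    rfl
  have hU : IsUnit (s.mapE' jA u) := hu.map _
  have hr0 : r ≠ 0 := by
    intro h
    rw [h, zero_pow hn, eq_comm] at hr
    exact mul_ne_zero ((map_ne_zero_iff _ (IsFractionRing.injective sB.E' F)).2 hU.ne_zero)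
      (zpow_ne_zero _ ((map_ne_zero_iff _ (IsFractionRing.injective sB.E' F)).2 hirr.ne_zero)) hr
  obtain ⟨v, k, hv, rfl⟩ := exists_eq_unit_mul_zpow (B := sB.E') hirr hr0
  rw [mul_pow, ← map_pow, ← zpow_natCast (_ ^ k), ← zpow_mul] at hr
  obtain ⟨-, hvu⟩ := unit_mul_zpow_inj hirr (hv.pow n) hU hr
  -- residues
  obtain ⟨b, w, hvb⟩ := exists_middle_decomp sB v
  obtain ⟨d, hd⟩ := exists_pow_q_mem hsB b
  have hmax : maximalIdeal sB.E' = Ideal.span {π} :=
    (IsDiscreteValuationRing.irreducible_iff_uniformizer _).1 hirr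
  set res := residue sB.E' with hres
  set e : B →+* ResidueField sB.E' :=
    res.comp ((AdjoinRoot.of sB.G).comp (AdjoinRoot.of sB.quo)) with he
  have h1 : res (s.mapE' jA u) ^ q = e (jA a) := by
    obtain ⟨c, hc⟩ := hua
    have h := congrArg (s.mapE' jA) hc
    rw [map_mul, hπ, map_sub, map_pow] at h
    have e2 : s.mapE' jA (AdjoinRoot.of s.G (AdjoinRoot.of s.quo a)) =
        AdjoinRoot.of sB.G (AdjoinRoot.of sB.quo (jA a)) := by
      simp [RootSplit.mapE', RootSplit.mapE, sB]
    rw [he, RingHom.comp_apply, RingHom.comp_apply, ← e2, ← map_pow, ← sub_eq_zero, ← map_sub,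
      hres, residue_eq_zero_iff, hmax, Ideal.mem_span_singleton, h]
    exact dvd_mul_right _ _
  have h2 : res v ^ q = e d := by
    have hb : res v = res (AdjoinRoot.of sB.G b) := by
      rw [← sub_eq_zero, ← map_sub, hres, residue_eq_zero_iff, hmax, Ideal.mem_span_singleton,
        hvb, add_sub_cancel_left, hπdef, ← neg_sub, neg_dvd]
      exact dvd_mul_right _ _
    rw [hb, he, RingHom.comp_apply, RingHom.comp_apply, ← map_pow, ← map_pow, ← sub_eq_zero,
      ← map_sub, ← map_sub, hres, residue_eq_zero_iff]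
    by_contra hn'
    have hun : IsUnit (b ^ q - AdjoinRoot.of sB.quo d) := by
      rw [← hiff _ 0, mul_zero, add_zero]
      exact notMem_maximalIdeal.1 hn'
    exact (mem_maximalIdeal _).1 hd hun
  refine ⟨d, sub_eq_zero.1 ?_⟩
  rw [← map_pow, ← map_sub, residue_eq_zero_iff, mem_maximalIdeal, mem_nonunits_iff]
  intro hun
  refine (hun.map e).ne_zero ?_
  rw [map_sub, map_pow, ← h2, ← h1, ← hvu, map_pow, ← pow_mul, ← pow_mul, mul_comm, sub_self]

end Gauss

variable {W : Type} [CommRing W] [IsDomain W] [IsDiscreteValuationRing W]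
  {q : ℕ} [Fact q.Prime] [Fact (Prime (C (q : W) : W[X]))]
  [Fact (Prime (PowerSeries.C (q : W) : PowerSeries W))] {Φ : ℤ[X][X]} {Q : W[X][X]}

omit [Fact q.Prime] in
/-- **The residue at a point.** -/
theorem exists_pow_residue_point (gm : GaussModel W q Φ Q) {n : ℕ} (hn : n ≠ 0)
    {β : W[X] →+* FractionRing (PowerSeries W)}
    {TB : HatAt (PowerSeries.C (q : W) : PowerSeries W)}
    (hTB : algebraMap _ (FractionRing (HatAt (PowerSeries.C (q : W) : PowerSeries W))) TB =
      toHatFrac q (β X)) (hpow : ∀ c, c ^ q ≠ residue _ TB)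
    (hroot : PointRootUnit q Φ n β) {τ : CoverAlg W Q →+* FractionRing (PowerSeries W)}
    (hτ : τ.comp (coverBase Q) = β)
    {jg : FractionRing gm.A →+* FractionRing (HatAt (PowerSeries.C (q : W) : PowerSeries W))}
    (hcomm : (toHatFrac q).comp τ = jg.comp gm.g)
    {jA : gm.A →+* HatAt (PowerSeries.C (q : W) : PowerSeries W)}
    (hjA : jg.comp (algebraMap gm.A (FractionRing gm.A)) =
      (algebraMap _ (FractionRing (HatAt (PowerSeries.C (q : W) : PowerSeries W)))).comp jA)
    {y : Pairs (coverPhi Φ Q)} (hy : IsUnit y) (hhor : HorizDivisible Φ Q n y)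
    [Fact (Irreducible (gm.sA.map (algebraMap gm.A (FractionRing gm.A))).quo)]
    [Fact (Irreducible (gm.sA.map (algebraMap gm.A (FractionRing gm.A))).G)]
    (h₀ : ∃ r, r ^ n = (gm.sA.map (algebraMap gm.A (FractionRing gm.A))).br₀
      (Pairs.map gm.g gm.phi_gauss.symm y))
    (h₁ : ∃ r, r ^ n = (gm.sA.map (algebraMap gm.A (FractionRing gm.A))).br₁
      (Pairs.map gm.g gm.phi_gauss.symm y))
    {u : gm.sA.E'} (hu : IsUnit u) {i : ℤ}
    (hm : (gm.sA.map (algebraMap gm.A (FractionRing gm.A))).brₘ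
        (Pairs.map gm.g gm.phi_gauss.symm y) =
      gm.sA.mapE' (algebraMap gm.A (FractionRing gm.A)) u *
        gm.sA.mapE' (algebraMap gm.A (FractionRing gm.A))
          (AdjoinRoot.of gm.sA.G (AdjoinRoot.root gm.sA.quo) - AdjoinRoot.root gm.sA.G) ^
            ((n : ℤ) * i))
    {a : gm.A} (hua : AdjoinRoot.of gm.sA.G (AdjoinRoot.root gm.sA.quo) -
        AdjoinRoot.root gm.sA.G ∣ u ^ q - AdjoinRoot.of gm.sA.G (AdjoinRoot.of gm.sA.quo a)) :
    ∃ d, residue (HatAt (PowerSeries.C (q : W) : PowerSeries W)) d ^ n = residue _ (jA a) := by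
  let B := HatAt (PowerSeries.C (q : W) : PowerSeries W)
  let FM := FractionRing B
  let ΨL := (phiAt Φ (gaussCoeff gm.f)).map (algebraMap gm.A (FractionRing gm.A))
  have hU : (coverPhi Φ Q).map τ = phiAt Φ β := coverPhi_map hτ
  have e2 : ΨL.map jg = (phiAt Φ β).map (toHatFrac q) := by
    rw [show ΨL = (coverPhi Φ Q).map gm.g from gm.phi_gauss, Polynomial.map_map, ← hcomm,
      ← Polynomial.map_map, hU]
  have e1 : ΨL.map jg = ((phiAt Φ (gaussCoeff gm.f)).map jA).map (algebraMap B FM) := by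
    rw [map_map_algebraMap (phiAt Φ (gaussCoeff gm.f)), hjA, ← map_map_algebraMap]
  have hTA : jA (gaussCoeff gm.f X) = TB := IsFractionRing.injective B FM (by
    rw [← RingHom.comp_apply, ← hjA, hTB, ← hτ, ← RingHom.comp_apply (toHatFrac q),
      ← RingHom.comp_assoc, hcomm, RingHom.comp_assoc, gm.g_base]
    rfl)
  -- the root at the point
  obtain ⟨r₀, hr₀⟩ := h₀
  obtain ⟨r₁, hr₁⟩ := h₁
  obtain ⟨Y, ε, ε', hεε, hε, hε', hY⟩ := (hasRootUpToUnit_branches gm.isGauss hu hr₀ hr₁
    (w := gm.sA.mapE' (algebraMap gm.A (FractionRing gm.A))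
      (AdjoinRoot.of gm.sA.G (AdjoinRoot.root gm.sA.quo) - AdjoinRoot.root gm.sA.G) ^ i)
    (by rw [hm, mul_comm, ← zpow_natCast (_ ^ i), ← zpow_mul, mul_comm i])).map (Pairs.map jg e2)
  have hι : (Pairs.map jg e2).comp ((Pairs.ofBase ΨL).comp
      (algebraMap gm.A (FractionRing gm.A))) =
        (unitBase q ((phiAt Φ β).map (toHatFrac q))).comp jA := by
    refine RingHom.ext fun x => ?_
    have := RingHom.congr_fun hjA x
    simp only [RingHom.comp_apply] at this
    simp [unitBase, this]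
  rw [hι] at hε hε'
  obtain ⟨G, hG⟩ := hroot (Pairs.map τ hU y) (hy.map _) (by
      have h : HorizOn ((coverBase Q).comp C) n y := hhor
      have h' := h.map τ hU
      rwa [← RingHom.comp_assoc, hτ] at h')
    ⟨Y, ε, ε', hεε, (isIntegralElem_of_comp hε), (isIntegralElem_of_comp hε'), by
      rw [hY, Pairs.map_map_apply, Pairs.map_map_apply]
      exact Pairs.map_congr hcomm.symm _ _ _⟩
  refine exists_pow_residue_middle gm.isGauss jA maximalIdeal_hatSeries
    (fun c => hTA ▸ hpow c) jg hjA e1 hn hu hm hua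
    (G := Pairs.cast (e2.symm.trans e1) (Pairs.map (toHatFrac q) rfl G)) ?_
  rw [← map_pow, ← map_pow, hG, Pairs.map_map_apply, Pairs.cast_map, Pairs.map_map_apply]
  exact Pairs.map_congr hcomm _ _ _

end FLTA.RT.Qsq

end
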