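import Fermat.Agent.RT.Qsq.NodeMap
import Fermat.Agent.RT.Qsq.MiddlePoint
import Fermat.Agent.Carayol.Node.PlaceEmb
import Fermat.Agent.Bridge.ModHol

/-!
# Descent of a point along `U ↦ U ^ p`

A place given by a residual embedding at a point of parameter degree `d` with all orders divisible
by `p` comes from a point of parameter degree `d / p`: so the local root at the points gives the
divisibility by `p` of the order at every place.
-/

set_option autoImplicit false
set_option maxHeartbeats 1600000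
set_option synthInstance.maxHeartbeats 400000
set_option linter.style.haveILetI false

noncomputable section

open IsLocalRing Polynomial ModularCurve AlgebraicCurve FLTA.Carayol FLTA.Congruence

namespace FLTA.RT.Qsq

/-- The order of Laurent series is an order function. -/
theorem isOrdFn_order (k : Type) [Field k] :
    FLTA.Bridge.IsOrdFn (HahnSeries.order : LaurentSeries k → ℤ) :=
  ⟨HahnSeries.order_zero, fun _ _ hx hy => HahnSeries.order_mul hx hy,
    fun _ _ _ _ h => HahnSeries.min_order_le_order_add h⟩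

/-- A map killing the maximal ideal factors through the residue field. -/
theorem exists_resLift {O K : Type} [CommRing O] [IsLocalRing O] [CommRing K] (f : O →+* K)
    (hf : ∀ a ∈ maximalIdeal O, f a = 0) : ∃ φ : ResidueField O →+* K, ∀ a, φ (residue O a) = f a :=
  ⟨Ideal.Quotient.lift (maximalIdeal O) f hf, fun _ => rfl⟩

section Series

variable {W : Type} [CommRing W] {k : Type} [Field k] (r : W →+* k)

theorem coe_coeff_natCast {R : Type} [CommRing R] (z : PowerSeries R) (i : ℕ) :
    (algebraMap (PowerSeries R) (LaurentSeries R) z).coeff (i : ℤ) = PowerSeries.coeff i z :=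
  HahnSeries.ofPowerSeries_apply_coeff z i

theorem coe_coeff_neg {R : Type} [CommRing R] (z : PowerSeries R) {i : ℤ} (hi : i < 0) :
    (algebraMap (PowerSeries R) (LaurentSeries R) z).coeff i = 0 :=
  ModularCurve.ofPowerSeries_coeff_of_neg z hi

/-- Residues of rescaled series. -/
theorem coeffMap_rescale {ξ : W} {u : kˣ} (hu : (u : k) = r ξ) (z : PowerSeries W) :
    coeffMap r (algebraMap _ (LaurentSeries W) (PowerSeries.rescale ξ z)) =
      scaleHom u (coeffMap r (algebraMap _ (LaurentSeries W) z)) := by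
  ext i
  rw [scaleHom_coeff, coeffMap_coeff, coeffMap_coeff]
  rcases lt_or_ge i 0 with hi | hi
  · rw [coe_coeff_neg _ hi, coe_coeff_neg _ hi, map_zero, mul_zero]
  · lift i to ℕ using hi
    rw [coe_coeff_natCast, coe_coeff_natCast, PowerSeries.coeff_rescale, map_mul, map_pow,
      zpow_natCast, Units.val_pow_eq_pow_val, hu]

/-- Residues of expanded series. -/
theorem coeffMap_expand (p : ℕ) [NeZero p] (z : PowerSeries W) :
    coeffMap r (algebraMap _ (LaurentSeries W) (PowerSeries.expand p (NeZero.ne p) z)) =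
      qExpand k p (coeffMap r (algebraMap _ (LaurentSeries W) z)) := by
  ext i
  rw [coeffMap_coeff]
  by_cases hd : (p : ℤ) ∣ i
  · obtain ⟨j, rfl⟩ := hd
    rw [qExpand_coeff_mul, coeffMap_coeff]
    rcases lt_or_ge j 0 with hj | hj
    · have hp : (0 : ℤ) < p := by exact_mod_cast (NeZero.pos p)
      rw [coe_coeff_neg _ hj, coe_coeff_neg _ (mul_neg_of_pos_of_neg hp hj), map_zero]
    · lift j to ℕ using hj
      rw [← Nat.cast_mul, coe_coeff_natCast, coe_coeff_natCast, PowerSeries.coeff_expand_mul]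
  · rw [qExpand_coeff_of_not_dvd p _ hd]
    rcases lt_or_ge i 0 with hi | hi
    · rw [coe_coeff_neg _ hi, map_zero]
    · lift i to ℕ using hi
      rw [coe_coeff_natCast, PowerSeries.coeff_expand_of_not_dvd p (NeZero.ne p) _
        (fun h => hd (Int.natCast_dvd_natCast.2 h)), map_zero]

/-- Expanded series are fixed by rescaling. -/
theorem rescale_expand {ξ : W} {p : ℕ} (hp : p ≠ 0) (hξ : ξ ^ p = 1) (z : PowerSeries W) :
    PowerSeries.rescale ξ (PowerSeries.expand p hp z) = PowerSeries.expand p hp z := by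
  ext i
  rw [PowerSeries.coeff_rescale]
  by_cases hd : p ∣ i
  · obtain ⟨j, rfl⟩ := hd
    rw [pow_mul, hξ, one_pow, one_mul]
  · rw [PowerSeries.coeff_expand_of_not_dvd p hp _ hd, mul_zero]

end Series

variable {W : Type} [CommRing W] [IsDomain W] [IsDiscreteValuationRing W] [CharZero W]
  [IsAdicComplete (maximalIdeal W) W] [IsAlgClosed (ResidueField W)]
  {q : ℕ} [Fact q.Prime] [Fact (Prime (C (q : W) : W[X]))]
  [Fact (Prime (PowerSeries.C (q : W) : PowerSeries W))] {Φ : ℤ[X][X]} {Q : W[X][X]}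

omit [CharZero W] [IsAdicComplete (maximalIdeal W) W] [IsAlgClosed (ResidueField W)]
  [Fact q.Prime] in
/-- The map of the Gauss ring at a point on the line. -/
theorem nodeMap_base {gm : GaussModel W q Φ Q} {β : W[X] →+* FractionRing (PowerSeries W)}
    {τ : CoverAlg W Q →+* FractionRing (PowerSeries W)} (hτ : τ.comp (coverBase Q) = β)
    {jg : FractionRing gm.A →+* FractionRing (SerB W q)} {jA : gm.A →+* SerB W q}
    (hc : (toHatFrac q).comp τ = jg.comp gm.g)
    (hj : jg.comp (algebraMap gm.A (FractionRing gm.A)) = (algebraMap _ _).comp jA) (P : W[X]) :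
    algebraMap _ (FractionRing (SerB W q)) (jA (gaussCoeff gm.f P)) = toHatFrac q (β P) := by
  rw [← RingHom.comp_apply (algebraMap _ _) jA, ← hj, ← hτ, ← RingHom.comp_apply (toHatFrac q),
    ← RingHom.comp_assoc, hc, RingHom.comp_assoc, gm.g_base]
  rfl

section Descent

variable (hW : maximalIdeal W = Ideal.span {(q : W)}) (gm : GaussModel W q Φ Q)
  {k : Type} [Field k] {F : Type} [Field F] [Algebra k F]
  (ρf : F →+* ResidueField gm.A)

include hW in
/-- **The descent.** -/
theorem dvd_ord_descent (hsurj : Function.Surjective ρf)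
    {ρ : SerB W q →+* LaurentSeries (ResidueField W)} (hρl : IsLocalHom ρ)
    (hρ : ρ.comp (laurentToHat hW) = coeffMap (residue W))
    (hdec : ∀ x : gm.A, ∃ (y : Fin q → gm.A) (z : gm.A),
      x = ∑ i : Fin q, gaussCoeff gm.f X ^ (i : ℕ) * y i ^ q + (q : gm.A) * z)
    {p : ℕ} (hp : p.Prime) (hpq : p.Coprime q)
    (β : ℕ → W[X] →+* FractionRing (PowerSeries W)) (P : ℕ → Prop)
    (hconst : ∀ d w, β d (C w) = algebraMap _ _ (PowerSeries.C w))
    (hPd : ∀ d, P (p * d) → P d) (hPcop : ∀ d, P d → d.Coprime q)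
    (S : F) (hSdec : ∀ x : F, ∃ y : Fin q → F, x = ∑ r : Fin q, S ^ (r : ℕ) * y r ^ q)
    (hparam : ∀ d, P d → ∃ TB : SerB W q,
      algebraMap _ (FractionRing (SerB W q)) TB = toHatFrac q (β d X) ∧
      (∀ c, c ^ q ≠ residue _ TB) ∧
      ∀ φ : ResidueField gm.A →+* LaurentSeries (ResidueField W),
        φ (residue gm.A (gaussCoeff gm.f X)) = ρ TB →
        (∀ w, φ (residue gm.A (gaussCoeff gm.f (C w))) = HahnSeries.C (residue W w)) →
        φ (ρf S) = HahnSeries.single (d : ℤ) 1)
    (hexp : ∀ (d : ℕ) (E : FractionRing (PowerSeries W) →+* FractionRing (PowerSeries W)),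
      E.comp (algebraMap (PowerSeries W) _) =
        (algebraMap _ _).comp (PowerSeries.expand p hp.ne_zero).toRingHom →
      E.comp (β d) = β (p * d))
    (a : gm.A) (Z : F) (ha : residue gm.A a = ρf Z)
    (hloc : ∀ d, P d → ∀ (τ : CoverAlg W Q →+* FractionRing (PowerSeries W))
      (jg : FractionRing gm.A →+* FractionRing (SerB W q)) (jA : gm.A →+* SerB W q),
      τ.comp (coverBase Q) = β d → (toHatFrac q).comp τ = jg.comp gm.g →
      jg.comp (algebraMap gm.A (FractionRing gm.A)) = (algebraMap _ _).comp jA →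
      ∃ d', residue (SerB W q) d' ^ p = residue _ (jA a))
    (v : Place k F) :
    ∀ (d : ℕ) (e : ℕ) (τ : CoverAlg W Q →+* FractionRing (PowerSeries W))
      (jg : FractionRing gm.A →+* FractionRing (SerB W q)) (jA : gm.A →+* SerB W q),
      P d → 0 < d → τ.comp (coverBase Q) = β d → (toHatFrac q).comp τ = jg.comp gm.g →
      jg.comp (algebraMap gm.A (FractionRing gm.A)) = (algebraMap _ _).comp jA →
      (∀ (x : F) (b : gm.A), residue gm.A b = ρf x → (ρ (jA b)).order = (e : ℤ) * v.ord x) →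
      (p : ℤ) ∣ v.ord Z := by
  have hq : q.Prime := Fact.out
  haveI := NeZero.mk hp.ne_zero
  haveI := charP_residueW (q := q) hW
  have hϖ : maximalIdeal (SerB W q) = Ideal.span {(q : SerB W q)} := maximalIdeal_hatSeries
  have hρ0 : ∀ x, ρ x = 0 ↔ (q : SerB W q) ∣ x := fun x => by
    rw [← Ideal.mem_span_singleton, ← hϖ]
    refine ⟨fun h => ?_, fun h => ?_⟩
    · by_contra hn
      exact ((notMem_maximalIdeal.1 hn).map ρ).ne_zero h
    · by_contra hne
      exact (mem_maximalIdeal x).1 h (isUnit_of_map_unit ρ x (isUnit_iff_ne_zero.2 hne))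
  have hres : ∀ (jA : gm.A →+* SerB W q),
      ∃ φ : ResidueField gm.A →+* LaurentSeries (ResidueField W),
        ∀ b, φ (residue gm.A b) = ρ (jA b) := fun jA =>
    exists_resLift (ρ.comp jA) fun b hb => by
      rw [gm.max_eq, Ideal.mem_span_singleton] at hb
      obtain ⟨c, rfl⟩ := hb
      rw [RingHom.comp_apply, hρ0]
      exact ⟨jA c, (map_mul jA _ _).trans (congrArg (· * jA c) (map_natCast jA q))⟩
  intro d
  induction d using Nat.strong_induction_on with
  | _ d ih =>
  intro e τ jg jA hPdd hd0 hτ hc hj hord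
  obtain ⟨φ, hφ⟩ := hres jA
  obtain ⟨TB, hTB, hpow, hS⟩ := hparam d hPdd
  have hTA : jA (gaussCoeff gm.f X) = TB :=
    IsFractionRing.injective _ (FractionRing (SerB W q)) (by rw [nodeMap_base hτ hc hj, hTB])
  have hcw : ∀ w, jA (gaussCoeff gm.f (C w)) = toHat _ (PowerSeries.C w) := fun w =>
    IsFractionRing.injective _ (FractionRing (SerB W q))
      (by rw [nodeMap_base hτ hc hj, hconst, toHatFrac_algebraMap])
  have hψS : φ (ρf S) = HahnSeries.single (d : ℤ) 1 := hS φ (by rw [hφ, hTA]) fun w => by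
    rw [hφ, hcw, resSeries_const hW hρ]
  have hψord : ∀ x : F, (φ (ρf x)).order = (e : ℤ) * v.ord x := fun x => by
    obtain ⟨b, hb⟩ := residue_surjective (R := gm.A) (ρf x)
    rw [← hb, hφ]
    exact hord x b hb
  -- the local root
  have hZ : (p : ℤ) ∣ (e : ℤ) * v.ord Z := by
    obtain ⟨d', hd'⟩ := hloc d hPdd τ jg jA hτ hc hj
    rw [← map_pow, ← sub_eq_zero, ← map_sub, residue_eq_zero_iff, hϖ, Ideal.mem_span_singleton,
      ← hρ0, map_sub, map_pow, sub_eq_zero] at hd'
    rw [← hord Z a ha, ← hd', HahnSeries.order_pow, nsmul_eq_mul]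
    exact dvd_mul_right _ _
  by_cases hpe : p ∣ e
  swap
  · exact ((Nat.prime_iff_prime_int.1 hp).dvd_mul.1 hZ).resolve_left
      fun h => hpe (Int.natCast_dvd_natCast.1 h)
  -- every order is divisible by `p`
  have hpd : p ∣ d := by
    have h1 := hψord S
    rw [hψS, HahnSeries.order_single one_ne_zero] at h1
    exact Int.natCast_dvd_natCast.1 (h1 ▸ (Int.natCast_dvd_natCast.2 hpe).mul_right _)
  obtain ⟨d₀, rfl⟩ := hpd
  have hcop : (p * d₀).Coprime q := hPcop _ hPdd
  obtain ⟨ξ, hξ⟩ := exists_isPrimitiveRoot (isUnit_natCast_of_coprime hW hpq)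
  have hξ0 : residue W ξ ≠ 0 := by
    intro h0
    have := congrArg (residue W) hξ.pow_eq_one
    rw [map_pow, h0, zero_pow hp.ne_zero, map_one] at this
    exact zero_ne_one this
  let u : (ResidueField W)ˣ := Units.mk0 _ hξ0
  -- the rotation
  obtain ⟨σ, Ff, Fh, hFf, hFh, hFhf, hρσ⟩ := exists_hatEnd hW (residue W) ker_residue
    (PowerSeries.rescale ξ) (rescale_injective (hξ.ne_zero hp.ne_zero)) (scaleHom u)
    (coeffMap_rescale (residue W) (u := u) rfl)
  obtain ⟨Fe, Ee, Eh, hEe, hEh, hEhf, hρe⟩ := exists_hatEnd hW (residue W) ker_residue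
    (PowerSeries.expand p hp.ne_zero).toRingHom (fun z z' h => PowerSeries.ext fun i => by
      have h' := congrArg (PowerSeries.coeff (p * i)) h
      simpa [PowerSeries.coeff_expand_mul] using h')
    (qExpand (ResidueField W) p) (coeffMap_expand (residue W) p)
  have hfixE : Ff.comp Ee = Ee := by
    refine IsLocalization.ringHom_ext (nonZeroDivisors (PowerSeries W)) ?_
    rw [RingHom.comp_assoc, hEe, ← RingHom.comp_assoc, hFf]
    refine RingHom.ext fun z => ?_
    simp only [RingHom.comp_apply, AlgHom.toRingHom_eq_coe, RingHom.coe_coe]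
    rw [rescale_expand hp.ne_zero hξ.pow_eq_one]
  have hfixβ : Ff.comp (β (p * d₀)) = β (p * d₀) := by
    rw [← hexp d₀ Ee hEe, ← RingHom.comp_assoc, hfixE]
  have hσT : σ (jA (gaussCoeff gm.f X)) = jA (gaussCoeff gm.f X) := by
    apply IsFractionRing.injective _ (FractionRing (SerB W q))
    have h1 : Fh (algebraMap _ _ (jA (gaussCoeff gm.f X))) =
        algebraMap _ _ (σ (jA (gaussCoeff gm.f X))) :=
      RingHom.congr_fun hFh (jA (gaussCoeff gm.f X))
    rw [← h1, nodeMap_base hτ hc hj, ← RingHom.comp_apply, hFhf, RingHom.comp_apply,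
      ← RingHom.comp_apply Ff, hfixβ]
  have hscale : (scaleHom u).comp (φ.comp ρf) = φ.comp ρf :=
    Haupt.scaleHom_eq_of_dvd hSdec hcop (dvd_mul_right p d₀) hψS
      (Units.ext (by simp [u, ← map_pow, hξ.pow_eq_one]))
      fun x => by
        rw [RingHom.comp_apply, hψord]
        exact (Int.natCast_dvd_natCast.2 hpe).mul_right _
  have hσ : σ.comp jA = jA := by
    refine eq_of_residual (q := q) hϖ hdec hσT fun b => ?_
    rw [← hρ0, map_sub, RingHom.comp_apply, ← RingHom.comp_apply ρ σ, hρσ ρ hρ,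
      RingHom.comp_apply, ← hφ, sub_eq_zero]
    obtain ⟨x, hx⟩ := hsurj (residue gm.A b)
    rw [← hx]
    exact RingHom.congr_fun hscale x
  have hjg : Fh.comp jg = jg := by
    refine IsLocalization.ringHom_ext (nonZeroDivisors gm.A) ?_
    rw [RingHom.comp_assoc, hj, ← RingHom.comp_assoc, hFh, RingHom.comp_assoc, hσ]
  have hτfix : Ff.comp τ = τ := RingHom.ext fun x => by
    apply (toHatFrac (W := W) q).injective
    rw [RingHom.comp_apply, ← RingHom.comp_apply (toHatFrac q) Ff, ← hFhf, RingHom.comp_apply,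
      ← RingHom.comp_apply (toHatFrac q) τ, hc, RingHom.comp_apply, ← RingHom.comp_apply Fh, hjg]
  have hrange : ∀ x, τ x ∈ Ee.fieldRange := fun x =>
    RingHom.mem_fieldRange.2
      (exists_expand_of_fixed hp.pos hξ hFf hEe (RingHom.congr_fun hτfix x))
  obtain ⟨τ₀, hτ₀⟩ : ∃ τ₀ : CoverAlg W Q →+* FractionRing (PowerSeries W),
      Ee.comp τ₀ = τ := by
    choose f hf using fun x => RingHom.mem_fieldRange.1 (hrange x)
    exact ⟨{ toFun := f
             map_one' := Ee.injective (by rw [hf, map_one, map_one])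
             map_mul' := fun x y => Ee.injective (by rw [hf, map_mul, map_mul, hf, hf])
             map_zero' := Ee.injective (by rw [hf, map_zero, map_zero])
             map_add' := fun x y => Ee.injective (by rw [hf, map_add, map_add, hf, hf]) },
      RingHom.ext hf⟩
  have hτ₀b : τ₀.comp (coverBase Q) = β d₀ := by
    refine RingHom.ext fun x => Ee.injective ?_
    rw [RingHom.comp_apply, ← RingHom.comp_apply Ee τ₀, hτ₀, ← RingHom.comp_apply τ, hτ,
      ← RingHom.comp_apply Ee, hexp d₀ Ee hEe]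
  obtain ⟨TB₀, hTB₀, hpow₀, -⟩ := hparam d₀ (hPd d₀ hPdd)
  obtain ⟨jg₀, jA₀, hc₀, hj₀, -, -⟩ := exists_nodeMap hW gm (hconst d₀) hTB₀ hpow₀ hτ₀b
  have hjge : Eh.comp jg₀ = jg := gm.hom_unique hϖ (by
    rw [RingHom.comp_assoc, ← hc₀, ← RingHom.comp_assoc, hEhf, RingHom.comp_assoc, hτ₀, hc])
  have hjAe : Fe.comp jA₀ = jA := RingHom.ext fun b => by
    apply IsFractionRing.injective _ (FractionRing (SerB W q))
    have h1 := RingHom.congr_fun hEh (jA₀ b)
    have h2 := RingHom.congr_fun hj₀ b
    have h3 := RingHom.congr_fun hj b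
    simp only [RingHom.comp_apply] at h1 h2 h3 ⊢
    rw [← h1, ← h2, ← RingHom.comp_apply Eh, hjge, h3]
  obtain ⟨e₀, rfl⟩ := hpe
  have hd₀ : 0 < d₀ := Nat.pos_of_mul_pos_left hd0
  refine ih d₀ (lt_mul_left hd₀ hp.one_lt) e₀ τ₀ jg₀ jA₀ (hPd d₀ hPdd) hd₀ hτ₀b hc₀ hj₀
    fun x b hb => ?_
  have h1 := hord x b hb
  rw [← hjAe, RingHom.comp_apply, ← RingHom.comp_apply ρ Fe, hρe ρ hρ, RingHom.comp_apply,
    FLTA.Bridge.order_qExpand, Nat.cast_mul, mul_assoc] at h1
  exact mul_left_cancel₀ (Int.natCast_ne_zero.2 hp.ne_zero) h1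

end Descent

end FLTA.RT.Qsq

end
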