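import Fermat.Agent.RT.Qsq.MiddleEmb
import Fermat.Agent.LevelLowering.HeckeNorm

/-!
# `T_l` at the middle embeddings

With `v ^ l = u` and `t ^ l = e`, the middle expansion with root `u` of `T_l f` is
`σ_(u ^ l) f (t ^ (l*l)) * ∏_b σ_v f (ζ ^ b t)`.
-/

set_option autoImplicit false
set_option synthInstance.maxHeartbeats 400000

noncomputable section

open AlgebraicCurve ModularCurve FLTA.Congruence FLTA.Carayol.Bridge

namespace FLTA.RT.Qsq

local notation "Qb" => AlgebraicClosure ℚ

variable {M q : ℕ} [NeZero M] [NeZero q]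

/-- The substitutions giving the conjugates at a middle embedding. -/
def middleConj (l : ℕ) [NeZero l] (ζ : (Qb)ˣ) (σ' σv : fld Qb (M * q * q) →+* LaurentSeries Qb) :
    Option (Fin l) → (fld Qb (M * q * q) →+* LaurentSeries Qb)
  | none => (qExpand Qb (l * l)).comp σ'
  | some b => (scaleHom (ζ ^ (b : ℕ))).comp σv

/-- The consistency of the labels on the two generating subfields. -/
theorem label_eq (hq : q.Prime) {l : ℕ} [NeZero l] (hl : l.Prime) (hlq : l ≠ q) {ζ ζq v : (Qb)ˣ}
    (hζ : IsPrimitiveRoot ζ l) (hζq : IsPrimitiveRoot ζq q) (hv : v ^ q = 1)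
    {Φ : Polynomial (Polynomial ℤ)} (hΦ : HasModPolyRoots Qb q Φ) {E : Type*} [Field E]
    (ι : LaurentSeries Qb →+* E) {c c' : Option (Fin l)}
    (h : (specializeFst Φ (ι (conjSubst l ζ c (qExpand Qb q (jqModC Qb))))).eval
      (ι (scaleHom v (conjSubst l ζ c' (jqModC Qb)))) = 0) : c' = c := by
  have h1l := hl.one_lt
  have h1q := hq.one_lt
  have hcop : Nat.Coprime q l := (Nat.coprime_primes hq hl).mpr (Ne.symm hlq)
  rcases c with - | b <;> rcases c' with - | b'
  · rfl
  · exfalso
    simp only [conjSubst] at h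
    rw [← substHom_one_right (l * l) (qExpand Qb q (jqModC Qb))] at h
    rcases hΦ.root_cases hζq (ι.comp (substHom (l * l) 1)) _ h with h' | ⟨i, -, h'⟩
    · replace h' := ι.injective h'
      rw [scaleHom_scaleHom, ← substHom_one_left, ← substHom_one_right (q * q) (jqModC Qb),
        substHom_substHom] at h'
      have := (substHom_jqModC_inj h').1
      nlinarith [Nat.mul_le_mul h1l h1l]
    · replace h' := ι.injective h'
      rw [scaleHom_scaleHom, ← substHom_one_left, ← substHom_one_left (ζq ^ i) (jqModC Qb),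
        substHom_substHom] at h'
      have := (substHom_jqModC_inj h').1
      nlinarith
  · exfalso
    simp only [conjSubst] at h
    rcases hΦ.root_cases hζq (ι.comp (scaleHom (ζ ^ (b : ℕ)))) _ h with h' | ⟨i, -, h'⟩
    · replace h' := ι.injective h'
      rw [← substHom_one_left v, ← substHom_one_right (l * l) (jqModC Qb), substHom_substHom,
        ← substHom_one_left (ζ ^ (b : ℕ)),
        ← substHom_one_right (q * q) (jqModC Qb), substHom_substHom] at h'
      have := (substHom_jqModC_inj h').1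
      exact hlq (Nat.mul_self_inj.mp (by linarith))
    · replace h' := ι.injective h'
      rw [← substHom_one_left v, ← substHom_one_right (l * l) (jqModC Qb), substHom_substHom,
        scaleHom_scaleHom, ← substHom_one_left] at h'
      have := (substHom_jqModC_inj h').1
      nlinarith
  · simp only [conjSubst] at h
    rcases hΦ.root_cases hζq (ι.comp (scaleHom (ζ ^ (b : ℕ)))) _ h with h' | ⟨i, -, h'⟩
    · replace h' := ι.injective h'
      rw [scaleHom_scaleHom, ← substHom_one_left,
        ← substHom_one_left (ζ ^ (b : ℕ)), ← substHom_one_right (q * q) (jqModC Qb),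
        substHom_substHom] at h'
      have := (substHom_jqModC_inj h').1
      nlinarith
    · replace h' := ι.injective h'
      rw [scaleHom_scaleHom, ← substHom_one_left, scaleHom_scaleHom,
        ← substHom_one_left] at h'
      have hu := congrArg (· ^ q) (substHom_jqModC_inj h').2
      simp only [mul_pow, hv, one_mul, ← pow_mul] at hu
      have hi : ζq ^ (i * q) = 1 := by rw [mul_comm, pow_mul, hζq.pow_eq_one, one_pow]
      rw [hi, mul_one] at hu
      have hbb : ((b' : ℕ) * q) % l = ((b : ℕ) * q) % l := by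
        have h1 := pow_eq_pow_iff_modEq.mp hu
        rwa [← hζ.eq_orderOf] at h1
      have := Nat.ModEq.cancel_right_of_coprime (m := l) (c := q) hcop.symm hbb
      rw [Nat.ModEq, Nat.mod_eq_of_lt b'.2, Nat.mod_eq_of_lt b.2] at this
      exact congrArg some (Fin.ext this)

/-- The conjugates of `T_l` at a middle embedding. -/
theorem exists_middleConj (hq : q.Prime) {l : ℕ} [NeZero l] (hl : l.Prime)
    (hlq : l ≠ q) (hlM : ¬ l ∣ M) {ζ : (Qb)ˣ} (hζ : IsPrimitiveRoot ζ l)
    {u u' v : (Qb)ˣ} {σ σ' σv : fld Qb (M * q * q) →+* LaurentSeries Qb}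
    (hσ : IsMiddle M q u σ) (hσ' : IsMiddle M q u' σ') (hσv : IsMiddle M q v σv)
    (hu' : u' = u ^ l) (hvu : v ^ l = u) (hvq : v ^ q = 1) {E : Type*} [Field E]
    (ι : LaurentSeries Qb →+* E) (φ : fld Qb (M * q * q * l) →+* E)
    (hφ : ∀ x, φ (heckeAlphaBar Qb (M * q * q) l x) = ι (qExpand Qb l (σ x))) :
    ∃ c : Option (Fin l), ∀ f, φ (heckeBetaBar Qb (M * q * q) l f) =
      ι (middleConj l ζ σ' σv c f) := by
  have hlMq : ¬ l ∣ M * q := fun h => (hl.dvd_mul.mp h).elim hlM fun h' =>
    hlq ((Nat.prime_dvd_prime_iff_eq hl hq).mp h')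
  have hd1 : M * q * l ∣ M * q * q * l := mul_dvd_mul_right (dvd_mul_right (M * q) q) l
  obtain ⟨c, hc⟩ := exists_conjSubst_of_root l (M * q) hl hlMq modPolyExists_algebraicClosure hζ ι
    (φ.comp (incl Qb hd1).toRingHom) fun x => by
      show φ (incl Qb hd1 (heckeAlphaBar Qb (M * q) l x)) = _
      rw [show incl Qb hd1 (heckeAlphaBar Qb (M * q) l x) =
        heckeAlphaBar Qb (M * q * q) l (heckeAlphaBar Qb (M * q) q x) from
        Subtype.ext (by simp), hφ, hσ.alpha]
  have hd2 : M * l * q * q ∣ M * q * q * l := dvd_of_eq (by ring)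
  set j2 : fld Qb (M * l) →+* fld Qb (M * q * q * l) := (incl Qb hd2).toRingHom.comp
    ((heckeBetaBar Qb (M * l * q) q).toRingHom.comp (heckeBetaBar Qb (M * l) q).toRingHom)
  obtain ⟨c', hc'⟩ := exists_conjSubst_of_root l M hl hlM modPolyExists_algebraicClosure hζ
    (ι.comp (scaleHom v)) (φ.comp j2) fun g => by
      show φ (incl Qb hd2 (heckeBetaBar Qb (M * l * q) q
        (heckeBetaBar Qb (M * l) q (heckeAlphaBar Qb M l g)))) = _
      rw [show incl Qb hd2 (heckeBetaBar Qb (M * l * q) q
          (heckeBetaBar Qb (M * l) q (heckeAlphaBar Qb M l g))) =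
        heckeAlphaBar Qb (M * q * q) l (heckeBetaBar Qb (M * q) q (heckeBetaBar Qb M q g)) from
        Subtype.ext (by simp), hφ, hσ.beta, RingHom.comp_apply, scaleHom_qExpand_eq, hvu]
  have hcα : ∀ x, φ (heckeBetaBar Qb (M * q * q) l (heckeAlphaBar Qb (M * q) q x)) =
      ι (conjSubst l ζ c (x : LaurentSeries Qb)) := fun x => by
    refine Eq.trans (congrArg φ (Subtype.ext ?_)) (hc x)
    simp
  have hcβ : ∀ g, φ (heckeBetaBar Qb (M * q * q) l
      (heckeBetaBar Qb (M * q) q (heckeBetaBar Qb M q g))) =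
      ι (scaleHom v (conjSubst l ζ c' (g : LaurentSeries Qb))) := fun g => by
    refine Eq.trans (congrArg φ (Subtype.ext ?_)) (hc' g)
    simp only [j2, RingHom.comp_apply, AlgHom.toRingHom_eq_coe, RingHom.coe_coe, coe_incl,
      coe_heckeBetaBar, qExpand_qExpand]
    exact qExpand_congr (by ring) _
  obtain ⟨Φ, hΦ⟩ := modPolyExists_algebraicClosure q hq inferInstance
  obtain ⟨ζq, hζq⟩ := exists_isPrimitiveRoot_units Qb q
  have hzero : (specializeFst Φ (φ (heckeBetaBar Qb (M * q * q) l
      (heckeAlphaBar Qb (M * q) q (jGenBar (M * q) q (dvd_mul_left q M)))))).eval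
      (φ (heckeBetaBar Qb (M * q * q) l
        (heckeBetaBar Qb (M * q) q (heckeBetaBar Qb M q (jGenBar M 1 (one_dvd M)))))) = 0 := by
    rw [eval_specializeFst_map]
    apply (map_eq_zero_iff φ φ.injective).mpr
    apply (fld Qb (M * q * q * l)).toSubfield.subtype.injective
    rw [map_zero, ← eval_specializeFst_map]
    have h0 := hΦ.eval_substHom hζq (l * q)
    simp only [qExpand_congr (show l * q * q = l * (q * (q * 1)) by ring)] at h0
    show (specializeFst Φ (qExpand Qb l (qExpand Qb q (jqModC Qb)))).eval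
      (qExpand Qb l (qExpand Qb q (qExpand Qb q (qExpand Qb 1 (jqModC Qb))))) = 0
    simpa [qExpand_qExpand] using h0
  rw [hcα, hcβ, coe_jGenBar, coe_jGenBar, qExpand_one_apply] at hzero
  obtain rfl := label_eq hq hl hlq hζ hζq hvq hΦ ι hzero
  refine ⟨c', fun f => ?_⟩
  have key : φ.comp (heckeBetaBar Qb (M * q * q) l).toRingHom =
      ι.comp (middleConj l ζ σ' σv c') := by
    refine ringHom_ext_middle hq (fun x => ?_) fun g => ?_
    · refine (hcα x).trans (congrArg ι ?_)
      rcases c' with - | b <;> simp [middleConj, conjSubst, hσ'.alpha, hσv.alpha]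
    · refine (hcβ g).trans (congrArg ι ?_)
      rcases c' with - | b
      · simp only [middleConj, conjSubst, RingHom.comp_apply, hσ'.beta]
        rw [scaleHom_qExpand_eq, pow_mul, hvu, hu']
      · simp only [middleConj, conjSubst, RingHom.comp_apply, hσv.beta, scaleHom_scaleHom]
        rw [mul_comm]
  exact RingHom.congr_fun key f

/-- **`T_l` at a middle embedding.** -/
theorem qExpand_middle_heckeNormHom (hq : q.Prime) {l : ℕ} [NeZero l]
    (hl : l.Prime) (hlq : l ≠ q) (hlM : ¬ l ∣ M) {ζ : (Qb)ˣ} (hζ : IsPrimitiveRoot ζ l)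
    {u u' v : (Qb)ˣ} {σ σ' σv : fld Qb (M * q * q) →+* LaurentSeries Qb}
    (hσ : IsMiddle M q u σ) (hσ' : IsMiddle M q u' σ') (hσv : IsMiddle M q v σv)
    (hu' : u' = u ^ l) (hvu : v ^ l = u) (hvq : v ^ q = 1) (f : fld Qb (M * q * q)) :
    qExpand Qb l (σ (LevelLowering.heckeNormHom (M * q * q) l f)) =
      qExpand Qb (l * l) (σ' f) * ∏ i ∈ Finset.range l, scaleHom (ζ ^ i) (σv f) := by
  classical
  have hlT : ¬ l ∣ M * q * q := fun h => (hl.dvd_mul.mp h).elim
    (fun h => (hl.dvd_mul.mp h).elim hlM fun h' => hlq ((Nat.prime_dvd_prime_iff_eq hl hq).mp h'))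
    fun h' => hlq ((Nat.prime_dvd_prime_iff_eq hl hq).mp h')
  let aF := algebraAlong (heckeAlphaBar Qb (M * q * q) l)
  have hdeg : Module.finrank (fld Qb (M * q * q)) (fld Qb (M * q * q * l)) = l + 1 :=
    finrankAlong_heckeAlphaBar (M * q * q) l hl hlT
  have : FiniteDimensional (fld Qb (M * q * q)) (fld Qb (M * q * q * l)) :=
    Module.finite_of_finrank_eq_succ hdeg
  have : CharZero (fld Qb (M * q * q)) :=
    charZero_of_injective_algebraMap (algebraMap Qb _).injective
  set E := AlgebraicClosure (LaurentSeries Qb)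
  set ι : LaurentSeries Qb →+* E := algebraMap (LaurentSeries Qb) E with hι
  let aE : Algebra (fld Qb (M * q * q)) E := ((ι.comp (qExpand Qb l)).comp σ).toAlgebra
  choose label hlabel using fun φ : fld Qb (M * q * q * l) →ₐ[fld Qb (M * q * q)] E =>
    exists_middleConj hq hl hlq hlM hζ hσ hσ' hσv hu' hvu hvq ι φ.toRingHom
      fun x => φ.commutes x
  have hinj : Function.Injective label := fun φ ψ h => by
    apply AlgHom.coe_ringHom_injective
    refine ringHom_ext_alpha_beta l (M * q * q) hl (fun x => ?_) (fun x => ?_)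
    · exact (φ.commutes x).trans (ψ.commutes x).symm
    · exact (hlabel φ x).trans (by rw [h]; exact (hlabel ψ x).symm)
  have hbij : Function.Bijective label := (Fintype.bijective_iff_injective_and_card label).mpr
    ⟨hinj, by rw [AlgHom.card, hdeg, Fintype.card_option, Fintype.card_fin]⟩
  apply ι.injective
  show algebraMap (fld Qb (M * q * q)) E (LevelLowering.heckeNormHom (M * q * q) l f) = _
  rw [LevelLowering.heckeNormHom_apply, Algebra.norm_eq_prod_embeddings]
  refine (Fintype.prod_bijective label hbij _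
      (fun c => ι (middleConj l ζ σ' σv c f)) (fun φ => hlabel φ f)).trans ?_
  rw [Fintype.prod_option, map_mul, map_prod]
  simp only [middleConj, RingHom.comp_apply]
  rw [← Fin.prod_univ_eq_prod_range (fun i => ι (scaleHom (ζ ^ i) (σv f))) l]

end FLTA.RT.Qsq

end
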