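import Fermat.Agent.RT.Qsq.MiddleTheta
import Fermat.Agent.RT.Qsq.MiddleApprox
import Fermat.Agent.PlaceRed.GaussModular
import Fermat.Agent.BadRed.ModularFibre
import Fermat.Agent.BadRed.Residue

/-!
# Rational functions of level `M q` on the first component

A rational function is a quotient of bounded rational series; its Gauss valuation is an integer
in units of `q` and its leading reduction lies in the reduced field of level `M`.
-/

set_option autoImplicit false
set_option synthInstance.maxHeartbeats 400000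

noncomputable section

open AlgebraicCurve ModularCurve IsLocalRing FLTA.Congruence FLTA.Carayol.Bridge
  FLTA.LevelLowering FLTA.BadRed FLTA.PlaceRed

namespace FLTA.RT.Qsq

local notation "Qb" => AlgebraicClosure ℚ
local notation "Γ" => AlgebraicClosure ℚ ≃ₐ[ℚ] AlgebraicClosure ℚ

/-- The automorphism of the constants as a ring map. -/
abbrev cmap (γ : Γ) : Qb →+* Qb := γ.toRingEquiv.toRingHom

theorem mapF_eq_self_iff {N : ℕ} (γ : Γ) (x : fld Qb N) :
    mapF (cmap γ) N x = x ↔ coeffMap (cmap γ) (x : LaurentSeries Qb) = x :=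
  ⟨fun h => congrArg Subtype.val h, fun h => Subtype.ext h⟩

/-- The field of rational functions. -/
def ratField (A : ValuationSubring Qb) (N : ℕ) : Subfield (fld Qb N) where
  carrier := {x | IsRational A x}
  mul_mem' := fun {x y} hx hy γ hγ => by
    rw [MulMemClass.coe_mul, map_mul, hx γ hγ, hy γ hγ]
  one_mem' := fun γ _ => by rw [OneMemClass.coe_one, map_one]
  add_mem' := fun {x y} hx hy γ hγ => by
    rw [AddMemClass.coe_add, map_add, hx γ hγ, hy γ hγ]
  zero_mem' := fun γ _ => by rw [ZeroMemClass.coe_zero, map_zero]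
  neg_mem' := fun {x} hx γ hγ => by rw [NegMemClass.coe_neg, map_neg, hx γ hγ]
  inv_mem' := fun x hx γ hγ => by
    show coeffMap (cmap γ) ((x : LaurentSeries Qb)⁻¹) = (x : LaurentSeries Qb)⁻¹
    rw [map_inv₀, hx γ hγ]

theorem mem_ratField {A : ValuationSubring Qb} {N : ℕ} {x : fld Qb N} :
    x ∈ ratField A N ↔ IsRational A x := Iff.rfl

theorem isZFinite_map {x : LaurentSeries Qb} (hx : IsZFinite x) (γ : Γ) :
    IsZFinite (coeffMap (cmap γ) x) := by
  obtain ⟨Mx, hM, hx⟩ := hx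
  refine ⟨Mx.map (cmap γ).toAddMonoidHom.toIntLinearMap, hM.map _, fun e => ?_⟩
  rw [coeffMap_coeff]
  exact Submodule.mem_map_of_mem (hx e)

/-- A series with coefficients in a finitely generated group has finitely many conjugates. -/
theorem finite_conjugates {x : LaurentSeries Qb} (hx : IsZFinite x) :
    (Set.range fun γ : Γ => coeffMap (cmap γ) x).Finite := by
  classical
  obtain ⟨Mx, ⟨G, rfl⟩, hx⟩ := hx
  set Φ : Γ → (↥G → Qb) := fun γ g => γ g.1 with hΦ
  have hroots : (Set.range Φ).Finite := by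
    refine Set.Finite.subset (Set.Finite.pi fun g : ↥G =>
      ((minpoly ℚ (g.1 : Qb)).aroots Qb).toFinset.finite_toSet) ?_
    rintro _ ⟨γ, rfl⟩ g -
    have hint : IsIntegral ℚ (g.1 : Qb) :=
      ((AlgebraicClosure.isAlgebraic ℚ).isAlgebraic _).isIntegral
    rw [Finset.mem_coe, Multiset.mem_toFinset, Polynomial.mem_aroots]
    refine ⟨minpoly.ne_zero hint, ?_⟩
    show Polynomial.aeval (γ g.1) _ = 0
    rw [Polynomial.aeval_algHom_apply γ g.1, minpoly.aeval, map_zero]
  have hcongr : ∀ γ δ : Γ, Φ γ = Φ δ → coeffMap (cmap γ) x = coeffMap (cmap δ) x := by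
    intro γ δ h
    ext e
    rw [coeffMap_coeff, coeffMap_coeff]
    refine LinearMap.eqOn_span (f := (cmap γ).toAddMonoidHom.toIntLinearMap)
      (g := (cmap δ).toAddMonoidHom.toIntLinearMap) (fun g hg => congrFun h ⟨g, hg⟩) (hx e)
  refine (hroots.image fun v => if h : ∃ γ, Φ γ = v then coeffMap (cmap h.choose) x else 0).subset ?_
  rintro _ ⟨γ, rfl⟩
  refine ⟨Φ γ, ⟨γ, rfl⟩, ?_⟩
  have h : ∃ δ, Φ δ = Φ γ := ⟨γ, rfl⟩
  show (if h : ∃ δ, Φ δ = Φ γ then coeffMap (cmap h.choose) x else 0) = _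
  rw [dif_pos h]
  exact hcongr _ _ h.choose_spec

/-- A rational function is a quotient of rational series with finitely generated coefficients. -/
theorem exists_rational_frac {A : ValuationSubring Qb} {N : ℕ} [NeZero N] {h : fld Qb N}
    (hh : IsRational A h) :
    ∃ a b : fld Qb N, IsRational A a ∧ IsRational A b ∧ IsZFinite (a : LaurentSeries Qb) ∧
      IsZFinite (b : LaurentSeries Qb) ∧ b ≠ 0 ∧ h * b = a := by
  classical
  obtain ⟨a₀, b₀, ha₀, hb₀, haZ, hbZ, hb0, hab⟩ :=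
    hasZFiniteFractions_bar N (h : LaurentSeries Qb) h.2
  set b₁ : fld Qb N := ⟨b₀, hb₀⟩
  let O : Set (fld Qb N) := {x | ∃ γ ∈ A.inertiaSubgroupIn ℚ, mapF (cmap γ) N b₁ = x}
  have hOfin : O.Finite := by
    refine Set.Finite.of_finite_image (f := fun x => (x : LaurentSeries Qb))
      ((finite_conjugates hbZ).subset ?_) Subtype.val_injective.injOn
    rintro _ ⟨_, ⟨γ, -, rfl⟩, rfl⟩
    exact ⟨γ, rfl⟩
  set S := hOfin.toFinset
  have hb₁ : b₁ ∈ S := hOfin.mem_toFinset.mpr ⟨1, one_mem _, Subtype.ext (by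
    ext i
    simp [b₁])⟩
  set B : fld Qb N := ∏ x ∈ S, x with hB
  have hmapS : ∀ γ ∈ A.inertiaSubgroupIn ℚ, S.image (mapF (cmap γ) N) = S := by
    intro γ hγ
    refine Finset.eq_of_subset_of_card_le (fun y hy => ?_) ?_
    · obtain ⟨x, hx, rfl⟩ := Finset.mem_image.mp hy
      obtain ⟨δ, hδ, rfl⟩ := hOfin.mem_toFinset.mp hx
      refine hOfin.mem_toFinset.mpr ⟨γ * δ, mul_mem hγ hδ, Subtype.ext ?_⟩
      ext i
      simp
    · rw [Finset.card_image_of_injective _ (mapF_injective _ _)]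
  have hBrat : IsRational A B := fun γ hγ => by
    rw [← mapF_eq_self_iff, hB, map_prod]
    conv_rhs => rw [← hmapS γ hγ, Finset.prod_image fun x _ y _ => fun h =>
      mapF_injective (cmap γ) N h]
  have hzf : ∀ x ∈ S, IsZFinite (x : LaurentSeries Qb) ∧ x ≠ 0 := by
    intro x hx
    obtain ⟨γ, -, rfl⟩ := hOfin.mem_toFinset.mp hx
    exact ⟨isZFinite_map hbZ γ,
      (map_ne_zero_iff _ (mapF_injective _ _)).mpr fun h0 => hb0 (congrArg Subtype.val h0)⟩
  refine ⟨h * B, B, mul_mem (s := ratField A N) hh hBrat, hBrat, ?_, ?_,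
    Finset.prod_ne_zero_iff.mpr fun x hx => (hzf x hx).2, rfl⟩
  · rw [hB, ← Finset.mul_prod_erase S _ hb₁, ← mul_assoc, MulMemClass.coe_mul, MulMemClass.coe_mul]
    refine IsZFinite.mul (by rw [show (b₁ : LaurentSeries Qb) = b₀ from rfl, hab]; exact haZ) ?_
    rw [show ((∏ x ∈ S.erase b₁, x : fld Qb N) : LaurentSeries Qb) =
      ∏ x ∈ S.erase b₁, (x : LaurentSeries Qb) from map_prod (fld Qb N).val _ _]
    exact mem_zFiniteSubalgebra.mp (Subalgebra.prod_mem _ fun x hx =>
      (hzf x (Finset.mem_of_mem_erase hx)).1)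
  · rw [hB, show ((∏ x ∈ S, x : fld Qb N) : LaurentSeries Qb) =
      ∏ x ∈ S, (x : LaurentSeries Qb) from map_prod (fld Qb N).val _ _]
    exact mem_zFiniteSubalgebra.mp (Subalgebra.prod_mem _ fun x hx => (hzf x hx).1)

variable {M q : ℕ} [NeZero M] [NeZero q] [Fact q.Prime] {A : ValuationSubring Qb}
  (fp : FramePair q A)

omit [NeZero q] [Fact q.Prime] in
theorem FramePair.inL₀ {N : ℕ} {x : fld Qb N} (hx : IsRational A x) :
    fp.fr₀.InL (x : LaurentSeries Qb) := hx.coeff_mem fp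

omit [NeZero q] [Fact q.Prime] in
/-- A rational series with finitely generated coefficients has a valuation. -/
theorem FramePair.exists_isVal₀ {N : ℕ} {x : fld Qb N} (hx : IsRational A x)
    (hZ : IsZFinite (x : LaurentSeries Qb)) (h0 : x ≠ 0) :
    ∃ n, fp.fr₀.IsVal (x : LaurentSeries Qb) n := by
  have hx0 : (x : LaurentSeries Qb) ≠ 0 := fun h => h0 (Subtype.ext h)
  obtain ⟨c, y, hc, -, hy⟩ :=
    exists_smul_eq_coeffMap A (residue A) residue_surjective hZ hx0
  refine fp.fr₀.exists_isVal (fp.inL₀ hx) hx0 ⟨c, hc, ?_⟩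
  rw [← algebraMap_mul_eq_smul, ← hy]
  exact intSeries_coeffMap y

variable [CharP (ResidueField A) q] [PerfectRing (ResidueField A) q]

/-- Leading reductions of bounded functions of level `M q` lie in level `M`. -/
theorem lead_mem_fullC (fr : Frame A (residue A)) (hqM : ¬ q ∣ M) (hA : A.LiesOverPrime q)
    {x : fld Qb (M * q)} {n : ℤ} (hx : fr.IsVal (x : LaurentSeries Qb) n) :
    fr.lead (x : LaurentSeries Qb) ∈ modularFunctionFieldFullC (ResidueField A) M := by
  have := FLTA.Galois.isAlgClosed_residueField A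
  obtain ⟨p, hp⟩ := (BadRed.badFibre M q A hA hqM).exists_exk_eq_redSeries 0 (f := x)
    (c := fr.ϖ ^ (-n)) hx.1
  rw [hx.lead_eq fr]
  exact (show (p : LaurentSeries (ResidueField A)) =
    redSeries A (residue A) (fr.ϖ ^ (-n) • (x : LaurentSeries Qb)) from hp) ▸ p.2

/-- **Rational functions of level `M q`.** -/
theorem FramePair.exists_rat_val (hqM : ¬ q ∣ M) (hA : A.LiesOverPrime q) {h : fld Qb (M * q)}
    (hh : IsRational A h) (h0 : h ≠ 0) :
    HasRep fp.fr (h : LaurentSeries Qb) ∧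
    ∃ (n : ℤ) (Y : LaurentSeries (ResidueField A)),
      Y ∈ modularFunctionFieldFullC (ResidueField A) M ∧
      HasVal fp.fr (h : LaurentSeries Qb) (((q - 1 : ℕ) : ℤ) * n) Y := by
  obtain ⟨a, b, ha, hb, haZ, hbZ, hb0, hab⟩ := exists_rational_frac hh
  have ha0 : a ≠ 0 := hab ▸ mul_ne_zero h0 hb0
  obtain ⟨na, hna⟩ := fp.exists_isVal₀ ha haZ ha0
  obtain ⟨nb, hnb⟩ := fp.exists_isVal₀ hb hbZ hb0
  obtain ⟨w, hw, hϖ⟩ := fp.unit
  have hab' : (h : LaurentSeries Qb) * (b : LaurentSeries Qb) = a := congrArg Subtype.val hab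
  have hval₀ : HasVal fp.fr₀ (h : LaurentSeries Qb) (na - nb)
      (fp.fr₀.lead (a : LaurentSeries Qb) / fp.fr₀.lead (b : LaurentSeries Qb)) :=
    ⟨_, _, na, nb, hna, hnb, hab', rfl, div_mul_cancel₀ _ (hnb.lead_ne_zero fp.fr₀)⟩
  obtain ⟨c, hc, hval⟩ := hasVal_of_le (fr := fp.fr) hw hϖ hval₀
  refine ⟨?_, na - nb, _, ?_, hval⟩
  · have hge : ∀ {y : LaurentSeries Qb} {i : ℤ}, fp.fr₀.IsVal y i → ∃ j, fp.fr.Ge y j := by
      intro y i hy
      have h1 : fp.fr.Ge (fp.fr₀.ϖ ^ (-i) • y) 0 := by rw [Frame.ge_zero_iff]; exact hy.1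
      obtain ⟨n', hn'⟩ := fp.fr.exists_unit (fp.fr₀.ϖ ^ i)
        (zpow_mem (fp.le fp.fr₀.ϖ_mem) i) (zpow_ne_zero _ fp.fr₀.ϖ_ne_zero)
      obtain ⟨u, huL, hu, hu'⟩ := hn'
      refine ⟨n', ?_⟩
      show IntSeries A _
      have e : fp.fr.ϖ ^ (-n') • y = (u : Qb) • (fp.fr₀.ϖ ^ (-i) • y) := by
        rw [smul_smul]
        congr 1
        rw [zpow_neg, zpow_neg, hu', mul_inv]
        have hu0 : (u : Qb) ≠ 0 := fun h => hu (by
          rw [show u = 0 from Subtype.ext h, map_zero])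
        field_simp [fp.fr.ϖ_ne_zero, hu0]
      rw [e]
      exact IntSeries.smul u.2 hy.1
    exact ⟨a, b, fun i => fp.le (fp.inL₀ ha i), fun i => fp.le (fp.inL₀ hb i), hge hna, hge hnb,
      fun h => hb0 (Subtype.ext h), hab'⟩
  · refine mul_mem ?_ (div_mem (lead_mem_fullC fp.fr₀ hqM hA hna)
      (lead_mem_fullC fp.fr₀ hqM hA hnb))
    rw [HahnSeries.C_apply, ← algebraMap_laurentSeries_eq_single]
    exact IntermediateField.algebraMap_mem _ _

end FLTA.RT.Qsq

end
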