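import Fermat.Agent.RT.Qsq.MiddleRational
import Fermat.Agent.RT.Qsq.MiddleKill

/-!
# Every rational function has a middle lead `c Θ ^ m η`
-/

set_option autoImplicit false
set_option synthInstance.maxHeartbeats 400000

noncomputable section

open AlgebraicCurve ModularCurve IsLocalRing FLTA.Congruence FLTA.Carayol.Bridge
  FLTA.LevelLowering FLTA.BadRed Polynomial

namespace FLTA.RT.Qsq

local notation "Qb" => AlgebraicClosure ℚ

/-- A series of nonnegative valuation with zero reduction has positive valuation. -/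
theorem geF_one_of_red_eq_zero {K : Type*} [Field K] {A : ValuationSubring K} {k : Type*} [Field k]
    {π : A →+* k} (fr : Frame A π) {y : LaurentSeries K} (hy : fr.InL y) (hint : IntSeries A y)
    (hred : redSeries A π y = 0) : GeF fr y 1 := by
  rcases eq_or_ne y 0 with rfl | h0
  · exact geF_zero 1
  obtain ⟨n, hn⟩ := fr.exists_isVal hy h0 ⟨1, one_ne_zero, by rwa [one_smul]⟩
  have h1 : (0 : ℤ) ≤ n := (hn.ge_iff fr).mp ((fr.ge_zero_iff y).mpr hint)
  rcases h1.eq_or_lt with rfl | h2
  · exfalso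
    apply hn.2
    rw [neg_zero, zpow_zero, one_smul]
    exact hred
  · exact geF_of_ge (hn.1.mono fr h2)

theorem val_toRingHom_apply {K L : Type*} [Field K] [Field L] [Algebra K L]
    (E : IntermediateField K L) (x : E) : E.val.toRingHom x = (x : L) := rfl

theorem toSubfield_subtype_apply {K L : Type*} [Field K] [Field L] [Algebra K L]
    (E : IntermediateField K L) (x : E) : E.toSubfield.subtype x = (x : L) := rfl

/-- An embedding restricting to `θ` sends `Z` to a root of the image of its equation. -/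
theorem isRoot_map_minpoly {F E L : Type*} [Field F] [Field E] [CommRing L] [Algebra F E]
    (ψ : E →+* L) (θ : F →+* L) (h : ∀ x, ψ (algebraMap F E x) = θ x) (Z : E) :
    ((minpoly F Z).map θ).IsRoot (ψ Z) := by
  have hθ : ψ.comp (algebraMap F E) = θ := RingHom.ext h
  rw [IsRoot, eval_map, ← hθ, ← hom_eval₂, ← aeval_def, minpoly.aeval, map_zero]

/-- Descent of the minimal polynomial and of coordinates to the fixed field. -/
theorem exists_descent {F E : Type*} [Field F] [Field E] [Algebra F E] [FiniteDimensional F E]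
    {Z : E} {n : ℕ} (hn : Module.finrank F E = n) (hdeg : (minpoly F Z).natDegree = n)
    {ι : Type*} (γF : ι → F →+* F) (γE : ι → E →+* E) (R : Subfield F)
    (hR : ∀ x : F, x ∈ R ↔ ∀ i, γF i x = x)
    (hcomm : ∀ i x, γE i (algebraMap F E x) = algebraMap F E (γF i x))
    (hZ : ∀ i, γE i Z = Z) {f : E} (hf : ∀ i, γE i f = f) :
    (∃ P : R[X], P.map R.subtype = minpoly F Z) ∧
      ∃ g : R[X], g.natDegree < n ∧ aeval Z (g.map R.subtype) = f := by
  classical
  have hn0 : 0 < n := hn ▸ Module.finrank_pos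
  have hrat : ∀ g : F[X], g.natDegree < n → (∀ i, γE i (aeval Z g) = aeval Z g) →
      ∀ j, g.coeff j ∈ R := by
    intro g hg hgr j
    refine (hR _).mpr fun i => ?_
    have h0 : aeval Z (g.map (γF i) - g) = 0 := by
      rw [map_sub, sub_eq_zero]
      conv_rhs => rw [← hgr i]
      rw [aeval_def, aeval_def, eval₂_map, hom_eval₂, hZ i]
      congr 1
      exact RingHom.ext fun x => (hcomm i x).symm
    have h1 : g.map (γF i) - g = 0 := by
      by_contra hne
      have h2 := natDegree_le_natDegree (minpoly.degree_le_of_ne_zero _ Z hne h0)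
      have h3 := (natDegree_sub_le (g.map (γF i)) g).trans_lt
        (max_lt (natDegree_map_le.trans_lt hg) hg)
      omega
    have := congrArg (fun p => coeff p j) (sub_eq_zero.mp h1)
    simpa [coeff_map] using this
  have hint : IsIntegral F Z := IsIntegral.of_finite _ _
  have hlead : (minpoly F Z).coeff n = 1 := hdeg ▸ (minpoly.monic hint).coeff_natDegree
  constructor
  · refine (Polynomial.lifts_iff_coeff_lifts _).mpr fun j => ?_
    refine ⟨⟨(minpoly F Z).coeff j, ?_⟩, rfl⟩
    rcases eq_or_ne j n with h | h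
    · rw [h, hlead]; exact R.one_mem
    · have hd : (minpoly F Z - X ^ n).natDegree < n := by
        refine Nat.lt_of_le_of_ne ((natDegree_sub_le _ _).trans (by simp [hdeg])) fun he => ?_
        have h0 : (minpoly F Z - X ^ n).coeff (minpoly F Z - X ^ n).natDegree = 0 := by
          rw [he, coeff_sub, coeff_X_pow_self, hlead, sub_self]
        have h2 : (minpoly F Z - X ^ n) = 0 := leadingCoeff_eq_zero.mp h0
        rw [h2, natDegree_zero] at he
        exact hn0.ne he
      have hev : ∀ i, γE i (aeval Z (minpoly F Z - X ^ n)) = aeval Z (minpoly F Z - X ^ n) := by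
        intro i
        rw [map_sub, minpoly.aeval, zero_sub, map_pow, aeval_X, map_neg, map_pow, hZ i]
      have h' := hrat _ hd hev j
      rwa [coeff_sub, coeff_X_pow, if_neg h, sub_zero] at h'
  · have hli : LinearIndependent F fun i : Fin n => Z ^ (i : ℕ) := by
      have h := linearIndependent_pow (K := F) Z
      rw [hdeg] at h
      exact h
    have : Nonempty (Fin n) := ⟨⟨0, hn0⟩⟩
    set b := basisOfLinearIndependentOfCardEqFinrank hli (by rw [Fintype.card_fin, hn])
    set g₁ : F[X] := ∑ i : Fin n, C (b.repr f i) * X ^ (i : ℕ) with hg₁def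
    have hg₁deg : g₁.natDegree < n :=
      lt_of_le_of_lt (natDegree_sum_le_of_forall_le _ _ (n := n - 1) fun i _ =>
        (natDegree_C_mul_X_pow_le _ _).trans (by have := i.2; omega)) (Nat.sub_lt hn0 one_pos)
    have hg₁ : aeval Z g₁ = f := by
      rw [hg₁def, map_sum]
      conv_rhs => rw [← b.sum_repr f]
      refine Finset.sum_congr rfl fun i _ => ?_
      rw [map_mul, map_pow, aeval_C, aeval_X, Algebra.smul_def,
        coe_basisOfLinearIndependentOfCardEqFinrank]
    obtain ⟨g, hg⟩ : ∃ g : R[X], g.map R.subtype = g₁ :=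
      (Polynomial.lifts_iff_coeff_lifts g₁).mpr fun j =>
        ⟨⟨_, hrat g₁ hg₁deg (hg₁.symm ▸ hf) j⟩, rfl⟩
    refine ⟨g, ?_, hg.symm ▸ hg₁⟩
    rwa [← natDegree_map_eq_of_injective R.subtype.injective, hg]

variable (M q : ℕ) [NeZero M] [NeZero q]

/-- `j(q² τ)` at level `M q²`. -/
def topJ : fld Qb (M * q * q) :=
  heckeBetaBar Qb (M * q) q (heckeBetaBar Qb M q (jGenBar M 1 (one_dvd M)))

theorem isRational_jGenBar (A : ValuationSubring Qb) (N d : ℕ) [NeZero d] (hd : d ∣ N) :
    IsRational A (jGenBar (L := Qb) N d hd) := fun γ _ => by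
  rw [coe_jGenBar, coeffMap_qExpand, coeffMap_jqModC]

theorem IsRational.alpha {A : ValuationSubring Qb} {N l : ℕ} [NeZero N] [NeZero l] {x : fld Qb N}
    (hx : IsRational A x) : IsRational A (heckeAlphaBar Qb N l x) := fun γ hγ => by
  rw [coe_heckeAlphaBar]
  exact hx γ hγ

theorem IsRational.beta {A : ValuationSubring Qb} {N l : ℕ} [NeZero N] [NeZero l] {x : fld Qb N}
    (hx : IsRational A x) : IsRational A (heckeBetaBar Qb N l x) := fun γ hγ => by
  rw [coe_heckeBetaBar, coeffMap_qExpand, hx γ hγ]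

theorem isRational_topJ (A : ValuationSubring Qb) : IsRational A (topJ M q) :=
  (isRational_jGenBar A M 1 _).beta.beta

theorem isRational_middleFun (A : ValuationSubring Qb) : IsRational A (middleFun M q) :=
  (ratField A (M * q * q)).sub_mem (isRational_topJ M q A) (isRational_jGenBar A M 1 _).alpha.alpha

/-- `T_l` preserves rational functions. -/
theorem IsRational.hecke {A : ValuationSubring Qb} {N l : ℕ} [NeZero N] [NeZero l] (hl : l.Prime)
    (hlN : ¬ l ∣ N) {x : fld Qb N} (hx : IsRational A x) :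
    IsRational A (heckeNormHom N l x) := fun γ hγ => by
  obtain ⟨ζ, hζ⟩ := exists_isPrimitiveRoot_units Qb l
  have h := isHeckeImage_heckeNormHom N l hl hlN hζ x
  have h' := h.coeffMap (cmap γ)
  rw [hx γ hγ] at h'
  have hζ' : IsPrimitiveRoot (Units.map (cmap γ : Qb →* Qb) ζ) l :=
    hζ.map_of_injective (Units.map_injective (cmap γ).injective)
  refine h'.eq ?_
  unfold IsHeckeImage at h ⊢
  rw [h, conjProd_eq_of_isPrimitiveRoot hζ hζ']

variable {M q}

/-- The roots of the equation of `j(q² τ)` over level `M q`: the identity and the middle ones. -/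
def topRoot (ζ : (Qb)ˣ) : Option (Fin (q - 1)) → LaurentSeries Qb
  | none => qExpand Qb (q * q) (jqModC Qb)
  | some i => scaleHom (ζ ^ ((i : ℕ) + 1)) (jqModC Qb)

theorem topRoot_injective [Fact q.Prime] {ζ : (Qb)ˣ} (hζ : IsPrimitiveRoot ζ q) :
    Function.Injective (topRoot (q := q) ζ) := by
  have hq : 2 ≤ q := (Fact.out : q.Prime).two_le
  intro a b h
  rcases a with - | a <;> rcases b with - | b <;> simp only [topRoot] at h
  · rfl
  · rw [← substHom_one_left, ← substHom_one_right (q * q) (jqModC Qb)] at h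
    have := (substHom_jqModC_inj h).1
    nlinarith
  · rw [← substHom_one_left, ← substHom_one_right (q * q) (jqModC Qb)] at h
    have := (substHom_jqModC_inj h).1
    nlinarith
  · rw [← substHom_one_left, ← substHom_one_left (ζ ^ ((b : ℕ) + 1))] at h
    have h1 := hζ.pow_inj (by omega) (by omega) (substHom_jqModC_inj h).2
    exact congrArg some (Fin.ext (by omega))

theorem isPrimitiveRoot_pow_succ [Fact q.Prime] {ζ : (Qb)ˣ} (hζ : IsPrimitiveRoot ζ q)
    (i : Fin (q - 1)) : IsPrimitiveRoot (ζ ^ ((i : ℕ) + 1)) q :=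
  hζ.pow_of_coprime _ (((Fact.out : q.Prime).coprime_iff_not_dvd.mpr fun h => by
    have := Nat.le_of_dvd (Nat.succ_pos _) h
    omega).symm)

variable [Fact q.Prime] {A : ValuationSubring Qb} (fp : FramePair q A)
  [CharP (ResidueField A) q] [PerfectRing (ResidueField A) q]

omit [NeZero M] [PerfectRing (ResidueField A) q] in
theorem FramePair.series_jqModC {u : ℕ} :
    IntSeries A (scaleHom (fp.ζ ^ u) (jqModC Qb)) ∧
      redSeries A (residue A) (scaleHom (fp.ζ ^ u) (jqModC Qb)) = jqModC (ResidueField A) ∧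
      fp.fr.InL (scaleHom (fp.ζ ^ u) (jqModC Qb)) := by
  have hpow : (⟨_, fp.ζ_mem_A⟩ : A) ^ q = 1 := Subtype.ext (by
    show ((fp.ζ : Qb)) ^ q = 1
    rw [← Units.val_pow_eq_pow_val, fp.prim.pow_eq_one, Units.val_one])
  set z : Aˣ := Units.ofPowEqOne ⟨_, fp.ζ_mem_A⟩ q hpow (NeZero.ne q)
  have hz : Units.map (A.subtype : A →* Qb) (z ^ u) = fp.ζ ^ u := by
    rw [map_pow]
    congr 1
    exact Units.ext rfl
  have e : coeffMap A.subtype (scaleHom (z ^ u) (jqModC A)) =
      scaleHom (fp.ζ ^ u) (jqModC Qb) := by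
    rw [coeffMap_scaleHom, hz, coeffMap_jqModC]
  refine ⟨e ▸ intSeries_coeffMap _, ?_, fun i => ?_⟩
  · rw [← e, redSeries_coeffMap, coeffMap_scaleHom, coeffMap_jqModC, map_pow,
      show Units.map (residue A : A →* ResidueField A) z = 1 from Units.ext fp.residue_ζ, one_pow,
      scaleHom_one]
  · rw [scaleHom_coeff]
    refine mul_mem ?_ ?_
    · rw [Units.val_zpow_eq_zpow_val, Units.val_pow_eq_pow_val]
      exact zpow_mem (pow_mem fp.ζ_mem u) i
    · rw [← coeffMap_jqModC (Int.castRingHom Qb), coeffMap_coeff, eq_intCast]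
      exact intCast_mem fp.fr.L _

omit [NeZero M] [PerfectRing (ResidueField A) q] in
theorem FramePair.series_qExpand (d : ℕ) [NeZero d] :
    IntSeries A (qExpand Qb d (jqModC Qb)) ∧
      redSeries A (residue A) (qExpand Qb d (jqModC Qb)) =
        qExpand (ResidueField A) d (jqModC (ResidueField A)) ∧
      fp.fr.InL (qExpand Qb d (jqModC Qb)) := by
  have e : coeffMap A.subtype (qExpand A d (jqModC A)) = qExpand Qb d (jqModC Qb) := by
    rw [coeffMap_qExpand, coeffMap_jqModC]
  refine ⟨e ▸ intSeries_coeffMap _, ?_, fun i => ?_⟩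
  · rw [← e, redSeries_coeffMap, coeffMap_qExpand, coeffMap_jqModC]
  · rw [← coeffMap_jqModC (Int.castRingHom Qb), ← coeffMap_qExpand, coeffMap_coeff, eq_intCast]
    exact intCast_mem fp.fr.L _

/-- The series of level `M q`. -/
abbrev midCoe (M q : ℕ) : fld Qb (M * q) →+* LaurentSeries Qb :=
  (fld Qb (M * q)).toSubfield.subtype

omit [PerfectRing (ResidueField A) q] in
/-- The equation of `j(q² τ)` over level `M q`. -/
theorem FramePair.minpoly_topJ (hq2 : q ≠ 2) (hqM : ¬ q ∣ M) :
    letI := algebraAlong (heckeAlphaBar Qb (M * q) q)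
    (minpoly (fld Qb (M * q)) (topJ M q)).Monic ∧
      (minpoly (fld Qb (M * q)) (topJ M q)).natDegree = q ∧
      (minpoly (fld Qb (M * q)) (topJ M q)).map (midCoe M q) =
        ∏ a : Option (Fin (q - 1)), (X - C (topRoot (q := q) fp.ζ a)) := by
  classical
  have hq : q.Prime := Fact.out
  let aF := algebraAlong (heckeAlphaBar Qb (M * q) q)
  have hdeg : Module.finrank (fld Qb (M * q)) (fld Qb (M * q * q)) = q := by
    have h := finrankAlong_alpha Qb (M * q) q hq
    rw [if_pos (dvd_mul_left q M)] at h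
    exact h
  have hfd : FiniteDimensional (fld Qb (M * q)) (fld Qb (M * q * q)) :=
    Module.finite_of_finrank_pos (by rw [hdeg]; exact hq.pos)
  set Z := topJ M q with hZ
  have hint : IsIntegral (fld Qb (M * q)) Z := IsIntegral.of_finite _ _
  set P₁ := minpoly (fld Qb (M * q)) Z with hP₁
  have hP₁deg : P₁.natDegree ≤ q := (minpoly.natDegree_le Z).trans hdeg.le
  choose σ hσ using fun i : Fin (q - 1) =>
    exists_isMiddle (M := M) hq hq2 hqM (isPrimitiveRoot_pow_succ fp.prim i)
  set θ₁ : fld Qb (M * q) →+* LaurentSeries Qb := (fld Qb (M * q)).toSubfield.subtype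
  have hσα : ∀ i, (σ i).comp (algebraMap (fld Qb (M * q)) (fld Qb (M * q * q))) = θ₁ := fun i =>
    RingHom.ext (hσ i).alpha
  have hσZ : ∀ i, σ i Z = topRoot fp.ζ (some i) := fun i => by
    rw [hZ, topJ, (hσ i).beta, coe_jGenBar, qExpand_one_apply]
    rfl
  have hcoeZ : (Z : LaurentSeries Qb) = topRoot (q := q) fp.ζ none := by
    simp [hZ, topJ, topRoot, qExpand_qExpand]
  have hroot : ∀ a : Option (Fin (q - 1)), (P₁.map θ₁).IsRoot (topRoot (q := q) fp.ζ a) := by
    rintro (- | i)
    · rw [← hcoeZ]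
      exact isRoot_map_minpoly (fld Qb (M * q * q)).val.toRingHom θ₁
        (fun x => ((val_toRingHom_apply (fld Qb (M * q * q)) (heckeAlphaBar Qb (M * q) q x)).trans
          (coe_heckeAlphaBar (M * q) q x)).trans (toSubfield_subtype_apply (fld Qb (M * q)) x).symm)
        Z
    · rw [← hσZ]
      exact isRoot_map_minpoly (σ i) θ₁ (hσ i).alpha Z
  have hsplit₁ : P₁.map θ₁ = ∏ a, (X - C (topRoot (q := q) fp.ζ a)) := by
    refine eq_of_monic_of_dvd_of_natDegree_le (monic_prod_X_sub_C _ _)
      ((minpoly.monic hint).map _) ?_ ?_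
    · exact Finset.prod_dvd_of_coprime (fun a _ b _ hab => isCoprime_X_sub_C_of_isUnit_sub
        (sub_ne_zero.2 fun h => hab (topRoot_injective fp.prim h)).isUnit)
        fun a _ => dvd_iff_isRoot.2 (hroot a)
    · rw [natDegree_finsetProd_X_sub_C_eq_card, natDegree_map, Finset.card_univ,
        Fintype.card_option, Fintype.card_fin]
      have := hq.one_le
      omega
  have hdegP : P₁.natDegree = q := by
    have h := congrArg natDegree hsplit₁
    rw [natDegree_map, natDegree_finsetProd_X_sub_C_eq_card, Finset.card_univ,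
      Fintype.card_option, Fintype.card_fin] at h
    have := hq.one_le
    omega
  exact ⟨minpoly.monic hint, hdegP, hsplit₁⟩

/-- The approximation data at the middle roots. -/
theorem FramePair.exists_approxData (hq2 : q ≠ 2) (hqM : ¬ q ∣ M) (hA : A.LiesOverPrime q)
    {P : (ratField A (M * q))[X]} (hPmonic : P.Monic)
    (hP : P.map ((midCoe M q).comp (ratField A (M * q)).subtype) =
      ∏ a : Option (Fin (q - 1)), (X - C (topRoot (q := q) fp.ζ a))) :
    ∃ d : ApproxData fp.fr (ratField A (M * q))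
      (modularFunctionFieldFullC (ResidueField A) M) (thetaSeries (ResidueField A)) (q - 1),
      d.θ = (midCoe M q).comp (ratField A (M * q)).subtype ∧
        ∀ i, d.r i = topRoot (q := q) fp.ζ (some i) := by
  classical
  have hq : q.Prime := Fact.out
  choose σ hσ using fun i : Fin (q - 1) =>
    exists_isMiddle (M := M) hq hq2 hqM (isPrimitiveRoot_pow_succ fp.prim i)
  set θ₁ := midCoe M q
  set θ : (ratField A (M * q)) →+* LaurentSeries Qb := θ₁.comp (ratField A (M * q)).subtype with hθ
  set X₀ : (ratField A (M * q)) := ⟨heckeAlphaBar Qb M q (jGenBar M 1 (one_dvd M)),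
    (isRational_jGenBar A M 1 _).alpha⟩
  set T₀ : (ratField A (M * q)) := ⟨heckeBetaBar Qb M q (jGenBar M 1 (one_dvd M)),
    (isRational_jGenBar A M 1 _).beta⟩
  have hθX : θ X₀ = jqModC Qb := by
    show ((heckeAlphaBar Qb M q (jGenBar M 1 (one_dvd M)) : fld Qb (M * q)) : LaurentSeries Qb) = _
    rw [coe_heckeAlphaBar, coe_jGenBar, qExpand_one_apply]
  have hθT : θ (T₀ ^ q) = qExpand Qb q (jqModC Qb) ^ q := by
    rw [map_pow]
    congr 1
    show ((heckeBetaBar Qb M q (jGenBar M 1 (one_dvd M)) : fld Qb (M * q)) : LaurentSeries Qb) = _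
    rw [coe_heckeBetaBar, coe_jGenBar, qExpand_one_apply]
  have hTint : IntSeries A (θ (T₀ ^ q)) ∧
      redSeries A (residue A) (θ (T₀ ^ q)) =
        qExpand (ResidueField A) (q * q) (jqModC (ResidueField A)) ∧
      fp.fr.InL (θ (T₀ ^ q)) := by
    obtain ⟨h1, -, h3⟩ := fp.series_qExpand q
    have hpowL : ∀ n : ℕ, fp.fr.InL (qExpand Qb q (jqModC Qb) ^ n) := by
      intro n
      induction n with
      | zero => rw [pow_zero]; exact inL_one
      | succ n ih => rw [pow_succ]; exact inL_mul ih h3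
    have e : coeffMap A.subtype (qExpand A q (jqModC A) ^ q) = qExpand Qb q (jqModC Qb) ^ q := by
      rw [map_pow, coeffMap_qExpand, coeffMap_jqModC]
    rw [hθT]
    refine ⟨e ▸ intSeries_coeffMap _, ?_, hpowL q⟩
    rw [← e, redSeries_coeffMap, map_pow, coeffMap_qExpand, coeffMap_jqModC, ← qExpand_qExpand,
      ← map_pow]
    refine congrArg _ ?_
    have := FLTA.Congruence.qExpand_coeffMap_frobenius (R := ResidueField A) (ℓ := q)
      (jqModC (ResidueField A))
    rw [coeffMap_jqModC] at this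
    exact this.symm
  obtain ⟨hr₀i, hr₀r, hr₀L⟩ := fp.series_qExpand (q * q)
  have hX₀ := fp.series_jqModC (u := 0)
  rw [pow_zero, scaleHom_one] at hX₀
  have hapart : fp.fr.IsVal (θ (T₀ ^ q) - θ X₀) 0 := by
    refine ⟨(fp.fr.ge_zero_iff _).mpr ?_, ?_⟩
    · rw [hθX]; exact IntSeries.sub hTint.1 hX₀.1
    · rw [neg_zero, zpow_zero, one_smul, hθX, redSeries_sub hTint.1 hX₀.1, hTint.2.1, hX₀.2.1]
      intro h
      have h1 := congrArg (fun s : LaurentSeries (ResidueField A) => s.coeff (-1)) h
      have hnd : ¬ ((q * q : ℕ) : ℤ) ∣ -1 := by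
        rw [dvd_neg, Int.natCast_dvd]
        intro h
        have := Nat.le_of_dvd one_pos h
        nlinarith [hq.two_le]
      simp [qExpand_coeff_of_not_dvd (q * q) _ hnd, coeff_jqModC_neg_one] at h1
  let d : ApproxData fp.fr (ratField A (M * q)) (modularFunctionFieldFullC (ResidueField A) M)
      (thetaSeries (ResidueField A)) (q - 1) :=
    { θ := θ
      P := P
      zi := topRoot (q := q) fp.ζ none
      r := fun i => topRoot fp.ζ (some i)
      X₀ := X₀
      z₀ := T₀ ^ q
      monic := hPmonic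
      split := by
        rw [hθ, hP, Fintype.prod_option]
      val := fun h h0 => fp.exists_rat_val hqM hA h.2 fun hc => h0 (Subtype.ext hc)
      rep := fun i => by
        obtain ⟨h1, -, h3⟩ := fp.series_jqModC (u := (i : ℕ) + 1)
        exact hasRep_of_ge h3 ⟨0, (fp.fr.ge_zero_iff _).mpr h1⟩
      center := fun i => by
        obtain ⟨c, hc, hv, hl⟩ :=
          middleFun_lead fp (isPrimitiveRoot_pow_succ fp.prim i) (hσ i)
        refine ⟨c, hc, ?_⟩
        have e : σ i (middleFun M q) = topRoot fp.ζ (some i) - θ X₀ := by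
          rw [middleFun, map_sub, hθX]
          rw [(hσ i).beta, (hσ i).alpha, coe_heckeAlphaBar, coe_jGenBar, qExpand_one_apply]
          rfl
        rw [← e, ← hl]
        exact hasVal_of_isVal hv
      near := by
        refine geF_one_of_red_eq_zero fp.fr (fun i => ?_) (IntSeries.sub hr₀i hTint.1) ?_
        · rw [HahnSeries.coeff_sub]
          exact sub_mem (hr₀L i) (hTint.2.2 i)
        · show redSeries A (residue A) (qExpand Qb (q * q) (jqModC Qb) - θ (T₀ ^ q)) = 0
          rw [redSeries_sub hr₀i hTint.1, hr₀r, hTint.2.1, sub_self]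
      apart := ⟨_, hasVal_of_isVal hapart⟩
      e_pos := Nat.sub_pos_of_lt hq.one_lt
      Θ_ne := thetaSeries_ne_zero _ }
  exact ⟨d, rfl, fun _ => rfl⟩

/-- **Every rational function has a middle lead.** -/
theorem FramePair.exists_middleLead (hq2 : q ≠ 2) (hqM : ¬ q ∣ M) (hA : A.LiesOverPrime q)
    {f : fld Qb (M * q * q)} (hf : IsRational A f) (hf0 : f ≠ 0) :
    ∃ m η, HasMiddleLead fp.fr (thetaSeries (ResidueField A)) f m η := by
  classical
  have hq : q.Prime := Fact.out
  let aF := algebraAlong (heckeAlphaBar Qb (M * q) q)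
  have hdeg : Module.finrank (fld Qb (M * q)) (fld Qb (M * q * q)) = q := by
    have h := finrankAlong_alpha Qb (M * q) q hq
    rw [if_pos (dvd_mul_left q M)] at h
    exact h
  have hfd : FiniteDimensional (fld Qb (M * q)) (fld Qb (M * q * q)) :=
    Module.finite_of_finrank_pos (by rw [hdeg]; exact hq.pos)
  obtain ⟨hmonic, hdegP, hsplit₁⟩ := fp.minpoly_topJ hq2 hqM (M := M)
  set Z := topJ M q with hZ
  choose σ hσ using fun i : Fin (q - 1) =>
    exists_isMiddle (M := M) hq hq2 hqM (isPrimitiveRoot_pow_succ fp.prim i)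
  have hσα : ∀ i, (σ i).comp (algebraMap (fld Qb (M * q)) (fld Qb (M * q * q))) = midCoe M q :=
    fun i => RingHom.ext (hσ i).alpha
  have hσZ : ∀ i, σ i Z = topRoot fp.ζ (some i) := fun i => by
    rw [hZ, topJ, (hσ i).beta, coe_jGenBar, qExpand_one_apply]
    rfl
  set R := ratField A (M * q) with hR
  obtain ⟨⟨P, hP⟩, g, hgdeg, hg⟩ := exists_descent (Z := Z) hdeg hdegP
    (fun γ : A.inertiaSubgroupIn ℚ => mapF (cmap γ.1) (M * q))
    (fun γ : A.inertiaSubgroupIn ℚ => mapF (cmap γ.1) (M * q * q)) R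
    (fun x => ⟨fun h γ => (mapF_eq_self_iff γ.1 x).mpr (h γ.1 γ.2),
      fun h γ hγ => (mapF_eq_self_iff γ x).mp (h ⟨γ, hγ⟩)⟩)
    (fun γ x => mapF_heckeAlpha (cmap γ.1) (M * q) q x)
    (fun γ => (mapF_eq_self_iff γ.1 Z).mpr (isRational_topJ M q A γ.1 γ.2))
    (f := f) fun γ => (mapF_eq_self_iff γ.1 f).mpr (hf γ.1 γ.2)
  obtain ⟨d, hdθ, hdr⟩ := fp.exists_approxData hq2 hqM hA (P := P)
    (monic_of_injective R.subtype.injective (hP ▸ hmonic))
    (by rw [← Polynomial.map_map, hP, hsplit₁])
  have hgeval : ∀ i, σ i f = g.eval₂ d.θ (topRoot fp.ζ (some i)) := fun i => by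
    rw [← hg, aeval_def, hom_eval₂, hσα, hσZ, eval₂_map, hdθ]
  obtain ⟨m, η, hη, hlead⟩ := d.exists_lead (g := g)
    (by
      omega)
    fun i => by
      rw [hdr, ← hgeval]
      exact (_root_.map_ne_zero _).mpr hf0
  refine ⟨m, η, hη, fun u τ hu hτ => ?_⟩
  obtain ⟨s, hs, hsu⟩ := (IsPrimitiveRoot.coe_units_iff.mpr fp.prim).eq_pow_of_pow_eq_one
    (ξ := (u : Qb)) (by rw [← Units.val_pow_eq_pow_val, hu.pow_eq_one, Units.val_one])
  have hs0 : s ≠ 0 := fun h => by
    subst h
    have : u = 1 := Units.ext (by rw [← hsu, pow_zero, Units.val_one])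
    exact hq.one_lt.ne' (by rw [hu.eq_orderOf, this, orderOf_one])
  obtain ⟨i, hi⟩ : ∃ i : Fin (q - 1), fp.ζ ^ ((i : ℕ) + 1) = u :=
    ⟨⟨s - 1, by omega⟩, Units.ext (by
      rw [Units.val_pow_eq_pow_val, show s - 1 + 1 = s by omega, hsu])⟩
  have : τ = σ i := hτ.unique hq (hi ▸ hσ i)
  rw [this, hgeval, ← hdr]
  exact hlead i

end FLTA.RT.Qsq

end
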