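import Fermat.Agent.Carayol.GaussRoot
import Fermat.Agent.Carayol.Ordinary
import Mathlib.RingTheory.Trace.Basic

/-!
# Traces through the branches

The trace of a function of two roots to its first root is, at `x₁`, the value on the branch
`(x₁, x₀)` plus the trace from the middle branch; modulo the uniformiser the latter is minus the
residue.
-/

set_option autoImplicit false

noncomputable section

open IsLocalRing Polynomial FLTA.Carayol

namespace FLTA.RT.Qsq

variable {A B : Type*} [CommRing A] [CommRing B]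

/-- The trace of `AdjoinRoot` commutes with base change. -/
theorem trace_adjoinRoot_map {p : A[X]} {q : B[X]} (hp : p.Monic) (f : A →+* B)
    (hq : p.map f = q) (x : AdjoinRoot p) :
    Algebra.trace B (AdjoinRoot q) (AdjoinRoot.map f p q hq.symm.dvd x) =
      f (Algebra.trace A (AdjoinRoot p) x) := by
  subst hq
  nontriviality B
  have := f.domain_nontrivial
  have hdeg : (p.map f).natDegree = p.natDegree := hp.natDegree_map f
  let b := (AdjoinRoot.powerBasisAux' hp)
  let c := (AdjoinRoot.powerBasisAux' (hp.map f)).reindex (finCongr hdeg)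
  rw [Algebra.trace_eq_matrix_trace b, Algebra.trace_eq_matrix_trace c, Matrix.trace,
    Matrix.trace, map_sum]
  refine Finset.sum_congr rfl fun i _ => ?_
  have hb : ∀ k : Fin p.natDegree, b k = AdjoinRoot.root p ^ (k : ℕ) := fun k =>
    (AdjoinRoot.powerBasis' hp).basis_eq_pow k
  have hc : ∀ k : Fin p.natDegree, c k = AdjoinRoot.root (p.map f) ^ (k : ℕ) := fun k => by
    simp only [c, Module.Basis.reindex_apply]
    exact (AdjoinRoot.powerBasis' (hp.map f)).basis_eq_pow _
  rw [Matrix.diag_apply, Matrix.diag_apply, Algebra.leftMulMatrix_eq_repr_mul,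
    Algebra.leftMulMatrix_eq_repr_mul, hb, hc]
  obtain ⟨g, rfl⟩ := AdjoinRoot.mk_surjective x
  have e : AdjoinRoot.map f p (p.map f) dvd_rfl (AdjoinRoot.mk p g) *
      AdjoinRoot.root (p.map f) ^ (i : ℕ) =
      AdjoinRoot.mk (p.map f) ((g * X ^ (i : ℕ)).map f) := by
    rw [Polynomial.map_mul, Polynomial.map_pow, map_X, map_mul, map_pow, AdjoinRoot.mk_X]
    congr 1
    rw [AdjoinRoot.map, AdjoinRoot.lift_mk, ← eval₂_map, ← AdjoinRoot.aeval_eq, aeval_def,
      AdjoinRoot.algebraMap_eq]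
  rw [e]
  simp only [b, c, Module.Basis.repr_reindex, Finsupp.mapDomain_equiv_apply,
    AdjoinRoot.powerBasisAux'_repr_apply_to_fun, AdjoinRoot.modByMonicHom_mk]
  rw [← AdjoinRoot.mk_X (f := p), ← map_pow, ← map_mul, AdjoinRoot.modByMonicHom_mk,
    ← map_modByMonic f hp, coeff_map]
  simp

theorem trace_crt {K : Type*} [Field K] {f g : K[X]} (hf : f.Monic) (hg : g.Monic)
    (h : IsCoprime f g) (x : AdjoinRoot (f * g)) :
    Algebra.trace K (AdjoinRoot (f * g)) x =
      Algebra.trace K (AdjoinRoot f) (AdjoinRoot.algHomOfDvd K (f * g) f (dvd_mul_right f g) x) +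
        Algebra.trace K (AdjoinRoot g)
          (AdjoinRoot.algHomOfDvd K (f * g) g (dvd_mul_left g f) x) := by
  have := hf.free_adjoinRoot
  have := hg.free_adjoinRoot
  have := hf.finite_adjoinRoot
  have := hg.finite_adjoinRoot
  rw [← Algebra.trace_eq_of_algEquiv (AlgEquiv.ofBijective _ (crtHom_bijective hf hg h)) x,
    Algebra.trace_prod_apply]
  rfl

theorem trace_adjoinRoot_X_sub_C {K : Type*} [Field K] (a : K) (x : AdjoinRoot (X - C a)) :
    Algebra.trace K _ x = AdjoinRoot.lift (RingHom.id K) a (by simp) x := by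
  obtain ⟨p, rfl⟩ := AdjoinRoot.mk_surjective x
  rw [AdjoinRoot.lift_mk]
  have hp : AdjoinRoot.mk (X - C a) p =
      algebraMap K (AdjoinRoot (X - C a)) (p.eval₂ (RingHom.id K) a) := by
    rw [AdjoinRoot.algebraMap_eq, ← AdjoinRoot.mk_C, AdjoinRoot.mk_eq_mk, eval₂_id]
    exact X_sub_C_dvd_sub_C_eval
  rw [hp, Algebra.trace_algebraMap, (AdjoinRoot.powerBasis' (monic_X_sub_C a)).finrank,
    AdjoinRoot.powerBasis'_dim, natDegree_X_sub_C, one_nsmul]

/-- The trace to the first root, at `x₁`. -/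
theorem proj₁_trFst {L : Type*} [Field L] {Ψ : L[X]} (t : RootSplit Ψ) (hΦ : Ψ.Monic)
    (hd : 1 < Ψ.natDegree) [Fact (Irreducible t.quo)] (h0 : t.quo.eval t.x₀ ≠ 0)
    (y : Pairs Ψ) :
    t.proj₁ (Algebra.trace (AdjoinRoot Ψ) (Pairs Ψ) y) =
      t.br₁ y + Algebra.trace t.E t.E' (t.brₘ y) := by
  set a := AdjoinRoot.of t.quo t.x₀ with ha
  have hcop : IsCoprime (X - C a) t.G := by
    refine (irreducible_X_sub_C _).coprime_iff_not_dvd.2 fun h => ?_
    have hG0 : t.G.eval a = 0 := dvd_iff_isRoot.1 h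
    have := sub_mul_divDiff_eval (t.quo.map (AdjoinRoot.of t.quo)) (AdjoinRoot.root t.quo) a
    rw [← RootSplit.G, hG0, mul_zero, eval_map, eval_map, AdjoinRoot.eval₂_root, sub_zero, ha,
      eval₂_at_apply, eq_comm, map_eq_zero_iff _ (AdjoinRoot.of t.quo).injective] at this
    exact h0 this
  rw [← trace_adjoinRoot_map (Pairs.monic_sndPoly hΦ (by omega)) _ t.sndPoly_map_proj₁ y,
    trace_crt (monic_X_sub_C a) (t.monic_G hΦ hd) hcop, trace_adjoinRoot_X_sub_C]
  have e₁ : ((AdjoinRoot.lift (RingHom.id t.E) a (by simp)).comp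
      ((AdjoinRoot.algHomOfDvd t.E ((X - C a) * t.G) (X - C a) (dvd_mul_right _ _)).toRingHom.comp
        (AdjoinRoot.map t.proj₁ (sndPoly Ψ) ((X - C a) * t.G) t.sndPoly_map_proj₁.symm.dvd)))
      = t.br₁ := by
    refine Pairs.ringHom_ext (RingHom.ext fun r => ?_) ?_ ?_ <;>
      simp [RootSplit.br₁, Pairs.lift, Pairs.ofBase, Pairs.fst, Pairs.snd, RootSplit.proj₁, ha,
        AdjoinRoot.algHomOfDvd]
  have e₂ : ((AdjoinRoot.algHomOfDvd t.E ((X - C a) * t.G) t.G (dvd_mul_left _ _)).toRingHom.comp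
        (AdjoinRoot.map t.proj₁ (sndPoly Ψ) ((X - C a) * t.G) t.sndPoly_map_proj₁.symm.dvd))
      = t.brₘ := by
    refine Pairs.ringHom_ext (RingHom.ext fun r => ?_) ?_ ?_ <;>
      simp [RootSplit.brₘ, Pairs.lift, Pairs.ofBase, Pairs.fst, Pairs.snd, RootSplit.proj₁,
        AdjoinRoot.algHomOfDvd]
  rw [← e₁, ← e₂]
  rfl

/-- The trace of a scalar plus a nilpotent. -/
theorem trace_eq_nsmul_of_isNilpotent_sub {k S : Type*} [Field k] [CommRing S] [Algebra k S]
    [Module.Finite k S] {x : S} {c : k} (h : IsNilpotent (x - algebraMap k S c)) :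
    Algebra.trace k S x = Module.finrank k S • c := by
  have h1 := (Algebra.isNilpotent_trace_of_isNilpotent (R := k) h).eq_zero
  rwa [map_sub, Algebra.trace_algebraMap, sub_eq_zero] at h1

/-- Modulo the uniformiser the trace from the middle branch is minus the residue. -/
theorem residue_trace_middle [IsLocalRing A] [IsDomain A] [IsDiscreteValuationRing A]
    [IsAdicComplete (maximalIdeal A) A] {q : ℕ} {Φ : A[X]} {s : RootSplit Φ} {T : A}
    (h : IsGauss q Φ s T) [IsLocalRing s.E] (b : s.E) (w : s.E') :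
    residue s.E (Algebra.trace s.E s.E' (AdjoinRoot.of s.G b +
        (AdjoinRoot.root s.G - AdjoinRoot.of s.G (AdjoinRoot.root s.quo)) * w)) =
      -residue s.E b := by
  have hd : 1 < Φ.natDegree := by rw [h.natDegree_eq]; have := h.prime_q.two_le; omega
  have hG := h.isShiftEis_G
  have hGm : s.G.Monic := s.monic_G h.monic hd
  have := (hGm.map (residue s.E)).free_adjoinRoot
  have := (hGm.map (residue s.E)).finite_adjoinRoot
  let ρ := AdjoinRoot.map (residue s.E) s.G (s.G.map (residue s.E)) dvd_rfl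
  rw [← trace_adjoinRoot_map hGm (residue s.E) rfl]
  have hnil : IsNilpotent (ρ (AdjoinRoot.of s.G b +
      (AdjoinRoot.root s.G - AdjoinRoot.of s.G (AdjoinRoot.root s.quo)) * w) -
      algebraMap _ _ (residue s.E b)) := by
    refine ⟨s.G.natDegree, ?_⟩
    rw [AdjoinRoot.algebraMap_eq, ← AdjoinRoot.map_of (residue s.E) s.G _ dvd_rfl b, ← map_sub,
      add_sub_cancel_left, ← map_pow, mul_pow, map_mul]
    have hker : ρ ((AdjoinRoot.root s.G - AdjoinRoot.of s.G (AdjoinRoot.root s.quo)) ^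
        s.G.natDegree) = 0 := by
      rw [← RingHom.mem_ker, ker_residue_adjoinRoot hG.max_eq hGm]
      exact hG.pow_mem
    rw [hker, zero_mul]
  rw [trace_eq_nsmul_of_isNilpotent_sub hnil,
    (AdjoinRoot.powerBasis' (hGm.map (residue s.E))).finrank, AdjoinRoot.powerBasis'_dim,
    hGm.natDegree_map, s.natDegree_G h.monic hd, h.natDegree_eq]
  have := h.charP_residue_E
  rw [show q + 1 - 2 = q - 1 by omega, nsmul_eq_mul, Nat.cast_sub h.prime_q.one_le,
    CharP.cast_eq_zero, Nat.cast_one, zero_sub, neg_one_mul]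

end FLTA.RT.Qsq

end
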