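import Fermat.Agent.RT.Qsq.SeriesHat
import Fermat.Agent.Carayol.Node.Main
import Fermat.Agent.Congruence.Twist
import Fermat.Agent.Congruence.FrobeniusField

/-!
# Maps of the Gauss field to the completions at the points, and their residues

A map of the Gauss ring to the completion at a point is determined by its residue, and a point
whose residual embedding only involves `p`-th powers of the parameter descends to the parameter
of degree `p`.
-/

set_option autoImplicit false
set_option maxHeartbeats 800000
set_option synthInstance.maxHeartbeats 400000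
set_option linter.style.haveILetI false

noncomputable section

open IsLocalRing Polynomial ModularCurve FLTA.Carayol FLTA.Congruence

namespace FLTA.RT.Qsq

/-- Maps into a complete discrete valuation ring with uniformiser `q` which agree modulo `q` and
at `T` agree, as soon as everything is a polynomial in `T` over `q`-th powers modulo `q`. -/
theorem eq_of_residual {O B : Type*} [CommRing O] [CommRing B] [IsDomain B]
    [IsDiscreteValuationRing B] [IsAdicComplete (maximalIdeal B) B] {q : ℕ} [Fact q.Prime]
    (hB : maximalIdeal B = Ideal.span {(q : B)}) {j j' : O →+* B} {T : O}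
    (hdec : ∀ x : O, ∃ (y : Fin q → O) (z : O),
      x = ∑ i : Fin q, T ^ (i : ℕ) * y i ^ q + (q : O) * z)
    (hT : j T = j' T) (h1 : ∀ x, (q : B) ∣ j x - j' x) : j = j' := by
  have key : ∀ n : ℕ, ∀ x, (q : B) ^ (n + 1) ∣ j x - j' x := by
    intro n
    induction n with
    | zero => simpa using h1
    | succ n ih =>
      intro x
      obtain ⟨y, z, rfl⟩ := hdec x
      rw [map_add, map_add, map_mul, map_mul, map_natCast, map_natCast, map_sum, map_sum,
        add_sub_add_comm, ← Finset.sum_sub_distrib, ← mul_sub]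
      refine dvd_add (Finset.dvd_sum fun i _ => ?_) ?_
      · rw [map_mul, map_mul, map_pow, map_pow, map_pow, map_pow, hT, ← mul_sub]
        refine Dvd.dvd.mul_left ?_ _
        obtain ⟨c, hc⟩ := ih (y i)
        rw [← geom_sum₂_mul, pow_succ']
        refine mul_dvd_mul ?_ (ih (y i))
        refine (dvd_geom_sum₂_iff_of_dvd_sub ?_).2 ⟨j' (y i) ^ (q - 1), rfl⟩
        exact dvd_trans (dvd_pow_self _ n.succ_ne_zero) (ih (y i))
      · rw [pow_succ']
        exact mul_dvd_mul_left _ (ih z)
  refine RingHom.ext fun x => sub_eq_zero.1 ?_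
  refine IsHausdorff.haus (I := maximalIdeal B) inferInstance _ fun m => ?_
  rw [SModEq.zero, smul_eq_mul, Ideal.mul_top, hB, Ideal.span_singleton_pow,
    Ideal.mem_span_singleton]
  exact dvd_trans (pow_dvd_pow _ m.le_succ) (key m x)

variable {W : Type} [CommRing W] [IsDomain W] [IsDiscreteValuationRing W]
  {q : ℕ} [Fact q.Prime] [Fact (Prime (PowerSeries.C (q : W) : PowerSeries W))]
  {k : Type} [Field k]

/-- An endomorphism of series compatible with one of residual series extends to the completion. -/
theorem exists_hatEnd (hW : maximalIdeal W = Ideal.span {(q : W)}) (r : W →+* k)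
    (hr : RingHom.ker r = maximalIdeal W) (f : PowerSeries W →+* PowerSeries W)
    (hf : Function.Injective f) (fb : LaurentSeries k →+* LaurentSeries k)
    (hfb : ∀ z, coeffMap r (algebraMap _ (LaurentSeries W) (f z)) =
      fb (coeffMap r (algebraMap _ (LaurentSeries W) z))) :
    ∃ (F : SerB W q →+* SerB W q)
      (Ff : FractionRing (PowerSeries W) →+* FractionRing (PowerSeries W))
      (Fh : FractionRing (SerB W q) →+* FractionRing (SerB W q)),
      Ff.comp (algebraMap (PowerSeries W) _) = (algebraMap _ _).comp f ∧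
      Fh.comp (algebraMap (SerB W q) _) = (algebraMap _ _).comp F ∧
      Fh.comp (toHatFrac q) = (toHatFrac q).comp Ff ∧
      ∀ ρ : SerB W q →+* LaurentSeries k,
        ρ.comp (laurentToHat hW) = coeffMap r → ρ.comp F = fb.comp ρ := by
  set π : PowerSeries W := PowerSeries.C (q : W) with hπdef
  have hfq : f π = π := by
    rw [hπdef, show (PowerSeries.C (q : W) : PowerSeries W) = (q : PowerSeries W) from
      map_natCast _ q, map_natCast]
  have hϖ : Irreducible (q : W) := (IsDiscreteValuationRing.irreducible_iff_uniformizer _).2 hW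
  have hres : ∀ z : PowerSeries W,
      π ∣ z ↔ coeffMap r (algebraMap _ (LaurentSeries W) z) = 0 := fun z => by
    rw [hπdef, C_dvd_powerSeries_iff hϖ]
    constructor
    · intro h
      refine HahnSeries.ext (funext fun i => ?_)
      rw [coeffMap_coeff, HahnSeries.coeff_zero]
      by_cases hi : i < 0
      · simp [PowerSeries.coeff_coe, hi]
      · obtain ⟨i, rfl⟩ := Int.eq_ofNat_of_zero_le (not_lt.1 hi)
        have h1 := congrArg (PowerSeries.coeff i) h
        rw [PowerSeries.coeff_map, map_zero, residue_eq_zero_iff, ← hr, RingHom.mem_ker] at h1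
        simpa [PowerSeries.coeff_coe, not_lt.2 (Int.natCast_nonneg i)] using h1
    · intro h
      ext i
      rw [PowerSeries.coeff_map, map_zero, residue_eq_zero_iff, ← hr, RingHom.mem_ker]
      have := congrArg (fun s : LaurentSeries k => s.coeff (i : ℤ)) h
      simpa [PowerSeries.coeff_coe, not_lt.2 (Int.natCast_nonneg i)] using this
  have hF0 : ∀ z : PowerSeries W, ¬ π ∣ z → ¬ π ∣ f z := fun z hz h => hz ((hres z).2 (by
    have h1 := (hres _).1 h
    rwa [hfb, map_eq_zero] at h1))
  obtain ⟨F, hF⟩ := exists_hat_lift π ((toHat π).comp f)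
    (by rw [RingHom.comp_apply, hfq]; exact toHat_self_mem π)
    fun z hz => isUnit_toHat π (hF0 z hz)
  have hF' : ∀ z, F (toHat π z) = toHat π (f z) := fun z => RingHom.congr_fun hF z
  have hinjF : Function.Injective F := by
    rw [injective_iff_map_eq_zero]
    intro x hx
    by_contra hx0
    obtain ⟨i, e, rfl⟩ := exists_eq_unit_mul_pow_hat π hx0
    rw [map_mul, (e.isUnit.map F).mul_right_eq_zero, map_pow, hF', hfq] at hx
    exact pow_ne_zero i (toHat_self_ne_zero π) hx
  let Ff : FractionRing (PowerSeries W) →+* FractionRing (PowerSeries W) := IsFractionRing.map hf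
  have hinjB : Function.Injective ((algebraMap (SerB W q) (FractionRing (SerB W q))).comp F) :=
    (IsFractionRing.injective _ _).comp hinjF
  let Fh : FractionRing (SerB W q) →+* FractionRing (SerB W q) := IsFractionRing.lift hinjB
  have e1 : ∀ z, Ff (algebraMap (PowerSeries W) _ z) = algebraMap _ _ (f z) :=
    fun z => IsLocalization.map_eq _ z
  have e2 : ∀ z, Fh (algebraMap (SerB W q) _ z) = algebraMap _ _ (F z) :=
    fun z => IsFractionRing.lift_algebraMap hinjB z
  refine ⟨F, Ff, Fh, RingHom.ext e1, RingHom.ext e2, ?_, fun ρ hρ => ?_⟩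
  · refine IsLocalization.ringHom_ext (nonZeroDivisors (PowerSeries W)) (RingHom.ext fun z => ?_)
    simp only [RingHom.comp_apply]
    rw [toHatFrac_algebraMap, e2, e1, toHatFrac_algebraMap, hF']
  · have hρ' : ∀ z, ρ (toHat π z) = coeffMap r (algebraMap _ (LaurentSeries W) z) := fun z => by
      rw [← laurentToHat_coe hW z]
      exact RingHom.congr_fun hρ _
    refine RingHom.ext fun b => ?_
    obtain ⟨c, s, hs, hcs⟩ := exists_residue_frac π b
    obtain ⟨d, hd⟩ := hcs
    have hρs : ρ (toHat π s) ≠ 0 := fun h0 => hs ((hres s).2 (by rwa [hρ'] at h0))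
    have hρπ : ρ (toHat π π) = 0 := by rw [hρ']; exact (hres π).1 dvd_rfl
    have e1 : ρ (toHat π s) * ρ b = ρ (toHat π c) := by
      rw [← map_mul, ← sub_eq_zero, ← map_sub, hd, map_mul, hρπ, zero_mul]
    have e2 : ρ (toHat π (f s)) * ρ (F b) = ρ (toHat π (f c)) := by
      have h := congrArg F hd
      rw [map_sub, map_mul, map_mul, hF', hF', hF', hfq] at h
      rw [← map_mul, ← sub_eq_zero, ← map_sub, h, map_mul, hρπ, zero_mul]
    have e3 : ∀ z, ρ (toHat π (f z)) = fb (ρ (toHat π z)) := fun z => by
      rw [hρ', hρ', hfb]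
    rw [e3, e3, ← e1, map_mul] at e2
    exact mul_left_cancel₀ ((map_ne_zero fb).2 hρs) e2

omit [Fact (Prime (PowerSeries.C (q : W) : PowerSeries W))] [IsDiscreteValuationRing W]
  [Fact q.Prime] in
/-- A fraction fixed by `U ↦ ξ U` is a fraction in `U ^ p`. -/
theorem exists_expand_of_fixed {p : ℕ} (hp : 0 < p) {ξ : W} (hξ : IsPrimitiveRoot ξ p)
    {Ff E : FractionRing (PowerSeries W) →+* FractionRing (PowerSeries W)}
    (hFf : Ff.comp (algebraMap (PowerSeries W) _) = (algebraMap _ _).comp (PowerSeries.rescale ξ))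
    (hE : E.comp (algebraMap (PowerSeries W) _) =
      (algebraMap _ _).comp (PowerSeries.expand p hp.ne').toRingHom)
    {x : FractionRing (PowerSeries W)} (hx : Ff x = x) : ∃ x₀, E x₀ = x := by
  classical
  have hp0 := hp.ne'
  have hser : ∀ z : PowerSeries W, PowerSeries.rescale ξ z = z →
      ∃ z₀, PowerSeries.expand p hp0 z₀ = z := fun z hz => by
    refine ⟨PowerSeries.mk fun i => PowerSeries.coeff (p * i) z, ?_⟩
    ext n
    by_cases hn : p ∣ n
    · obtain ⟨i, rfl⟩ := hn
      rw [PowerSeries.coeff_expand_mul, PowerSeries.coeff_mk]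
    · rw [PowerSeries.coeff_expand_of_not_dvd p hp0 _ hn, eq_comm]
      have h := congrArg (PowerSeries.coeff n) hz
      rw [PowerSeries.coeff_rescale] at h
      have h1 : (ξ ^ n - 1) * PowerSeries.coeff n z = 0 := by rw [sub_mul, h, one_mul, sub_self]
      refine (mul_eq_zero.1 h1).resolve_left fun h0 => hn ?_
      exact (hξ.pow_eq_one_iff_dvd n).1 (sub_eq_zero.1 h0)
  obtain ⟨a, b, hb, rfl⟩ := IsFractionRing.div_surjective (PowerSeries W) x
  have hb0 : b ≠ 0 := nonZeroDivisors.ne_zero hb
  let s : ℕ → PowerSeries W := fun i => PowerSeries.rescale (ξ ^ i) b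
  have hs0 : ∀ i, s i ≠ 0 := fun i =>
    (map_ne_zero_iff _ (rescale_injective (pow_ne_zero i (hξ.ne_zero hp0)))).2 hb0
  have hscomp : ∀ i, PowerSeries.rescale ξ (s i) = s (i + 1) := fun i => by
    simp only [s]
    rw [PowerSeries.rescale_rescale, ← pow_succ]
  have hsp : s p = s 0 := by simp only [s, hξ.pow_eq_one, pow_zero]
  set N := ∏ i ∈ Finset.range p, s i
  have hN0 : N ≠ 0 := Finset.prod_ne_zero_iff.2 fun i _ => hs0 i
  have hN : PowerSeries.rescale ξ N = N := by
    obtain ⟨p', rfl⟩ : ∃ p', p = p' + 1 := ⟨p - 1, by omega⟩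
    simp only [N, map_prod, hscomp]
    rw [Finset.prod_range_succ, hsp, Finset.prod_range_succ' s]
  set rest := ∏ i ∈ (Finset.range p).erase 0, s i
  have hrest : N = b * rest := by
    simp only [N, rest]
    rw [← Finset.mul_prod_erase _ _ (Finset.mem_range.2 hp)]
    simp [s]
  have hbA : algebraMap (PowerSeries W) (FractionRing (PowerSeries W)) b ≠ 0 :=
    (map_ne_zero_iff _ (IsFractionRing.injective _ _)).2 hb0
  have hNA : algebraMap (PowerSeries W) (FractionRing (PowerSeries W)) N ≠ 0 :=
    (map_ne_zero_iff _ (IsFractionRing.injective _ _)).2 hN0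
  have e : algebraMap (PowerSeries W) (FractionRing (PowerSeries W)) (a * rest) =
      (algebraMap _ _ a / algebraMap _ _ b) * algebraMap _ _ N := by
    rw [hrest, map_mul, map_mul, ← mul_assoc, div_mul_cancel₀ _ hbA]
  have ha : PowerSeries.rescale ξ (a * rest) = a * rest :=
    IsFractionRing.injective (PowerSeries W) (FractionRing (PowerSeries W)) (by
      have h := RingHom.congr_fun hFf (a * rest)
      simp only [RingHom.comp_apply] at h
      rw [← h, e, map_mul, hx, ← RingHom.comp_apply Ff, hFf, RingHom.comp_apply, hN])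
  obtain ⟨a₀, ha₀⟩ := hser _ ha
  obtain ⟨N₀, hN₀⟩ := hser _ hN
  refine ⟨algebraMap _ _ a₀ / algebraMap _ _ N₀, ?_⟩
  have h1 := RingHom.congr_fun hE a₀
  have h2 := RingHom.congr_fun hE N₀
  simp only [RingHom.comp_apply, AlgHom.toRingHom_eq_coe, RingHom.coe_coe] at h1 h2
  rw [map_div₀, h1, h2, ha₀, hN₀, e, mul_div_cancel_right₀ _ hNA]

end FLTA.RT.Qsq

end
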