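import Fermat.Agent.RT.Qsq.NodeHom

/-!
# The map of the Gauss ring at a point and the residual parameters

A point of the cover over a point of the line gives a map of the Gauss ring to the completion at
the vertical prime; the residual parameters are monomials.
-/

set_option autoImplicit false
set_option maxHeartbeats 800000
set_option synthInstance.maxHeartbeats 400000
set_option linter.style.haveILetI false

noncomputable section

open IsLocalRing Polynomial ModularCurve FLTA.Carayol FLTA.Congruence

namespace FLTA.RT.Qsq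

variable {W : Type} [CommRing W] [IsDomain W] [IsDiscreteValuationRing W] [CharZero W]
  [IsAdicComplete (maximalIdeal W) W] [IsAlgClosed (ResidueField W)]
  {q : ℕ} [Fact q.Prime] [Fact (Prime (C (q : W) : W[X]))]
  [Fact (Prime (PowerSeries.C (q : W) : PowerSeries W))] {Φ : ℤ[X][X]} {Q : W[X][X]}

/-- The map of the Gauss ring at a point. -/
theorem exists_nodeMap (hW : maximalIdeal W = Ideal.span {(q : W)}) (gm : GaussModel W q Φ Q)
    {β : W[X] →+* FractionRing (PowerSeries W)}
    (hconst : ∀ w, β (C w) = algebraMap _ _ (PowerSeries.C w)) {TB : SerB W q}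
    (hTB : algebraMap _ (FractionRing (SerB W q)) TB = toHatFrac q (β X))
    (hpow : ∀ c, c ^ q ≠ residue _ TB)
    {τ : CoverAlg W Q →+* FractionRing (PowerSeries W)} (hτ : τ.comp (coverBase Q) = β) :
    ∃ (jg : FractionRing gm.A →+* FractionRing (SerB W q)) (jA : gm.A →+* SerB W q),
      (toHatFrac q).comp τ = jg.comp gm.g ∧
      jg.comp (algebraMap gm.A (FractionRing gm.A)) = (algebraMap _ _).comp jA ∧
      jA (gaussCoeff gm.f X) = TB ∧
      ∀ w, jA (gaussCoeff gm.f (C w)) = toHat _ (PowerSeries.C w) := by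
  have hqp : q.Prime := Fact.out
  let FM := FractionRing (SerB W q)
  let b : W[X] →+* SerB W q :=
    eval₂RingHom ((toHat (PowerSeries.C (q : W) : PowerSeries W)).comp PowerSeries.C) TB
  have hb : (algebraMap (SerB W q) FM).comp b = (toHatFrac q).comp β := by
    refine Polynomial.ringHom_ext (fun w => ?_) (by simpa [b] using hTB)
    rw [RingHom.comp_apply, RingHom.comp_apply, hconst, toHatFrac_algebraMap]
    simp [b, FM]
  have hqB : (q : SerB W q) ∈ maximalIdeal (SerB W q) :=
    maximalIdeal_hatSeries (W := W) (q := q) ▸ Ideal.mem_span_singleton_self _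
  obtain ⟨F, hF⟩ := exists_hatHom hW b hqB fun c => by
    have : b X = TB := by simp [b]
    rw [this]
    exact hpow c
  have : CharZero (PowerSeries W) :=
    charZero_of_injective_ringHom (f := PowerSeries.C (R := W)) PowerSeries.C_injective
  have : CharZero (SerB W q) := charZero_of_injective_ringHom
    (f := toHat (PowerSeries.C (q : W) : PowerSeries W)) (toHat_injective _)
  have hinj : Function.Injective ((algebraMap (SerB W q) FM).comp F) :=
    (IsFractionRing.injective (SerB W q) FM).comp (injective_of_hat hqp.ne_zero F)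
  let Φf : FractionRing (HatAt (C (q : W) : W[X])) →+* FM := IsFractionRing.lift hinj
  have hΦf : Φf.comp (gaussHom W q) = (toHatFrac q).comp β := by
    rw [← hb, ← hF]
    ext p <;> simp [Φf, gaussHom]
  have hρ : (Q.map (gaussHom W q)).eval₂ Φf (toHatFrac q (τ (AdjoinRoot.root _))) = 0 := by
    rw [eval₂_map, hΦf, ← hτ]
    have h0 : (Q.map (algebraMap W[X] (FractionRing W[X]))).eval₂ (AdjoinRoot.of _)
        (AdjoinRoot.root _) = (0 : CoverAlg W Q) := AdjoinRoot.eval₂_root _
    rw [eval₂_map] at h0
    rw [← hom_eval₂, ← hom_eval₂, show coverBase Q =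
      (AdjoinRoot.of _).comp (algebraMap W[X] (FractionRing W[X])) from rfl, h0, map_zero, map_zero]
  let jg : FractionRing gm.A →+* FM := (AdjoinRoot.lift Φf _ hρ).comp gm.e.symm.toRingHom
  have h1 : ∀ p, gm.e.symm (gm.g (coverBase Q p)) = AdjoinRoot.of _ (gaussHom W q p) := fun p => by
    rw [RingEquiv.symm_apply_eq, ← RingHom.comp_apply gm.g, gm.g_base]
    exact (gm.e_coeff _).symm
  have hcomm : (toHatFrac q).comp τ = jg.comp gm.g := by
    refine AdjoinRoot.ringHom_ext (IsLocalization.ringHom_ext (nonZeroDivisors W[X])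
      (RingHom.ext fun p => ?_)) ?_
    · have e1 := RingHom.congr_fun hτ p
      have e3 := RingHom.congr_fun hΦf p
      simp only [RingHom.comp_apply] at e1 e3 ⊢
      rw [show AdjoinRoot.of _ (algebraMap W[X] (FractionRing W[X]) p) = coverBase Q p from rfl]
      simp only [jg, RingHom.comp_apply, RingEquiv.toRingHom_eq_coe, RingHom.coe_coe, h1,
        AdjoinRoot.lift_of, e1, e3]
    · simp only [jg, RingHom.comp_apply, RingEquiv.toRingHom_eq_coe, RingHom.coe_coe, gm.g_root,
        RingEquiv.symm_apply_apply, AdjoinRoot.lift_root]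
  clear_value jg
  obtain ⟨jA, hjA⟩ := exists_integral_map (q := q) (L := FM)
    (gm.max_eq ▸ Ideal.mem_span_singleton_self _) (maximalIdeal_hatSeries (W := W) (q := q))
    (jg.comp (algebraMap gm.A (FractionRing gm.A)))
  have key : ∀ p, algebraMap (SerB W q) FM (jA (gaussCoeff gm.f p)) = toHatFrac q (β p) := fun p => by
    rw [← RingHom.comp_apply (algebraMap (SerB W q) FM), hjA, ← hτ, ← RingHom.comp_apply (toHatFrac q),
      ← RingHom.comp_assoc, hcomm, RingHom.comp_assoc, gm.g_base]
    rfl
  refine ⟨jg, jA, hcomm, hjA.symm, IsFractionRing.injective (SerB W q) FM ((key X).trans hTB.symm),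
    fun w => IsFractionRing.injective (SerB W q) FM ((key (C w)).trans ?_)⟩
  rw [hconst, toHatFrac_algebraMap]

/-- A point is determined by its map of the Gauss ring. -/
theorem eq_of_nodeMap (gm : GaussModel W q Φ Q)
    {τ τ' : CoverAlg W Q →+* FractionRing (PowerSeries W)}
    {jg jg' : FractionRing gm.A →+* FractionRing (SerB W q)} {jA : gm.A →+* SerB W q}
    (hc : (toHatFrac q).comp τ = jg.comp gm.g) (hc' : (toHatFrac q).comp τ' = jg'.comp gm.g)
    (hj : jg.comp (algebraMap gm.A (FractionRing gm.A)) = (algebraMap _ _).comp jA)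
    (hj' : jg'.comp (algebraMap gm.A (FractionRing gm.A)) = (algebraMap _ _).comp jA) :
    τ = τ' := by
  have e : jg = jg' := IsLocalization.ringHom_ext (nonZeroDivisors gm.A) (hj.trans hj'.symm)
  refine RingHom.ext fun x => (toHatFrac q).injective ?_
  rw [← RingHom.comp_apply, hc, e, ← hc', RingHom.comp_apply]

/-- The residue of a constant. -/
theorem resSeries_const (hW : maximalIdeal W = Ideal.span {(q : W)})
    {ρ : SerB W q →+* LaurentSeries (ResidueField W)}
    (hρ : ρ.comp (laurentToHat hW) = coeffMap (residue W)) (w : W) :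
    ρ (toHat _ (PowerSeries.C w)) = HahnSeries.C (residue W w) := by
  rw [← laurentToHat_coe hW, ← RingHom.comp_apply, hρ, ← coeffMap_const]
  exact congrArg _ (HahnSeries.ofPowerSeries_C w)

/-- The parameter at a point. -/
theorem exists_param_point (hW : maximalIdeal W = Ideal.span {(q : W)}) (t₀ : W) {d : ℕ}
    (hd : d.Coprime q) {ρ : SerB W q →+* LaurentSeries (ResidueField W)}
    (hρ : ρ.comp (laurentToHat hW) = coeffMap (residue W)) :
    ∃ TB : SerB W q, algebraMap _ (FractionRing (SerB W q)) TB =
        toHatFrac q (pointHom W t₀ d X) ∧ (∀ c, c ^ q ≠ residue _ TB) ∧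
      ρ TB = HahnSeries.C (residue W t₀) + HahnSeries.single (d : ℤ) 1 := by
  refine ⟨_, (toHatFrac_algebraMap (pointMap W t₀ d X)).symm, not_pow_point hW t₀ hd, ?_⟩
  rw [← laurentToHat_coe hW, ← RingHom.comp_apply, hρ, pointMap, coe_eval₂RingHom, eval₂_X,
    map_add, map_add, map_pow, map_pow]
  congr 1
  · rw [← coeffMap_const]
    exact congrArg _ (HahnSeries.ofPowerSeries_C t₀)
  · rw [← map_pow, ← map_pow, show algebraMap (PowerSeries W) (LaurentSeries W) (PowerSeries.X ^ d)
      = HahnSeries.single (d : ℤ) 1 from HahnSeries.ofPowerSeries_X_pow d, coeffMap_single, map_one]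

/-- The parameter at infinity. -/
theorem exists_param_inf (hW : maximalIdeal W = Ideal.span {(q : W)}) {d : ℕ}
    (hd : d.Coprime q) {ρ : SerB W q →+* LaurentSeries (ResidueField W)}
    (hρ : ρ.comp (laurentToHat hW) = coeffMap (residue W)) :
    ∃ TB : SerB W q, algebraMap _ (FractionRing (SerB W q)) TB =
        toHatFrac q (infHom W d X) ∧ (∀ c, c ^ q ≠ residue _ TB) ∧
      ρ TB = HahnSeries.single (-(d : ℤ)) 1 := by
  obtain ⟨TB, hTB, hpow⟩ := exists_infParam hW hd
  refine ⟨TB, hTB, hpow, ?_⟩
  have h1 : TB * toHat (PowerSeries.C (q : W) : PowerSeries W) (PowerSeries.X ^ d) = 1 :=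
    IsFractionRing.injective (SerB W q) (FractionRing (SerB W q)) (by
      rw [map_mul, map_one, hTB, ← toHatFrac_algebraMap, ← map_mul]
      simp [infHom, ← mul_pow,
        inv_mul_cancel₀ ((map_ne_zero_iff _ (IsFractionRing.injective (PowerSeries W) _)).2
          (PowerSeries.X_ne_zero (R := W)))])
  have h2 : ρ (toHat (PowerSeries.C (q : W) : PowerSeries W) (PowerSeries.X ^ d)) =
      HahnSeries.single (d : ℤ) 1 := by
    rw [← laurentToHat_coe hW, ← RingHom.comp_apply, hρ,
      show algebraMap (PowerSeries W) (LaurentSeries W) (PowerSeries.X ^ d) =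
        HahnSeries.single (d : ℤ) 1 from HahnSeries.ofPowerSeries_X_pow d, coeffMap_single, map_one]
  have h3 := congrArg ρ h1
  rw [map_mul, map_one, h2] at h3
  refine mul_right_cancel₀ (HahnSeries.single_ne_zero (one_ne_zero (α := ResidueField W))) (h3.trans ?_)
  rw [HahnSeries.single_mul_single, neg_add_cancel, mul_one, HahnSeries.single_zero_one]

end FLTA.RT.Qsq

end
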