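import Fermat.Agent.RT.Qsq.SSKernel
import Fermat.Agent.BadRed.Toric
import Mathlib.RingTheory.RootsOfUnity.AlgebraicallyClosed
import Mathlib.GroupTheory.Index

/-!
# Counting residual divisors and toric classes

The residual divisors modulo `n` fill, up to a constant index, all degree zero divisors on the
glued points; there are `p ^ (#S - 1)` toric classes killed by a prime `p`.
-/

set_option autoImplicit false

noncomputable section

open AlgebraicCurve FLTA.Curves FLTA.BadRed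

namespace FLTA.RT.Qsq

theorem natCard_eq_ker_mul_range {G H : Type*} [AddCommGroup G] [AddCommGroup H] (f : G →+ H) :
    Nat.card G = Nat.card f.ker * Nat.card f.range := by
  rw [← AddSubgroup.card_mul_index f.ker, AddSubgroup.index_ker]

theorem natCard_le_mul_of_range_le {G H : Type*} [AddCommGroup G] [AddCommGroup H] [Finite G]
    (f : G →+ H) (P : AddSubgroup H) [Finite P] (h : ∀ x, f x ∈ P) :
    Nat.card G ≤ Nat.card f.ker * Nat.card P := by
  rw [natCard_eq_ker_mul_range f]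
  exact Nat.mul_le_mul le_rfl
    (AddSubgroup.card_le_of_le (show f.range ≤ P by rintro _ ⟨x, rfl⟩; exact h x))

/-- A subgroup of index at most `C` contains all multiples by `C!`. -/
theorem factorial_nsmul_mem {H : Type*} [AddCommGroup H] [Finite H] (P : AddSubgroup H) {C : ℕ}
    (h : Nat.card H ≤ C * Nat.card P) (v : H) : C.factorial • v ∈ P := by
  have hpos : 0 < Nat.card P := Nat.card_pos
  have hidx : P.index ≤ C := by
    have h1 := P.card_mul_index
    rw [← h1, mul_comm C] at h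
    exact Nat.le_of_mul_le_mul_left h hpos
  obtain ⟨c, hc⟩ := Nat.dvd_factorial (Nat.pos_of_ne_zero AddSubgroup.FiniteIndex.index_ne_zero) hidx
  rw [hc, mul_comm, mul_nsmul']
  exact AddSubgroup.nsmul_mem _ (AddSubgroup.nsmul_index_mem P v) c

variable {K : Type*} [Field K] [IsAlgClosed K] [CharZero K] {A : ValuationSubring K}
  {k : Type*} [Field k] [IsAlgClosed k] {π : A →+* k}
  {q : ℕ} [NeZero q] [Fact q.Prime] [CharP k q]
  {F : Type*} [Field F] [Algebra K F] {F' : Type*} [Field F'] [Algebra K F']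
  {Fk : Type*} [Field Fk] [Algebra k Fk] {g gF : ℕ}
  {B : BadFibre A π q F F' Fk g gF} {S : Finset (Place k Fk)} {m₀ : ℕ}

omit [IsAlgClosed K] [CharZero K] [IsAlgClosed k] [Fact q.Prime] [CharP k q] in
theorem mem_torsion_iff_nsmul {n : ℕ} {x : Pic0 K F} :
    x ∈ Pic0.torsion K F n ↔ n • x = 0 := by
  rw [Pic0.mem_torsion, natCast_zsmul]

theorem SSInput.finite_torsion (I : SSInput B) {n : ℕ} (hn : 0 < n) :
    Finite (Pic0.torsion K F n) :=
  Nat.finite_of_card_ne_zero (by rw [I.card_torsion n hn]; exact pow_ne_zero _ hn.ne')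

theorem SSInput.finite_torsion' (I : SSInput B) {n : ℕ} (hn : 0 < n) :
    Finite (Pic0.torsion K F' n) :=
  Nat.finite_of_card_ne_zero (by rw [I.card_torsion' n hn]; exact pow_ne_zero _ hn.ne')

variable (B) in
/-- The residual divisor modulo `n` at the glued points other than `Q₀`. -/
def resHom (n : ℕ) (Q₀ : S) : Pic0.torsion K F n →+ ({Q : S // Q ≠ Q₀} → ZMod n) :=
  AddMonoidHom.mk'
    (fun x Q => (((exists_isRes (B := B) (mem_torsion_iff_nsmul.mp x.2)).choose
      (Q.1 : Place k Fk) : ℤ) : ZMod n))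
    fun x y => funext fun Q => by
      rw [Pi.add_apply, ← Int.cast_add, ← Finsupp.add_apply]
      exact ((ZMod.intCast_eq_intCast_iff_dvd_sub _ _ _).mpr
        ((exists_isRes (B := B) (mem_torsion_iff_nsmul.mp (x + y).2)).choose_spec.dvd_sub
          ((exists_isRes (B := B) (mem_torsion_iff_nsmul.mp x.2)).choose_spec.add
            (exists_isRes (B := B) (mem_torsion_iff_nsmul.mp y.2)).choose_spec)
          (Q.1 : Place k Fk))).symm

/-- Divisibility at all glued points but one is divisibility everywhere. -/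
theorem dvd_of_degree_eq_zero {n : ℕ} {R : Divisor k Fk} (hdeg : Divisor.degree R = 0)
    (rr : FLTA.PlaceRed.RRCurve k Fk g) (hout : ∀ Q ∉ S, (n : ℤ) ∣ R Q) (Q₀ : S)
    (hin : ∀ Q : S, Q ≠ Q₀ → (n : ℤ) ∣ R Q) (Q : Place k Fk) : (n : ℤ) ∣ R Q := by
  classical
  by_cases hQ : Q ∈ S
  swap
  · exact hout Q hQ
  by_cases hQ0 : (⟨Q, hQ⟩ : S) = Q₀
  swap
  · exact hin ⟨Q, hQ⟩ hQ0
  rw [rr.degree_eq_sum, Finsupp.sum_of_support_subset R
    (Finset.subset_union_left (s₂ := {Q})) _ (fun _ _ => rfl),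
    ← Finset.add_sum_erase _ _ (Finset.mem_union_right _ (Finset.mem_singleton_self Q))] at hdeg
  have hrest : (n : ℤ) ∣ ∑ x ∈ (R.support ∪ {Q}).erase Q, R x := Finset.dvd_sum fun x hx => by
    by_cases hxS : x ∈ S
    · exact hin ⟨x, hxS⟩ fun h => (Finset.ne_of_mem_erase hx)
        (congrArg Subtype.val (h.trans hQ0.symm))
    · exact hout x hxS
  exact (dvd_add_left hrest).mp (hdeg ▸ dvd_zero _)

theorem dvd_of_resHom_eq_zero (hS : B.IsGluing S m₀) {n : ℕ} (hn : 0 < n) (Q₀ : S)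
    {x : Pic0.torsion K F n} (h : resHom B n Q₀ x = 0) {R : Divisor k Fk}
    (hR : IsRes B n (x : Pic0 K F) R) (Q : Place k Fk) : (n : ℤ) ∣ R Q := by
  set hx := exists_isRes (B := B) (mem_torsion_iff_nsmul.mp x.2)
  have h0 : ∀ Q, (n : ℤ) ∣ hx.choose Q :=
    dvd_of_degree_eq_zero hx.choose_spec.degree_eq B.rrk
      (fun Q hQ => hx.choose_spec.dvd_of_notMem hS hn hQ) Q₀ fun Q hQ =>
        (ZMod.intCast_zmod_eq_zero_iff_dvd _ _).mp (congrFun h ⟨Q, hQ⟩)
  exact (dvd_sub_left (h0 Q)).mp (hR.dvd_sub hx.choose_spec Q)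

/-- The quotients of twists of one class are constant. -/
theorem twist_ratio_eq (hS : B.IsGluing S m₀) {n : ℕ} (hn : 0 < n) {x : Pic0 K F} {ζ ζ' : S → k}
    (hx : B.IsToric n x) (h : BadFibre.HasTwist hS n x ζ) (h' : BadFibre.HasTwist hS n x ζ')
    (Q Q' : S) : ζ Q / ζ Q' = ζ' Q / ζ' Q' := by
  obtain ⟨η, hη⟩ := BadFibre.exists_hasTwist hS hn (B.isToric_neg hx)
  have h1 := h.const_of_neg hS hn hη Q Q'
  have h2 := h'.const_of_neg hS hn hη Q Q'
  have hne : ∀ {ξ : S → k}, (∀ R, ξ R ^ n = 1) → ∀ R, ξ R ≠ 0 := fun hξ R h0 => by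
    have := hξ R
    rw [h0, zero_pow hn.ne'] at this
    exact zero_ne_one this
  rw [div_eq_div_iff (hne h.1 Q') (hne h'.1 Q')]
  have := hne hη.1 Q
  apply mul_right_cancel₀ this
  calc ζ Q * ζ' Q' * η Q = (ζ Q * η Q) * ζ' Q' := by ring
    _ = ζ Q' * (η Q' * ζ' Q') := by rw [h1]; ring
    _ = ζ Q' * (ζ' Q * η Q) := by rw [h2]; ring
    _ = ζ' Q * ζ Q' * η Q := by ring

/-- The twist of a toric class, normalised at `Q₀`. -/
theorem exists_toricHom (hS : B.IsGluing S m₀) {n : ℕ} (hnk : (n : k) ≠ 0) (Q₀ : S) :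
    ∃ h : toricGroup B n →+ Additive ({Q : S // Q ≠ Q₀} → rootsOfUnity n k),
      Function.Injective h := by
  have hn : 0 < n := Nat.pos_of_ne_zero fun h => hnk (by rw [h, Nat.cast_zero])
  choose ζ hζ using fun x : toricGroup B n => BadFibre.exists_hasTwist hS hn x.2
  have hne : ∀ x R, ζ x R ≠ 0 := fun x R h0 => by
    have := (hζ x).1 R
    rw [h0, zero_pow hn.ne'] at this
    exact zero_ne_one this
  have : NeZero n := ⟨hn.ne'⟩
  let r : toricGroup B n → {Q : S // Q ≠ Q₀} → rootsOfUnity n k := fun x Q =>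
    ⟨Units.mk0 (ζ x Q.1 / ζ x Q₀) (div_ne_zero (hne _ _) (hne _ _)), Units.ext (by
      show (ζ x Q.1 / ζ x Q₀) ^ n = 1
      rw [div_pow, (hζ x).1, (hζ x).1, div_one])⟩
  refine ⟨AddMonoidHom.mk' (fun x => Additive.ofMul (r x)) fun x y => ?_, ?_⟩
  · rw [← ofMul_mul]
    congr 1
    funext Q
    refine Subtype.ext (Units.ext ?_)
    show ζ (x + y) Q.1 / ζ (x + y) Q₀ = (ζ x Q.1 / ζ x Q₀) * (ζ y Q.1 / ζ y Q₀)
    rw [twist_ratio_eq hS hn (x + y).2 (hζ (x + y)) ((hζ x).mul hS hn (hζ y)) Q.1 Q₀,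
      mul_div_mul_comm]
  · rw [injective_iff_map_eq_zero]
    intro x hx
    have h1 : ∀ Q : S, ζ x Q = ζ x Q₀ := fun Q => by
      rcases eq_or_ne Q Q₀ with rfl | hQ
      · rfl
      · have := congrArg (fun u => ((u.toMul ⟨Q, hQ⟩ : rootsOfUnity n k) : kˣ).val) hx
        exact eq_of_div_eq_one this
    exact Subtype.ext ((hζ x).eq_zero hS hnk fun Q Q' => (h1 Q).trans (h1 Q').symm)

theorem natCard_twistTarget {n : ℕ} (hnk : (n : k) ≠ 0) (Q₀ : S) :
    Nat.card (Additive ({Q : S // Q ≠ Q₀} → rootsOfUnity n k)) = n ^ (S.card - 1) := by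
  classical
  have hn : n ≠ 0 := fun h => hnk (by rw [h, Nat.cast_zero])
  have : NeZero n := ⟨hn⟩
  have : NeZero (n : k) := ⟨hnk⟩
  have := IsSepClosed.hasEnoughRootsOfUnity k n
  rw [show Nat.card (Additive ({Q : S // Q ≠ Q₀} → rootsOfUnity n k)) =
      Nat.card ({Q : S // Q ≠ Q₀} → rootsOfUnity n k) from Nat.card_congr Additive.toMul,
    Nat.card_pi, Finset.prod_const, HasEnoughRootsOfUnity.natCard_rootsOfUnity, Finset.card_univ,
    Fintype.card_subtype_compl, Fintype.card_subtype_eq, Fintype.card_coe]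

theorem natCard_resTarget {n : ℕ} (hn : 0 < n) (Q₀ : S) :
    Nat.card ({Q : S // Q ≠ Q₀} → ZMod n) = n ^ (S.card - 1) := by
  classical
  have : NeZero n := ⟨hn.ne'⟩
  rw [Nat.card_pi, Finset.prod_const, Nat.card_zmod, Finset.card_univ,
    Fintype.card_subtype_compl, Fintype.card_subtype_eq, Fintype.card_coe]

theorem natCard_toric_le (hS : B.IsGluing S m₀) {n : ℕ} (hnk : (n : k) ≠ 0) (Q₀ : S) :
    Nat.card (toricGroup B n) ≤ n ^ (S.card - 1) := by
  have : NeZero n := ⟨fun h => hnk (by rw [h, Nat.cast_zero])⟩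
  obtain ⟨h, hinj⟩ := exists_toricHom hS hnk Q₀
  rw [← natCard_twistTarget hnk Q₀]
  exact Nat.card_le_card_of_injective h hinj

/-- The constant bounding all indices. -/
def SSInput.C (I : SSInput B) : ℕ := I.M ^ (2 * gF)

/-- The fundamental inequality. -/
theorem natCard_ker_resHom_le (hS : B.IsGluing S m₀) (I : SSInput B) {n : ℕ} (hn : 0 < n)
    (Q₀ : S) : Nat.card (resHom B n Q₀).ker ≤
      n ^ (4 * g) * (Nat.card (toricGroup B n) * I.C) := by
  have := I.finite_torsion hn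
  have := I.finite_torsion I.M_pos
  have := I.finite_torsion' hn
  have hfinT : Finite (toricGroup B n) :=
    Finite.of_injective (fun x : toricGroup B n => (⟨x.1, mem_torsion_iff_nsmul.mpr
      (nsmul_eq_zero_of_isToric B x.2)⟩ : Pic0.torsion K F n))
      fun x y h => Subtype.ext (congrArg (fun z : Pic0.torsion K F n => (z : Pic0 K F)) h)
  set Kn := (resHom B n Q₀).ker
  set f : Kn →+ Pic0 K F' × Pic0 K F' :=
    I.push.comp ((Pic0.torsion K F n).subtype.comp Kn.subtype)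
  have hmem : ∀ x, f x ∈ (Pic0.torsion K F' n).prod (Pic0.torsion K F' n) := fun x => by
    rw [AddSubgroup.mem_prod, Pic0.mem_torsion, Pic0.mem_torsion]
    have h1 : n • f x = 0 := by
      rw [← map_nsmul, show n • x = 0 from Subtype.ext (Subtype.ext
        (mem_torsion_iff_nsmul.mp x.1.2)), map_zero]
    exact ⟨by rw [natCast_zsmul]; exact congrArg Prod.fst h1,
      by rw [natCast_zsmul]; exact congrArg Prod.snd h1⟩
  have : Finite ((Pic0.torsion K F' n).prod (Pic0.torsion K F' n)) :=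
    Finite.of_equiv _ (AddSubgroup.prodEquiv _ _).symm.toEquiv
  refine (natCard_le_mul_of_range_le f _ hmem).trans ?_
  rw [mul_comm, Nat.card_congr (AddSubgroup.prodEquiv _ _).toEquiv, Nat.card_prod,
    I.card_torsion' n hn, ← pow_add, show 2 * g + 2 * g = 4 * g by ring]
  refine Nat.mul_le_mul le_rfl ?_
  let m : f.ker →+ Pic0 K F :=
    I.M • ((Pic0.torsion K F n).subtype.comp (Kn.subtype.comp f.ker.subtype))
  have hm : ∀ x, m x ∈ toricGroup B n := fun x => by
    obtain ⟨R, hR⟩ := exists_isRes (B := B) (mem_torsion_iff_nsmul.mp x.1.1.2)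
    exact isToric_nsmul hS I hn hR (dvd_of_resHom_eq_zero hS hn Q₀ x.1.2 hR)
      (mem_torsion_iff_nsmul.mp x.1.1.2) x.2
  refine (natCard_le_mul_of_range_le m _ hm).trans ?_
  rw [mul_comm]
  refine Nat.mul_le_mul le_rfl ?_
  rw [SSInput.C, ← I.card_torsion I.M I.M_pos]
  refine Nat.card_le_card_of_injective
    (fun x : m.ker => (⟨x.1.1.1.1, mem_torsion_iff_nsmul.mpr x.2⟩ : Pic0.torsion K F I.M)) ?_
  exact fun x y h => Subtype.ext (Subtype.ext (Subtype.ext (Subtype.ext
    (congrArg (fun z : Pic0.torsion K F I.M => (z : Pic0 K F)) h))))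

theorem pow_genus_eq (hS : B.IsGluing S m₀) (hne : S.Nonempty) (n : ℕ) :
    n ^ (2 * gF) = n ^ (4 * g) * (n ^ (S.card - 1) * n ^ (S.card - 1)) := by
  rw [← pow_add, ← pow_add]
  have := hS.card_eq
  have := hne.card_pos
  congr 1
  omega

/-- The residual divisors fill a subgroup of bounded index. -/
theorem natCard_resTarget_le (hS : B.IsGluing S m₀) (I : SSInput B) {n : ℕ} (hnk : (n : k) ≠ 0)
    (Q₀ : S) : n ^ (S.card - 1) ≤ I.C * Nat.card (resHom B n Q₀).range := by
  have hn : 0 < n := Nat.pos_of_ne_zero fun h => hnk (by rw [h, Nat.cast_zero])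
  have h1 := natCard_eq_ker_mul_range (resHom B n Q₀)
  rw [I.card_torsion n hn, pow_genus_eq hS ⟨_, Q₀.2⟩] at h1
  have h3 := (natCard_ker_resHom_le hS I hn Q₀).trans
    (Nat.mul_le_mul le_rfl (Nat.mul_le_mul (natCard_toric_le hS hnk Q₀) le_rfl))
  have h4 : n ^ (4 * g) * (n ^ (S.card - 1) * n ^ (S.card - 1)) ≤
      n ^ (4 * g) * (n ^ (S.card - 1) * I.C) * Nat.card (resHom B n Q₀).range :=
    h1 ▸ Nat.mul_le_mul h3 le_rfl
  rw [mul_assoc, mul_assoc] at h4
  exact Nat.le_of_mul_le_mul_left (Nat.le_of_mul_le_mul_left h4 (pow_pos hn _)) (pow_pos hn _)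

/-- The toric classes fill a subgroup of bounded index. -/
theorem le_natCard_toric (hS : B.IsGluing S m₀) (I : SSInput B) {n : ℕ} (hn : 0 < n) (Q₀ : S) :
    n ^ (S.card - 1) ≤ I.C * Nat.card (toricGroup B n) := by
  have : NeZero n := ⟨hn.ne'⟩
  have h1 := natCard_eq_ker_mul_range (resHom B n Q₀)
  rw [I.card_torsion n hn, pow_genus_eq hS ⟨_, Q₀.2⟩] at h1
  have h2 : Nat.card (resHom B n Q₀).range ≤ n ^ (S.card - 1) := by
    rw [← natCard_resTarget hn Q₀]
    exact Nat.card_le_card_of_injective Subtype.val Subtype.val_injective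
  have h4 : n ^ (4 * g) * (n ^ (S.card - 1) * n ^ (S.card - 1)) ≤
      n ^ (4 * g) * (Nat.card (toricGroup B n) * I.C) * n ^ (S.card - 1) :=
    h1 ▸ Nat.mul_le_mul (natCard_ker_resHom_le hS I hn Q₀) h2
  rw [mul_assoc, mul_comm _ I.C] at h4
  exact Nat.le_of_mul_le_mul_right (Nat.le_of_mul_le_mul_left h4 (pow_pos hn _)) (pow_pos hn _)

open Classical in
/-- Every degree zero divisor on the glued points is, after multiplication by `C!`, a residual
divisor modulo `n`. -/
theorem exists_res_approx (hS : B.IsGluing S m₀) (I : SSInput B) {n : ℕ} (hnk : (n : k) ≠ 0)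
    (Q₀ : S) {E : Divisor k Fk} (hE : ∀ Q ∉ S, E Q = 0) (hdeg : Divisor.degree E = 0) :
    ∃ (x : Pic0 K F) (R : Divisor k Fk), n • x = 0 ∧ IsRes B n x R ∧
      ∀ Q, (n : ℤ) ∣ R Q - I.C.factorial * E Q := by
  have hn : 0 < n := Nat.pos_of_ne_zero fun h => hnk (by rw [h, Nat.cast_zero])
  have : NeZero n := ⟨hn.ne'⟩
  obtain ⟨x, hx⟩ : I.C.factorial • (fun Q : {Q : S // Q ≠ Q₀} => ((E Q.1 : ℤ) : ZMod n)) ∈
      (resHom B n Q₀).range :=
    factorial_nsmul_mem _ (by rw [natCard_resTarget hn]; exact natCard_resTarget_le hS I hnk Q₀) _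
  set hx' := exists_isRes (B := B) (mem_torsion_iff_nsmul.mp x.2)
  refine ⟨x, hx'.choose, mem_torsion_iff_nsmul.mp x.2, hx'.choose_spec, fun Q => ?_⟩
  have hall := dvd_of_degree_eq_zero (n := n) (R := hx'.choose - I.C.factorial • E)
    (by rw [map_sub, map_nsmul, hx'.choose_spec.degree_eq, hdeg, nsmul_zero, sub_zero]) B.rrk
    (fun Q hQ => by
      rw [Finsupp.sub_apply, Finsupp.smul_apply, hE Q hQ, nsmul_zero, sub_zero]
      exact hx'.choose_spec.dvd_of_notMem hS hn hQ) Q₀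
    (fun Q hQ => by
      rw [← ZMod.intCast_zmod_eq_zero_iff_dvd, Finsupp.sub_apply, Finsupp.smul_apply, Int.cast_sub,
        nsmul_eq_mul, Int.cast_mul, Int.cast_natCast, sub_eq_zero, ← nsmul_eq_mul]
      exact congrFun hx ⟨Q, hQ⟩) Q
  rwa [Finsupp.sub_apply, Finsupp.smul_apply, nsmul_eq_mul] at hall

end FLTA.RT.Qsq
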