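import Fermat.Agent.RT.Qsq.SSRes
import Fermat.Agent.LevelLowering.HeckeRed

/-!
# Toric classes and classes with trivial residual divisor

The inputs `SSInput`: pushforwards to the good level, torsion counts and the finiteness of the
classes of the reduced curve fixed by the square of Frobenius.  A torsion class with trivial
residual divisor and trivial pushforwards becomes toric after multiplication by the constant `M`.
-/

set_option autoImplicit false

noncomputable section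

open AlgebraicCurve FLTA.Curves FLTA.BadRed

namespace FLTA.RT.Qsq

variable {K : Type*} [Field K] [IsAlgClosed K] [CharZero K] {A : ValuationSubring K}
  {k : Type*} [Field k] [IsAlgClosed k] {π : A →+* k}
  {q : ℕ} [NeZero q] [Fact q.Prime] [CharP k q]
  {F : Type*} [Field F] [Algebra K F] {F' : Type*} [Field F'] [Algebra K F']
  {Fk : Type*} [Field Fk] [Algebra k Fk] {g gF : ℕ}

variable (B : BadFibre A π q F F' Fk g gF)

/-- What the counting argument needs to know about the two levels. -/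
structure SSInput where
  /-- the two pushforwards to the good level -/
  push : Pic0 K F →+ Pic0 K F' × Pic0 K F'
  normsTrivial : ∀ (n : ℕ) (x : Pic0 K F), n • x = 0 → push x = 0 → B.NormsTrivial n x
  card_torsion : ∀ n : ℕ, 0 < n → Nat.card (Pic0.torsion K F n) = n ^ (2 * gF)
  card_torsion' : ∀ n : ℕ, 0 < n → Nat.card (Pic0.torsion K F' n) = n ^ (2 * g)
  /-- kills the classes fixed by the square of Frobenius -/
  M : ℕ
  M_pos : 0 < M
  fixed : ∀ E : Divisor k Fk, Divisor.degree E = 0 →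
    B.frobq • B.frobq • E - E ∈ Divisor.principal (K := k) (F := Fk) →
    M • E ∈ Divisor.principal (K := k) (F := Fk)

/-- The toric classes killed by `n`. -/
def toricGroup (n : ℕ) : AddSubgroup (Pic0 K F) where
  carrier := {x | B.IsToric n x}
  zero_mem' := ⟨0, 1, one_ne_zero, rfl, fun P => by simp, fun i =>
    ⟨1, 1, one_ne_zero, one_ne_zero, by
      rw [one_smul, one_pow]
      simpa using hasRed_pow (B := B) (i := i) (x := (1 : F)) (p := 1)
        ⟨1, 1, by rw [map_one]; exact IntSeries.one, by rw [map_one]; exact IntSeries.one,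
          by rw [map_one, redSeries_one]; exact one_ne_zero, by rw [one_mul],
          by rw [map_one, map_one, redSeries_one, one_mul]⟩ 1⟩⟩
  add_mem' := by
    rintro x x' ⟨D, f, hf, hmk, hord, hred⟩ ⟨D', f', hf', hmk', hord', hred'⟩
    refine ⟨D + D', f * f', mul_ne_zero hf hf', by rw [Pic0.mk_add, hmk, hmk'], fun P => ?_,
      fun i => ?_⟩
    · rw [P.ord_mul hf hf', AddSubgroup.coe_add, Finsupp.add_apply, mul_add, hord, hord']
    · obtain ⟨c, η, hc, hη, h⟩ := hred i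
      obtain ⟨c', η', hc', hη', h'⟩ := hred' i
      refine ⟨c * c', η * η', mul_ne_zero hc hc', mul_ne_zero hη hη', ?_⟩
      rw [mul_pow, show (c * c') • (f * f') = (c • f) * (c' • f') by
        simp only [Algebra.smul_def, map_mul]; ring]
      exact BadFibre.HasRed.mul h h'
  neg_mem' := fun hx => B.isToric_neg hx

omit [IsAlgClosed K] [CharZero K] [IsAlgClosed k] [Fact q.Prime] [CharP k q] in
theorem nsmul_eq_zero_of_isToric {n : ℕ} {x : Pic0 K F} (h : B.IsToric n x) : n • x = 0 := by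
  obtain ⟨D, f, hf, rfl, hord, -⟩ := h
  refine (QuotientAddGroup.eq_zero_iff (n • D)).mpr
    (AddSubgroup.mem_addSubgroupOf.mpr ⟨f, hf, fun P => ?_⟩)
  rw [AddSubgroupClass.coe_nsmul, Finsupp.smul_apply, nsmul_eq_mul, hord]

variable {B}

omit [IsAlgClosed K] [CharZero K] [Fact q.Prime] [CharP k q] in
theorem smul_divisorOf (p : Fk) (s : SemilinearAut k Fk) :
    s • B.rrk.divisorOf p = B.rrk.divisorOf (s • p) := by
  ext Q
  rw [SemilinearAut.divisor_smul_apply, FLTA.PlaceRed.RRCurve.divisorOf_apply,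
    FLTA.PlaceRed.RRCurve.divisorOf_apply]
  have h := SemilinearAut.ord_smul s (s⁻¹ • Q) p
  rw [smul_inv_smul] at h
  exact h.symm

variable {S : Finset (Place k Fk)} {m₀ : ℕ}

/-- Classes with trivial residual divisor and trivial pushforwards are toric up to `M`. -/
theorem isToric_nsmul (hS : B.IsGluing S m₀) (I : SSInput B) {n : ℕ} (hn : 0 < n) {x : Pic0 K F}
    {R : Divisor k Fk} (hR : IsRes B n x R) (hR0 : ∀ Q, (n : ℤ) ∣ R Q) (hx : n • x = 0)
    (hpush : I.push x = 0) : B.IsToric n (I.M • x) := by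
  obtain ⟨D, f, hf, hmk, hD, ⟨cN, h, hN⟩, ⟨cN', h', hN'⟩⟩ := I.normsTrivial n x hx hpush
  obtain ⟨c₀, p₀, hc₀, hp₀, h₀⟩ := B.exists_hasRed_smul 0 hf
  obtain ⟨c₁, p₁, hc₁, hp₁, h₁⟩ := B.exists_hasRed_smul 1 hf
  have hdvd := hR.dvd_both hS hn hR0 (f := f) ⟨hf, hD⟩ hmk (p := ![p₀, p₁])
    (Fin.forall_fin_two.mpr ⟨hp₀, hp₁⟩)
    (Fin.forall_fin_two.mpr ⟨⟨c₀, hc₀, h₀⟩, ⟨c₁, hc₁, h₁⟩⟩)
  set E : Fin 2 → Divisor k Fk := fun i => floorDiv n (B.rrk.divisorOf (![p₀, p₁] i)) with hE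
  have hnE : ∀ i, n • E i = B.rrk.divisorOf (![p₀, p₁] i) := fun i => Finsupp.ext fun Q => by
    rw [Finsupp.smul_apply, nsmul_eq_mul, hE, floorDiv_apply,
      FLTA.PlaceRed.RRCurve.divisorOf_apply]
    exact Int.mul_ediv_cancel' (hdvd i Q)
  have hEdeg : ∀ i, Divisor.degree (E i) = 0 := fun i => by
    have h1 := congrArg Divisor.degree (hnE i)
    rw [map_nsmul, B.rrk.degree_divisorOf, nsmul_eq_mul] at h1
    exact (mul_eq_zero.mp h1).resolve_left (by exact_mod_cast hn.ne')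
  -- the two norm relations
  have hrel : ∀ {u v : Fk} {Eu Ev : Divisor k Fk} {μ : k} {η : Fk}, u ≠ 0 → v ≠ 0 → μ ≠ 0 → η ≠ 0 →
      n • Eu = B.rrk.divisorOf u → n • Ev = B.rrk.divisorOf v →
      u * (B.frobq • v) = algebraMap k Fk μ * η ^ n → Eu + B.frobq • Ev = B.rrk.divisorOf η := by
    intro u v Eu Ev μ η hu hv hμ hη heu hev he
    have h1 : n • (Eu + B.frobq • Ev) = n • B.rrk.divisorOf η := by
      rw [nsmul_add, ← smul_comm B.frobq n Ev, heu, hev, smul_divisorOf (B := B)]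
      ext Q
      have h2 := congrArg Q.ord he
      rw [Q.ord_mul hu ((smul_ne_zero_iff_ne _).mpr hv),
        Q.ord_mul ((map_ne_zero _).mpr hμ) (pow_ne_zero _ hη), FLTA.Curves.ord_algebraMap,
        FLTA.Curves.ord_pow, zero_add] at h2
      simp only [Finsupp.add_apply, Finsupp.smul_apply, FLTA.PlaceRed.RRCurve.divisorOf_apply,
        nsmul_eq_mul]
      exact h2
    ext Q
    have h3 := congrArg (fun G : Divisor k Fk => G Q) h1
    simp only [Finsupp.smul_apply, nsmul_eq_mul] at h3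
    exact mul_left_cancel₀ (by exact_mod_cast hn.ne') h3
  have h₁w : B.HasRed 0 (c₁ • B.w f) p₁ := by
    rw [← map_smul]; exact B.hasRed_w_iff (by decide) h₁
  have h₀w : B.HasRed 1 (c₀ • B.w f) p₀ := by
    rw [← map_smul]; exact B.hasRed_w_iff (by decide) h₀
  obtain ⟨μ, η, hμ, hη, e0⟩ := B.norm_relation hN h₀ h₁ hp₀ hp₁
  obtain ⟨μ', η', hμ', hη', e1⟩ := B.norm_relation hN' h₁w h₀w hp₁ hp₀
  have r0 := hrel hp₀ hp₁ hμ hη (hnE 0) (hnE 1) e0
  have r1 := hrel hp₁ hp₀ hμ' hη' (hnE 1) (hnE 0) e1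
  have hfix : ∀ (Eu Ev : Divisor k Fk) (a b : Fk), a ≠ 0 → b ≠ 0 →
      Eu + B.frobq • Ev = B.rrk.divisorOf a → Ev + B.frobq • Eu = B.rrk.divisorOf b →
      B.frobq • B.frobq • Eu - Eu ∈ Divisor.principal (K := k) (F := Fk) := by
    intro Eu Ev a b ha hb ea eb
    have h2 : B.frobq • B.frobq • Eu - Eu =
        B.rrk.divisorOf (B.frobq • b) - B.rrk.divisorOf a := by
      rw [← smul_divisorOf (B := B), ← eb, ← ea, smul_add]
      abel
    rw [h2]
    exact AddSubgroup.sub_mem _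
      ⟨_, (smul_ne_zero_iff_ne _).mpr hb, fun Q => FLTA.PlaceRed.RRCurve.divisorOf_apply _ _ Q⟩
      ⟨a, ha, fun Q => FLTA.PlaceRed.RRCurve.divisorOf_apply _ _ Q⟩
  have hroot : ∀ i, ∃ θ : Fk, θ ≠ 0 ∧ (![p₀, p₁] i) ^ I.M = θ ^ n := fun i => by
    have hmem : I.M • E i ∈ Divisor.principal (K := k) (F := Fk) := by
      refine I.fixed _ (hEdeg i) ?_
      fin_cases i
      · exact hfix _ _ _ _ hη hη' r0 r1
      · exact hfix _ _ _ _ hη' hη r1 r0
    obtain ⟨θ, hθ, hθE⟩ := hmem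
    have hpne : ![p₀, p₁] i ≠ 0 := (Fin.forall_fin_two.mpr ⟨hp₀, hp₁⟩ :
      ∀ j, ![p₀, p₁] j ≠ 0) i
    obtain ⟨c, hc⟩ := FLTA.LevelLowering.eq_algebraMap_of_forall_ord B.rrk
      (f := (![p₀, p₁] i) ^ I.M * (θ ^ n)⁻¹) fun Q => by
      have h4 := congrArg (fun G : Divisor k Fk => G Q) (hnE i)
      simp only [Finsupp.smul_apply, FLTA.PlaceRed.RRCurve.divisorOf_apply, nsmul_eq_mul] at h4
      rw [Q.ord_mul (pow_ne_zero _ hpne) (inv_ne_zero (pow_ne_zero _ hθ)), Q.ord_inv,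
        FLTA.Curves.ord_pow, FLTA.Curves.ord_pow, ← hθE, Finsupp.smul_apply, nsmul_eq_mul, ← h4]
      ring
    obtain ⟨d, hd⟩ := IsAlgClosed.exists_pow_nat_eq c hn
    have hc0 : c ≠ 0 := fun h0 => by
      rw [h0, map_zero, mul_inv_eq_iff_eq_mul₀ (pow_ne_zero _ hθ), zero_mul] at hc
      exact pow_ne_zero _ hpne hc
    refine ⟨algebraMap k Fk d * θ, mul_ne_zero ((map_ne_zero _).mpr fun h0 => hc0 (by
      rw [← hd, h0, zero_pow hn.ne'])) hθ, ?_⟩
    rw [mul_pow, ← map_pow, hd, ← hc, inv_mul_cancel_right₀ (pow_ne_zero _ hθ)]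
  refine ⟨I.M • D, f ^ I.M, pow_ne_zero _ hf, ?_, fun P => ?_, fun i => ?_⟩
  · rw [← hmk]; exact map_nsmul (QuotientAddGroup.mk' _) I.M D
  · rw [AddSubgroupClass.coe_nsmul, Finsupp.smul_apply, nsmul_eq_mul, FLTA.Curves.ord_pow, ← hD]
    ring
  · obtain ⟨θ, hθ, hθe⟩ := hroot i
    fin_cases i
    · exact ⟨c₀ ^ I.M, θ, pow_ne_zero _ hc₀, hθ, by
        rw [← hθe, ← smul_pow]; exact hasRed_pow h₀ I.M⟩
    · exact ⟨c₁ ^ I.M, θ, pow_ne_zero _ hc₁, hθ, by
        rw [← hθe, ← smul_pow]; exact hasRed_pow h₁ I.M⟩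

end FLTA.RT.Qsq
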