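import Fermat.Agent.RT.Qsq.Support

/-!
# The residual divisor of a torsion class on the bad fibre

`IsRes B n x R`: `R` is the divisor of the reduction, on the first component, of a Kummer function
of `x`.  It is well defined modulo `n`, additive, and supported on the glued points modulo `n`.
-/

set_option autoImplicit false

noncomputable section

open AlgebraicCurve FLTA.Curves FLTA.BadRed

namespace FLTA.RT.Qsq

variable {K : Type*} [Field K] [IsAlgClosed K] [CharZero K] {A : ValuationSubring K}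
  {k : Type*} [Field k] [IsAlgClosed k] {π : A →+* k}
  {q : ℕ} [NeZero q] [Fact q.Prime] [CharP k q]
  {F : Type*} [Field F] [Algebra K F] {F' : Type*} [Field F'] [Algebra K F']
  {Fk : Type*} [Field Fk] [Algebra k Fk] {g gF : ℕ}
  {B : BadFibre A π q F F' Fk g gF} {n : ℕ}

omit [IsAlgClosed K] [CharZero K] [IsAlgClosed k] [Fact q.Prime] [CharP k q] in
/-- Two non-zero reductions of scalar multiples of one function are proportional. -/
theorem exists_eq_mul_of_hasRed {i : Fin 2} {x : F} {p p' : Fk} {a : K} (h : B.HasRed i x p)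
    (h' : B.HasRed i (a • x) p') (hp : p ≠ 0) (hp' : p' ≠ 0) :
    ∃ μ : k, μ ≠ 0 ∧ p' = algebraMap k Fk μ * p := by
  obtain ⟨g₁, h₁, hg₁, hh₁, hh₁ne, heq₁, hr₁⟩ := h
  obtain ⟨g₂, h₂, hg₂, hh₂, hh₂ne, heq₂, hr₂⟩ := h'
  have hk : g₂ * h₁ = a • (g₁ * h₂) := by
    rw [← heq₁, ← heq₂]
    simp only [Algebra.smul_def]
    ring
  have key : B.e i g₂ * B.e i h₁ = a • (B.e i g₁ * B.e i h₂) := by
    rw [← map_mul, ← map_mul, hk, B.smul_e]
  have r21 : redSeries A π (B.e i g₂ * B.e i h₁) =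
      B.exk p' * (redSeries A π (B.e i h₁) * redSeries A π (B.e i h₂)) := by
    rw [redSeries_mul hg₂ hh₁, ← hr₂]; ring
  have r12 : redSeries A π (B.e i g₁ * B.e i h₂) =
      B.exk p * (redSeries A π (B.e i h₁) * redSeries A π (B.e i h₂)) := by
    rw [redSeries_mul hg₁ hh₂, ← hr₁]; ring
  have hne : redSeries A π (B.e i h₁) * redSeries A π (B.e i h₂) ≠ 0 := mul_ne_zero hh₁ne hh₂ne
  have hne12 : redSeries A π (B.e i g₁ * B.e i h₂) ≠ 0 := by
    rw [r12]; exact mul_ne_zero ((map_ne_zero B.exk).mpr hp) hne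
  have hne21 : redSeries A π (B.e i g₂ * B.e i h₁) ≠ 0 := by
    rw [r21]; exact mul_ne_zero ((map_ne_zero B.exk).mpr hp') hne
  have hπ := B.R.π_surjective
  have ha : a ∈ A := by
    by_contra hA
    have hinv : a⁻¹ ∈ A := (A.mem_or_inv_mem a).resolve_left hA
    have ha0 : a ≠ 0 := fun h0 => hA (h0 ▸ A.zero_mem)
    refine hne12 ?_
    rw [show B.e i g₁ * B.e i h₂ = a⁻¹ • (B.e i g₂ * B.e i h₁) by rw [key, inv_smul_smul₀ ha0],
      redSeries_smul hinv (hg₂.mul hh₁), residue_eq_zero_of_inv_notMem hπ hinv (by rwa [inv_inv]),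
      zero_smul]
  have e := r21
  rw [key, redSeries_smul ha (hg₁.mul hh₂), r12] at e
  have hμ : π ⟨a, ha⟩ ≠ 0 := fun h0 => by
    rw [key, redSeries_smul ha (hg₁.mul hh₂), h0, zero_smul] at hne21
    exact hne21 rfl
  refine ⟨π ⟨a, ha⟩, hμ, B.exk.toRingHom.injective ?_⟩
  show B.exk p' = B.exk _
  refine mul_right_cancel₀ hne ?_
  rw [← e, map_mul, AlgHom.commutes, ModularCurve.algebraMap_laurentSeries_eq_single,
    ← HahnSeries.C_apply, ← HahnSeries.C_mul_eq_smul, mul_assoc]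

omit [IsAlgClosed K] [CharZero K] [IsAlgClosed k] [Fact q.Prime] [CharP k q] in
theorem hasRed_pow {i : Fin 2} {x : F} {p : Fk} (h : B.HasRed i x p) :
    ∀ M : ℕ, B.HasRed i (x ^ M) (p ^ M)
  | 0 => by
    refine ⟨1, 1, ?_, ?_, ?_, by rw [pow_zero, one_mul], by simp⟩
    · rw [map_one]; exact IntSeries.one
    · rw [map_one]; exact IntSeries.one
    · rw [map_one, redSeries_one]; exact one_ne_zero
  | M + 1 => by
    rw [pow_succ, pow_succ]
    exact BadFibre.HasRed.mul (hasRed_pow h M) h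

variable (B) in
/-- `R` is the residual divisor of `x` on the first component. -/
def IsRes (n : ℕ) (x : Pic0 K F) (R : Divisor k Fk) : Prop :=
  ∃ (D : Divisor.degZero (K := K) (F := F)) (f : F) (c : K) (p : Fk),
    BadFibre.KummerFn n (D : Divisor K F) f ∧ Pic0.mk D = x ∧ c ≠ 0 ∧ p ≠ 0 ∧
      B.HasRed 0 (c • f) p ∧ R = B.rrk.divisorOf p

omit [IsAlgClosed K] [CharZero K] [IsAlgClosed k] [Fact q.Prime] [CharP k q] in
theorem exists_kummerFn {x : Pic0 K F} (hx : n • x = 0) :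
    ∃ (D : Divisor.degZero (K := K) (F := F)) (f : F),
      BadFibre.KummerFn n (D : Divisor K F) f ∧ Pic0.mk D = x := by
  obtain ⟨D, rfl⟩ := Pic0.mk_surjective x
  obtain ⟨f, hf, hfD⟩ := (show n • D ∈ (Divisor.principal (K := K) (F := F)).addSubgroupOf _ from
    (QuotientAddGroup.eq_zero_iff _).mp hx)
  refine ⟨D, f, ⟨hf, fun P => ?_⟩, rfl⟩
  have h := hfD P
  rwa [AddSubgroup.coe_subtype, AddSubgroupClass.coe_nsmul, Finsupp.smul_apply, nsmul_eq_mul] at h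

theorem exists_isRes {x : Pic0 K F} (hx : n • x = 0) : ∃ R, IsRes B n x R := by
  obtain ⟨D, f, hf, hD⟩ := exists_kummerFn hx
  obtain ⟨c, p, hc, hp, hr⟩ := B.exists_hasRed_smul 0 hf.ne_zero
  exact ⟨_, D, f, c, p, hf, hD, hc, hp, hr, rfl⟩

omit [IsAlgClosed K] [CharZero K] [IsAlgClosed k] [Fact q.Prime] [CharP k q] in
theorem IsRes.degree_eq {x : Pic0 K F} {R : Divisor k Fk} (h : IsRes B n x R) :
    Divisor.degree R = 0 := by
  obtain ⟨D, f, c, p, -, -, -, -, -, rfl⟩ := h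
  exact B.rrk.degree_divisorOf p

omit [IsAlgClosed K] [CharZero K] [IsAlgClosed k] [Fact q.Prime] [CharP k q] in
theorem IsRes.add {x x' : Pic0 K F} {R R' : Divisor k Fk} (h : IsRes B n x R)
    (h' : IsRes B n x' R') : IsRes B n (x + x') (R + R') := by
  obtain ⟨D, f, c, p, hf, hmk, hc, hp, hr, rfl⟩ := h
  obtain ⟨D', f', c', p', hf', hmk', hc', hp', hr', rfl⟩ := h'
  refine ⟨D + D', f * f', c * c', p * p', hf.mul hf', by rw [Pic0.mk_add, hmk, hmk'],
    mul_ne_zero hc hc', mul_ne_zero hp hp', ?_, Finsupp.ext fun Q => ?_⟩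
  · have e : (c * c') • (f * f') = (c • f) * (c' • f') := by
      simp only [Algebra.smul_def, map_mul]; ring
    rw [e]
    exact BadFibre.HasRed.mul hr hr'
  · simp only [Finsupp.add_apply, FLTA.PlaceRed.RRCurve.divisorOf_apply, Q.ord_mul hp hp']

/-- The residual divisor is well defined modulo `n`. -/
theorem IsRes.dvd_sub {x : Pic0 K F} {R R' : Divisor k Fk} (h : IsRes B n x R)
    (h' : IsRes B n x R') (Q : Place k Fk) : (n : ℤ) ∣ R Q - R' Q := by
  obtain ⟨D, f, c, p, hf, hmk, hc, hp, hr, rfl⟩ := h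
  obtain ⟨D', f', c', p', hf', hmk', hc', hp', hr', rfl⟩ := h'
  obtain ⟨w, hw, hwD⟩ : ((D' - D : Divisor.degZero (K := K) (F := F)) : Divisor K F) ∈
      Divisor.principal (K := K) (F := F) :=
    AddSubgroup.mem_addSubgroupOf.mp ((QuotientAddGroup.eq_iff_sub_mem).1 (hmk'.trans hmk.symm))
  obtain ⟨e, he⟩ := B.exists_eq_algebraMap_of_ord_eq_zero (u := f' * (f * w ^ n)⁻¹)
    (mul_ne_zero hf'.ne_zero (inv_ne_zero (mul_ne_zero hf.ne_zero (pow_ne_zero _ hw)))) fun v => by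
    rw [v.ord_mul hf'.ne_zero (inv_ne_zero (mul_ne_zero hf.ne_zero (pow_ne_zero _ hw))), v.ord_inv,
      v.ord_mul hf.ne_zero (pow_ne_zero _ hw), FLTA.Curves.ord_pow, ← hf.ord_eq, ← hf'.ord_eq,
      ← hwD v, AddSubgroupClass.coe_sub, Finsupp.sub_apply]
    ring
  rw [mul_inv_eq_iff_eq_mul₀ (mul_ne_zero hf.ne_zero (pow_ne_zero _ hw))] at he
  obtain ⟨d, ρ, hd, hρ, hrw⟩ := B.exists_hasRed_smul 0 hw
  have hprod := BadFibre.HasRed.mul hr (hasRed_pow hrw n)
  have hne : c * d ^ n ≠ 0 := mul_ne_zero hc (pow_ne_zero _ hd)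
  obtain ⟨μ, hμ, hμe⟩ := exists_eq_mul_of_hasRed (a := c' * e / (c * d ^ n)) hprod
    (p' := p') (by
      have e1 : (c • f) * (d • w) ^ n = (c * d ^ n) • (f * w ^ n) := by
        rw [smul_pow, smul_mul_smul_comm]
      rw [e1, smul_smul, div_mul_cancel₀ _ hne,
        show (c' * e) • (f * w ^ n) = c' • f' by
          rw [he, mul_smul, ← Algebra.smul_def]]
      exact hr') (mul_ne_zero hp (pow_ne_zero _ hρ)) hp'
  rw [FLTA.PlaceRed.RRCurve.divisorOf_apply, FLTA.PlaceRed.RRCurve.divisorOf_apply, hμe,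
    Q.ord_mul ((map_ne_zero _).mpr hμ) (mul_ne_zero hp (pow_ne_zero _ hρ)),
    FLTA.Curves.ord_algebraMap, Q.ord_mul hp (pow_ne_zero _ hρ), FLTA.Curves.ord_pow]
  exact ⟨-Q.ord ρ, by ring⟩

variable {S : Finset (Place k Fk)} {m₀ : ℕ}

/-- The residual divisor is supported on the glued points. -/
theorem IsRes.dvd_of_notMem (hS : B.IsGluing S m₀) (hn : 0 < n) {x : Pic0 K F}
    {R : Divisor k Fk} (h : IsRes B n x R) {Q : Place k Fk} (hQ : Q ∉ S) : (n : ℤ) ∣ R Q := by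
  obtain ⟨D, f, c, p, hf, hmk, hc, hp, hr, rfl⟩ := h
  obtain ⟨c₁, p₁, hc₁, hp₁, hr₁⟩ := B.exists_hasRed_smul 1 hf.ne_zero
  rw [FLTA.PlaceRed.RRCurve.divisorOf_apply]
  exact (residual_support hS hn hf D.2 (p := ![p, p₁]) (Fin.forall_fin_two.mpr ⟨hp, hp₁⟩)
    (Fin.forall_fin_two.mpr ⟨⟨c, hc, hr⟩, ⟨c₁, hc₁, hr₁⟩⟩)).1 0 Q hQ

/-- If the residual divisor is trivial, both reductions of every Kummer function have divisors
divisible by `n`. -/
theorem IsRes.dvd_both (hS : B.IsGluing S m₀) (hn : 0 < n) {x : Pic0 K F} {R : Divisor k Fk}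
    (h : IsRes B n x R) (hR : ∀ Q, (n : ℤ) ∣ R Q) {D : Divisor.degZero (K := K) (F := F)} {f : F}
    (hf : BadFibre.KummerFn n (D : Divisor K F) f) (hmk : Pic0.mk D = x) {p : Fin 2 → Fk}
    (hp : ∀ i, p i ≠ 0) (hred : ∀ i, ∃ c : K, c ≠ 0 ∧ B.HasRed i (c • f) (p i)) :
    ∀ i (Q : Place k Fk), (n : ℤ) ∣ Q.ord (p i) := by
  obtain ⟨hout, hin⟩ := residual_support hS hn hf D.2 hp hred
  obtain ⟨c, hc, hr⟩ := hred 0
  have h0 : ∀ Q : Place k Fk, (n : ℤ) ∣ Q.ord (p 0) := fun Q => by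
    have h1 := h.dvd_sub ⟨D, f, c, p 0, hf, hmk, hc, hp 0, hr, rfl⟩ Q
    rw [FLTA.PlaceRed.RRCurve.divisorOf_apply] at h1
    exact (dvd_sub_right (hR Q)).mp h1
  intro i Q
  fin_cases i
  · exact h0 Q
  · show (n : ℤ) ∣ Q.ord (p 1)
    by_cases hQ : Q ∈ S
    · obtain ⟨Q', hQ'S, rfl⟩ : ∃ Q' ∈ S, B.frobq • Q' = Q :=
        ⟨B.frobq • Q, BadFibre.frobq_smul_mem hS hQ, hS.frobq_sq Q hQ⟩
      exact (hin Q' hQ'S).mp (h0 Q')
    · exact hout 1 Q hQ

end FLTA.RT.Qsq
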