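import Fermat.Agent.RT.Qsq.SupportData
import Fermat.Agent.RT.Qsq.Eval
import Fermat.Agent.BadRed.Toric.Swap
import Fermat.Agent.BadRed.Kummer

/-!
# The divisors of the two reductions of a Kummer function

If `div f = n D` then the divisor modulo `n` of the reduction of `f` on each component is supported
on the glued points, and at a glued pair it is trivial on one side iff it is trivial on the other.
-/

set_option autoImplicit false

noncomputable section

open AlgebraicCurve FLTA.Curves FLTA.BadRed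

namespace FLTA.RT.Qsq

/-- Rounding down a divisor divided by `n`. -/
def floorDiv {k C : Type*} [Field k] [Field C] [Algebra k C] (n : ℕ) (E : Divisor k C) :
    Divisor k C :=
  Finsupp.mapRange (fun z : ℤ => z / (n : ℤ)) (Int.zero_ediv _) E

theorem floorDiv_apply {k C : Type*} [Field k] [Field C] [Algebra k C] (n : ℕ) (E : Divisor k C)
    (Q : Place k C) : floorDiv n E Q = E Q / (n : ℤ) := Finsupp.mapRange_apply

theorem degree_floorDiv_add {k C : Type*} [Field k] [Field C] [Algebra k C] {g : ℕ}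
    (rr : FLTA.PlaceRed.RRCurve k C g) {n : ℕ} (hn : 0 < n) (E : Divisor k C) :
    Divisor.degree (floorDiv n E) + Divisor.degree (floorDiv n (-E)) =
      -((E.support.filter fun Q => ¬ (n : ℤ) ∣ E Q).card : ℤ) := by
  classical
  have h1 : ∀ E' : Divisor k C, E'.support = E.support →
      Divisor.degree (floorDiv n E') = ∑ Q ∈ E.support, E' Q / (n : ℤ) := fun E' hE' => by
    rw [rr.degree_eq_sum, floorDiv, Finsupp.sum_mapRange_index (fun _ => rfl), Finsupp.sum, hE']
  rw [h1 E rfl, h1 (-E) (Finsupp.support_neg E), ← Finset.sum_add_distrib,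
    Finset.card_filter, Nat.cast_sum, ← Finset.sum_neg_distrib]
  refine Finset.sum_congr rfl fun Q _ => ?_
  rw [Finsupp.neg_apply]
  by_cases h : (n : ℤ) ∣ E Q
  · obtain ⟨c, hc⟩ := h
    have hn' : (n : ℤ) ≠ 0 := by omega
    rw [if_neg (not_not.mpr ⟨c, hc⟩), hc, ← mul_neg, Int.mul_ediv_cancel_left _ hn',
      Int.mul_ediv_cancel_left _ hn']
    simp
  · rw [if_pos h, Int.neg_ediv, if_neg h, Int.sign_eq_one_of_pos (by exact_mod_cast hn),
      Nat.cast_one]
    ring

variable {K : Type*} [Field K] [IsAlgClosed K] [CharZero K] {A : ValuationSubring K}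
  {k : Type*} [Field k] [IsAlgClosed k] {π : A →+* k}
  {q : ℕ} [NeZero q] [Fact q.Prime] [CharP k q]
  {F : Type*} [Field F] [Algebra K F] {F' : Type*} [Field F'] [Algebra K F']
  {Fk : Type*} [Field Fk] [Algebra k Fk] {g gF : ℕ}
  {B : BadFibre A π q F F' Fk g gF}
  {S : Finset (Place k Fk)} {m₀ : ℕ}
  {n : ℕ} {D : Divisor K F} {f : F}

open Classical in
/-- The basic inequality: the glued pairs which are not bad on both sides impose independent
conditions on the reduced space. -/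
theorem card_le_degree_floorDiv (hS : B.IsGluing S m₀) (hn : 0 < n)
    (hf : BadFibre.KummerFn n D f) (hD : Divisor.degree D = 0) {p : Fin 2 → Fk}
    (hp : ∀ i, p i ≠ 0) (hred : ∀ i, ∃ c : K, c ≠ 0 ∧ B.HasRed i (c • f) (p i)) :
    ((S.filter fun Q => (n : ℤ) ∣ Q.ord (p 0) ∨ (n : ℤ) ∣ (B.frobq • Q).ord (p 1)).card : ℤ) ≤
      S.card + Divisor.degree (floorDiv n (B.rrk.divisorOf (p 0))) +
        Divisor.degree (floorDiv n (B.rrk.divisorOf (p 1))) := by
  set d₀ := Divisor.degree (floorDiv n (B.rrk.divisorOf (p 0))) with hd₀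
  set d₁ := Divisor.degree (floorDiv n (B.rrk.divisorOf (p 1))) with hd₁
  set m : ℕ := m₀ + gF + (2 * g + S.card + 1) + d₀.natAbs + d₁.natAbs with hm
  obtain ⟨dt⟩ := B.nonempty_redKummer hn hf hD hp hred (m := m) (by omega)
  set E : Fin 2 → Divisor k Fk := fun i =>
    Finsupp.single B.infk (m : ℤ) + floorDiv n (B.rrk.divisorOf (p i)) with hE
  have hEdeg : ∀ i, Divisor.degree (E i) =
      (m : ℤ) + Divisor.degree (floorDiv n (B.rrk.divisorOf (p i))) := fun i => by
    rw [hE, map_add, B.rrk.degree_single_eq]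
  let pts : Fin 2 → S → Place k Fk :=
    ![fun Q => (Q : Place k Fk), fun Q => B.frobq • (Q : Place k Fk)]
  have hpts : ∀ i Q, pts i Q ≠ B.infk := fun i Q => by
    fin_cases i
    · exact (B.pts_ne hS Q).1
    · exact (B.pts_ne hS Q).2
  have hinj : ∀ i, Function.Injective (pts i) := fun i => by
    fin_cases i
    · exact Subtype.val_injective
    · exact fun _ _ h => Subtype.ext (MulAction.injective B.frobq h)
  have hEpts : ∀ i Q, E i (pts i Q) = (pts i Q).ord (p i) / (n : ℤ) := fun i Q => by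
    simp only [hE, Finsupp.add_apply, floorDiv_apply,
      FLTA.PlaceRed.RRCurve.divisorOf_apply, Finsupp.single_eq_of_ne (hpts i Q), zero_add]
  choose t ht0 ht using fun i Q => exists_ord_eq_one (v := pts i Q)
  set η : Fin 2 → S → Fk := fun i Q => t i Q ^ (E i (pts i Q)) with hη
  have hη0 : ∀ i Q, η i Q ≠ 0 := fun i Q => zpow_ne_zero _ (ht0 i Q)
  have hηord : ∀ i Q, (pts i Q).ord (η i Q) = E i (pts i Q) := fun i Q => by
    simp only [hη]
    rw [(pts i Q).ord_zpow, ht, mul_one]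
  set L : ∀ i, riemannRochSpace (E i) →ₗ[k] (S → k) := fun i =>
    shiftEval B.rrk (pts i) (E i) (η i) (hη0 i) (hηord i) with hL
  have hdeg2 : ∀ i, 2 * (g : ℤ) + S.card ≤ Divisor.degree (E i) := fun i => by
    rw [hEdeg]
    fin_cases i
    · show _ ≤ (m : ℤ) + d₀; omega
    · show _ ≤ (m : ℤ) + d₁; omega
  have hLsurj : ∀ i, Function.Surjective (L i) := fun i =>
    shiftEval_surjective B.rrk (pts i) (E i) (η i) (hη0 i) (hηord i) (hinj i)
      (by rw [Fintype.card_coe]; have := hdeg2 i; omega)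
  set e : Fin 2 → S → k := fun i Q => BadFibre.placeVal (pts i Q) (p i / η i Q ^ n) with he
  have hn' : (n : ℤ) ≠ 0 := by omega
  have hemem : ∀ i Q, p i / η i Q ^ n ∈ (pts i Q).toValuationSubring ∧
      (e i Q = 0 ↔ ¬ (n : ℤ) ∣ (pts i Q).ord (p i)) := fun i Q => by
    have hne : p i / η i Q ^ n ≠ 0 := div_ne_zero (hp i) (pow_ne_zero _ (hη0 i Q))
    have hord : (pts i Q).ord (p i / η i Q ^ n) = (pts i Q).ord (p i) % (n : ℤ) := by
      rw [div_eq_mul_inv, (pts i Q).ord_mul (hp i) (inv_ne_zero (pow_ne_zero _ (hη0 i Q))),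
        (pts i Q).ord_inv, FLTA.Curves.ord_pow, hηord, hEpts, Int.emod_def, sub_eq_add_neg]
    have hnn : 0 ≤ (pts i Q).ord (p i / η i Q ^ n) := by rw [hord]; exact Int.emod_nonneg _ hn'
    refine ⟨(mem_iff_ord_nonneg _ hne).mpr hnn, ?_⟩
    simp only [he]
    rw [BadFibre.placeVal_eq_zero_iff (B.rrk.deg_eq_one _) ((mem_iff_ord_nonneg _ hne).mpr hnn),
      or_iff_right hne, hord, Int.dvd_iff_emod_eq_zero]
    have := Int.emod_nonneg ((pts i Q).ord (p i)) hn'
    omega
  -- membership in the two spaces and the equation at the glued pairs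
  have hY : ∀ y ∈ dt.Ysp, ∃ x : riemannRochSpace (E 0) × riemannRochSpace (E 1),
      y = ![(x.1 : Fk), (x.2 : Fk)] ∧
        ∀ Q : S, L 0 x.1 Q ^ n * e 0 Q = L 1 x.2 Q ^ n * e 1 Q := by
    rintro y ⟨G, hG, hy⟩
    have hmem : (fun i => y i ^ n * p i) ∈ B.fibreSections (n * m) :=
      ⟨_, dt.pow_mul_mem hn hf hG, dt.isY_pow hn hf hG hy⟩
    obtain ⟨h1, h2⟩ :=
      (hS.mem_iff _ ((show m₀ ≤ m by omega).trans (Nat.le_mul_of_pos_left _ hn)) _).mp hmem
    have hy1 : ∀ i, y i ∈ riemannRochSpace (E i) := fun i => by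
      rw [mem_riemannRochSpace_iff]
      intro v
      rcases eq_or_ne (y i) 0 with h0 | h0
      · exact Or.inl h0
      right
      have h := (mem_riemannRochSpace_iff.mp (h1 i) v).resolve_left
        (mul_ne_zero (pow_ne_zero n h0) (hp i))
      rw [v.ord_mul (pow_ne_zero n h0) (hp i), FLTA.Curves.ord_pow] at h
      have es : (Finsupp.single B.infk ((n * m : ℕ) : ℤ)) v =
          (n : ℤ) * (Finsupp.single B.infk (m : ℤ)) v := by
        rw [Finsupp.single_apply, Finsupp.single_apply]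
        split_ifs <;> simp
      rw [es] at h
      simp only [hE, Finsupp.add_apply, floorDiv_apply, FLTA.PlaceRed.RRCurve.divisorOf_apply]
      have h' : -(v.ord (y i) + (Finsupp.single B.infk (m : ℤ)) v) * (n : ℤ) ≤ v.ord (p i) := by
        linarith
      have := (Int.le_ediv_iff_mul_le (show (0 : ℤ) < n by omega)).mpr h'
      omega
    refine ⟨(⟨y 0, hy1 0⟩, ⟨y 1, hy1 1⟩), funext (Fin.forall_fin_two.mpr ⟨rfl, rfl⟩), fun Q => ?_⟩
    have hval : ∀ (i : Fin 2) (x : riemannRochSpace (E i)), L i x Q ^ n * e i Q =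
        BadFibre.placeVal (pts i Q) ((x : Fk) ^ n * p i) := fun i x => by
      have hx := mul_mem_place (pts i) (E i) (η i) (hη0 i) (hηord i) x.2 Q
      simp only [hL, shiftEval_apply, he]
      rw [← BadFibre.placeVal_pow (B.rrk.deg_eq_one _) hx,
        ← BadFibre.placeVal_mul (B.rrk.deg_eq_one _) (pow_mem hx n) (hemem i Q).1]
      congr 1
      rw [mul_pow, mul_assoc, mul_div_cancel₀ _ (pow_ne_zero _ (hη0 i Q))]
    rw [hval 0 ⟨y 0, hy1 0⟩, hval 1 ⟨y 1, hy1 1⟩]
    exact h2 Q Q.2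
  -- one linear condition for each glued pair which is not bad on both sides
  let J := {Q : S // e 0 Q ≠ 0 ∨ e 1 Q ≠ 0}
  let W := riemannRochSpace (E 0) × riemannRochSpace (E 1)
  let incl : W →ₗ[k] (Fin 2 → Fk) := LinearMap.pi
    ![(Submodule.subtype _).comp (LinearMap.fst k _ _),
      (Submodule.subtype _).comp (LinearMap.snd k _ _)]
  have hincl : ∀ x : W, incl x = ![(x.1 : Fk), (x.2 : Fk)] := fun x =>
    funext (Fin.forall_fin_two.mpr ⟨rfl, rfl⟩)
  have hincl_inj : Function.Injective incl := fun x x' h => by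
    rw [hincl, hincl] at h
    exact Prod.ext (Subtype.ext (congrFun h 0)) (Subtype.ext (congrFun h 1))
  set M := dt.Ysp.comap incl with hM
  have hMmap : M.map incl = dt.Ysp := Submodule.map_comap_eq_self fun y hy => by
    obtain ⟨x, hx, -⟩ := hY y hy
    exact ⟨x, (hincl x).trans hx.symm⟩
  have hMeq : ∀ x ∈ M, ∀ Q : S, L 0 x.1 Q ^ n * e 0 Q = L 1 x.2 Q ^ n * e 1 Q := fun x hx Q => by
    obtain ⟨x', hx', h⟩ := hY _ hx
    rw [show x = x' from hincl_inj (hx'.trans (hincl x').symm)]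
    exact h Q
  have hcond : ∀ j : J, ∃ a b : k, (a ≠ 0 ∨ b ≠ 0) ∧
      ∀ x ∈ M, a * L 0 x.1 j.1 + b * L 1 x.2 j.1 = 0 := by
    rintro ⟨Q, hQ⟩
    by_cases h0 : e 0 Q = 0
    · refine ⟨0, 1, Or.inr one_ne_zero, fun x hx => ?_⟩
      have h := hMeq x hx Q
      rw [h0, mul_zero] at h
      have := (mul_eq_zero.mp h.symm).resolve_right (hQ.resolve_left (not_not.mpr h0))
      rw [zero_mul, zero_add, one_mul]
      exact pow_eq_zero_iff hn.ne' |>.mp this
    by_cases h1 : e 1 Q = 0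
    · refine ⟨1, 0, Or.inl one_ne_zero, fun x hx => ?_⟩
      have h := hMeq x hx Q
      rw [h1, mul_zero] at h
      have := (mul_eq_zero.mp h).resolve_right h0
      rw [zero_mul, add_zero, one_mul]
      exact pow_eq_zero_iff hn.ne' |>.mp this
    obtain ⟨ζ, -, -, hζ⟩ := exists_ratio hn h0 h1
      (M.map (((LinearMap.proj Q).comp (L 0)).prodMap ((LinearMap.proj Q).comp (L 1))))
      (by
        rintro _ ⟨x, hx, rfl⟩
        show e 0 Q * L 0 x.1 Q ^ n = e 1 Q * L 1 x.2 Q ^ n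
        rw [mul_comm, hMeq x hx Q, mul_comm])
    refine ⟨1, -ζ, Or.inl one_ne_zero, fun x hx => ?_⟩
    have : L 0 x.1 Q = ζ * L 1 x.2 Q := hζ _ ⟨x, hx, rfl⟩
    rw [one_mul, this]
    ring
  choose a b hab hM0 using hcond
  let Φ : W →ₗ[k] (J → k) := LinearMap.pi fun j : J =>
    a j • ((LinearMap.proj j.1).comp (L 0)).comp (LinearMap.fst k _ _) +
      b j • ((LinearMap.proj j.1).comp (L 1)).comp (LinearMap.snd k _ _)
  have hΦ : ∀ (x : W) j, Φ x j = a j * L 0 x.1 j.1 + b j * L 1 x.2 j.1 := fun x j => rfl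
  have hΦsurj : Function.Surjective Φ := by
    intro v
    obtain ⟨x0, hx0⟩ := hLsurj 0 fun Q =>
      if h : e 0 Q ≠ 0 ∨ e 1 Q ≠ 0 then (if a ⟨Q, h⟩ = 0 then 0 else v ⟨Q, h⟩ / a ⟨Q, h⟩) else 0
    obtain ⟨x1, hx1⟩ := hLsurj 1 fun Q =>
      if h : e 0 Q ≠ 0 ∨ e 1 Q ≠ 0 then (if a ⟨Q, h⟩ = 0 then v ⟨Q, h⟩ / b ⟨Q, h⟩ else 0) else 0
    refine ⟨(x0, x1), funext fun j => ?_⟩
    rw [hΦ, congrFun hx0 j.1, congrFun hx1 j.1, dif_pos j.2, dif_pos j.2]
    by_cases h : a j = 0
    · rw [if_pos h, if_pos h, mul_div_cancel₀ _ ((hab j).resolve_left (not_not.mpr h)), h]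
      ring
    · rw [if_neg h, if_neg h, mul_div_cancel₀ _ h]
      ring
  have := B.rrk.finiteDimensional (E 0)
  have := B.rrk.finiteDimensional (E 1)
  have hle : M ≤ LinearMap.ker Φ := fun x hx => LinearMap.mem_ker.mpr (funext fun j => by
    rw [hΦ]; exact hM0 j x hx)
  have h1 := Submodule.finrank_mono hle
  have h2 := Φ.finrank_range_add_finrank_ker
  rw [LinearMap.range_eq_top.mpr hΦsurj, finrank_top, Module.finrank_pi] at h2
  have h3 : Module.finrank k M = Module.finrank k dt.Ysp := by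
    rw [← hMmap]
    exact (Submodule.equivMapOfInjective _ hincl_inj M).finrank_eq
  have h4 := dt.finrank_Ysp hn hf hD (by omega)
  have h5 : Module.finrank k W =
      Module.finrank k (riemannRochSpace (E 0)) + Module.finrank k (riemannRochSpace (E 1)) :=
    Module.finrank_prod
  have h6 := B.rrk.finrank_eq (E 0) (by have := hdeg2 0; omega)
  have h7 := B.rrk.finrank_eq (E 1) (by have := hdeg2 1; omega)
  rw [hEdeg] at h6 h7
  have h8 : (S.filter fun Q => (n : ℤ) ∣ Q.ord (p 0) ∨ (n : ℤ) ∣ (B.frobq • Q).ord (p 1)).card =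
      Fintype.card J := by
    rw [Fintype.card_subtype, ← Finset.card_map (Function.Embedding.subtype (· ∈ S))]
    congr 1
    ext Q
    simp only [Finset.mem_map, Finset.mem_filter, Finset.mem_univ, true_and,
      Function.Embedding.coe_subtype, Subtype.exists, exists_and_right, exists_eq_right, ne_eq,
      (hemem 0 _).2, (hemem 1 _).2, not_not]
    exact ⟨fun h => ⟨h.1, h.2⟩, fun ⟨h, h'⟩ => ⟨h, h'⟩⟩
  have hcard := hS.card_eq
  rw [h8]
  omega

/-- **Support of the residual divisors.** -/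
theorem residual_support (hS : B.IsGluing S m₀) (hn : 0 < n)
    (hf : BadFibre.KummerFn n D f) (hD : Divisor.degree D = 0) {p : Fin 2 → Fk}
    (hp : ∀ i, p i ≠ 0) (hred : ∀ i, ∃ c : K, c ≠ 0 ∧ B.HasRed i (c • f) (p i)) :
    (∀ i, ∀ Q ∉ S, (n : ℤ) ∣ Q.ord (p i)) ∧
      ∀ Q ∈ S, ((n : ℤ) ∣ Q.ord (p 0) ↔ (n : ℤ) ∣ (B.frobq • Q).ord (p 1)) := by
  classical
  have hinv : ∀ i, ∃ c : K, c ≠ 0 ∧ B.HasRed i (c • f⁻¹) (p i)⁻¹ := fun i => by
    obtain ⟨c, hc, h⟩ := hred i
    refine ⟨c⁻¹, inv_ne_zero hc, ?_⟩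
    have e : c⁻¹ • f⁻¹ = (c • f)⁻¹ := by
      rw [Algebra.smul_def, Algebra.smul_def, map_inv₀, mul_inv]
    rw [e]
    exact BadFibre.HasRed.inv h (hp i)
  have hf' : BadFibre.KummerFn n (-D) f⁻¹ := ⟨inv_ne_zero hf.ne_zero, fun P => by
    rw [Finsupp.neg_apply, mul_neg, hf.ord_eq, P.ord_inv]⟩
  have h1 := card_le_degree_floorDiv hS hn hf hD hp hred
  have h2 := card_le_degree_floorDiv hS hn hf' (by rw [map_neg, hD, neg_zero])
    (fun i => inv_ne_zero (hp i)) hinv
  have hdiv : ∀ i, B.rrk.divisorOf (p i)⁻¹ = -B.rrk.divisorOf (p i) := fun i => Finsupp.ext fun Q =>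
    by rw [Finsupp.neg_apply, FLTA.PlaceRed.RRCurve.divisorOf_apply,
      FLTA.PlaceRed.RRCurve.divisorOf_apply, Q.ord_inv]
  simp only [Place.ord_inv, dvd_neg, hdiv] at h2
  have h3 := degree_floorDiv_add B.rrk hn (B.rrk.divisorOf (p 0))
  have h4 := degree_floorDiv_add B.rrk hn (B.rrk.divisorOf (p 1))
  set N : Fin 2 → Finset (Place k Fk) := fun i =>
    (B.rrk.divisorOf (p i)).support.filter fun Q => ¬ (n : ℤ) ∣ B.rrk.divisorOf (p i) Q with hN
  have hmemN : ∀ i Q, Q ∈ N i ↔ ¬ (n : ℤ) ∣ Q.ord (p i) := fun i Q => by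
    simp only [hN, Finset.mem_filter, Finsupp.mem_support_iff,
      FLTA.PlaceRed.RRCurve.divisorOf_apply, and_iff_right_iff_imp]
    exact fun h h0 => h (h0 ▸ dvd_zero _)
  set A0 := S.filter fun Q => ¬ (n : ℤ) ∣ Q.ord (p 0) with hA0
  set A1 := S.filter fun Q => ¬ (n : ℤ) ∣ (B.frobq • Q).ord (p 1) with hA1
  have hJ : (S.filter fun Q => (n : ℤ) ∣ Q.ord (p 0) ∨ (n : ℤ) ∣ (B.frobq • Q).ord (p 1)).card +
      (A0 ∩ A1).card = S.card := by
    rw [show A0 ∩ A1 = S.filter fun Q =>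
      ¬ ((n : ℤ) ∣ Q.ord (p 0) ∨ (n : ℤ) ∣ (B.frobq • Q).ord (p 1)) by
        ext Q; simp only [hA0, hA1, Finset.mem_inter, Finset.mem_filter]; tauto]
    exact Finset.card_filter_add_card_filter_not _
  have hB0 : A0 ⊆ N 0 := fun Q hQ => (hmemN 0 Q).mpr (Finset.mem_filter.mp hQ).2
  have hB1 : A1.image (B.frobq • ·) ⊆ N 1 := fun R hR => by
    obtain ⟨Q, hQ, rfl⟩ := Finset.mem_image.mp hR
    exact (hmemN 1 _).mpr (Finset.mem_filter.mp hQ).2
  have hi0 : (A0 ∩ A1).card ≤ A0.card := Finset.card_le_card Finset.inter_subset_left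
  have hi1 : (A0 ∩ A1).card ≤ A1.card := Finset.card_le_card Finset.inter_subset_right
  have hc0 := Finset.card_le_card hB0
  have hc1 := Finset.card_le_card hB1
  have himg : (A1.image (B.frobq • ·)).card = A1.card :=
    Finset.card_image_of_injective _ (MulAction.injective B.frobq)
  have e0 : N 0 = A0 := (Finset.eq_of_subset_of_card_le hB0 (by simp only [hN] at *; omega)).symm
  have e1 : N 1 = A1.image (B.frobq • ·) :=
    (Finset.eq_of_subset_of_card_le hB1 (by simp only [hN] at *; omega)).symm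
  have eA : A0 = A1 := by
    have h01 : A0 ∩ A1 = A0 := Finset.eq_of_subset_of_card_le Finset.inter_subset_left
      (by simp only [hN] at *; omega)
    have h10 : A0 ∩ A1 = A1 := Finset.eq_of_subset_of_card_le Finset.inter_subset_right
      (by simp only [hN] at *; omega)
    rw [← h10, h01]
  refine ⟨fun i Q hQ => ?_, fun Q hQ => ?_⟩
  · by_contra h
    have h' := (hmemN i Q).mpr h
    fin_cases i
    · change Q ∈ N 0 at h'
      rw [e0] at h'
      exact hQ (Finset.mem_filter.mp h').1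
    · change Q ∈ N 1 at h'
      rw [e1] at h'
      obtain ⟨R, hR, rfl⟩ := Finset.mem_image.mp h'
      exact hQ (BadFibre.frobq_smul_mem hS (Finset.mem_filter.mp hR).1)
  · have h := Finset.ext_iff.mp eA Q
    simp only [hA0, hA1, Finset.mem_filter, hQ, true_and, not_iff_not] at h
    exact h

end FLTA.RT.Qsq
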