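import Fermat.Agent.BadRed.Toric.Char

/-!
# The special fibre of an arbitrary Kummer function

For `div f = n D` and reductions `p i` of scalar multiples of `f` on the two components, the space
`L(D + m(∞ + 0))` has a reduction `Ysp` of full dimension, consisting of pairs `y` such that
`y i ^ n * p i` is a section of the special fibre.
-/

set_option autoImplicit false

noncomputable section

open AlgebraicCurve FLTA.Curves

namespace FLTA.BadRed.BadFibre

variable {K : Type*} [Field K] {A : ValuationSubring K} {k : Type*} [Field k] {π : A →+* k}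
  {q : ℕ} [NeZero q]
  {F : Type*} [Field F] [Algebra K F] {F' : Type*} [Field F'] [Algebra K F']
  {Fk : Type*} [Field Fk] [Algebra k Fk] {g gF : ℕ} (B : BadFibre A π q F F' Fk g gF)

/-- Data of the special fibre of a Kummer function with reductions `p`. -/
structure RedKummer (n : ℕ) (D : Divisor K F) (f : F) (p : Fin 2 → Fk) (m : ℕ) where
  /-- a section -/
  G₀ : F
  mem : G₀ ∈ riemannRochSpace (D + B.cuspDiv m)
  G₀_ne : G₀ ≠ 0
  /-- roots of the scalings -/
  γ : Fin 2 → K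
  γ_ne : ∀ i, γ i ≠ 0
  /-- reductions of the section -/
  ρ : Fin 2 → Fk
  ρ_ne : ∀ i, ρ i ≠ 0
  p_ne : ∀ i, p i ≠ 0
  int : ∀ i, IntSeries A (γ i ^ n • B.e i (G₀ ^ n * f))
  red : ∀ i, redSeries A π (γ i ^ n • B.e i (G₀ ^ n * f)) = B.exk (ρ i ^ n * p i)

/-- Reductions of scalar multiples of a Kummer function give data. -/
theorem nonempty_redKummer [IsAlgClosed K] [CharZero K] [IsAlgClosed k] [Fact q.Prime] [CharP k q]
    {n : ℕ} (hn : 0 < n) {D : Divisor K F} {f : F} (hf : KummerFn n D f)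
    (hD : Divisor.degree D = 0) {p : Fin 2 → Fk} (hp : ∀ i, p i ≠ 0)
    (hred : ∀ i, ∃ c : K, c ≠ 0 ∧ B.HasRed i (c • f) (p i)) {m : ℕ} (hm : gF ≤ m) :
    Nonempty (B.RedKummer n D f p m) := by
  obtain ⟨G, hG, hG0⟩ := B.exists_ne_zero_mem hD hm
  have key : ∀ i, ∃ (γ : K) (ρ : Fk), γ ≠ 0 ∧ ρ ≠ 0 ∧ IntSeries A (γ ^ n • B.e i (G ^ n * f)) ∧
      redSeries A π (γ ^ n • B.e i (G ^ n * f)) = B.exk (ρ ^ n * p i) := by
    intro i
    obtain ⟨c, hc, g₂, h₂, hg₂, hh₂, hh₂ne, heq₂, hr₂⟩ := hred i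
    obtain ⟨a, r, ha, hr, g₁, h₁, hg₁, hh₁, hh₁ne, heq₁, hr₁⟩ := B.exists_hasRed_smul i hG0
    obtain ⟨γ, hγ⟩ := IsAlgClosed.exists_pow_nat_eq (a ^ n * c) hn
    have hac : a ^ n * c ≠ 0 := mul_ne_zero (pow_ne_zero _ ha) hc
    set Z := (a ^ n * c) • B.e i (G ^ n * f) with hZ
    set y₂ := B.e i h₁ ^ n * B.e i h₂ with hy₂
    set y₁ := B.e i g₁ ^ n * B.e i g₂ with hy₁
    have hprod : Z * y₂ = y₁ := by
      rw [hZ, hy₂, hy₁, ← heq₁, ← heq₂, B.smul_e]
      simp only [← map_pow, ← map_mul, Algebra.smul_def, map_mul, map_pow]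
      ring
    have hy₁red : redSeries A π y₁ = B.exk (r ^ n * p i) * redSeries A π y₂ := by
      rw [hy₁, hy₂, redSeries_mul (hg₁.pow n) hg₂, redSeries_pow hg₁, ← hr₁, ← hr₂,
        redSeries_mul (hh₁.pow n) hh₂, redSeries_pow hh₁]
      simp only [mul_pow, map_mul, map_pow]
      ring
    have hy₂ne : redSeries A π y₂ ≠ 0 := by
      rw [hy₂, redSeries_mul (hh₁.pow n) hh₂, redSeries_pow hh₁]
      exact mul_ne_zero (pow_ne_zero _ hh₁ne) hh₂ne
    have hy₁ne : redSeries A π y₁ ≠ 0 := by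
      rw [hy₁red]
      exact mul_ne_zero ((map_ne_zero B.exk).mpr (mul_ne_zero (pow_ne_zero _ hr) (hp i))) hy₂ne
    have hmemφ : G ^ n * f ∈ riemannRochSpace (B.cuspDiv (n * m)) := by
      have := mul_mem_riemannRochSpace (pow_mem_riemannRochSpace hG n) hf.mem
      rwa [smul_add, natCast_smul_cuspDiv, add_neg_eq_iff_eq_add.mpr (add_comm _ _)] at this
    obtain ⟨hZi, hZr⟩ := intSeries_of_mul_eq B.R.π_surjective
      (exists_primitive_multiple_one (π := π) B.discrete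
        (smul_ne_zero hac (B.e_ne_zero i (mul_ne_zero (pow_ne_zero _ hG0) hf.ne_zero)))
        ((B.bddSeries_e i hmemφ).smul _) ((B.fgSeries_e i _).smul _))
      ((hg₁.pow n).mul hg₂) ((hh₁.pow n).mul hh₂) hy₁ne hy₂ne hprod
    refine ⟨γ, r, ?_, hr, hγ ▸ hZi, ?_⟩
    · intro h0
      rw [h0, zero_pow hn.ne'] at hγ
      exact hac hγ.symm
    · rw [hγ]
      exact mul_right_cancel₀ hy₂ne (hZr.trans hy₁red)
  choose γ ρ hγ hρ hint hr using key
  exact ⟨⟨G, hG, hG0, γ, hγ, ρ, hρ, hp, hint, hr⟩⟩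

namespace RedKummer

variable {B} {n : ℕ} {D : Divisor K F} {f : F} {p : Fin 2 → Fk} {m : ℕ}
  (d : B.RedKummer n D f p m)

/-- `G ↦ γ^(n-1) e(G G₀^(n-1) f)`. -/
def tw (G : F) (i : Fin 2) : LaurentSeries K :=
  d.γ i ^ (n - 1) • B.e i (G * (d.G₀ ^ (n - 1) * f))

/-- `tw` as a linear map. -/
def twLin : F →ₗ[K] (Fin 2 → LaurentSeries K) where
  toFun := d.tw
  map_add' x y := funext fun i => by simp [tw, add_mul, smul_add]
  map_smul' c x := funext fun i => by
    show d.γ i ^ (n - 1) • B.e i (c • x * (d.G₀ ^ (n - 1) * f)) =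
      c • (d.γ i ^ (n - 1) • B.e i (x * (d.G₀ ^ (n - 1) * f)))
    rw [smul_mul_assoc, ← B.smul_e, smul_comm]

include d in
theorem section_mem (hn : 0 < n) (hf : KummerFn n D f) {G G' : F}
    (hG : G ∈ riemannRochSpace (D + B.cuspDiv m)) (hG' : G' ∈ riemannRochSpace (D + B.cuspDiv m)) :
    G * (G' ^ (n - 1) * f) ∈ riemannRochSpace (B.cuspDiv (n * m)) := by
  have h := mul_mem_riemannRochSpace hG
    (mul_mem_riemannRochSpace (pow_mem_riemannRochSpace hG' (n - 1)) hf.mem)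
  have e : D + B.cuspDiv m + (((n - 1 : ℕ) : ℤ) • (D + B.cuspDiv m) + -((n : ℤ) • D)) =
      B.cuspDiv (n * m) := by
    rw [← natCast_smul_cuspDiv, show (n : ℤ) = ((n - 1 : ℕ) : ℤ) + 1 by omega]
    simp only [smul_add, add_smul, one_smul]
    abel
  exact e ▸ h

include d in
theorem pow_mul_mem (hn : 0 < n) (hf : KummerFn n D f) {G : F}
    (hG : G ∈ riemannRochSpace (D + B.cuspDiv m)) :
    G ^ n * f ∈ riemannRochSpace (B.cuspDiv (n * m)) := by
  have := d.section_mem hn hf hG hG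
  rwa [← mul_assoc, ← pow_succ', Nat.sub_add_cancel hn] at this

theorem tw_pow (hn : 0 < n) (G : F) (i : Fin 2) :
    d.tw G i ^ n = (d.γ i ^ n • B.e i (d.G₀ ^ n * f)) ^ (n - 1) * B.e i (G ^ n * f) := by
  obtain ⟨j, rfl⟩ : ∃ j, n = j + 1 := ⟨n - 1, by omega⟩
  simp only [tw, Nat.add_sub_cancel, ← HahnSeries.C_mul_eq_smul, map_mul, map_pow]
  ring

/-- `y` is the reduction of `G`. -/
def IsY (G : F) (y : Fin 2 → Fk) : Prop :=
  ∀ i, IntSeries A (d.tw G i) ∧
    redSeries A π (d.tw G i) = B.exk (y i * (d.ρ i ^ (n - 1) * p i))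

/-- `y^n p` is the reduction of `G^n f`. -/
theorem isY_pow (hn : 0 < n) (hf : KummerFn n D f) {G : F}
    (hG : G ∈ riemannRochSpace (D + B.cuspDiv m)) {y : Fin 2 → Fk} (hy : d.IsY G y) :
    B.IsRed (G ^ n * f) (fun i => y i ^ n * p i) := by
  have hne : ∀ i, B.exk (d.ρ i ^ n * p i) ≠ 0 := fun i =>
    (map_ne_zero B.exk).mpr (mul_ne_zero (pow_ne_zero _ (d.ρ_ne i)) (d.p_ne i))
  have hint : ∀ i, IntSeries A (B.e i (G ^ n * f)) := fun i => by
    refine intSeries_right_of_mul (π := π) B.R.π_surjective B.discrete ((d.int i).pow (n - 1)) ?_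
      (B.bddSeries_e i (d.pow_mul_mem hn hf hG)) (B.fgSeries_e i _) ?_
    · rw [redSeries_pow (d.int i), d.red]
      exact pow_ne_zero _ (hne i)
    · rw [← d.tw_pow hn]
      exact (hy i).1.pow n
  refine ⟨hint, fun i => ?_⟩
  have h := congrArg (redSeries A π) (d.tw_pow hn G i)
  rw [redSeries_pow (hy i).1, redSeries_mul ((d.int i).pow _) (hint i), redSeries_pow (d.int i),
    (hy i).2, d.red, ← map_pow, ← map_pow] at h
  refine mul_left_cancel₀ ((map_ne_zero B.exk).mpr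
    (pow_ne_zero (n - 1) (mul_ne_zero (pow_ne_zero n (d.ρ_ne i)) (d.p_ne i)))) ?_
  rw [← h, ← map_mul]
  congr 1
  obtain ⟨j, rfl⟩ : ∃ j, n = j + 1 := ⟨n - 1, by omega⟩
  simp only [Nat.add_sub_cancel]
  ring

/-- The reduction of `L(D + m (∞ + 0))`. -/
def Ysp : Submodule k (Fin 2 → Fk) where
  carrier := {y | ∃ G ∈ riemannRochSpace (D + B.cuspDiv m), d.IsY G y}
  add_mem' := by
    rintro y y' ⟨G, hG, h⟩ ⟨G', hG', h'⟩
    refine ⟨G + G', add_mem hG hG', fun i => ?_⟩
    rw [show d.tw (G + G') i = d.tw G i + d.tw G' i from congrFun (d.twLin.map_add G G') i]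
    exact ⟨(h i).1.add (h' i).1, by
      rw [redSeries_add (h i).1 (h' i).1, (h i).2, (h' i).2, ← map_add, Pi.add_apply, add_mul]⟩
  zero_mem' := ⟨0, zero_mem _, fun i => by
    rw [show d.tw 0 i = 0 from congrFun d.twLin.map_zero i]
    exact ⟨IntSeries.zero, by simp⟩⟩
  smul_mem' := by
    rintro c y ⟨G, hG, h⟩
    obtain ⟨a, rfl⟩ := B.R.π_surjective c
    refine ⟨(a : K) • G, Submodule.smul_mem _ _ hG, fun i => ?_⟩
    rw [show d.tw ((a : K) • G) i = (a : K) • d.tw G i from congrFun (d.twLin.map_smul _ _) i]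
    refine ⟨(h i).1.smul a.2, ?_⟩
    rw [redSeries_smul a.2 (h i).1, (h i).2, Pi.smul_apply, smul_mul_assoc]
    ext j
    simp [Algebra.smul_def, ModularCurve.algebraMap_laurentSeries_eq_single]

/-- `y ↦ exk (y ρ^(n-1) p)`. -/
def readY : (Fin 2 → Fk) →ₗ[k] (Fin 2 → LaurentSeries k) where
  toFun y i := B.exk (y i * (d.ρ i ^ (n - 1) * p i))
  map_add' y z := funext fun i => by simp [add_mul]
  map_smul' c y := funext fun i => by
    ext j
    simp [Algebra.smul_def, mul_assoc, ModularCurve.algebraMap_laurentSeries_eq_single]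

theorem readY_injective : Function.Injective d.readY := fun _ _ h => funext fun i =>
  mul_right_cancel₀ (mul_ne_zero (pow_ne_zero _ (d.ρ_ne i)) (d.p_ne i))
    (B.exk.injective (congrFun h i))

theorem twLin_injective (hf : KummerFn n D f) : Function.Injective d.twLin := by
  rw [injective_iff_map_eq_zero]
  intro G hG
  by_contra h
  exact smul_ne_zero (pow_ne_zero _ (d.γ_ne 0))
    (B.e_ne_zero 0 (mul_ne_zero h (mul_ne_zero (pow_ne_zero _ d.G₀_ne) hf.ne_zero)))
    (congrFun hG 0)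

theorem finrank_Ysp [IsAlgClosed K] [CharZero K] [IsAlgClosed k] [Fact q.Prime] [CharP k q]
    (hn : 0 < n) (hf : KummerFn n D f) (hD : Divisor.degree D = 0) (hm : gF ≤ m) :
    (Module.finrank k d.Ysp : ℤ) = 2 * m + 1 - gF := by
  have := B.rrF.finiteDimensional (D + B.cuspDiv m)
  set T := (riemannRochSpace (D + B.cuspDiv m)).map d.twLin with hT
  have : FiniteDimensional K T := Module.Finite.map _ _
  have hsc : Scalable π T := by
    rintro _ ⟨G, hG, rfl⟩ hne
    exact exists_primitive_multiple B.discrete hne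
      (fun i => (B.bddSeries_e i (d.section_mem hn hf hG d.mem)).smul _)
      (fun i => (B.fgSeries_e i _).smul _)
  obtain ⟨h1, -, h3⟩ := finrank_span_redSet B.R.π_surjective _ hsc
  have e0 : (d.Ysp.map d.readY : Set (Fin 2 → LaurentSeries k)) = redSet π T := by
    ext r
    constructor
    · rintro ⟨y, ⟨G, hG, hy⟩, rfl⟩
      exact ⟨_, ⟨G, hG, rfl⟩, fun i => (hy i).1, fun i => ((hy i).2).symm⟩
    · rintro ⟨_, ⟨G, hG, rfl⟩, hint, hr⟩
      choose a ha using fun i => B.exists_exk_eq_redSeries i (hint i)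
      have hne : ∀ i, d.ρ i ^ (n - 1) * p i ≠ 0 := fun i =>
        mul_ne_zero (pow_ne_zero _ (d.ρ_ne i)) (d.p_ne i)
      refine ⟨fun i => a i / (d.ρ i ^ (n - 1) * p i), ⟨G, hG, fun i => ⟨hint i, ?_⟩⟩,
        funext fun i => ?_⟩
      · rw [div_mul_cancel₀ _ (hne i)]; exact (ha i).symm
      · show B.exk (a i / (d.ρ i ^ (n - 1) * p i) * (d.ρ i ^ (n - 1) * p i)) = r i
        rw [div_mul_cancel₀ _ (hne i)]
        exact (ha i).trans (hr i).symm
  have e : Submodule.span k (redSet π T) = d.Ysp.map d.readY :=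
    SetLike.coe_injective (h1.trans e0.symm)
  rw [e] at h3
  rw [(Submodule.equivMapOfInjective _ d.readY_injective d.Ysp).finrank_eq, h3, hT,
    ← (Submodule.equivMapOfInjective _ (d.twLin_injective hf) _).finrank_eq,
    B.rrF.finrank_eq _ (by rw [map_add, hD, degree_cuspDiv]; omega), map_add, hD, degree_cuspDiv]
  ring

end RedKummer

end FLTA.BadRed.BadFibre
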