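import Fermat.Agent.BadRed.Ramified.Toricity
import Fermat.Agent.BadRed.Toric

/-!
# Kummer functions of toric classes

A fixed function with divisor divisible by `n` whose reduction is good at some node has valuation
difference divisible by `n`; so the fixed Kummer functions of toric classes reduce to `n`-th powers
on both components with valuation difference divisible by `n`.
-/

set_option autoImplicit false

noncomputable section

open AlgebraicCurve FLTA.BadRed

namespace FLTA.RT.Qsq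

variable {K : Type*} [Field K] [IsAlgClosed K] [CharZero K] {A : ValuationSubring K}
  {k : Type*} [Field k] [IsAlgClosed k] {π : A →+* k}
  {q : ℕ} [NeZero q] [Fact q.Prime] [CharP k q]
  {F : Type*} [Field F] [Algebra K F] {F' : Type*} [Field F'] [Algebra K F']
  {Fk : Type*} [Field Fk] [Algebra k Fk] {g gF : ℕ}
  {B : BadFibre A π q F F' Fk g gF} {S : Finset (Place k Fk)} {m₀ : ℕ} {n : ℕ} {J : B.InertiaSys}

open BadFibre in
/-- A good node makes the valuation difference divisible by `n`. -/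
theorem dvd_diffVal_of_good (hS : B.IsGluing S m₀) (hnk : (n : k) ≠ 0) {f : F} (hf : f ≠ 0)
    (hfix : J.Fixed f) (hdvd : ∀ v : Place K F, (n : ℤ) ∣ v.ord f) (d : B.ScaledRed f)
    {Q : Place k Fk} (hQ : Q ∈ S) (hgood : (n : ℤ) ∣ Q.ord (d.p 0)) {vf : ℤ}
    (hvf : B.DiffVal f vf) : (n : ℤ) ∣ vf := by
  classical
  have hn : 0 < n := Nat.pos_of_ne_zero fun h => hnk (by rw [h, Nat.cast_zero])
  obtain ⟨dG, hdG⟩ := exists_fixed_scaledRed hf hfix
  have hmem : Q ∈ dG.good n S 0 := ScaledRed.mem_good.mpr ⟨hQ, by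
    rwa [d.ord_p_eq dG 0]⟩
  obtain ⟨δ, hδ⟩ := exists_scalars hn dG
  have hδ0 : ∀ l, δ l ≠ 0 := fun l h0 => by
    have := hδ l
    rw [h0, zero_pow hn.ne', zero_mul] at this
    exact zero_ne_one this
  obtain ⟨m, hm⟩ := J.exists_val (δ 0 / δ 1) (div_ne_zero (hδ0 0) (hδ0 1))
    fun s hs => ratio_fixed_of_good hS hnk ∅ (fun v _ _ _ => hdvd v) hfix dG (fun _ => ∅)
      (fun l u hu => absurd hu (Finset.notMem_empty u)) (le_refl 0) hdG hδ ⟨Q, hmem⟩ hs
  have hpow : HasVal A q (dG.c 1 / dG.c 0) ((n : ℤ) * m) := by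
    have e : dG.c 1 / dG.c 0 = (δ 0 / δ 1) ^ n := by
      rw [div_pow, eq_inv_of_mul_eq_one_left (hδ 0), eq_inv_of_mul_eq_one_left (hδ 1), inv_div_inv]
    rw [e]
    exact hm.pow n
  exact ⟨m, (hvf.hasVal dG).unique π hpow⟩

open BadFibre in
/-- A fixed Kummer function of a toric class reduces to `n`-th powers on both components, with
valuation difference divisible by `n`. -/
theorem exists_pow_red_of_isToric (hS : B.IsGluing S m₀) (hne : S.Nonempty) (hnk : (n : k) ≠ 0)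
    {x : Pic0 K F} (hx : B.IsToric n x) {D : Divisor.degZero (K := K) (F := F)} {f : F}
    (hf : f ≠ 0) (hDx : Pic0.mk D = x)
    (hord : ∀ v : Place K F, (n : ℤ) * (D : Divisor K F) v = v.ord f) (hfix : J.Fixed f) :
    ∃ (d : B.ScaledRed f) (v : ℤ), HasVal A q (d.c 1 / d.c 0) v ∧ (n : ℤ) ∣ v ∧
      ∀ i, ∃ η : Fk, η ^ n = d.p i := by
  classical
  have hn : 0 < n := Nat.pos_of_ne_zero fun h => hnk (by rw [h, Nat.cast_zero])
  obtain ⟨vf, d₀, hd₀⟩ := J.exists_diffVal hf hfix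
  obtain ⟨D', f', hf', hmk', hord', hred'⟩ := hx
  -- the two Kummer functions differ by a constant and an `n`-th power
  obtain ⟨h, hh, hhD⟩ := AddSubgroup.mem_addSubgroupOf.mp
    ((QuotientAddGroup.eq_iff_sub_mem).mp (hDx.trans hmk'.symm))
  obtain ⟨c, hc⟩ := B.exists_eq_algebraMap_of_ord_eq_zero (u := f * (f' * h ^ n)⁻¹)
    (mul_ne_zero hf (inv_ne_zero (mul_ne_zero hf' (pow_ne_zero _ hh)))) fun v => by
    have e := hhD v
    rw [AddSubgroupClass.coe_sub, Finsupp.sub_apply] at e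
    rw [v.ord_mul hf (inv_ne_zero (mul_ne_zero hf' (pow_ne_zero _ hh))), v.ord_inv,
      v.ord_mul hf' (pow_ne_zero _ hh), FLTA.Curves.ord_pow, ← hord, ← hord']
    linear_combination (n : ℤ) * e
  rw [mul_inv_eq_iff_eq_mul₀ (mul_ne_zero hf' (pow_ne_zero _ hh))] at hc
  have hc0 : c ≠ 0 := fun h0 => hf (by rw [hc, h0, map_zero, zero_mul])
  choose c' η hc' hη hr' using hred'
  let d' : B.ScaledRed f' :=
    { c := c', p := fun i => η i ^ n, p_ne := fun i => pow_ne_zero _ (hη i), red := hr' }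
  choose a r ha hr hra using fun i => B.exists_hasRed_smul i hh
  let dh : B.ScaledRed h := { c := a, p := r, p_ne := hr, red := hra }
  obtain ⟨d₁, hd₁⟩ : ∃ d₁ : B.ScaledRed f, ∀ i, d₁.p i = (η i * r i) ^ n := by
    rw [hc]
    exact ⟨(ScaledRed.const hc0).mul (d'.mul (dh.pow n)), fun i => by
      show 1 * (η i ^ n * r i ^ n) = _
      rw [one_mul, mul_pow]⟩
  obtain ⟨Q, hQ⟩ := hne
  refine ⟨d₁, vf, DiffVal.hasVal ⟨d₀, hd₀⟩ d₁, dvd_diffVal_of_good hS hnk hf hfix
    (fun v => ⟨_, (hord v).symm⟩) d₁ hQ ?_ ⟨d₀, hd₀⟩, fun i => ⟨_, (hd₁ i).symm⟩⟩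
  rw [hd₁, FLTA.Curves.ord_pow]
  exact dvd_mul_right _ _

end FLTA.RT.Qsq

end
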