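import Mathlib

/-!
# The small representations of `SL(2, 𝔽₂) ≅ S₃` over `𝔽₃`

Used for the descent from level `4 m` to level `2 m` modulo `3`: the permutation representation
`permRep`, its twist `twistRep` by the sign, the sign `signRep`, and the maps between them.
-/

set_option autoImplicit false

open scoped MatrixGroups
open Matrix

namespace FLTA.RT.QTwo

/-- The permutations of the three points. -/
abbrev Sym : Type := Equiv.Perm (Fin 3)

/-- The coefficient field. -/
abbrev F3 : Type := ZMod 3

/-- A point of the projective line over `𝔽₂` as a vector. -/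
def vecF2 (i : Fin 3) : Fin 2 → ZMod 2 :=
  ![![1, 0], ![0, 1], ![1, 1]] i

/-- The point of a nonzero vector. -/
def ptF2 (v : Fin 2 → ZMod 2) : Fin 3 :=
  if v 1 = 0 then 0 else if v 0 = 0 then 1 else 2

/-- The action on the three points. -/
def actF2 (M : Matrix (Fin 2) (Fin 2) (ZMod 2)) (i : Fin 3) : Fin 3 :=
  ptF2 fun k => M k 0 * vecF2 i 0 + M k 1 * vecF2 i 1

theorem ptF2_vecF2 : ∀ i, ptF2 (vecF2 i) = i := by decide

theorem vecF2_ptF2 : ∀ v : Fin 2 → ZMod 2, v ≠ 0 → vecF2 (ptF2 v) = v := by decide

theorem actF2_one (i : Fin 3) : actF2 1 i = i := by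
  revert i
  decide

theorem actF2_mul {M N : Matrix (Fin 2) (Fin 2) (ZMod 2)} (hN : N.det = 1) (i : Fin 3) :
    actF2 (M * N) i = actF2 M (actF2 N i) := by
  have hvec : ∀ j, vecF2 j ≠ 0 := by decide
  have hne : (fun k => N k 0 * vecF2 i 0 + N k 1 * vecF2 i 1) ≠ 0 := by
    intro h
    rw [det_fin_two] at hN
    have h0 : N 0 0 * vecF2 i 0 + N 0 1 * vecF2 i 1 = 0 := congrFun h 0
    have h1 : N 1 0 * vecF2 i 0 + N 1 1 * vecF2 i 1 = 0 := congrFun h 1
    refine hvec i (funext fun k => ?_)
    fin_cases k
    · show vecF2 i 0 = 0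
      linear_combination N 1 1 * h0 - N 0 1 * h1 - vecF2 i 0 * hN
    · show vecF2 i 1 = 0
      linear_combination N 0 0 * h1 - N 1 0 * h0 - vecF2 i 1 * hN
  unfold actF2
  rw [vecF2_ptF2 _ hne]
  congr 1
  funext k
  simp [Matrix.mul_apply, Fin.sum_univ_two]
  ring

/-- `SL(2, 𝔽₂)` permutes the three points. -/
def toSym : SL(2, ZMod 2) →* Sym where
  toFun M :=
    { toFun := actF2 (M : Matrix (Fin 2) (Fin 2) (ZMod 2))
      invFun := actF2 (M⁻¹ : SL(2, ZMod 2))
      left_inv := fun i => by
        show actF2 _ (actF2 _ i) = i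
        rw [← actF2_mul M.2]
        show actF2 ((M⁻¹ * M : SL(2, ZMod 2)) : Matrix (Fin 2) (Fin 2) (ZMod 2)) i = i
        rw [inv_mul_cancel]
        exact actF2_one i
      right_inv := fun i => by
        show actF2 _ (actF2 _ i) = i
        rw [← actF2_mul (M⁻¹).2]
        show actF2 ((M * M⁻¹ : SL(2, ZMod 2)) : Matrix (Fin 2) (Fin 2) (ZMod 2)) i = i
        rw [mul_inv_cancel]
        exact actF2_one i }
  map_one' := Equiv.ext fun i => actF2_one i
  map_mul' M N := Equiv.ext fun i => actF2_mul N.2 i

@[simp] theorem toSym_apply (M : SL(2, ZMod 2)) (i : Fin 3) :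
    toSym M i = actF2 (M : Matrix (Fin 2) (Fin 2) (ZMod 2)) i := rfl

theorem toSym_apply_zero_iff (M : SL(2, ZMod 2)) : toSym M 0 = 0 ↔ M 1 0 = 0 := by
  simp [actF2, vecF2, ptF2]
  split_ifs <;> simp_all

theorem actF2_eq_id : ∀ M : Matrix (Fin 2) (Fin 2) (ZMod 2), (∀ i, actF2 M i = i) →
    M.det = 1 → M = 1 := by decide

theorem toSym_eq_one {M : SL(2, ZMod 2)} (h : toSym M = 1) : M = 1 :=
  Subtype.ext (actF2_eq_id _ (fun i => Equiv.congr_fun h i) M.2)

/-- The sign, as `±1` in `𝔽₃`. -/
def sgn (s : Sym) : F3 := if s 0 + 1 = s 1 then 1 else -1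

theorem sgn_mul : ∀ s t : Sym, sgn (s * t) = sgn s * sgn t := by decide

theorem sgn_one : sgn 1 = 1 := by decide

theorem sgn_mul_self : ∀ s : Sym, sgn s * sgn s = 1 := by decide

/-- Representations on additive groups. -/
abbrev Rep (V : Type) [AddCommGroup V] : Type := Sym →* AddMonoid.End V

/-- The permutation representation. -/
def permRep : Rep (Fin 3 → F3) where
  toFun s :=
    { toFun := fun v i => v (s⁻¹ i)
      map_zero' := rfl
      map_add' := fun _ _ => rfl }
  map_one' := rfl
  map_mul' _ _ := rfl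

/-- The permutation representation twisted by the sign. -/
def twistRep : Rep (Fin 3 → F3) where
  toFun s :=
    { toFun := fun v i => sgn s * v (s⁻¹ i)
      map_zero' := by funext i; simp
      map_add' := fun v w => by funext i; simp [mul_add] }
  map_one' := by
    refine AddMonoidHom.ext fun v => funext fun i => ?_
    show sgn 1 * v _ = v i
    rw [sgn_one, one_mul]
    rfl
  map_mul' s t := by
    refine AddMonoidHom.ext fun v => funext fun i => ?_
    show sgn (s * t) * v _ = sgn s * (sgn t * v _)
    rw [sgn_mul, mul_assoc]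
    rfl

/-- The sign representation. -/
def signRep : Rep F3 where
  toFun s := AddMonoidHom.mulLeft (sgn s)
  map_one' := AddMonoidHom.ext fun v => by
    show sgn 1 * v = v
    rw [sgn_one, one_mul]
  map_mul' s t := AddMonoidHom.ext fun v => by
    show sgn (s * t) * v = sgn s * (sgn t * v)
    rw [sgn_mul, mul_assoc]

/-- The regular representation. -/
def regRep : Rep (Sym → F3) where
  toFun s :=
    { toFun := fun v y => v (y * s)
      map_zero' := rfl
      map_add' := fun _ _ => rfl }
  map_one' := AddMonoidHom.ext fun v => funext fun y => congrArg v (mul_one y)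
  map_mul' s t := AddMonoidHom.ext fun v => funext fun y => congrArg v (mul_assoc y s t).symm

@[simp] theorem permRep_apply (s : Sym) (v : Fin 3 → F3) (i : Fin 3) :
    permRep s v i = v (s⁻¹ i) := rfl

@[simp] theorem twistRep_apply (s : Sym) (v : Fin 3 → F3) (i : Fin 3) :
    twistRep s v i = sgn s * v (s⁻¹ i) := rfl

@[simp] theorem signRep_apply (s : Sym) (v : F3) : signRep s v = sgn s * v := rfl

@[simp] theorem regRep_apply (s : Sym) (v : Sym → F3) (y : Sym) : regRep s v y = v (y * s) := rfl

/-- An equivariant map. -/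
structure EquivMap {V W : Type} [AddCommGroup V] [AddCommGroup W] (ρ : Rep V) (σ : Rep W) where
  map : V →+ W
  comm : ∀ s v, map (ρ s v) = σ s (map v)

/-- Differences of neighbours. -/
def diffMap : EquivMap twistRep permRep where
  map :=
    { toFun := fun v i => v (i + 1) - v (i + 2)
      map_zero' := by funext i; simp
      map_add' := fun v w => by funext i; simp only [Pi.add_apply]; ring }
  comm s v := by revert s v; decide +kernel

theorem eq_const_of_diffMap_eq_zero : ∀ v : Fin 3 → F3, diffMap.map v = 0 → v = fun _ => v 0 := by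
  decide

/-- The constants. -/
def constMap : EquivMap signRep twistRep where
  map :=
    { toFun := fun u _ => u
      map_zero' := rfl
      map_add' := fun _ _ => rfl }
  comm s v := rfl

/-- The first difference, equivariant on vectors of sum zero. -/
def theta : (Fin 3 → F3) →+ F3 where
  toFun v := v 1 - v 0
  map_zero' := sub_self 0
  map_add' v w := add_sub_add_comm _ _ _ _

theorem theta_comm : ∀ (s : Sym) (v : Fin 3 → F3), v 0 + v 1 + v 2 = 0 →
    theta (permRep s v) = signRep s (theta v) := by decide +kernel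

theorem sum_permRep : ∀ (s : Sym) (v : Fin 3 → F3),
    permRep s v 0 + permRep s v 1 + permRep s v 2 = v 0 + v 1 + v 2 := by decide +kernel

theorem exists_lift_two : ∀ (s : Sym) (u : F3), s * s = 1 → u + signRep s u = 0 →
    ∃ v : Fin 3 → F3, v 0 + v 1 + v 2 = 0 ∧ theta v = u ∧ v + permRep s v = 0 := by
  decide +kernel

theorem exists_lift_three : ∀ (s : Sym) (u : F3), s * s * s = 1 →
    u + signRep s u + signRep (s * s) u = 0 →
    ∃ v : Fin 3 → F3, v 0 + v 1 + v 2 = 0 ∧ theta v = u ∧
      v + permRep s v + permRep (s * s) v = 0 := by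
  decide +kernel

theorem theta_surjective : ∀ u : F3, ∃ v : Fin 3 → F3, v 0 + v 1 + v 2 = 0 ∧ theta v = u := by
  decide

/-- Sums over the fibres of `y ↦ y x`. -/
def sumMap : EquivMap regRep permRep where
  map :=
    { toFun := fun v x => ∑ y : Sym, if y x = 0 then v y else 0
      map_zero' := by funext x; simp
      map_add' := fun v w => by
        funext x
        simp only [Pi.add_apply, ← Finset.sum_add_distrib]
        exact Finset.sum_congr rfl fun y _ => by split_ifs <;> simp }
  comm s v := by
    funext x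
    show (∑ y : Sym, if y x = 0 then v (y * s) else 0)
      = ∑ y : Sym, if y (s⁻¹ x) = 0 then v y else 0
    rw [← Equiv.sum_comp (Equiv.mulRight s) fun y : Sym => if y (s⁻¹ x) = 0 then v y else 0]
    exact Finset.sum_congr rfl fun y _ => by simp [Equiv.Perm.mul_apply]

/-- Signed sums over the fibres of `y ↦ y x`. -/
def signedSumMap : EquivMap regRep twistRep where
  map :=
    { toFun := fun v x => ∑ y : Sym, if y x = 0 then sgn y * v y else 0
      map_zero' := by funext x; simp
      map_add' := fun v w => by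
        funext x
        simp only [Pi.add_apply, ← Finset.sum_add_distrib]
        exact Finset.sum_congr rfl fun y _ => by split_ifs <;> simp [mul_add] }
  comm s v := by
    funext x
    show (∑ y : Sym, if y x = 0 then sgn y * v (y * s) else 0)
      = sgn s * ∑ y : Sym, if y (s⁻¹ x) = 0 then sgn y * v y else 0
    rw [← Equiv.sum_comp (Equiv.mulRight s) fun y : Sym =>
      if y (s⁻¹ x) = 0 then sgn y * v y else 0, Finset.mul_sum]
    refine Finset.sum_congr rfl fun y _ => ?_
    have hx : (y * s) (s⁻¹ x) = y x := congrArg y (s.apply_symm_apply x)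
    show (if y x = 0 then sgn y * v (y * s) else 0)
      = sgn s * (if (y * s) (s⁻¹ x) = 0 then sgn (y * s) * v (y * s) else 0)
    rw [hx, sgn_mul]
    split_ifs
    · linear_combination -(sgn y * v (y * s)) * sgn_mul_self s
    · rw [mul_zero]

theorem sumMap_add_signedSumMap_zero (v : Sym → F3) :
    sumMap.map v 0 + signedSumMap.map v 0 = 2 * v 1 := by
  show (∑ y : Sym, if y 0 = 0 then v y else 0) + (∑ y : Sym, if y 0 = 0 then sgn y * v y else 0)
    = 2 * v 1
  rw [← Finset.sum_add_distrib, ← Fintype.sum_ite_eq' (1 : Sym) fun y => 2 * v y]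
  refine Finset.sum_congr rfl fun y _ => ?_
  have h : ∀ y : Sym, (y 0 = 0 → y ≠ 1 → sgn y = -1) := by decide
  rcases eq_or_ne y 1 with rfl | hy
  · simp [sgn_one, two_mul]
  · rw [if_neg hy]
    split_ifs with h0
    · rw [h y h0 hy]; ring
    · ring

theorem toSym_surjective : ∀ s : Sym, ∃ M : Matrix (Fin 2) (Fin 2) (ZMod 2),
    M.det = 1 ∧ ∀ i, actF2 M i = s i := by decide +kernel

theorem sym_eq_word : ∀ s : Sym,
    let t : Sym := Equiv.swap 1 2
    let u : Sym := Equiv.swap 0 2
    s = 1 ∨ s = t ∨ s = u ∨ s = t * u ∨ s = u * t ∨ s = t * u * t := by decide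

end FLTA.RT.QTwo
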