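import Fermat.Agent.Periods.Hecke
import Fermat.Agent.RT.Qsq.TwoModules

/-!
# Hecke operators commuting with the reduction modulo `2`

Representatives of `T_l` congruent to `1` modulo `2` act on all functions on `Γ₀(m)`; on cocycles
with values in a representation of `SL(2, 𝔽₂)` they are the Hecke operators.
-/

set_option autoImplicit false

noncomputable section

open CongruenceSubgroup Matrix Matrix.SpecialLinearGroup
open scoped MatrixGroups OnePoint

open P2MW.S_ModularForm_heckeT_slash_eq_self_of_mem_Gamma0.ModularForm.HeckeSlashInvariance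
  (heckeRep)

namespace FLTA.RT.QTwo

open FLTA.Periods

section reps

variable {r : ℕ}

/-- Integral representatives with the shifts multiplied by `c`. -/
def intRep (r c : ℕ) (x : OnePoint (ZMod r)) : Matrix (Fin 2) (Fin 2) ℤ :=
  x.elim !![(r : ℤ), 0; 0, 1] fun j => !![1, ((c * j.val : ℕ) : ℤ); 0, (r : ℤ)]

/-- The representatives in `GL₂(ℝ)`. -/
def scaledRep (r c : ℕ) (x : OnePoint (ZMod r)) : GL (Fin 2) ℝ :=
  x.elim (ModularForm.heckeDiagMatrix r) fun j => ModularForm.heckeMatrix r (c * j.val)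

theorem val_scaledRep (hr : r ≠ 0) (c : ℕ) (x : OnePoint (ZMod r)) :
    (scaledRep r c x : Matrix (Fin 2) (Fin 2) ℝ) = (intRep r c x).map (Int.castRingHom ℝ) := by
  induction x using OnePoint.rec with
  | infty =>
    show (ModularForm.heckeDiagMatrix r : Matrix (Fin 2) (Fin 2) ℝ) =
      (!![(r : ℤ), 0; 0, 1]).map (Int.castRingHom ℝ)
    rw [ModularForm.val_heckeDiagMatrix hr]
    ext i k
    fin_cases i <;> fin_cases k <;> simp
  | coe j =>
    show (ModularForm.heckeMatrix r (c * j.val) : Matrix (Fin 2) (Fin 2) ℝ) =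
      (!![1, ((c * j.val : ℕ) : ℤ); 0, (r : ℤ)]).map (Int.castRingHom ℝ)
    rw [ModularForm.val_heckeMatrix hr]
    ext i k
    fin_cases i <;> fin_cases k <;> simp [-ZMod.natCast_val]

/-- The translation comparing the representatives. -/
def shiftElt (N r c : ℕ) (x : OnePoint (ZMod r)) : Gamma0 N :=
  x.elim 1 fun j => ⟨ModularGroup.T ^ (((c * j.val) / r : ℕ) : ℤ),
    mem_Gamma0_of_dvd (by simp [ModularGroup.coe_T_zpow])⟩

variable [hr : Fact r.Prime]

/-- Multiplication of the shifts by `c`. -/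
def scaleEquiv {c : ℕ} (hc : (c : ZMod r) ≠ 0) : OnePoint (ZMod r) ≃ OnePoint (ZMod r) :=
  Equiv.optionCongr (Equiv.mulLeft₀ (c : ZMod r) hc)

theorem scaledRep_eq (N : ℕ) {c : ℕ} (hc : (c : ZMod r) ≠ 0) (x : OnePoint (ZMod r)) :
    scaledRep r c x = gamma0GL N (shiftElt N r c x) * heckeRep r (scaleEquiv hc x) := by
  have hr0 := hr.out.ne_zero
  induction x using OnePoint.rec with
  | infty =>
    show ModularForm.heckeDiagMatrix r = gamma0GL N 1 * ModularForm.heckeDiagMatrix r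
    rw [map_one, one_mul]
  | coe j =>
    show ModularForm.heckeMatrix r (c * j.val) =
      gamma0GL N ⟨_, _⟩ * ModularForm.heckeMatrix r ((c : ZMod r) * j).val
    have hv : ((c : ZMod r) * j).val = (c * j.val) % r := by
      rw [← ZMod.val_natCast, Nat.cast_mul, ZMod.natCast_zmod_val]
    apply Units.ext
    rw [Units.val_mul, ModularForm.val_heckeMatrix hr0, ModularForm.val_heckeMatrix hr0, hv]
    set q := (c * j.val) / r with hq
    set u := (c * j.val) % r with hu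
    have hsum : ((c * j.val : ℕ) : ℝ) = (u : ℝ) + (q : ℝ) * (r : ℝ) := by
      rw [← Nat.mod_add_div (c * j.val) r, ← hq, ← hu]
      push_cast
      ring
    rw [hsum]
    have hmem : (ModularGroup.T ^ (q : ℤ) : SL(2, ℤ)) ∈ Gamma0 N :=
      mem_Gamma0_of_dvd (by rw [ModularGroup.coe_T_zpow]; simp)
    have hT : (gamma0GL N ⟨_, hmem⟩ : Matrix (Fin 2) (Fin 2) ℝ) = !![1, (q : ℝ); 0, 1] := by
      ext i k
      rw [gamma0GL_apply]
      show (((ModularGroup.T ^ (q : ℤ) : SL(2, ℤ)) : Matrix (Fin 2) (Fin 2) ℤ) i k : ℝ) = _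
      rw [ModularGroup.coe_T_zpow]
      fin_cases i <;> fin_cases k <;> simp
    show _ = (gamma0GL N ⟨_, hmem⟩ : Matrix (Fin 2) (Fin 2) ℝ) * _
    rw [hT]
    ext i k
    fin_cases i <;> fin_cases k <;> simp [Matrix.mul_apply, Fin.sum_univ_two]

variable {N : ℕ}

/-- The scaled representatives of `T_r`. -/
def repsS (hrN : ¬ r ∣ N) {c : ℕ} (hc : (c : ZMod r) ≠ 0) :
    HeckeReps (gamma0GL N) (OnePoint (ZMod r)) :=
  HeckeReps.ofExists (scaledRep r c) gamma0GL_injective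
    (fun x y δ h => by
      apply (scaleEquiv hc).injective
      refine (repsT hrN).unique _ _ ((shiftElt N r c y)⁻¹ * δ * shiftElt N r c x) ?_
      rw [repsT_rep, map_mul, map_mul, map_inv, mul_assoc, ← scaledRep_eq N hc, mul_assoc, h,
        scaledRep_eq N hc, inv_mul_cancel_left])
    (fun γ x => by
      refine ⟨(scaleEquiv hc).symm ((repsT hrN).perm γ (scaleEquiv hc x)),
        shiftElt N r c x * (repsT hrN).cocyc γ (scaleEquiv hc x) *
          (shiftElt N r c ((scaleEquiv hc).symm ((repsT hrN).perm γ (scaleEquiv hc x))))⁻¹, ?_⟩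
      have h := (repsT hrN).rep_mul γ (scaleEquiv hc x)
      rw [repsT_rep] at h
      rw [scaledRep_eq N hc, scaledRep_eq N hc, mul_assoc, h, Equiv.apply_symm_apply, map_mul,
        map_mul, map_inv]
      group)

theorem repsS_rep (hrN : ¬ r ∣ N) {c : ℕ} (hc : (c : ZMod r) ≠ 0) (x : OnePoint (ZMod r)) :
    (repsS hrN hc).rep x = scaledRep r c x := rfl

theorem repsS_transferHom [NeZero r] [NeZero N] {A : Type} [AddCommGroup A] (hrN : ¬ r ∣ N) {c : ℕ}
    (hc : (c : ZMod r) ≠ 0) (φ : Additive (Gamma0 N) →+ A) :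
    (repsS hrN hc).transferHom φ = heckeHom ℤ N r φ := by
  rw [heckeHom_of_not_dvd ℤ hr.out hrN]
  exact (repsT hrN).transferHom_congr (repsS hrN hc) (scaleEquiv hc) (shiftElt N r c)
    (fun x => scaledRep_eq N hc x) φ

end reps

section maps

variable (m : ℕ)

/-- The action of `Γ₀(m)` on the three points. -/
def piSym : Gamma0 m →* Sym :=
  toSym.comp ((SpecialLinearGroup.map (Int.castRingHom (ZMod 2))).comp (Gamma0 m).subtype)

/-- `Γ₀(2 m)` inside `Γ₀(m)`. -/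
def incl2 : Gamma0 (2 * m) →* Gamma0 m where
  toFun g := ⟨g, mem_Gamma0_of_dvd (Int.dvd_trans (by exact_mod_cast dvd_mul_left m 2)
    (dvd_of_mem_Gamma0 g.2))⟩
  map_one' := rfl
  map_mul' _ _ := rfl

theorem conjDown_det (g : Gamma0 (4 * m)) :
    (!![(g : SL(2, ℤ)) 0 0, 2 * (g : SL(2, ℤ)) 0 1;
      (g : SL(2, ℤ)) 1 0 / 2, (g : SL(2, ℤ)) 1 1] : Matrix (Fin 2) (Fin 2) ℤ).det = 1 := by
  obtain ⟨k, hk⟩ := dvd_of_mem_Gamma0 g.2
  have hd := (g : SL(2, ℤ)).2
  rw [det_fin_two] at hd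
  rw [det_fin_two_of, hk, show ((4 * m : ℕ) : ℤ) * k = 2 * (2 * (m : ℤ) * k) by push_cast; ring,
    Int.mul_ediv_cancel_left _ two_ne_zero]
  rw [hk] at hd
  push_cast at hd ⊢
  linear_combination hd

/-- The defining relation of `conjDown`. -/
theorem conjDown_aux (g : Gamma0 (4 * m)) :
    (!![(g : SL(2, ℤ)) 0 0, 2 * (g : SL(2, ℤ)) 0 1;
      (g : SL(2, ℤ)) 1 0 / 2, (g : SL(2, ℤ)) 1 1] : Matrix (Fin 2) (Fin 2) ℤ) * !![2, 0; 0, 1] =
    !![2, 0; 0, 1] * ((g : SL(2, ℤ)) : Matrix (Fin 2) (Fin 2) ℤ) := by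
  have h2 : (2 : ℤ) ∣ (g : SL(2, ℤ)) 1 0 :=
    Int.dvd_trans ⟨2 * (m : ℤ), by push_cast; ring⟩ (dvd_of_mem_Gamma0 g.2)
  ext i j
  fin_cases i <;> fin_cases j <;> simp [Matrix.mul_apply, Fin.sum_univ_two]
  · ring
  · exact Int.ediv_mul_cancel h2

theorem mul_two_cancel {X Y : Matrix (Fin 2) (Fin 2) ℤ}
    (h : X * !![2, 0; 0, 1] = Y * !![2, 0; 0, 1]) : X = Y := by
  ext i j
  have h0 := congrFun (congrFun h i) 0
  have h1 := congrFun (congrFun h i) 1
  simp [Matrix.mul_apply, Fin.sum_univ_two] at h0 h1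
  fin_cases j
  · exact h0
  · exact h1

/-- Conjugation of `Γ₀(4 m)` onto `Γ₀(m) ∩ Γ(2)`. -/
def conjDown : Gamma0 (4 * m) →* Gamma0 m where
  toFun g := ⟨⟨_, conjDown_det m g⟩, mem_Gamma0_of_dvd (by
    obtain ⟨k, hk⟩ := dvd_of_mem_Gamma0 g.2
    show (m : ℤ) ∣ (g : SL(2, ℤ)) 1 0 / 2
    rw [hk, show ((4 * m : ℕ) : ℤ) * k = 2 * ((m : ℤ) * (2 * k)) by push_cast; ring,
      Int.mul_ediv_cancel_left _ two_ne_zero]
    exact dvd_mul_right _ _)⟩
  map_one' := by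
    refine Subtype.ext (Subtype.ext ?_)
    ext i j
    fin_cases i <;> fin_cases j <;> simp
  map_mul' g h := by
    refine Subtype.ext (Subtype.ext (mul_two_cancel ?_))
    rw [conjDown_aux]
    show !![2, 0; 0, 1] * (((g : SL(2, ℤ)) : Matrix (Fin 2) (Fin 2) ℤ) *
        ((h : SL(2, ℤ)) : Matrix (Fin 2) (Fin 2) ℤ)) =
      (!![(g : SL(2, ℤ)) 0 0, 2 * (g : SL(2, ℤ)) 0 1;
          (g : SL(2, ℤ)) 1 0 / 2, (g : SL(2, ℤ)) 1 1] *
        !![(h : SL(2, ℤ)) 0 0, 2 * (h : SL(2, ℤ)) 0 1;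
          (h : SL(2, ℤ)) 1 0 / 2, (h : SL(2, ℤ)) 1 1]) * !![2, 0; 0, 1]
    rw [Matrix.mul_assoc _ _ !![2, 0; 0, 1], conjDown_aux, ← Matrix.mul_assoc, ← Matrix.mul_assoc,
      conjDown_aux]

theorem coe_conjDown (g : Gamma0 (4 * m)) (i j : Fin 2) :
    ((conjDown m g : Gamma0 m) : SL(2, ℤ)) i j =
      (!![(g : SL(2, ℤ)) 0 0, 2 * (g : SL(2, ℤ)) 0 1;
        (g : SL(2, ℤ)) 1 0 / 2, (g : SL(2, ℤ)) 1 1] : Matrix (Fin 2) (Fin 2) ℤ) i j := rfl

theorem toSym_map_eq (g : Gamma0 m) :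
    piSym m g = toSym (SpecialLinearGroup.map (Int.castRingHom (ZMod 2)) (g : SL(2, ℤ))) := rfl

theorem piSym_conjDown (g : Gamma0 (4 * m)) : piSym m (conjDown m g) = 1 := by
  obtain ⟨k, hk⟩ := dvd_of_mem_Gamma0 g.2
  have hd := congrArg (Int.cast : ℤ → ZMod 2) (g : SL(2, ℤ)).2
  rw [det_fin_two, hk] at hd
  have h2 : ((2 : ℤ) : ZMod 2) = 0 := by decide
  have h4 : (((4 * m : ℕ) : ℤ) : ZMod 2) = 0 := by
    push_cast
    rw [show (4 : ZMod 2) = 0 by decide, zero_mul]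
  rw [Int.cast_sub, Int.cast_mul, Int.cast_mul, Int.cast_mul, h4, zero_mul, mul_zero, sub_zero,
    Int.cast_one] at hd
  have hu : ∀ a b : ZMod 2, a * b = 1 → a = 1 ∧ b = 1 := by decide
  obtain ⟨ha, hd'⟩ := hu _ _ hd
  rw [toSym_map_eq, ← map_one toSym]
  congr 1
  refine Subtype.ext (Matrix.ext fun i j => ?_)
  show ((((conjDown m g : Gamma0 m) : SL(2, ℤ)) i j : ℤ) : ZMod 2) = _
  rw [coe_conjDown]
  have h10 : ((((g : SL(2, ℤ)) 1 0) / 2 : ℤ) : ZMod 2) = 0 := by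
    rw [hk, show ((4 * m : ℕ) : ℤ) * k = 2 * (2 * ((m : ℤ) * k)) by push_cast; ring,
      Int.mul_ediv_cancel_left _ two_ne_zero, Int.cast_mul, h2, zero_mul]
  fin_cases i <;> fin_cases j <;> simp [ha, hd', h10, show (2 : ZMod 2) = 0 by decide]

theorem exists_conjDown_eq {δ : Gamma0 m} (hm : Odd m) (h : piSym m δ = 1) :
    ∃ g : Gamma0 (4 * m), conjDown m g = δ := by
  have h1 := congrArg (fun M : SL(2, ZMod 2) => (M : Matrix (Fin 2) (Fin 2) (ZMod 2)))
    (toSym_eq_one h)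
  have hb : ((δ : SL(2, ℤ)) 0 1 : ZMod 2) = 0 := congrFun (congrFun h1 0) 1
  have hc : ((δ : SL(2, ℤ)) 1 0 : ZMod 2) = 0 := congrFun (congrFun h1 1) 0
  obtain ⟨b, hb'⟩ := (ZMod.intCast_zmod_eq_zero_iff_dvd _ 2).mp hb
  obtain ⟨c, hc'⟩ := (ZMod.intCast_zmod_eq_zero_iff_dvd _ 2).mp hc
  push_cast at hb' hc'
  obtain ⟨e, he⟩ := dvd_of_mem_Gamma0 δ.2
  have hce : (2 : ℤ) ∣ e := by
    obtain ⟨j, hj⟩ := hm
    refine ⟨c - (j : ℤ) * e, ?_⟩
    have : 2 * c = (m : ℤ) * e := hc'.symm.trans he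
    rw [hj] at this
    push_cast at this
    linear_combination -this
  obtain ⟨e', rfl⟩ := hce
  have hd := (δ : SL(2, ℤ)).2
  rw [det_fin_two, hb', hc'] at hd
  have hdet : (!![(δ : SL(2, ℤ)) 0 0, b; 2 * (2 * c), (δ : SL(2, ℤ)) 1 1] :
      Matrix (Fin 2) (Fin 2) ℤ).det = 1 := by
    rw [det_fin_two_of]
    linear_combination hd
  have hmem : (⟨_, hdet⟩ : SL(2, ℤ)) ∈ Gamma0 (4 * m) := mem_Gamma0_of_dvd ⟨e', by
    show (2 * (2 * c) : ℤ) = _
    push_cast
    linear_combination 2 * (hc'.symm.trans he)⟩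
  refine ⟨⟨_, hmem⟩, Subtype.ext (Subtype.ext (Matrix.ext fun i j => ?_))⟩
  rw [coe_conjDown]
  fin_cases i <;> fin_cases j <;> simp [hb', hc']

theorem conjDown_injective : Function.Injective (conjDown m) := by
  intro g h he
  have h1 := congrArg (fun z : Gamma0 m => ((z : SL(2, ℤ)) : Matrix (Fin 2) (Fin 2) ℤ) *
    !![2, 0; 0, 1]) he
  have h1' : !![2, 0; 0, 1] * ((g : SL(2, ℤ)) : Matrix (Fin 2) (Fin 2) ℤ) =
      !![2, 0; 0, 1] * ((h : SL(2, ℤ)) : Matrix (Fin 2) (Fin 2) ℤ) :=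
    (conjDown_aux m g).symm.trans (h1.trans (conjDown_aux m h))
  refine Subtype.ext (Subtype.ext (Matrix.ext fun i j => ?_))
  have e := congrFun (congrFun h1' i) j
  fin_cases i <;> fin_cases j <;> simp [Matrix.mul_apply, Fin.sum_univ_two] at e ⊢ <;> exact e

theorem piSym_apply_zero {γ : Gamma0 m} (h : piSym m γ 0 = 0) (hm : Odd m) :
    (γ : SL(2, ℤ)) ∈ Gamma0 (2 * m) := by
  have h1 := (toSym_apply_zero_iff _).mp h
  have h2 : (2 : ℤ) ∣ (γ : SL(2, ℤ)) 1 0 := by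
    exact_mod_cast (ZMod.intCast_zmod_eq_zero_iff_dvd _ 2).mp h1
  refine mem_Gamma0_of_dvd ?_
  push_cast
  exact IsCoprime.mul_dvd ((Int.prime_two.coprime_iff_not_dvd).mpr fun hd => by
    have := (Int.natCast_dvd_natCast (m := 2) (n := m)).mp (by exact_mod_cast hd)
    exact (Nat.not_even_iff_odd.mpr hm) (even_iff_two_dvd.mpr this)) h2 (dvd_of_mem_Gamma0 γ.2)

theorem piSym_incl2 (h : Gamma0 (2 * m)) : piSym m (incl2 m h) 0 = 0 := by
  refine (toSym_apply_zero_iff _).mpr ?_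
  show (((h : SL(2, ℤ)) 1 0 : ℤ) : ZMod 2) = 0
  refine (ZMod.intCast_zmod_eq_zero_iff_dvd _ 2).mpr ?_
  exact Int.dvd_trans (by exact_mod_cast dvd_mul_right 2 m) (dvd_of_mem_Gamma0 h.2)

end maps

section compat

variable {m r : ℕ} [hr : Fact r.Prime]

theorem two_ne_zero_of_odd (h2 : r ≠ 2) : ((2 : ℕ) : ZMod r) ≠ 0 := fun h => h2
  ((Nat.prime_dvd_prime_iff_eq hr.out Nat.prime_two).mp
    ((ZMod.natCast_eq_zero_iff _ _).mp h))

variable (h2 : r ≠ 2)

set_option maxHeartbeats 1000000 in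
theorem piSym_cocyc (hrm : ¬ r ∣ m) (γ : Gamma0 m) (x : OnePoint (ZMod r)) :
    piSym m ((repsS hrm (two_ne_zero_of_odd h2)).cocyc γ x) = piSym m γ := by
  set R := repsS hrm (two_ne_zero_of_odd h2)
  have hodd : (r : ZMod 2) = 1 := ZMod.natCast_eq_one_iff_odd.mpr (hr.out.odd_of_ne_two h2)
  have h := congrArg (fun g : GL (Fin 2) ℝ => (g : Matrix (Fin 2) (Fin 2) ℝ)) (R.rep_mul γ x)
  have hg : ∀ δ : Gamma0 m, (gamma0GL m δ : Matrix (Fin 2) (Fin 2) ℝ) =
      ((δ : SL(2, ℤ)) : Matrix (Fin 2) (Fin 2) ℤ).map (Int.castRingHom ℝ) := fun δ =>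
    Matrix.ext fun i j => gamma0GL_apply δ i j
  simp only [Units.val_mul, R, repsS_rep, hg, val_scaledRep hr.out.ne_zero, ← Matrix.map_mul] at h
  have hint := Matrix.map_injective (Int.cast_injective (α := ℝ)) h
  have hone : ∀ z, (intRep r 2 z).map (Int.castRingHom (ZMod 2)) = 1 := by
    intro z
    induction z using OnePoint.rec with
    | infty =>
      show (!![(r : ℤ), 0; 0, 1]).map (Int.castRingHom (ZMod 2)) = 1
      ext i j
      fin_cases i <;> fin_cases j <;> simp [hodd]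
    | coe k =>
      show (!![1, ((2 * k.val : ℕ) : ℤ); 0, (r : ℤ)]).map (Int.castRingHom (ZMod 2)) = 1
      ext i j
      fin_cases i <;> fin_cases j <;>
        simp [hodd, show (2 : ZMod 2) = 0 by decide, -ZMod.natCast_val]
  have h' := congrArg (fun M : Matrix (Fin 2) (Fin 2) ℤ => M.map (Int.castRingHom (ZMod 2))) hint
  simp only [Matrix.map_mul, hone, one_mul, mul_one] at h'
  rw [toSym_map_eq, toSym_map_eq]
  exact congrArg _ (Subtype.ext h'.symm)

theorem incl2_cocyc (hrm : ¬ r ∣ m) (hr2m : ¬ r ∣ 2 * m) (γ : Gamma0 (2 * m))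
    (x : OnePoint (ZMod r)) :
    incl2 m ((repsS hr2m (two_ne_zero_of_odd h2)).cocyc γ x) =
      (repsS hrm (two_ne_zero_of_odd h2)).cocyc (incl2 m γ) x := by
  have hg : ∀ g : Gamma0 (2 * m), gamma0GL m (incl2 m g) = gamma0GL (2 * m) g := fun g =>
    Units.ext (Matrix.ext fun i j => by rw [gamma0GL_apply, gamma0GL_apply]; rfl)
  refine ((repsS hrm (two_ne_zero_of_odd h2)).eq_of_rep_eq
    (y := (repsS hr2m (two_ne_zero_of_odd h2)).perm γ x) ?_).2.symm
  rw [repsS_rep, repsS_rep, hg, hg]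
  exact (repsS hr2m (two_ne_zero_of_odd h2)).rep_mul γ x

theorem conjDown_cocyc (hrm : ¬ r ∣ m) (hr4m : ¬ r ∣ 4 * m) (γ : Gamma0 (4 * m))
    (x : OnePoint (ZMod r)) :
    conjDown m ((repsT hr4m).cocyc γ x) =
      (repsS hrm (two_ne_zero_of_odd h2)).cocyc (conjDown m γ) x := by
  set R := repsS hrm (two_ne_zero_of_odd h2)
  have hr0 := hr.out.ne_zero
  let D : GL (Fin 2) ℝ := Matrix.GeneralLinearGroup.mkOfDetNeZero !![(2 : ℝ), 0; 0, 1]
    (by simp [det_fin_two_of])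
  have hD : (D : Matrix (Fin 2) (Fin 2) ℝ) = !![(2 : ℝ), 0; 0, 1] := rfl
  have hc : ∀ g : Gamma0 (4 * m),
      gamma0GL m (conjDown m g) * D = D * gamma0GL (4 * m) g := fun g => by
    have e : ((g : SL(2, ℤ)) 1 0 / 2 : ℤ) * 2 = (g : SL(2, ℤ)) 1 0 :=
      Int.ediv_mul_cancel (Int.dvd_trans ⟨2 * (m : ℤ), by push_cast; ring⟩ (dvd_of_mem_Gamma0 g.2))
    have e' : (((g : SL(2, ℤ)) 1 0 / 2 : ℤ) : ℝ) * 2 = ((g : SL(2, ℤ)) 1 0 : ℝ) := by
      exact_mod_cast e
    apply Units.ext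
    rw [Units.val_mul, Units.val_mul, hD]
    ext i j
    fin_cases i <;> fin_cases j <;>
      simp [Matrix.mul_apply, Fin.sum_univ_two, gamma0GL_apply, coe_conjDown, e']
    ring
  have hrep : ∀ z, scaledRep r 2 z * D = D * heckeRep r z := fun z => by
    apply Units.ext
    rw [Units.val_mul, Units.val_mul, hD]
    induction z using OnePoint.rec with
    | infty =>
      show (ModularForm.heckeDiagMatrix r : Matrix (Fin 2) (Fin 2) ℝ) * _ =
        _ * (ModularForm.heckeDiagMatrix r : Matrix (Fin 2) (Fin 2) ℝ)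
      rw [ModularForm.val_heckeDiagMatrix hr0]
      ext i j
      fin_cases i <;> fin_cases j <;> simp [Matrix.mul_apply, Fin.sum_univ_two]
      ring
    | coe k =>
      show (ModularForm.heckeMatrix r (2 * k.val) : Matrix (Fin 2) (Fin 2) ℝ) * _ =
        _ * (ModularForm.heckeMatrix r k.val : Matrix (Fin 2) (Fin 2) ℝ)
      rw [ModularForm.val_heckeMatrix hr0, ModularForm.val_heckeMatrix hr0]
      ext i j
      fin_cases i <;> fin_cases j <;>
        simp [Matrix.mul_apply, Fin.sum_univ_two, -ZMod.natCast_val]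
  refine (R.eq_of_rep_eq (y := (repsT hr4m).perm γ x) ?_).2.symm
  have h := (repsT hr4m).rep_mul γ x
  rw [repsT_rep] at h
  apply mul_right_cancel (b := D)
  simp only [R, repsS_rep, mul_assoc]
  rw [hc, ← mul_assoc (scaledRep r 2 x), hrep, mul_assoc, h, hrep, ← mul_assoc, ← hc, mul_assoc]

end compat

end FLTA.RT.QTwo

end
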