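import Fermat.Agent.RT.FreeLift
import Fermat.Agent.RT.Qsq.TwoHecke
import Mathlib.Algebra.FreeAlgebra

/-!
# The descent from level `4 m` to level `2 m` on cohomology modulo `3`

A polynomial `t` in the good Hecke operators which kills `Hom(Γ₀(2 m), 𝔽₃)` gives, after
multiplication by Eisenstein factors, one which kills the cocycles of `Γ₀(m)` with values in the
permutation representation, hence in the sign representation (cocycles lift from the sign to the
vectors of sum zero, also at elliptic points), hence in the twisted permutation representation.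
Together these two contain `Hom(Γ₀(4 m), 𝔽₃)`.
-/

set_option autoImplicit false

noncomputable section

open CongruenceSubgroup
open scoped MatrixGroups OnePoint

open P2MW.S_ModularForm_heckeT_slash_eq_self_of_mem_Gamma0.ModularForm.HeckeSlashInvariance
  (heckeRep)

namespace FLTA.RT.QTwo

open FLTA.Periods

/-- Linear maps intertwining the generators intertwine all polynomials. -/
theorem lift_intertwine {σ : Type*} {A B : Type*} [AddCommGroup A] [AddCommGroup B]
    (fA : σ → Module.End ℤ A) (fB : σ → Module.End ℤ B) (J : A →ₗ[ℤ] B)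
    (h : ∀ l a, J (fA l a) = fB l (J a)) (t : FreeAlgebra ℤ σ) (a : A) :
    J (FreeAlgebra.lift ℤ fA t a) = FreeAlgebra.lift ℤ fB t (J a) := by
  induction t using FreeAlgebra.induction generalizing a with
  | grade0 r =>
    rw [AlgHom.commutes, AlgHom.commutes, Module.algebraMap_end_apply, Module.algebraMap_end_apply,
      map_zsmul]
  | grade1 l => simp only [FreeAlgebra.lift_ι_apply, h]
  | mul x y hx hy => simp only [map_mul, Module.End.mul_apply, hx, hy]
  | add x y hx hy => simp only [map_add, LinearMap.add_apply, hx, hy]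

/-- Primes outside `S`. -/
abbrev Good (S : Finset ℕ) : Type := {ℓ : Nat.Primes // (ℓ : ℕ) ∉ S}

instance {S : Finset ℕ} (l : Good S) : Fact ((l.1 : ℕ)).Prime := ⟨l.1.2⟩

instance {S : Finset ℕ} (l : Good S) : NeZero (l.1 : ℕ) := ⟨l.1.2.ne_zero⟩

/-- The transfer on all functions. -/
def opFun {Γ G : Type} [Group Γ] [Group G] {e : Γ →* G} {ι : Type} [Fintype ι]
    (R : HeckeReps e ι) (V : Type) [AddCommGroup V] : Module.End ℤ (Γ → V) where
  toFun f γ := ∑ x, f (R.cocyc γ x)
  map_add' f g := funext fun γ => Finset.sum_add_distrib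
  map_smul' c f := funext fun γ => (Finset.smul_sum (r := c)).symm

theorem opFun_apply {Γ G : Type} [Group Γ] [Group G] {e : Γ →* G} {ι : Type} [Fintype ι]
    (R : HeckeReps e ι) {V : Type} [AddCommGroup V] (f : Γ → V) (γ : Γ) :
    opFun R V f γ = ∑ x, f (R.cocyc γ x) := rfl

variable {m : ℕ} [NeZero m] {S : Finset ℕ}

/-- The excluded set contains the divisors of `4 m`. -/
def Covers (m : ℕ) (S : Finset ℕ) : Prop := ∀ ℓ : ℕ, ℓ.Prime → ℓ ∣ 4 * m → ℓ ∈ S

theorem Covers.not_dvd (hS : Covers m S) (l : Good S) {N : ℕ} (hN : N ∣ 4 * m) :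
    ¬ (l.1 : ℕ) ∣ N := fun h => l.2 (hS _ l.1.2 (h.trans hN))

theorem Covers.ne_two (hS : Covers m S) (l : Good S) : (l.1 : ℕ) ≠ 2 := fun h =>
  hS.not_dvd l (dvd_mul_right 4 m) (h ▸ (by norm_num : 2 ∣ 4))

variable (hS : Covers m S)

/-- The representatives at level `m`. -/
def reps (l : Good S) : HeckeReps (gamma0GL m) (OnePoint (ZMod (l.1 : ℕ))) :=
  repsS (hS.not_dvd l (dvd_mul_left m 4)) (two_ne_zero_of_odd (hS.ne_two l))

theorem piSym_reps (l : Good S) (γ : Gamma0 m) (x : OnePoint (ZMod (l.1 : ℕ))) :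
    piSym m ((reps hS l).cocyc γ x) = piSym m γ :=
  piSym_cocyc (hS.ne_two l) _ γ x

variable (V : Type) [AddCommGroup V]

/-- The good Hecke operators on all functions on `Γ₀(m)`. -/
def fnOp (l : Good S) : Module.End ℤ (Gamma0 m → V) := opFun (reps hS l) V

/-- Polynomials in the good Hecke operators on all functions on `Γ₀(m)`. -/
def fnLift : FreeAlgebra ℤ (Good S) →ₐ[ℤ] Module.End ℤ (Gamma0 m → V) :=
  FreeAlgebra.lift ℤ (fnOp hS V)

/-- Polynomials in the good Hecke operators on `Hom(Γ₀(N), V)`. -/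
def homLift (N : ℕ) [NeZero N] :
    FreeAlgebra ℤ (Good S) →ₐ[ℤ] Module.End ℤ (Additive (Gamma0 N) →+ V) :=
  FreeAlgebra.lift ℤ fun l => heckeHom ℤ N (l.1 : ℕ)

variable {V} {W : Type} [AddCommGroup W]

/-- Pushing forward functions. -/
def postMap (φ : V →+ W) : (Gamma0 m → V) →ₗ[ℤ] (Gamma0 m → W) where
  toFun f γ := φ (f γ)
  map_add' f g := funext fun γ => map_add φ _ _
  map_smul' c f := funext fun γ => map_zsmul φ c _

@[simp] theorem postMap_apply (φ : V →+ W) (f : Gamma0 m → V) (γ : Gamma0 m) :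
    postMap φ f γ = φ (f γ) := rfl

theorem fnLift_postMap (φ : V →+ W) (t : FreeAlgebra ℤ (Good S)) (f : Gamma0 m → V) :
    postMap φ (fnLift hS V t f) = fnLift hS W t (postMap φ f) :=
  lift_intertwine _ _ (postMap φ) (fun l g => funext fun γ => map_sum φ _ _) t f

/-- Cocycles. -/
def IsCoc (ρ : Rep V) (f : Gamma0 m → V) : Prop :=
  ∀ γ δ, f (γ * δ) = f γ + ρ (piSym m γ) (f δ)

theorem IsCoc.map_one {ρ : Rep V} {f : Gamma0 m → V} (h : IsCoc ρ f) : f 1 = 0 := by
  have h1 := h 1 1
  rw [mul_one, _root_.map_one, _root_.map_one] at h1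
  exact left_eq_add.mp h1

theorem isCoc_fnLift {ρ : Rep V} (t : FreeAlgebra ℤ (Good S)) {f : Gamma0 m → V}
    (hf : IsCoc ρ f) : IsCoc ρ (fnLift hS V t f) := by
  induction t using FreeAlgebra.induction generalizing f with
  | grade0 r =>
    intro γ δ
    rw [fnLift, AlgHom.commutes, Module.algebraMap_end_apply, Pi.smul_apply, Pi.smul_apply,
      Pi.smul_apply, hf, smul_add, map_zsmul]
  | grade1 l =>
    intro γ δ
    rw [fnLift, FreeAlgebra.lift_ι_apply]
    show ∑ x, f ((reps hS l).cocyc (γ * δ) x) = ∑ x, f ((reps hS l).cocyc γ x) +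
      ρ (piSym m γ) (∑ x, f ((reps hS l).cocyc δ x))
    have e : ∀ x, f ((reps hS l).cocyc (γ * δ) x) = f ((reps hS l).cocyc γ x) +
        ρ (piSym m γ) (f ((reps hS l).cocyc δ ((reps hS l).perm γ x))) := fun x => by
      rw [(reps hS l).cocyc_mul, hf, piSym_reps]
    rw [Finset.sum_congr rfl fun x _ => e x, Finset.sum_add_distrib, map_sum]
    congr 1
    exact Equiv.sum_comp ((reps hS l).permEquiv γ)
      fun x => ρ (piSym m γ) (f ((reps hS l).cocyc δ x))
  | mul a b ha hb => rw [map_mul]; exact ha (hb hf)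
  | add a b ha hb =>
    intro γ δ
    rw [map_add]
    show fnLift hS V a f (γ * δ) + fnLift hS V b f (γ * δ) = _
    rw [ha hf, hb hf, LinearMap.add_apply, Pi.add_apply, Pi.add_apply, map_add]
    abel

theorem isCoc_postMap {ρ : Rep V} {σ : Rep W} (φ : EquivMap ρ σ) {f : Gamma0 m → V}
    (hf : IsCoc ρ f) : IsCoc σ (postMap φ.map f) := fun γ δ => by
  rw [postMap_apply, postMap_apply, postMap_apply, hf, map_add, φ.comm]

/-- A coboundary. -/
def cobd (ρ : Rep V) (v : V) : Gamma0 m → V := fun γ => ρ (piSym m γ) v - v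

/-- The Eisenstein factor at `l`. -/
def eisPoly (l : Good S) : FreeAlgebra ℤ (Good S) :=
  FreeAlgebra.ι ℤ l - algebraMap ℤ _ ((l.1 : ℕ) + 1)

theorem fnLift_eisPoly_cobd (ρ : Rep V) (v : V) (l : Good S) :
    fnLift hS V (eisPoly l) (cobd ρ v : Gamma0 m → V) = 0 := by
  rw [fnLift, eisPoly, map_sub, FreeAlgebra.lift_ι_apply, AlgHom.commutes, LinearMap.sub_apply,
    Module.algebraMap_end_apply]
  funext γ
  show ∑ x, (ρ (piSym m ((reps hS l).cocyc γ x)) v - v) -
    (((l.1 : ℕ) : ℤ) + 1) • (ρ (piSym m γ) v - v) = 0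
  have hcard : Fintype.card (OnePoint (ZMod (l.1 : ℕ))) = (l.1 : ℕ) + 1 :=
    Fintype.card_option.trans (by rw [ZMod.card])
  have e : ∀ x, ρ (piSym m ((reps hS l).cocyc γ x)) v - v = ρ (piSym m γ) v - v := fun x => by
    rw [piSym_reps]
  rw [Finset.sum_congr rfl fun x _ => e x, Finset.sum_const, Finset.card_univ, hcard, ← natCast_zsmul, Nat.cast_succ, sub_self]

/-- `t` kills all cocycles. -/
def Kills (t : FreeAlgebra ℤ (Good S)) (ρ : Rep V) : Prop :=
  ∀ f : Gamma0 m → V, IsCoc ρ f → fnLift hS V t f = 0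

omit [NeZero m] in
theorem exists_piSym_eq (hm : Odd m) (s : Sym) : ∃ γ : Gamma0 m, piSym m γ = s := by
  have hT : (ModularGroup.T : SL(2, ℤ)) ∈ Gamma0 m :=
    mem_Gamma0_of_dvd (by simp [ModularGroup.coe_T])
  have hdet : (!![1, 0; (m : ℤ), 1] : Matrix (Fin 2) (Fin 2) ℤ).det = 1 := by simp
  have hU : (⟨_, hdet⟩ : SL(2, ℤ)) ∈ Gamma0 m := mem_Gamma0_of_dvd (by simp)
  have hm2 : ((m : ℤ) : ZMod 2) = 1 := by
    rw [Int.cast_natCast, ZMod.natCast_eq_one_iff_odd.mpr hm]
  have ht : piSym m ⟨_, hT⟩ = Equiv.swap 1 2 := by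
    refine Equiv.ext fun i => ?_
    show actF2 ((ModularGroup.T : Matrix (Fin 2) (Fin 2) ℤ).map (Int.castRingHom (ZMod 2))) i = _
    rw [ModularGroup.coe_T, show (!![1, 1; 0, 1] : Matrix (Fin 2) (Fin 2) ℤ).map
      (Int.castRingHom (ZMod 2)) = !![1, 1; 0, 1] by ext a b; fin_cases a <;> fin_cases b <;> simp]
    revert i
    decide
  have hu : piSym m ⟨_, hU⟩ = Equiv.swap 0 2 := by
    refine Equiv.ext fun i => ?_
    show actF2 ((!![1, 0; (m : ℤ), 1] : Matrix (Fin 2) (Fin 2) ℤ).map (Int.castRingHom (ZMod 2))) i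
      = _
    rw [show (!![1, 0; (m : ℤ), 1] : Matrix (Fin 2) (Fin 2) ℤ).map (Int.castRingHom (ZMod 2)) =
      !![1, 0; 1, 1] by
        ext a b
        fin_cases a <;> fin_cases b <;> simp [ZMod.natCast_eq_one_iff_odd.mpr hm]]
    revert i
    decide
  rcases sym_eq_word s with h | h | h | h | h | h
  · exact ⟨1, by rw [_root_.map_one, h]⟩
  · exact ⟨_, ht.trans h.symm⟩
  · exact ⟨_, hu.trans h.symm⟩
  · exact ⟨⟨_, hT⟩ * ⟨_, hU⟩, by rw [map_mul, ht, hu, h]⟩
  · exact ⟨⟨_, hU⟩ * ⟨_, hT⟩, by rw [map_mul, ht, hu, h]⟩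
  · exact ⟨⟨_, hT⟩ * ⟨_, hU⟩ * ⟨_, hT⟩, by rw [map_mul, map_mul, ht, hu, h]⟩

/-- Restriction to `Γ₀(2 m)` at the base point. -/
def resTwo : (Gamma0 m → Fin 3 → F3) →ₗ[ℤ] (Gamma0 (2 * m) → F3) where
  toFun f h := f (incl2 m h) 0
  map_add' _ _ := rfl
  map_smul' _ _ := rfl

/-- Forgetting that a homomorphism is one. -/
def coeHom (N : ℕ) : (Additive (Gamma0 N) →+ F3) →ₗ[ℤ] (Gamma0 N → F3) where
  toFun φ γ := φ (Additive.ofMul γ)
  map_add' _ _ := rfl
  map_smul' _ _ := rfl

/-- The representatives at level `2 m`. -/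
def repsTwo (l : Good S) : HeckeReps (gamma0GL (2 * m)) (OnePoint (ZMod (l.1 : ℕ))) :=
  repsS (hS.not_dvd l (mul_dvd_mul_right (by norm_num) m))
    (two_ne_zero_of_odd (hS.ne_two l))

theorem incl2_repsTwo (l : Good S) (h : Gamma0 (2 * m)) (x : OnePoint (ZMod (l.1 : ℕ))) :
    incl2 m ((repsTwo hS l).cocyc h x) = (reps hS l).cocyc (incl2 m h) x :=
  incl2_cocyc (hS.ne_two l) _ _ h x

theorem resTwo_fnOp (l : Good S) (a : Gamma0 m → Fin 3 → F3) :
    resTwo (fnOp hS (Fin 3 → F3) l a) = opFun (repsTwo hS l) F3 (resTwo a) := by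
  funext h
  show (∑ x, a ((reps hS l).cocyc (incl2 m h) x)) 0 =
    ∑ x, a (incl2 m ((repsTwo hS l).cocyc h x)) 0
  rw [Finset.sum_apply]
  exact Finset.sum_congr rfl fun x _ => by rw [incl2_repsTwo]

theorem coeHom_heckeHom_two (l : Good S) (a : Additive (Gamma0 (2 * m)) →+ F3) :
    coeHom _ (heckeHom ℤ (2 * m) (l.1 : ℕ) a) = opFun (repsTwo hS l) F3 (coeHom _ a) := by
  rw [repsTwo, ← repsS_transferHom (hS.not_dvd l (mul_dvd_mul_right (by norm_num) m))
    (two_ne_zero_of_odd (hS.ne_two l)) a]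
  rfl

omit [NeZero m] in
theorem apply_zero_of_resTwo (hm : Odd m) {g : Gamma0 m → Fin 3 → F3} (hres : resTwo g = 0)
    (h : Gamma0 m) (h0 : piSym m h 0 = 0) : g h 0 = 0 := by
  have e := congrFun hres (⟨_, piSym_apply_zero m h0 hm⟩ : Gamma0 (2 * m))
  have e2 : incl2 m ⟨(h : SL(2, ℤ)), piSym_apply_zero m h0 hm⟩ = h := Subtype.ext rfl
  rw [← e2]
  exact e

omit [NeZero m] in
/-- A cocycle vanishing on `Γ₀(2 m)` at the base point is a coboundary. -/
theorem exists_eq_cobd (hm : Odd m) {g : Gamma0 m → Fin 3 → F3} (hgc : IsCoc permRep g)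
    (hres : resTwo g = 0) : ∃ v, g = cobd permRep v := by
  choose d hd using fun x : Fin 3 => exists_piSym_eq hm (Equiv.swap x 0)
  have hd0 : ∀ x, piSym m (d x) x = 0 := fun x => by rw [hd, Equiv.swap_apply_left]
  refine ⟨fun x => g (d x) 0, funext fun γ => funext fun x => ?_⟩
  set x' := (piSym m γ)⁻¹ x with hx'
  obtain ⟨h, hdec⟩ : ∃ h, d x * γ = h * d x' :=
    ⟨d x * γ * (d x')⁻¹, (inv_mul_cancel_right _ _).symm⟩
  have hγx' : piSym m γ x' = x := by
    rw [hx']; exact Equiv.apply_symm_apply (piSym m γ) x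
  clear_value x'
  have hh0 : piSym m h 0 = 0 := by
    have h1 := Equiv.congr_fun (congrArg (piSym m) hdec) x'
    rw [map_mul (piSym m), map_mul (piSym m), Equiv.Perm.mul_apply, Equiv.Perm.mul_apply, hγx',
      hd0, hd0] at h1
    exact h1.symm
  have hg0 : g h 0 = 0 := apply_zero_of_resTwo hm hres h hh0
  have hinv : (piSym m h)⁻¹ 0 = 0 := by
    rw [Equiv.Perm.inv_eq_iff_eq]; exact hh0.symm
  have hinv' : (piSym m (d x))⁻¹ 0 = x := by
    rw [Equiv.Perm.inv_eq_iff_eq]; exact (hd0 x).symm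
  have h2 := congrFun (hgc (d x) γ) 0
  rw [hdec, hgc, Pi.add_apply, Pi.add_apply, permRep_apply, permRep_apply, hinv, hinv', hg0,
    zero_add] at h2
  show g γ x = g (d ((piSym m γ)⁻¹ x)) 0 - g (d x) 0
  rw [← hx', h2]
  abel

/-- Killing `Hom(Γ₀(2 m), 𝔽₃)` kills the cocycles in the permutation representation. -/
theorem kills_permRep (hm : Odd m) {t : FreeAlgebra ℤ (Good S)}
    (ht : ∀ φ : Additive (Gamma0 (2 * m)) →+ F3, homLift F3 (2 * m) t φ = 0) (l₀ : Good S) :
    Kills hS (eisPoly l₀ * t) permRep := by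
  intro f hf
  have hstab : ∀ h : Gamma0 (2 * m), (piSym m (incl2 m h))⁻¹ 0 = 0 := fun h => by
    rw [Equiv.Perm.inv_eq_iff_eq]
    exact (piSym_incl2 m h).symm
  let φ : Additive (Gamma0 (2 * m)) →+ F3 :=
    AddMonoidHom.mk' (fun h => f (incl2 m (Additive.toMul h)) 0) fun a b => by
      show f (incl2 m (Additive.toMul a * Additive.toMul b)) 0 = _
      rw [map_mul, hf, Pi.add_apply, permRep_apply, hstab]
  have hφ : resTwo f = coeHom (2 * m) φ := rfl
  have hres : resTwo (fnLift hS (Fin 3 → F3) t f) = 0 := by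
    rw [fnLift, lift_intertwine (fnOp hS (Fin 3 → F3)) (fun l => opFun (repsTwo hS l) F3) resTwo
      (resTwo_fnOp hS) t f, hφ,
      ← lift_intertwine (fun l : Good S => heckeHom (A := F3) ℤ (2 * m) (l.1 : ℕ))
        (fun l => opFun (repsTwo hS l) F3) (coeHom _) (coeHom_heckeHom_two hS) t φ]
    have h0 := ht φ
    rw [homLift] at h0
    rw [h0, map_zero]
  obtain ⟨v, hv⟩ := exists_eq_cobd hm (isCoc_fnLift hS t hf) hres
  rw [map_mul, Module.End.mul_apply, hv, fnLift_eisPoly_cobd]

section lifting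

/-- Vectors of sum zero with a permutation, as a group. -/
@[ext]
structure AffPair where
  /-- the translation -/
  vec : Fin 3 → F3
  /-- the permutation -/
  sym : Sym
  sum_vec : vec 0 + vec 1 + vec 2 = 0

instance : One AffPair := ⟨⟨0, 1, by simp⟩⟩

instance : Mul AffPair :=
  ⟨fun a b => ⟨a.vec + permRep a.sym b.vec, a.sym * b.sym, by
    have h1 := a.sum_vec
    have h2 := sum_permRep a.sym b.vec
    simp only [Pi.add_apply]
    linear_combination h1 + h2 + b.sum_vec⟩⟩

instance : Inv AffPair :=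
  ⟨fun a => ⟨-permRep a.sym⁻¹ a.vec, a.sym⁻¹, by
    have h2 := sum_permRep a.sym⁻¹ a.vec
    simp only [Pi.neg_apply]
    linear_combination -h2 - a.sum_vec⟩⟩

theorem AffPair.mul_vec (a b : AffPair) : (a * b).vec = a.vec + permRep a.sym b.vec := rfl

theorem AffPair.mul_sym (a b : AffPair) : (a * b).sym = a.sym * b.sym := rfl

instance : Group AffPair where
  mul_assoc a b c := by
    refine AffPair.ext ?_ (mul_assoc _ _ _)
    rw [AffPair.mul_vec, AffPair.mul_vec, AffPair.mul_vec, AffPair.mul_vec, AffPair.mul_sym,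
      map_mul, map_add]
    exact (add_assoc _ _ _)
  one_mul a := AffPair.ext (zero_add _) (one_mul _)
  mul_one a := AffPair.ext (by rw [AffPair.mul_vec]; exact (congrArg _ (map_zero _)).trans (add_zero _))
    (mul_one _)
  inv_mul_cancel a := AffPair.ext (neg_add_cancel _) (inv_mul_cancel _)

/-- The sign with a permutation, as a group. -/
@[ext]
structure SignPair where
  /-- the translation -/
  val : F3
  /-- the permutation -/
  sym : Sym

instance : One SignPair := ⟨⟨0, 1⟩⟩

instance : Mul SignPair := ⟨fun a b => ⟨a.val + signRep a.sym b.val, a.sym * b.sym⟩⟩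

instance : Inv SignPair := ⟨fun a => ⟨-signRep a.sym⁻¹ a.val, a.sym⁻¹⟩⟩

theorem SignPair.mul_val (a b : SignPair) : (a * b).val = a.val + signRep a.sym b.val := rfl

theorem SignPair.mul_sym (a b : SignPair) : (a * b).sym = a.sym * b.sym := rfl

instance : Group SignPair where
  mul_assoc a b c := by
    refine SignPair.ext ?_ (mul_assoc _ _ _)
    rw [SignPair.mul_val, SignPair.mul_val, SignPair.mul_val, SignPair.mul_val, SignPair.mul_sym,
      map_mul, map_add]
    exact (add_assoc _ _ _)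
  one_mul a := SignPair.ext (by
      rw [SignPair.mul_val]
      show 0 + signRep 1 a.val = a.val
      rw [zero_add, _root_.map_one]; rfl) (one_mul _)
  mul_one a := SignPair.ext (by rw [SignPair.mul_val]; exact (congrArg _ (map_zero _)).trans (add_zero _))
    (mul_one _)
  inv_mul_cancel a := SignPair.ext (neg_add_cancel _) (inv_mul_cancel _)

/-- The map to the sign. -/
def affToSign : AffPair →* SignPair where
  toFun a := ⟨theta a.vec, a.sym⟩
  map_one' := SignPair.ext (map_zero theta) rfl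
  map_mul' a b := SignPair.ext (by
    rw [AffPair.mul_vec, map_add, theta_comm _ _ b.sum_vec]
    rfl) rfl

/-- Cocycles with values in the sign lift to vectors of sum zero. -/
theorem exists_lift_sign {f : Gamma0 m → F3} (hf : IsCoc signRep f) :
    ∃ F : Gamma0 m → Fin 3 → F3, IsCoc permRep F ∧ postMap theta F = f := by
  let φ : Gamma0 m →* SignPair :=
    { toFun := fun γ => ⟨f γ, piSym m γ⟩
      map_one' := SignPair.ext hf.map_one (map_one (piSym m))
      map_mul' := fun γ δ => SignPair.ext (hf γ δ) (map_mul (piSym m) γ δ) }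
  have hneg : (-1 : SL(2, ℤ)) ∈ Gamma0 m := mem_Gamma0_of_dvd (by simp)
  have hπneg : piSym m ⟨-1, hneg⟩ = 1 := by
    refine Equiv.ext fun i => ?_
    show actF2 ((-1 : Matrix (Fin 2) (Fin 2) ℤ).map (Int.castRingHom (ZMod 2))) i = i
    rw [show ((-1 : Matrix (Fin 2) (Fin 2) ℤ).map (Int.castRingHom (ZMod 2))) = 1 by
      ext a b; fin_cases a <;> fin_cases b <;> simp [show (-1 : ZMod 2) = 1 by decide]]
    exact actF2_one i
  have hφneg : φ ⟨-1, hneg⟩ = 1 := by
    refine SignPair.ext ?_ hπneg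
    have h := hf ⟨-1, hneg⟩ ⟨-1, hneg⟩
    rw [show (⟨-1, hneg⟩ : Gamma0 m) * ⟨-1, hneg⟩ = 1 from Subtype.ext (by simp), hf.map_one,
      hπneg, _root_.map_one] at h
    have h3 : ∀ z : F3, 0 = z + z → z = 0 := by decide
    exact h3 _ h
  have hsurj : Function.Surjective affToSign := fun b => by
    obtain ⟨v, hv, hθ⟩ := theta_surjective b.val
    exact ⟨⟨v, b.sym, hv⟩, SignPair.ext hθ rfl⟩
  obtain ⟨g, hg⟩ := exists_lift_of_subgroup affToSign hsurj
    (fun b hb => by
      rw [pow_two] at hb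
      obtain ⟨v, hv, hθ, hv2⟩ :=
        exists_lift_two b.sym b.val (congrArg SignPair.sym hb) (congrArg SignPair.val hb)
      refine ⟨⟨v, b.sym, hv⟩, SignPair.ext hθ rfl, ?_⟩
      rw [pow_two]
      exact AffPair.ext hv2 (congrArg SignPair.sym hb))
    (Gamma0 m) hneg
    (Or.inr fun b hb => by
      rw [pow_three'] at hb
      obtain ⟨v, hv, hθ, hv3⟩ :=
        exists_lift_three b.sym b.val (congrArg SignPair.sym hb) (congrArg SignPair.val hb)
      refine ⟨⟨v, b.sym, hv⟩, SignPair.ext hθ rfl, ?_⟩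
      rw [pow_three']
      exact AffPair.ext hv3 (congrArg SignPair.sym hb))
    φ hφneg
  have hsym : ∀ γ, (g γ).sym = piSym m γ := fun γ =>
    congrArg SignPair.sym (DFunLike.congr_fun hg γ)
  refine ⟨fun γ => (g γ).vec, fun γ δ => ?_, funext fun γ => ?_⟩
  · show (g (γ * δ)).vec = (g γ).vec + permRep (piSym m γ) (g δ).vec
    rw [map_mul, AffPair.mul_vec, hsym]
  · exact congrArg SignPair.val (DFunLike.congr_fun hg γ)

end lifting

theorem kills_signRep {t : FreeAlgebra ℤ (Good S)} (h : Kills hS t permRep) :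
    Kills hS t signRep := by
  intro f hf
  obtain ⟨F, hF, rfl⟩ := exists_lift_sign hf
  rw [← fnLift_postMap, h F hF, map_zero]

theorem kills_twistRep {t : FreeAlgebra ℤ (Good S)} (h : Kills hS t permRep) :
    Kills hS (t * t) twistRep := by
  intro f hf
  set g := fnLift hS (Fin 3 → F3) t f with hg
  have hconst : g = postMap constMap.map (fun γ => g γ 0) := by
    funext γ
    have h0 : postMap diffMap.map g = 0 := by
      rw [hg, fnLift_postMap]
      exact h _ (isCoc_postMap diffMap hf)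
    exact eq_const_of_diffMap_eq_zero (g γ) (congrFun h0 γ)
  have hu : IsCoc signRep fun γ => g γ 0 := fun γ δ => by
    have h1 := congrFun (isCoc_fnLift hS t hf γ δ) 0
    rw [Pi.add_apply, twistRep_apply] at h1
    have h2 : fnLift hS (Fin 3 → F3) t f δ ((piSym m γ)⁻¹ 0) = g δ 0 := congrFun (congrFun hconst δ) _
    show fnLift hS (Fin 3 → F3) t f (γ * δ) 0 = _
    rw [h1, h2]
    rfl
  rw [map_mul, Module.End.mul_apply, ← hg, hconst, ← fnLift_postMap,
    kills_signRep hS h _ hu, map_zero]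

/-- Evaluation on `Γ₀(4 m)` at the base point. -/
def resFour : (Gamma0 m → Fin 3 → F3) →ₗ[ℤ] (Gamma0 (4 * m) → F3) where
  toFun f g := f (conjDown m g) 0
  map_add' _ _ := rfl
  map_smul' _ _ := rfl

/-- The representatives at level `4 m`. -/
def repsFour (l : Good S) : HeckeReps (gamma0GL (4 * m)) (OnePoint (ZMod (l.1 : ℕ))) :=
  repsT (hS.not_dvd l dvd_rfl)

theorem conjDown_repsFour (l : Good S) (g : Gamma0 (4 * m)) (x : OnePoint (ZMod (l.1 : ℕ))) :
    conjDown m ((repsFour hS l).cocyc g x) = (reps hS l).cocyc (conjDown m g) x :=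
  conjDown_cocyc (hS.ne_two l) _ _ g x

theorem resFour_fnOp (l : Good S) (a : Gamma0 m → Fin 3 → F3) :
    resFour (fnOp hS (Fin 3 → F3) l a) = opFun (repsFour hS l) F3 (resFour a) := by
  funext g
  show (∑ x, a ((reps hS l).cocyc (conjDown m g) x)) 0 =
    ∑ x, a (conjDown m ((repsFour hS l).cocyc g x)) 0
  rw [Finset.sum_apply]
  exact Finset.sum_congr rfl fun x _ => by rw [conjDown_repsFour]

theorem coeHom_heckeHom_four (l : Good S) (a : Additive (Gamma0 (4 * m)) →+ F3) :
    coeHom _ (heckeHom ℤ (4 * m) (l.1 : ℕ) a) = opFun (repsFour hS l) F3 (coeHom _ a) := by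
  rw [repsFour, heckeHom_of_not_dvd ℤ l.1.2 (hS.not_dvd l dvd_rfl)]
  rfl

/-- A polynomial killing both kinds of cocycles kills `Hom(Γ₀(4 m), 𝔽₃)`. -/
theorem homLift_four_eq_zero (hm : Odd m) {t : FreeAlgebra ℤ (Good S)}
    (hP : Kills hS t permRep) (hM : Kills hS t twistRep)
    (φ : Additive (Gamma0 (4 * m)) →+ F3) : homLift F3 (4 * m) t φ = 0 := by
  classical
  choose sec hsec using fun y => exists_piSym_eq (m := m) hm y
  let sec' : Sym → Gamma0 m := fun y => if y = 1 then 1 else sec y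
  have hsec' : ∀ y, piSym m (sec' y) = y := fun y => by
    show piSym m (if y = 1 then 1 else sec y) = y
    split_ifs with h
    · rw [_root_.map_one, h]
    · exact hsec y
  have hker : ∀ y γ, piSym m (sec' y * γ * (sec' (y * piSym m γ))⁻¹) = 1 := fun y γ => by
    rw [map_mul, map_mul, map_inv, hsec', hsec', mul_inv_cancel]
  choose pre hpre using fun (y : Sym) (γ : Gamma0 m) => exists_conjDown_eq m hm (hker y γ)
  let Φ : Gamma0 m → Sym → F3 := fun γ y => φ (Additive.ofMul (pre y γ))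
  have hΦ : IsCoc regRep Φ := fun γ δ => by
    funext y
    show φ _ = φ _ + φ (Additive.ofMul (pre (y * piSym m γ) δ))
    rw [← map_add, ← ofMul_mul]
    refine congrArg (fun z => φ (Additive.ofMul z)) (conjDown_injective m ?_)
    rw [hpre, map_mul (conjDown m), hpre, hpre, map_mul, ← mul_assoc (y : Sym)]
    group
  have hint : ∀ F, resFour (fnLift hS (Fin 3 → F3) t F) =
      FreeAlgebra.lift ℤ (fun l => opFun (repsFour hS l) F3) t (resFour F) :=
    lift_intertwine (fnOp hS (Fin 3 → F3)) (fun l => opFun (repsFour hS l) F3) resFour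
      (resFour_fnOp hS) t
  have hval : coeHom _ φ + coeHom _ φ
      = resFour (postMap sumMap.map Φ) + resFour (postMap signedSumMap.map Φ) := by
    funext g
    show φ _ + φ _ = sumMap.map (Φ (conjDown m g)) 0 + signedSumMap.map (Φ (conjDown m g)) 0
    rw [sumMap_add_signedSumMap_zero, two_mul]
    have h1 : pre 1 (conjDown m g) = g := conjDown_injective m (by
      rw [hpre, piSym_conjDown, mul_one]
      simp [sec'])
    show _ = φ (Additive.ofMul (pre 1 (conjDown m g))) + φ (Additive.ofMul (pre 1 (conjDown m g)))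
    rw [h1]
  have hhom : ∀ ψ, coeHom _ (homLift F3 (4 * m) t ψ) =
      FreeAlgebra.lift ℤ (fun l => opFun (repsFour hS l) F3) t (coeHom _ ψ) :=
    lift_intertwine (fun l : Good S => heckeHom (A := F3) ℤ (4 * m) (l.1 : ℕ))
      (fun l => opFun (repsFour hS l) F3) (coeHom _) (coeHom_heckeHom_four hS) t
  have h0 : coeHom _ (homLift F3 (4 * m) t φ) + coeHom _ (homLift F3 (4 * m) t φ) = 0 := by
    rw [hhom, ← map_add, hval, map_add, ← hint, ← hint, hP _ (isCoc_postMap sumMap hΦ),
      hM _ (isCoc_postMap signedSumMap hΦ), map_zero, add_zero]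
  refine AddMonoidHom.ext fun g => ?_
  have h3 : ∀ z : F3, z + z = 0 → z = 0 := by decide
  exact h3 _ (congrFun h0 (Additive.toMul g))

end FLTA.RT.QTwo

end
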