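import Fermat.Agent.RT.Qsq.TwoCocycles
import Fermat.Agent.RT.S59Interface
import Fermat.Agent.RT.CoeffPoint
import Fermat.Agent.RT.HeckeLocalBoundary
import Fermat.Agent.RT.Main.SystemEigen
import Fermat.Agent.LevelLowering.GlobalCurve
import Fermat.Agent.LevelRaising.Irreducible
import Fermat.Agent.Gamma0.Complex.Main

/-!
# The square of `2` leaves the level modulo `3`

`sqDescentTwo_three`: an irreducible residual representation modulo `3` occurring at level `4 m`,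
`m` odd, occurs at level `2 m`.
-/

set_option autoImplicit false

noncomputable section

open CongruenceSubgroup WeierstrassCurve
open scoped MatrixGroups

namespace FLTA.RT.QTwo

open FLTA.Periods

variable {m : ℕ} [NeZero m] {S : Finset ℕ}

/-- A parabolic homomorphism of `Γ₀(2 m)` modulo `3` factors through the parabolic lattice. -/
theorem exists_factor_parMk (φ : Additive (Gamma0 (2 * m)) →+ F3)
    (hφ : ModularCurve.Period.IsParabolicHom (Gamma0 (2 * m)) φ) :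
    ∃ u : parQuot (Gamma0 (2 * m)) →+ F3, u.comp (parMk (Gamma0 (2 * m))) = φ := by
  have hpar : FLTA.Gamma0.IsParHom0 (Gamma0 (2 * m)) φ := by
    intro γ hγ
    rcases (show _ ≤ (4 : ℤ) from hγ).lt_or_eq with hlt | heq
    · have hd := (γ : SL(2, ℤ)).2
      obtain ⟨k, hk⟩ := dvd_of_mem_Gamma0 γ.2
      have hdd : ((((γ : SL(2, ℤ)) : Matrix (Fin 2) (Fin 2) ℤ) 0 0 : ℤ) : ZMod 2) *
          ((((γ : SL(2, ℤ)) : Matrix (Fin 2) (Fin 2) ℤ) 1 1 : ℤ) : ZMod 2) = 1 := by
        have h := congrArg (Int.cast : ℤ → ZMod 2) hd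
        rw [Matrix.det_fin_two, hk] at h
        push_cast at h
        rwa [show (2 : ZMod 2) = 0 by decide, zero_mul, zero_mul, mul_zero, sub_zero] at h
      have hpar2 : ∀ a b : ZMod 2, a * b = 1 → a + b = 0 := by decide
      have heven : (2 : ℤ) ∣ ((γ : SL(2, ℤ)) : Matrix (Fin 2) (Fin 2) ℤ).trace := by
        refine (ZMod.intCast_zmod_eq_zero_iff_dvd _ 2).mp ?_
        rw [Matrix.trace_fin_two, Int.cast_add]
        exact hpar2 _ _ hdd
      obtain ⟨j, hj⟩ := heven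
      have hj0 : ((γ : SL(2, ℤ)) : Matrix (Fin 2) (Fin 2) ℤ).trace = 0 := by
        rw [hj] at hlt ⊢
        have hj2 : j ^ 2 < 1 := by nlinarith
        have : j = 0 := by nlinarith [sq_nonneg j, sq_abs j, abs_nonneg j]
        simp [this]
      have hsq : ((γ : SL(2, ℤ)) : Matrix (Fin 2) (Fin 2) ℤ) * ((γ : SL(2, ℤ)) : Matrix _ _ ℤ)
          = -1 := by
        rw [mul_self_eq_trace_smul_sub_one _ hd, hj0, zero_smul, zero_sub]
      have h4 : γ ^ 4 = 1 := by
        refine Subtype.ext (Subtype.ext ?_)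
        show ((γ : SL(2, ℤ)) : Matrix (Fin 2) (Fin 2) ℤ) ^ 4 = 1
        have key : ∀ M : Matrix (Fin 2) (Fin 2) ℤ, M * M = -1 → M ^ 4 = 1 := fun M hM => by
          rw [show M ^ 4 = (M * M) * (M * M) by simp [pow_succ, mul_assoc], hM]
          simp
        exact key _ hsq
      have h := map_nsmul φ 4 (Additive.ofMul γ)
      rw [← ofMul_pow, h4, ofMul_one, map_zero] at h
      have h3 : ∀ z : F3, 0 = 4 • z → z = 0 := by decide
      exact h3 _ h
    · exact hφ γ heq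
  obtain ⟨ψ, hψ⟩ := FLTA.Gamma0.homPar0Map_surjective (N := 2 * m) (Int.castAddHom F3)
    (fun z => ZMod.intCast_surjective z) ⟨φ, hpar⟩
  obtain ⟨u, hu⟩ := exists_parQuot_factor (φ := (ψ : Additive (Gamma0 (2 * m)) →+ ℤ))
    (fun γ hγ => ψ.2 γ hγ.le)
  refine ⟨(Int.castAddHom F3).comp u, ?_⟩
  rw [AddMonoidHom.comp_assoc, hu]
  exact congrArg Subtype.val hψ

variable {hS : ∀ ℓ : ℕ, ℓ.Prime → ℓ ∣ 2 * m → ℓ ∈ S}

/-- On homomorphisms factoring through the parabolic lattice the polynomials act through the Hecke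
algebra. -/
theorem homLift_comp_parMk (t : FreeAlgebra ℤ (Good S)) (u : parQuot (Gamma0 (2 * m)) →+ F3) :
    homLift F3 (2 * m) t (u.comp (parMk (Gamma0 (2 * m)))) =
      (u.comp (heckeQuot (2 * m)
        (LevelLowering.heckeLiftFull (2 * m) S hS t)).toAddMonoidHom).comp
        (parMk (Gamma0 (2 * m))) := by
  induction t using FreeAlgebra.induction generalizing u with
  | grade0 r =>
    rw [AlgHom.commutes, AlgHom.commutes, eq_intCast, eq_intCast, map_intCast,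
      Module.End.intCast_apply]
    ext γ
    simp
  | grade1 l =>
    rw [homLift, FreeAlgebra.lift_ι_apply, LevelLowering.heckeLiftFull_ι,
      AddMonoidHom.comp_assoc, heckeQuot_T_comp_parMk, ← heckeHom_comp]
  | mul a b ha hb =>
    rw [map_mul, Module.End.mul_apply, hb, ha, map_mul,
      mul_comm (LevelLowering.heckeLiftFull (2 * m) S hS a), map_mul]
    rfl
  | add a b ha hb =>
    rw [map_add, LinearMap.add_apply, ha, hb, map_add, map_add]
    ext γ
    simp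

/-- A polynomial killing cusp forms of level `2 m` kills `Hom(Γ₀(2 m), 𝔽₃)` after an Eisenstein
factor at a prime congruent to `1`. -/
theorem homLift_two_eq_zero {t : FreeAlgebra ℤ (Good S)}
    (ht : LevelLowering.heckeLiftFull (2 * m) S hS t = 0) (l₀ : Good S)
    (hl₀ : ((l₀.1 : ℕ) : ZMod (2 * m)) = 1) (φ : Additive (Gamma0 (2 * m)) →+ F3) :
    homLift F3 (2 * m) (t * eisPoly l₀) φ = 0 := by
  have hnd : ¬ (l₀.1 : ℕ) ∣ 2 * m := fun h => l₀.2 (hS _ l₀.1.2 h)
  have h2 : ∀ z : F3, 2 • z = 0 → z = 0 := by decide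
  have hpar := isParabolicHom_of_eisenstein ℤ h2 hnd hl₀ φ
  have he : homLift F3 (2 * m) (eisPoly l₀) φ =
      heckeHom ℤ (2 * m) (l₀.1 : ℕ) φ - ((l₀.1 : ℕ) + 1) • φ := by
    rw [eisPoly, map_sub, homLift, FreeAlgebra.lift_ι_apply, AlgHom.commutes, LinearMap.sub_apply,
      Module.algebraMap_end_apply]
    congr 1
  obtain ⟨u, hu⟩ := exists_factor_parMk _ hpar
  rw [map_mul, Module.End.mul_apply, he, ← hu, homLift_comp_parMk (hS := hS), ht, map_zero]
  ext γ
  simp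

/-- An eigenclass is an eigenvector of every polynomial. -/
theorem homLift_eigen {N : ℕ} [NeZero N] (a : ℕ → ℤ) (v : Additive (Gamma0 N) →+ F3)
    (hv : ∀ l : Good S, heckeHom (ZMod 3) N (l.1 : ℕ) v = (a (l.1 : ℕ) : ZMod 3) • v)
    (t : FreeAlgebra ℤ (Good S)) :
    homLift F3 N t v = LevelLowering.heckeLiftMod 3 a S t • v := by
  induction t using FreeAlgebra.induction with
  | grade0 r =>
    rw [AlgHom.commutes, AlgHom.commutes, Module.algebraMap_end_apply, eq_intCast,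
      Int.cast_smul_eq_zsmul]
  | grade1 l =>
    rw [homLift, LevelLowering.heckeLiftMod, FreeAlgebra.lift_ι_apply, FreeAlgebra.lift_ι_apply,
      ← hv, heckeHom_eq_int (ZMod 3)]
  | mul x y hx hy =>
    rw [map_mul, Module.End.mul_apply, hy, map_mul, mul_comm, mul_smul]
    obtain ⟨z, hz⟩ := ZMod.intCast_surjective (LevelLowering.heckeLiftMod 3 a S y)
    rw [← hz, Int.cast_smul_eq_zsmul, Int.cast_smul_eq_zsmul, map_zsmul, hx]
  | add x y hx hy => rw [map_add, LinearMap.add_apply, hx, hy, map_add, add_smul]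

end FLTA.RT.QTwo

namespace FLTA.RT

open QTwo FLTA.Periods

/-- **Descent from `4 m` to `2 m` modulo `3`.** -/
theorem sqDescentTwo_three {W : WeierstrassCurve ℤ} (hΔ : W.Δ ≠ 0)
    (hirr : W.ModRepIsIrreducible 3) {m : ℕ} (hm : Odd m)
    (h : W.IsResiduallyModularOfLevel 3 (4 * m)) :
    W.IsResiduallyModularOfLevel 3 (2 * m) := by
  classical
  haveI : Fact (Nat.Prime 3) := ⟨Nat.prime_three⟩
  haveI : NeZero m := ⟨fun h0 => by simp [h0] at hm⟩
  haveI : (W.map (Int.castRingHom ℚ)).IsElliptic :=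
    ⟨by rw [WeierstrassCurve.map_Δ, isUnit_iff_ne_zero]; simpa using hΔ⟩
  set S : Finset ℕ := {3} ∪ (4 * m).primeFactors ∪ W.Δ.natAbs.primeFactors with hSdef
  have hS : Covers m S := fun ℓ hℓ hd => by
    simp [hSdef, Nat.mem_primeFactors, hℓ, hd, NeZero.ne m]
  have hbad : ∀ ℓ : ℕ, ℓ.Prime → ¬ W.IsGoodPrimeFor ℓ → ℓ ∈ S := fun ℓ hℓ h => by
    have hd : ℓ ∣ W.Δ.natAbs := Int.natCast_dvd.1 (not_not.1 h)
    simp [hSdef, Nat.mem_primeFactors, hℓ, hd, hΔ]
  have hS2 : ∀ ℓ : ℕ, ℓ.Prime → ℓ ∣ 2 * m → ℓ ∈ S := fun ℓ hℓ hd =>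
    hS ℓ hℓ (hd.trans (mul_dvd_mul_right (by norm_num) m))
  by_cases hsep : ∀ t, LevelLowering.heckeLiftFull (2 * m) S hS2 t = 0 →
      LevelLowering.heckeLiftMod 3 (fun ℓ => W.apOfModel ℓ) S t = 0
  · obtain ⟨f, 𝔪, hf, h𝔪, hp𝔪, hcong⟩ :=
      LevelLowering.exists_eigenform_of_no_separator 3 _ (2 * m) S hS2 hsep
    obtain ⟨φ, hφ⟩ := exists_ringHom_of_isMaximal h𝔪 hp𝔪
    refine HasSystem.isResiduallyModularOfLevel hΔ (by norm_num) ⟨f, hf, φ, S, fun ℓ hℓ hℓS => ?_⟩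
    obtain ⟨c, hc, hc'⟩ := hcong ℓ hℓ hℓS
    refine ⟨c, hc, ?_⟩
    rw [← hφ, RingHom.mem_ker, map_sub, map_intCast, sub_eq_zero] at hc'
    exact hc'
  push Not at hsep
  obtain ⟨t, ht0, ht1⟩ := hsep
  exfalso
  obtain ⟨l, hl, hlS, -, -, hl1, hne⟩ := LevelRaising.exists_good_prime_one_mod_ne
    (W.map (Int.castRingHom ℚ)) (W := W) ⟨1, one_smul _ _⟩ Nat.prime_three (by norm_num) hirr
    (M := 2 * m) (NeZero.ne _) S
  let l₀ : Good S := ⟨⟨l, hl⟩, hlS⟩
  set t₁ := eisPoly l₀ * (t * eisPoly l₀) with ht₁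
  have hP : Kills hS t₁ permRep :=
    kills_permRep hS hm (homLift_two_eq_zero ht0 l₀ hl1) l₀
  have hP2 : Kills hS (t₁ * t₁) permRep := fun f hf => by
    rw [map_mul, Module.End.mul_apply, hP f hf, map_zero]
  obtain ⟨v, hv0, hv⟩ := exists_eigenclass (p := 3) (L := 4 * m) h
  have h0 := homLift_four_eq_zero hS hm hP2 (kills_twistRep hS hP) v
  have hgood : ∀ k : Good S, heckeHom (ZMod 3) (4 * m) (k.1 : ℕ) v =
      (W.apOfModel (k.1 : ℕ) : ZMod 3) • v := fun k =>
    hv _ k.1.2 (by_contra fun hb => k.2 (hbad _ k.1.2 hb)) (hS.not_dvd k dvd_rfl)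
      fun h3 => k.2 (by simp [hSdef, h3])
  rw [homLift_eigen (fun ℓ => W.apOfModel ℓ) v hgood] at h0
  refine hv0 ((smul_eq_zero.mp h0).resolve_left ?_)
  have he : LevelLowering.heckeLiftMod 3 (fun ℓ => W.apOfModel ℓ) S (eisPoly l₀) ≠ 0 := by
    rw [eisPoly, map_sub, AlgHom.commutes, LevelLowering.heckeLiftMod, FreeAlgebra.lift_ι_apply,
      eq_intCast, sub_ne_zero]
    push_cast
    exact hne
  have h1 : LevelLowering.heckeLiftMod 3 (fun ℓ => W.apOfModel ℓ) S t₁ ≠ 0 := by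
    rw [ht₁, map_mul, map_mul]
    exact mul_ne_zero he (mul_ne_zero ht1 he)
  rw [map_mul]
  exact mul_ne_zero h1 h1

end FLTA.RT

end
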