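import Fermat.Agent.RT.Qsq.Easy
import Fermat.Agent.RT.Qsq.Main
import Fermat.Agent.RT.Qsq.TwoThree

/-!
# The last square leaves the level at `p = 5`, and `SqDescentTwo`

`2 ≢ ±1 (mod 5)`: the local statement is Carayol's, pulled back to the auxiliary level
`lcm(m, 9)`, whose degree over level `m` is prime to `5`.
-/

set_option autoImplicit false
set_option maxHeartbeats 800000

noncomputable section

open WeierstrassCurve ModularCurve AlgebraicCurve
open FLTA.LevelLowering (CurveGlobalData)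

namespace FLTA.RT.Qsq

open FLTA.EllReducible (Tors)

local notation "Qb" => AlgebraicClosure ℚ

/-- The degree of raising the level. -/
theorem finrankAlong_incl_mul_dedekindPsi (K : Type) [Field K] [Algebra ℚ K] {m n : ℕ} [NeZero m]
    [NeZero n] (h : m ∣ n) :
    dedekindPsi m * finrankAlong K (Carayol.Bridge.incl K h) =
      dedekindPsi n := by
  have hmem : ∀ (M : ℕ) [NeZero M] (x : LaurentSeries K),
      x ∈ FLTA.Igusa.fullOver K M ↔ x ∈ Carayol.Bridge.fld K M := by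
    intro M _ x
    rw [FLTA.Igusa.mem_fullOver_iff, Carayol.Bridge.fld_eq_full]
  have hle : FLTA.Igusa.fullOver K m ≤ FLTA.Igusa.fullOver K n := fun x hx => by
    rw [hmem] at hx ⊢
    exact Carayol.Bridge.fld_mono K h hx
  have h3 := FLTA.Congruence.finrank_mul_of_le hle
  rw [FLTA.Igusa.finrank_fullOver K m (Carayol.Bridge.natCast_ne_zero' K m),
    FLTA.Igusa.finrank_fullOver K n (Carayol.Bridge.natCast_ne_zero' K n)] at h3
  rw [FLTA.Congruence.finrankAlong_eq_of_carrier (hmem m) (hmem n) hle _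
    (fun x => Carayol.Bridge.coe_incl K h x)]
  linear_combination h3

/-- The degree from level `4 m` to `4 lcm (m, 9)` is prime to `5`. -/
theorem not_five_dvd_degree {m : ℕ} [NeZero m] [NeZero (Nat.lcm m 9)]
    (h : m * 2 * 2 ∣ Nat.lcm m 9 * 2 * 2) :
    ¬ 5 ∣ finrankAlong Qb (Carayol.Bridge.incl Qb h) := by
  have hd := finrankAlong_incl_mul_dedekindPsi Qb h
  have hpos : 0 < dedekindPsi (m * 2 * 2) := FLTA.Igusa.dedekindPsi_pos _
  have step : ∀ n : ℕ, [NeZero n] → ∃ d, (d = 3 ∨ d = 4) ∧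
      dedekindPsi (n * 3) = dedekindPsi n * d := by
    intro n _
    refine ⟨if 3 ∣ n then 3 else 3 + 1, by split_ifs <;> simp, ?_⟩
    rw [FLTA.Gamma0.dedekindPsi_mul_prime n 3 Nat.prime_three]
    exact mul_comm _ _
  obtain ⟨c, hc, hlcm⟩ : ∃ c, (c = 1 ∨ c = 3 ∨ c = 9) ∧ Nat.lcm m 9 = m * c := by
    refine ⟨9 / Nat.gcd m 9, ?_, ?_⟩
    · have hg : Nat.gcd m 9 ∈ Nat.divisors 9 :=
        Nat.mem_divisors.mpr ⟨Nat.gcd_dvd_right m 9, by norm_num⟩
      rw [show Nat.divisors 9 = {1, 3, 9} by decide] at hg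
      simp only [Finset.mem_insert, Finset.mem_singleton] at hg
      rcases hg with hg | hg | hg <;> rw [hg] <;> norm_num
    · rw [Nat.lcm, Nat.mul_div_assoc m (Nat.gcd_dvd_right m 9)]
  set d := finrankAlong Qb (Carayol.Bridge.incl Qb h)
  rw [show Nat.lcm m 9 * 2 * 2 = m * 2 * 2 * c by rw [hlcm]; ring] at hd
  intro h5
  rcases hc with rfl | rfl | rfl
  · rw [mul_one] at hd
    rw [(Nat.mul_eq_left hpos.ne').mp hd] at h5
    norm_num at h5
  · obtain ⟨e, he, he'⟩ := step (m * 2 * 2)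
    rw [he'] at hd
    rw [Nat.eq_of_mul_eq_mul_left hpos hd] at h5
    rcases he with rfl | rfl <;> norm_num at h5
  · rw [show m * 2 * 2 * 9 = m * 2 * 2 * 3 * 3 by ring] at hd
    obtain ⟨e, he, he'⟩ := step (m * 2 * 2)
    obtain ⟨f, hf, hf'⟩ := step (m * 2 * 2 * 3)
    rw [hf', he', mul_assoc (dedekindPsi _) e f] at hd
    rw [Nat.eq_of_mul_eq_mul_left hpos hd] at h5
    rcases he with rfl | rfl <;> rcases hf with rfl | rfl <;> norm_num at h5

/-- **The local statement at `q = 2`, `p = 5`.** -/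
theorem eq_zero_two_five (m : ℕ) [NeZero m] (hm : Odd m) [Fact (Nat.Prime 5)]
    (A : ValuationSubring Qb) (hA : A.LiesOverPrime 2) (x : JZero (m * 2 * 2))
    (hx : 5 • x = 0) (hfix : ∀ σ ∈ A.inertiaSubgroupIn ℚ, σ • x = x)
    (hα : Carayol.pushAlpha (m * 2) 2 x = 0) (hβ : Carayol.pushBeta (m * 2) 2 x = 0) : x = 0 := by
  have : Fact (Nat.Prime 2) := ⟨Nat.prime_two⟩
  have : NeZero (Nat.lcm m 9) := ⟨Nat.lcm_ne_zero (NeZero.ne m) (by norm_num)⟩
  have hmM : m ∣ Nat.lcm m 9 := Nat.dvd_lcm_left m 9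
  have hlvl : m * 2 * 2 ∣ Nat.lcm m 9 * 2 * 2 :=
    mul_dvd_mul_right (mul_dvd_mul_right hmM 2) 2
  have h2 : ¬ 2 ∣ Nat.lcm m 9 := fun h => by
    rcases (Nat.prime_two.dvd_mul).mp (h.trans (Nat.lcm_dvd_mul m 9)) with h | h
    · exact Nat.not_even_iff_odd.mpr hm (even_iff_two_dvd.mpr h)
    · norm_num at h
  have h := Carayol.Bridge.nsmul_coreExp_smul_eq_zero 2 m (Nat.lcm m 9) 9 hmM
    (Nat.dvd_lcm_right m 9) h2 (Or.inr rfl) hlvl 5 (by norm_num) A hA x hx hfix hα hβ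
  have hcop : ¬ 5 ∣ Carayol.coreExp 2 * finrankAlong Qb (Carayol.Bridge.incl Qb hlvl) := fun hd => by
    rcases ((show Nat.Prime 5 by norm_num).dvd_mul).mp hd with hd | hd
    · exact not_dvd_coreExp (by norm_num) (by norm_num) (by decide) (by decide) hd
    · exact not_five_dvd_degree hlvl hd
  obtain ⟨u, v, huv⟩ := Nat.isCoprime_iff_coprime.mpr
    (((show Nat.Prime 5 by norm_num).coprime_iff_not_dvd).mpr hcop)
  calc x = (u * ((5 : ℕ) : ℤ) +
        v * ((Carayol.coreExp 2 * finrankAlong Qb (Carayol.Bridge.incl Qb hlvl) : ℕ) : ℤ)) • x := by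
        rw [huv, one_zsmul]
    _ = 0 := by
      rw [add_zsmul, mul_zsmul, mul_zsmul, natCast_zsmul, natCast_zsmul, hx, h, smul_zero,
        smul_zero, add_zero]

end FLTA.RT.Qsq

namespace FLTA.RT

open FLTA.EllReducible (Tors)

local notation "Qb" => AlgebraicClosure ℚ

/-- The last square leaves the level at `p = 5`. -/
theorem residuallyModular_two_mul_five {W : WeierstrassCurve ℤ} (hW : LiftingCurve 5 W) {m : ℕ}
    (hodd : Odd m) (hres : W.IsResiduallyModularOfLevel 5 (4 * m)) :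
    W.IsResiduallyModularOfLevel 5 (2 * m) := by
  have : Fact (Nat.Prime 5) := ⟨by norm_num⟩
  have : Fact (Nat.Prime 2) := ⟨Nat.prime_two⟩
  have hm0 : m ≠ 0 := hodd.pos.ne'
  have : NeZero m := ⟨hm0⟩
  have hbig : W.IsResiduallyModularOfLevel 5 (m * 2 * 2) := by
    rwa [show m * 2 * 2 = 4 * m by ring]
  rw [show 2 * m = m * 2 by ring]
  have hN0 : m * 2 * 2 ≠ 0 := by positivity
  set S : Finset ℕ := {5} ∪ (m * 2 * 2).primeFactors ∪ W.Δ.natAbs.primeFactors
  have hlev : ∀ ℓ : ℕ, ℓ.Prime → ℓ ∣ m * 2 * 2 → ℓ ∈ S := fun ℓ hℓ h => by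
    simp [S, Nat.mem_primeFactors, hℓ, h, hm0]
  rcases LevelLowering.exists_curveData_or_eigenform W hW.hΔ 5 (by norm_num) hW.irreducible
    (m * 2 * 2) (m * 2) (dvd_mul_right _ 2) S (by simp [S]) hlev (fun ℓ hℓ hb => by
      simp only [S, Finset.mem_union, Nat.mem_primeFactors]
      exact Or.inr ⟨hℓ, Int.natCast_dvd.mp (not_not.mp hb), Int.natAbs_ne_zero.mpr hW.hΔ⟩)
    (LowerQGlue.system_of_res hW.hΔ hN0 hbig) with h | ⟨⟨G⟩⟩
  · exact LowerQGlue.res_of_dvd hW.hΔ (by norm_num) dvd_rfl (by positivity)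
      (LowerQGlue.hasSystem_of_ll h)
  exfalso
  obtain ⟨A, hA⟩ := Galois.exists_liesOverPrime Nat.prime_two
  have hpS : 5 ∈ S := by simp [S]
  have hlev' : ∀ ℓ : ℕ, ℓ.Prime → ℓ ∣ m * 2 → ℓ ∈ S := fun ℓ hℓ h =>
    hlev ℓ hℓ (h.trans (dvd_mul_right _ 2))
  have hV : ∃ v : Tors (W.map (Int.castRingHom ℚ)) 5, v ≠ 0 := by
    have hirr := hW.irreducible
    have := hirr.1
    exact exists_ne (0 : Tors (W.map (Int.castRingHom ℚ)) 5)
  obtain ⟨v, hv0, hvfix⟩ := Qsq.exists_ne_zero_fixed hW Nat.prime_two (by norm_num) A hA hV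
  have hpx : 5 • G.iota v = 0 := by
    rw [← map_nsmul]
    convert map_zero G.iota using 2
    rw [← Nat.cast_smul_eq_nsmul (ZMod 5), ZMod.natCast_self, zero_smul]
  have heig : ∀ ℓ : Nat.Primes, (ℓ : ℕ) ∉ S →
      heckeOperatorBar (m * 2 * 2) ℓ (G.iota v) = W.apOfModel ℓ • G.iota v :=
    fun ℓ hℓ => G.hecke_iota ℓ hℓ v
  refine hv0 (G.iota_injective ?_)
  rw [map_zero]
  exact Qsq.eq_zero_two_five m hodd A hA _ hpx (fun σ hσ => by rw [← G.iota_smul, hvfix σ hσ])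
    (Qsq.push_eq_zero _ G.t G.t_eval G.t_old _ (Carayol.pushAlpha_galois _ _) hpS hlev hlev'
      hpx heig)
    (Qsq.push_eq_zero _ G.t G.t_eval G.t_old _ (Carayol.pushBeta_galois _ _) hpS hlev hlev'
      hpx heig)

/-- **`SqDescentTwo`.** -/
theorem sqDescentTwo : SqDescentTwo := by
  intro p W hW m _ hodd hres
  rcases hW.hp with rfl | rfl
  · exact sqDescentTwo_three hW.hΔ hW.irreducible hodd hres
  · exact residuallyModular_two_mul_five hW hodd hres

end FLTA.RT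

end
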